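/-
S59, wall M4 (LOWER-P): THE PLAN (deputies helper10 + helper30; ledger NOTES/S59-M4.md).

The wall is the FROZEN shape of S39 (`W` semistable at `p`, `p ∣ v_p(Δ)`: good reduction, or
multiplicative and peu ramifié) at `p = 5` and at `p = 3`; S40 (good reduction) is the case
`p ∤ Δ` of it.  At `p = 3` the TRES frame of row 38 needs an EVEN level (reduction package of
`X₀(M)` at `3`, tame steps to the rigid level `4 M`), so the wall at `3` is stated for `2 ∣ M`
(the caller raises the level by `2` first; S58 makes the target level of (LIFT) flexible).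

* `S59lppWallAt p c`  : the frozen S39 shape at the prime `p`, levels `M` with `c M`;
* `S59lppWall`        : THE WALL = `S59lppWallAt 5 ⊤ ∧ S59lppWallAt 3 (2 ∣ ·)`;
* leaves (Props):
  - `S59lppEpmW p`    : EPEU-MULT for a general `W` multiplicative at `p` with `p ∣ v_p(Δ)`
                        (row 38 has it for the Frey curve only: `R38.StmtEpmFrey`);
  - `S59lppCoreAt p c`: the core of the glue at `p` (`R38.glue5_core` is the case `5 ≤ p`, `c = ⊤`);
* `s59lpp_wallAt_of`  : `StmtEPeu` + `S59lppEpmW p` + `S59lppCoreAt p c` ⇒ `S59lppWallAt p c`;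
* `s59lpp_core_five`  : `S59lppCoreAt 5 ⊤` from the Props of row 38 (all landed: `S59/LowP/Five.lean`);
* `s59lpp_wall_of`    : the leaves ⇒ THE WALL.
-/
import Fermat.Agent.R38.Glue5
import Fermat.Prelude.Def_WeierstrassCurve_PeuRamifiee

set_option autoImplicit false
set_option linter.unusedVariables false
set_option linter.style.longLine false
set_option linter.style.haveILetI false

noncomputable section

namespace Fermat.Agent.S59

open Fermat.Agent.R38

/-- **The frozen S39 shape at the prime `p`**, for the levels `M` with `c M`. -/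
def S59lppWallAt (p : ℕ) (c : ℕ → Prop) : Prop :=
  ∀ (W : WeierstrassCurve ℤ), W.Δ ≠ 0 → p.Prime → p ≠ 2 →
    ((p : ℤ) ∣ W.Δ → ¬ (p : ℤ) ∣ W.c₄) → W.ModRepIsIrreducible p →
    (W.map (Int.castRingHom ℚ)).IsPeuRamifieeAt p p →
    ∀ {M : ℕ}, 0 < M → p ∣ M → ¬ p ^ 2 ∣ M → c M →
      W.IsResiduallyModularOfLevel p M → W.IsResiduallyModularOfLevel p (M / p)

/-- **THE WALL M4 (LOWER-P)**: S39 at `p = 5`, and at `p = 3` for even levels. -/
def S59lppWall : Prop :=
  S59lppWallAt 5 (fun _ => True) ∧ S59lppWallAt 3 (fun M => 2 ∣ M)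

/-- **Leaf EPM-W**: `E[p]` is peu ramifié at `p` (in the sense of `R38.EPeuAt`) for a general `W`
with multiplicative reduction at `p` and `p ∣ v_p(Δ)`. -/
def S59lppEpmW (p : ℕ) [Fact p.Prime] : Prop :=
  ∀ (W : WeierstrassCurve ℤ), W.Δ ≠ 0 → (p : ℤ) ∣ W.Δ → ¬ (p : ℤ) ∣ W.c₄ →
    W.ModRepIsIrreducible p → (W.map (Int.castRingHom ℚ)).IsPeuRamifieeAt p p → EPeuAt W p

/-- **Leaf CORE**: the core of the glue at `p` for the levels `M' p` with `c (M' p)`: if `E[p]` is
irreducible and peu ramifié at `p` and the eigen-system of `W` mod `p` occurs at level `M' p`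
(`p ∤ M'`), it occurs at level `M'`. -/
def S59lppCoreAt (p : ℕ) [Fact p.Prime] (c : ℕ → Prop) : Prop :=
  ∀ (W : WeierstrassCurve ℤ), W.Δ ≠ 0 → W.ModRepIsIrreducible p → EPeuAt W p →
    ∀ {M' : ℕ}, 0 < M' → ¬ p ∣ M' → c (M' * p) →
      W.IsResiduallyModularOfLevel p (M' * p) → W.IsResiduallyModularOfLevel p M'

/-- the wall at `p` from the leaves -/
theorem s59lpp_wallAt_of (p : ℕ) [hpF : Fact p.Prime] (c : ℕ → Prop) (hEPeu : StmtEPeu)
    (hEpm : S59lppEpmW p) (hCore : S59lppCoreAt p c) : S59lppWallAt p c := by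
  intro W hΔ hp hp2 hsemi hirr hfin M hM hpM hp2M hc hmod
  obtain ⟨M', rfl⟩ : ∃ M', M = M' * p := ⟨M / p, (Nat.div_mul_cancel hpM).symm⟩
  have hM' : 0 < M' := Nat.pos_of_ne_zero (by rintro rfl; simp at hM)
  have hpM' : ¬ p ∣ M' := by
    rintro ⟨k, rfl⟩
    exact hp2M ⟨k, by ring⟩
  rw [Nat.mul_div_cancel _ hp.pos]
  have hpeu : EPeuAt W p := by
    by_cases hbad : (p : ℤ) ∣ W.Δ
    · exact hEpm W hΔ hbad (hsemi hbad) hirr hfin
    · exact fun A hA htor => hEPeu W hΔ p hp2 hbad hirr A hA htor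
  exact hCore W hΔ hirr hpeu hM' hpM' hc hmod

/-- the core at `p = 5` from the Props of row 38 -/
theorem s59lpp_core_five (hLift : StmtLift) (hRep : StmtRep) (hEDet : StmtEDet)
    (hPkg : StmtPkgCore5) :
    haveI : Fact (Nat.Prime 5) := ⟨by norm_num⟩
    S59lppCoreAt 5 (fun _ => True) := by
  haveI : Fact (Nat.Prime 5) := ⟨by norm_num⟩
  intro W hΔ hirr hpeu M' hM' hpM' _ hmod
  exact glue5_core hLift hRep hEDet hPkg W hΔ (le_refl 5) hirr hpeu hM' hpM' hmod

/-- **THE WALL from the leaves.** -/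
theorem s59lpp_wall_of (hLift : StmtLift) (hRep : StmtRep) (hEDet : StmtEDet)
    (hEPeu : StmtEPeu) (hPkg : StmtPkgCore5)
    (hEpm5 : haveI : Fact (Nat.Prime 5) := ⟨by norm_num⟩; S59lppEpmW 5)
    (hEpm3 : haveI : Fact (Nat.Prime 3) := ⟨Nat.prime_three⟩; S59lppEpmW 3)
    (hCore3 : haveI : Fact (Nat.Prime 3) := ⟨Nat.prime_three⟩;
      S59lppCoreAt 3 (fun M => 2 ∣ M)) : S59lppWall := by
  refine ⟨?_, ?_⟩
  · haveI : Fact (Nat.Prime 5) := ⟨by norm_num⟩
    exact s59lpp_wallAt_of 5 _ hEPeu hEpm5 (s59lpp_core_five hLift hRep hEDet hPkg)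
  · haveI : Fact (Nat.Prime 3) := ⟨Nat.prime_three⟩
    exact s59lpp_wallAt_of 3 _ hEPeu hEpm3 hCore3

end Fermat.Agent.S59

end
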