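/-
S59, wall M4 = LOWER-P (deputies helper10 + helper30; NOTES/S59-M4.md): THE CORE of the plan (helper10).

Target of the wall (what MINLEV of S59 consumes): the frozen type of S40 (good reduction at `p`)
and of S39 (peu ramifié at `p`) for `p ∈ {3, 5}`, at EVEN level when `p = 3`:

* `s59lpc_StmtLowPGood`, `s59lpc_StmtLowPPeu` : the wall;
* `s59lpc_good_of`, `s59lpc_peu_of`           : the wall from the leaves (PROVED here).

Leaves (Props; `p = 3` FIRST):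
* `s59lpc_StmtTrivThree` : **(TRIV-3)** = `R38.StmtTresTriv` at `p = 3`, `2 ∣ M` (the class is trivial at
                          `v_∞`): the ONLY geometric leaf; it splits as in row 38 (NOTES/S59-M4.md);
* `s59lpc_StmtTresThree` : (TRES-3) = `R38.StmtTresP5` at `p = 3`, `2 ∣ M`;  `s59lpc_tresThree_of`
                          (PROVED): (TRIV-3) + `R38.StmtTresT0` ⇒ (TRES-3);
* `s59lpc_StmtEpmGen`    : (EPM-GEN) `E[p]` is peu ramifié for a general `W`, semistable at `p`,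
                          `p ∣ v_p(Δ)` (needed for the S39 form only).
Inputs that are ON MAIN for all odd `p`: `R38.stmtLift`, `R38.stmtRep`, `R38.stmtEDet`,
`R38.stmtEPeu`, `R38.StmtToricP`, `R38.StmtTresT0`; for `p = 5`: `R38.StmtTresP5` (row 38).

`s59lpc_core` is `R38.glue5_core` with the package as a hypothesis at ONE pair `(M', p)`.
-/
import Fermat.Agent.R38.Glue5
import Fermat.Agent.R38.TresAlg
import Fermat.Prelude.Def_WeierstrassCurve_PeuRamifiee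

set_option autoImplicit false
set_option linter.style.haveILetI false
set_option linter.unusedSectionVars false
set_option linter.unusedVariables false
set_option linter.style.longLine false

noncomputable section

namespace Fermat.Agent.S59

open ModularCurve Fermat.Agent.ES Fermat.Agent.STB ExtCitation Fermat.Agent.R38
  Fermat.Agent.RIB.MP
open scoped WeierstrassCurve.Affine

/-! ### The clauses at one pair `(M, p)` -/

/-- the clause of `R38.StmtTresP5` at one pair `(M, p)` -/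
def s59lpc_TresAt (M p : ℕ) [NeZero M] [NeZero p] [Fact p.Prime] : Prop :=
  letI := pDivGalois (M * p) p
  letI := pDivModule (M * p) p
  ∀ A : ValuationSubring Qb, A.LiesOverPrime p → ∀ x : PDiv (M * p) p, p • x = 0 →
    stbPushAlphaP M p p x = 0 → stbPushBetaP M p p x = 0 →
    ∀ t₀ ∈ MvPolynomial.supported ℤ (goodPrimes (M * p) p), KillsForms M t₀ →
      ∀ n₀ : ℤ, t₀ • x = n₀ • x → ¬ (p : ℤ) ∣ n₀ →
    ∀ ℓ₁ ∈ goodPrimes (M * p) p, ∀ n₁ : ℤ, heckeGen ℓ₁ • x = n₁ • x →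
      ¬ (p : ℤ) ∣ n₁ - ((ℓ₁ : ℕ) + 1) →
    (∀ σ ∈ peuSubgroup A p, σ • x = x) →
    (∃ z₀ : PDiv (M * p) p, ∀ σ ∈ A.inertiaSubgroupIn ℚ, ∃ k : ℤ, σ • x - x = k • z₀) →
    ∀ τ ∈ A.inertiaSubgroupIn ℚ, τ • x = cycloExp p τ • x

/-- the clause of `R38.StmtTresTriv` at one pair `(M, p)` -/
def s59lpc_TrivAt (M p : ℕ) [NeZero M] [NeZero p] [Fact p.Prime] : Prop :=
  letI := pDivGalois (M * p) p
  letI := pDivModule (M * p) p
  ∀ A : ValuationSubring Qb, A.LiesOverPrime p → ∀ x : PDiv (M * p) p, p • x = 0 →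
    stbPushAlphaP M p p x = 0 → stbPushBetaP M p p x = 0 →
    ∀ t₀ ∈ MvPolynomial.supported ℤ (goodPrimes (M * p) p), KillsForms M t₀ →
      ∀ n₀ : ℤ, t₀ • x = n₀ • x → ¬ (p : ℤ) ∣ n₀ →
    ∀ ℓ₁ ∈ goodPrimes (M * p) p, ∀ n₁ : ℤ, heckeGen ℓ₁ • x = n₁ • x →
      ¬ (p : ℤ) ∣ n₁ - ((ℓ₁ : ℕ) + 1) →
    (∀ σ ∈ peuSubgroup A p, σ • x = x) →
    (∃ z₀ : PDiv (M * p) p, ∀ σ ∈ A.inertiaSubgroupIn ℚ, ∃ k : ℤ, σ • x - x = k • z₀) →
    TrivInf A p (x : JZero (M * p))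

/-- the package `R38.AtPCore5` exists at the pair `(M, p)` -/
def s59lpc_HasPkg (M p : ℕ) [NeZero M] [Fact p.Prime] : Prop :=
  ∃ (J : Type) (_ : AddCommGroup J) (_ : Module HeckeAlg J) (_ : DistribMulAction GQ J),
    AtPCore5 M p J

/-- row 38's clause is the clause at every pair with `5 ≤ p` -/
theorem s59lpc_tresAt_of_five (h : StmtTresP5) (M p : ℕ) [NeZero M] [NeZero p] [Fact p.Prime]
    (h5 : 5 ≤ p) (hpM : ¬ p ∣ M) : s59lpc_TresAt M p :=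
  h M p h5 hpM

/-- (TRIV) + (TRES-T0) ⇒ (TRES) at one pair (copy of `R38.stmtTresP5_of_triv`) -/
theorem s59lpc_tresAt_of_triv (hT0 : StmtTresT0) {M p : ℕ} [NeZero M] [NeZero p] [hpF : Fact p.Prime]
    (hp2 : p ≠ 2) (hpM : ¬ p ∣ M) (hTriv : s59lpc_TrivAt M p) : s59lpc_TresAt M p := by
  letI := pDivGalois (M * p) p
  letI := pDivModule (M * p) p
  intro A hA x hx hα hβ t₀ ht₀ hK n₀ hn₀ hpn₀ ℓ₁ hℓ₁ n₁ hn₁ hpn₁ hpeu hline τ hτ
  have hx' : p • (x : JZero (M * p)) = 0 := by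
    have := congrArg Subtype.val hx
    simpa using this
  have hα' : stbPushAlpha M p (x : JZero (M * p)) = 0 := by
    have := congrArg Subtype.val hα
    rwa [stbPushAlphaP_coe] at this
  have hβ' : stbPushBeta M p (x : JZero (M * p)) = 0 := by
    have := congrArg Subtype.val hβ
    rwa [stbPushBetaP_coe] at this
  have htriv : TrivInf A p (x : JZero (M * p)) :=
    hTriv A hA x hx hα hβ t₀ ht₀ hK n₀ hn₀ hpn₀ ℓ₁ hℓ₁ n₁ hn₁ hpn₁ hpeu hline
  have key := hT0 M p hp2 hpM A hA (x : JZero (M * p)) hx' hα' hβ' htriv τ hτ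
  apply Subtype.ext
  rw [pDivGalois_coe, key]
  exact (AddSubgroup.coe_nsmul _ _ _).symm

/-- the package at one pair from (TORIC) and the clause (TRES) (copy of
`R38.stmtPkgCore5_of`) -/
theorem s59lpc_hasPkg_of (hT : StmtToricP) {M p : ℕ} [NeZero M] [hpF : Fact p.Prime]
    (hp2 : p ≠ 2) (hpM : ¬ p ∣ M)
    (hR : haveI : NeZero p := ⟨hpF.out.ne_zero⟩; s59lpc_TresAt M p) : s59lpc_HasPkg M p := by
  haveI : NeZero p := ⟨hpF.out.ne_zero⟩
  letI := pDivModule (M * p) p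
  letI := pDivGalois (M * p) p
  refine ⟨PDiv (M * p) p, inferInstance, pDivModule (M * p) p, pDivGalois (M * p) p,
    r38pkg_es M p, ?_, ?_⟩
  · intro A hA x hx t₀ ht₀ hK n₀ hn₀ hpn₀ σ hσ τ hτ
    obtain ⟨ha, hb⟩ := r38pkg_newF M p hpM x hx t₀ ht₀ hK n₀ hn₀ hpn₀
    exact hT M p hp2 hpM A hA x hx ha hb σ hσ τ hτ
  · intro A hA x hx t₀ ht₀ hK n₀ hn₀ hpn₀ ℓ₁ hℓ₁ n₁ hn₁ hpn₁ hpeu hline τ hτ
    obtain ⟨ha, hb⟩ := r38pkg_newF M p hpM x hx t₀ ht₀ hK n₀ hn₀ hpn₀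
    exact hR A hA x hx ha hb t₀ ht₀ hK n₀ hn₀ hpn₀ ℓ₁ hℓ₁ n₁ hn₁ hpn₁ hpeu hline τ hτ

/-! ### Mazur's argument at one pair -/

/-- **The core of the glue at one pair `(M', p)`**, `p` odd (copy of `R38.glue5_core`, the
package being a hypothesis): if `E[p]` is irreducible and peu ramifié at `p` and the eigen-system
of `W` mod `p` occurs at level `M' p` (`p ∤ M'`), it occurs at level `M'`. -/
theorem s59lpc_core (hLift : StmtLift) (hRep : StmtRep) (hEDet : StmtEDet)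
    (W : WeierstrassCurve ℤ) (hΔ : W.Δ ≠ 0) {p : ℕ} [hpF : Fact p.Prime] (hp2 : p ≠ 2)
    (hirr : W.ModRepIsIrreducible p) (hpeu : EPeuAt W p)
    {M' : ℕ} (hM' : 0 < M') (hpM' : ¬ p ∣ M')
    (hPkg : haveI : NeZero M' := ⟨hM'.ne'⟩; s59lpc_HasPkg M' p)
    (hmod : W.IsResiduallyModularOfLevel p (M' * p)) :
    W.IsResiduallyModularOfLevel p M' := by
  have hp : p.Prime := hpF.out
  haveI : NeZero M' := ⟨hM'.ne'⟩
  by_cases hold : ∀ t ∈ MvPolynomial.supported ℤ (goodFor W M' p), KillsForms M' t →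
      (p : ℤ) ∣ MvPolynomial.aeval (fun ℓ : Nat.Primes => W.apOfModel ℓ) t
  · -- OLD case
    obtain ⟨g, 𝔪, hg, hm, hpm, hcong⟩ := hLift M' p hp (goodFor W M' p) _
      (fun ℓ hℓ h => hℓ.1 (Dvd.dvd.mul_right (Dvd.dvd.mul_right h p) p)) hold
    refine ⟨g, 𝔪, hg, hm, hpm, fun ℓ hℓ hgℓ hℓM hℓp => ?_⟩
    refine hcong ⟨ℓ, hℓ⟩ ⟨?_, hgℓ⟩
    intro h
    rcases (Nat.Prime.dvd_mul hℓ).1 h with h | h
    · rcases (Nat.Prime.dvd_mul hℓ).1 h with h | h
      · exact hℓM h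
      · exact hℓp ((Nat.prime_dvd_prime_iff_eq hℓ hp).1 h)
    · exact hℓp ((Nat.prime_dvd_prime_iff_eq hℓ hp).1 h)
  · -- NEW case
    exfalso
    push Not at hold
    obtain ⟨t₀, ht₀S, ht₀K, hn₀⟩ := hold
    obtain ⟨J, _, _, _, hJ⟩ := hPkg
    obtain ⟨v, hv0, hpv, hv⟩ := glue_exists_eigenvector W hJ.es hmod
    obtain ⟨V₀, e, hV₀p, hV₀eig, hst, he⟩ :=
      hRep W hΔ p hp hp2 hirr M' hM' J _ _ _ hJ.es v hv0 hpv hv
    have ht₀g : t₀ ∈ MvPolynomial.supported ℤ (goodPrimes (M' * p) p) :=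
      MvPolynomial.supported_mono (goodFor_subset W M' p) ht₀S
    have hpoly := glue_poly_eigen V₀ (goodFor W M' p) (fun ℓ : Nat.Primes => W.apOfModel ℓ)
      hV₀eig
    -- a place over `p`
    obtain ⟨A, hA⟩ := Fermat.Agent.Common.exists_liesOverPrime p hp
    set n₀ : ℤ := MvPolynomial.aeval (fun ℓ : Nat.Primes => W.apOfModel ℓ) t₀ with hn₀def
    -- toric on `E[p]`
    have htorE : ∀ σ ∈ A.inertiaSubgroupIn ℚ, ∀ τ ∈ A.inertiaSubgroupIn ℚ, ∀ y : ETors W p,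
        τ • (σ • y - y) = cycloExp p τ • (σ • y - y) := by
      intro σ hσ τ hτ y
      obtain ⟨x, rfl⟩ := e.surjective y
      have h1 := hJ.toric A hA x (hV₀p x x.2) t₀ ht₀g ht₀K n₀ (hpoly t₀ ht₀S x x.2) hn₀
        σ hσ τ hτ
      have hmem : σ • (x : J) - x ∈ V₀ := V₀.sub_mem (hst σ x x.2) x.2
      have h2 : σ • e x - e x = e ⟨σ • (x : J) - x, hmem⟩ := by
        rw [← he σ x, ← map_sub]
        rfl
      rw [h2, ← he τ ⟨_, hmem⟩, ← map_nsmul]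
      congr 1
      exact Subtype.ext h1
    -- the peu ramifié subgroup fixes `V₀`
    have hpeuE := hpeu A hA htorE
    have hpeuV : ∀ σ ∈ peuSubgroup A p, ∀ x ∈ V₀, σ • x = x := by
      intro σ hσ x hx
      have h := hpeuE σ hσ (e ⟨x, hx⟩)
      rw [← he σ ⟨x, hx⟩] at h
      exact congrArg Subtype.val (e.injective h)
    -- the determinant
    have hdet := hEDet W hΔ p hp2 hirr A hA
    -- the line
    obtain ⟨z, hz⟩ := glue5_line W hΔ A htorE hdet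
    have hlineV : ∀ x ∈ V₀, ∃ z₀ : J, ∀ σ ∈ A.inertiaSubgroupIn ℚ, ∃ k : ℤ,
        σ • x - x = k • z₀ := by
      intro x hx
      refine ⟨((e.symm z : V₀) : J), fun σ hσ => ?_⟩
      obtain ⟨k, hk⟩ := hz σ hσ (e ⟨x, hx⟩)
      refine ⟨k, ?_⟩
      have hmem : σ • x - x ∈ V₀ := V₀.sub_mem (hst σ x hx) hx
      have h2 : σ • e ⟨x, hx⟩ - e ⟨x, hx⟩ = e ⟨σ • x - x, hmem⟩ := by
        rw [← he σ ⟨x, hx⟩, ← map_sub]
        rfl
      rw [h2] at hk
      have h3 : (⟨σ • x - x, hmem⟩ : V₀) = k • e.symm z := by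
        apply e.injective
        rw [hk, map_zsmul, AddEquiv.apply_symm_apply]
      have := congrArg Subtype.val h3
      simpa using this
    -- a non-Eisenstein prime
    obtain ⟨ℓ, hℓ, hℓS, -, hℓp, hℓg, -, hℓE⟩ :=
      Fermat.Agent.RED.exists_prime_not_dvd_of_model W hΔ hp2 hirr (M' * p * p).primeFactors
        (M := 1) one_pos
    have hℓmem : (⟨ℓ, hℓ⟩ : Nat.Primes) ∈ goodFor W M' p := by
      refine ⟨fun h => hℓS ?_, hℓg⟩
      rw [Nat.mem_primeFactors]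
      exact ⟨hℓ, h, (Nat.mul_pos (Nat.mul_pos hM' hp.pos) hp.pos).ne'⟩
    -- très: inertia acts on `V₀` through `ω`
    have htresV : ∀ τ ∈ A.inertiaSubgroupIn ℚ, ∀ x ∈ V₀, τ • x = cycloExp p τ • x := by
      intro τ hτ x hx
      exact hJ.tres A hA x (hV₀p x hx) t₀ ht₀g ht₀K n₀ (hpoly t₀ ht₀S x hx) hn₀
        ⟨ℓ, hℓ⟩ (goodFor_subset W M' p hℓmem) (W.apOfModel ℓ) (hV₀eig x hx _ hℓmem) hℓE
        (fun σ hσ => hpeuV σ hσ x hx) (hlineV x hx) τ hτ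
    -- contradiction with the determinant
    obtain ⟨σ, hσ, y, hy⟩ := hdet
    apply hy
    obtain ⟨x, rfl⟩ := e.surjective y
    rw [← he σ x, ← map_nsmul]
    congr 1
    exact Subtype.ext (htresV σ hσ x x.2)

/-! ### The leaves -/

/-- **LEAF (TRIV-3)**: `R38.StmtTresTriv` at `p = 3` and EVEN level `M` (`3 ∤ M`). -/
def s59lpc_StmtTrivThree : Prop :=
  ∀ (M : ℕ) [NeZero M], 2 ∣ M → ¬ 3 ∣ M → s59lpc_TrivAt M 3

/-- (TRES-3): `R38.StmtTresP5` at `p = 3` and EVEN level `M`. -/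
def s59lpc_StmtTresThree : Prop :=
  ∀ (M : ℕ) [NeZero M], 2 ∣ M → ¬ 3 ∣ M → s59lpc_TresAt M 3

/-- (TRIV-3) + (TRES-T0) ⇒ (TRES-3) -/
theorem s59lpc_tresThree_of (hT0 : StmtTresT0) (h : s59lpc_StmtTrivThree) :
    s59lpc_StmtTresThree :=
  fun M _ h2 h3 => s59lpc_tresAt_of_triv hT0 (by norm_num) h3 (h M h2 h3)

/-- **LEAF (EPM-GEN)**: `E[p]` is peu ramifié at `p` for a general `W` which is semistable at
`p` with `p ∣ v_p(Δ)` (the hypotheses of the frozen S39). -/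
def s59lpc_StmtEpmGen : Prop :=
  ∀ (W : WeierstrassCurve ℤ), W.Δ ≠ 0 → ∀ (p : ℕ) [Fact p.Prime], p ≠ 2 →
    ((p : ℤ) ∣ W.Δ → ¬ (p : ℤ) ∣ W.c₄) →
    (W.map (Int.castRingHom ℚ)).IsPeuRamifieeAt p p →
    W.ModRepIsIrreducible p → EPeuAt W p

/-! ### The wall -/

/-- **WALL M4, good reduction**: the frozen type of S40 for `p ∈ {3, 5}`, at even level when
`p = 3`. -/
def s59lpc_StmtLowPGood : Prop :=
  ∀ (W : WeierstrassCurve ℤ), W.Δ ≠ 0 → ∀ {p : ℕ}, p.Prime → (p = 3 ∨ p = 5) →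
    W.IsGoodPrimeFor p → W.ModRepIsIrreducible p →
    ∀ {M : ℕ}, 0 < M → p ∣ M → ¬ p ^ 2 ∣ M → (p = 3 → 2 ∣ M) →
    W.IsResiduallyModularOfLevel p M → W.IsResiduallyModularOfLevel p (M / p)

/-- **WALL M4, peu ramifié**: the frozen type of S39 for `p ∈ {3, 5}`, at even level when
`p = 3`. -/
def s59lpc_StmtLowPPeu : Prop :=
  ∀ (W : WeierstrassCurve ℤ), W.Δ ≠ 0 → ∀ {p : ℕ}, p.Prime → (p = 3 ∨ p = 5) →
    ((p : ℤ) ∣ W.Δ → ¬ (p : ℤ) ∣ W.c₄) → W.ModRepIsIrreducible p →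
    (W.map (Int.castRingHom ℚ)).IsPeuRamifieeAt p p →
    ∀ {M : ℕ}, 0 < M → p ∣ M → ¬ p ^ 2 ∣ M → (p = 3 → 2 ∣ M) →
    W.IsResiduallyModularOfLevel p M → W.IsResiduallyModularOfLevel p (M / p)

/-- the lowering at one `(W, p, M)` from `EPeuAt` and the two TRES clauses -/
theorem s59lpc_lower (hLift : StmtLift) (hRep : StmtRep) (hEDet : StmtEDet) (hT : StmtToricP)
    (h5 : StmtTresP5) (h3 : s59lpc_StmtTresThree)
    (W : WeierstrassCurve ℤ) (hΔ : W.Δ ≠ 0) {p : ℕ} (hp : p.Prime) (hp35 : p = 3 ∨ p = 5)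
    (hirr : W.ModRepIsIrreducible p)
    (hpeu : haveI : Fact p.Prime := ⟨hp⟩; EPeuAt W p)
    {M : ℕ} (hM : 0 < M) (hpM : p ∣ M) (hp2M : ¬ p ^ 2 ∣ M) (heven : p = 3 → 2 ∣ M)
    (hmod : W.IsResiduallyModularOfLevel p M) :
    W.IsResiduallyModularOfLevel p (M / p) := by
  haveI : Fact p.Prime := ⟨hp⟩
  haveI : NeZero p := ⟨hp.ne_zero⟩
  have hp2 : p ≠ 2 := by rcases hp35 with rfl | rfl <;> norm_num
  obtain ⟨M', rfl⟩ : ∃ M', M = M' * p := ⟨M / p, (Nat.div_mul_cancel hpM).symm⟩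
  have hM' : 0 < M' := Nat.pos_of_ne_zero (by rintro rfl; simp at hM)
  have hpM' : ¬ p ∣ M' := by
    rintro ⟨k, rfl⟩
    exact hp2M ⟨k, by ring⟩
  haveI : NeZero M' := ⟨hM'.ne'⟩
  rw [Nat.mul_div_cancel _ hp.pos]
  have hR : s59lpc_TresAt M' p := by
    rcases hp35 with rfl | rfl
    · have h2 : 2 ∣ M' :=
        (Nat.Coprime.dvd_mul_right (by norm_num : Nat.Coprime 2 3)).1 (heven rfl)
      exact h3 M' h2 hpM'
    · exact s59lpc_tresAt_of_five h5 M' 5 (le_refl 5) hpM'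
  exact s59lpc_core hLift hRep hEDet W hΔ hp2 hirr hpeu hM' hpM'
    (s59lpc_hasPkg_of hT hp2 hpM' hR) hmod

/-- **WALL M4 (good reduction) from the leaves.** -/
theorem s59lpc_good_of (hLift : StmtLift) (hRep : StmtRep) (hEDet : StmtEDet) (hEPeu : StmtEPeu)
    (hT : StmtToricP) (h5 : StmtTresP5) (h3 : s59lpc_StmtTresThree) : s59lpc_StmtLowPGood := by
  intro W hΔ p hp hp35 hgood hirr M hM hpM hp2M heven hmod
  haveI : Fact p.Prime := ⟨hp⟩
  have hp2 : p ≠ 2 := by rcases hp35 with rfl | rfl <;> norm_num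
  exact s59lpc_lower hLift hRep hEDet hT h5 h3 W hΔ hp hp35 hirr
    (fun A hA htor => hEPeu W hΔ p hp2 hgood hirr A hA htor) hM hpM hp2M heven hmod

/-- **WALL M4 (peu ramifié) from the leaves.** -/
theorem s59lpc_peu_of (hLift : StmtLift) (hRep : StmtRep) (hEDet : StmtEDet)
    (hEpm : s59lpc_StmtEpmGen) (hT : StmtToricP) (h5 : StmtTresP5) (h3 : s59lpc_StmtTresThree) :
    s59lpc_StmtLowPPeu := by
  intro W hΔ p hp hp35 hsemi hirr hfin M hM hpM hp2M heven hmod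
  haveI : Fact p.Prime := ⟨hp⟩
  have hp2 : p ≠ 2 := by rcases hp35 with rfl | rfl <;> norm_num
  exact s59lpc_lower hLift hRep hEDet hT h5 h3 W hΔ hp hp35 hirr
    (hEpm W hΔ p hp2 hsemi hfin hirr) hM hpM hp2M heven hmod

end Fermat.Agent.S59

end
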