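/-
S59, wall M4 = LOWER-P, leaves GLUE3 + PKG3 + TRESP3 of NOTES/S59-M4.md (helper10):
the leaf `S59lppCoreAt 3 (2 ∣ ·)` of `S59/LowP/Plan.lean` from (TRIV-3) = `s59lpc_StmtTrivThree`
(`R38.StmtTresTriv` at `p = 3`, even level) and Props of row 38 that hold for all odd `p`.
-/
import Fermat.Agent.S59.LowP.Plan
import Fermat.Agent.S59.LowP.PlanCore

set_option autoImplicit false
set_option linter.unusedVariables false
set_option linter.style.longLine false
set_option linter.style.haveILetI false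

noncomputable section

namespace Fermat.Agent.S59

open Fermat.Agent.R38

/-- **GLUE3**: the core of the glue at `p = 3`, even level, from (TRES-3). -/
theorem s59lpc_coreThree_of_tres (hLift : StmtLift) (hRep : StmtRep) (hEDet : StmtEDet)
    (hT : StmtToricP) (h3 : s59lpc_StmtTresThree) : S59lppCoreAt 3 (fun M => 2 ∣ M) := by
  intro W hΔ hirr hpeu M' hM' hpM' hc hmod
  haveI : NeZero M' := ⟨hM'.ne'⟩
  have h2 : 2 ∣ M' := (Nat.Coprime.dvd_mul_right (by norm_num : Nat.Coprime 2 3)).1 hc
  exact s59lpc_core hLift hRep hEDet W hΔ (by norm_num) hirr hpeu hM' hpM'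
    (s59lpc_hasPkg_of hT (by norm_num) hpM' (h3 M' h2 hpM')) hmod

/-- **GLUE3 + PKG3 + TRESP3**: the core of the glue at `p = 3`, even level, from (TRIV-3). -/
theorem s59lpc_coreThree (hLift : StmtLift) (hRep : StmtRep) (hEDet : StmtEDet)
    (hT : StmtToricP) (hT0 : StmtTresT0) (h : s59lpc_StmtTrivThree) :
    S59lppCoreAt 3 (fun M => 2 ∣ M) :=
  s59lpc_coreThree_of_tres hLift hRep hEDet hT (s59lpc_tresThree_of hT0 h)

end Fermat.Agent.S59

end
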