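/-
S59, wall M4 (LOWER-P at `p = 3`), leaf COVER3 (helper89), part 1: THE ABSTRACT OGG DATUM and the
(LOC) half of the cover block over it.

Row 38 (`R38/TresMonoTop*.lean`) uses the Ogg unit `h = s36tuV = Δ(Q)/Δ(Q^p)` whose node exponent
is `e = 12`; the frame theorem needs `¬ p ∣ e`, so at `p = 3` another modular unit `g` is needed
(OGG3: `e = 1` on `X₀(12)`, or `e = 2` on `X₀(6)`).  Everything the COVER case uses about the unit:

* `S59lpcvOggNode hπ ιC hq hqM g e` — the LOCAL shape of `g` on the chart `j` of `X₀(M₁ q)` over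
  `K = ℚ̄^I` (rigid level `M₁`): `g` is a unit of `atLoc 𝔫` at the smooth points on `V_∞`
  (literal conclusion of `R38.tres5o_smooth_unit`), and `g = ε · Y ^ e` at the thin nodes
  (literal conclusion of `R38.tres5o_cross_fac`, `π = p`);
* `s59lpcv_oggNode_five` : the row-38 unit `s36tuV` satisfies it with `e = 12`;
* `s59lpcv_hfin_node`   : twin of `R38.tres5npj_hfin_node` over an abstract `(g, e)`;
* `s59lpcv_loc`         : twin of `R38.tresmt_loc` over an abstract `(g, e)`.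
-/
import Fermat.Agent.R38.TresMonoTop

set_option autoImplicit false
set_option linter.unusedSectionVars false
set_option linter.unusedVariables false
set_option linter.style.haveILetI false
set_option linter.style.longLine false
set_option synthInstance.maxHeartbeats 400000
set_option maxHeartbeats 1600000

noncomputable section

namespace Fermat.Agent.S59

open ModularCurve AlgebraicCurve IntermediateField Polynomial Fermat.Agent.INJ Fermat.Agent.UNIP
  Fermat.Agent.STB Fermat.Agent.S36 Fermat.Agent.RIB.MP Fermat.Agent.RT.K6 Fermat.Agent.AL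
  Fermat.Agent.ES Fermat.Agent.ES.G2 Fermat.Agent.R38

section Base

variable {A : ValuationSubring Qb} {q M : ℕ} [NeZero q] [NeZero M] [NeZero (M * q)]
  [IsDiscreteValuationRing ↥(beta0Ring A (beta0Field A))]
  {π : ↥(beta0Ring A (beta0Field A))} (hπ : Irreducible π)
  (ιC : ↥(beta0Field A) →+* ℂ) (hq : q.Prime) (hqM : ¬ q ∣ M)

/-- **The local shape of an abstract Ogg unit** `g` with node exponent `e` on the chart `j` of
`X₀(M q)` over `K = ℚ̄^I`: a unit at the smooth points on `V_∞`, `ε · Y ^ e` at the thin nodes. -/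
def S59lpcvOggNode (g : ↥(modularFunctionFieldFullC ↥(beta0Field A) (M * q))) (e : ℕ) : Prop :=
  (∀ 𝔫 : AtPt (F := ↥(modularFunctionFieldFullC ↥(beta0Field A) (M * q))) π
      (bgJ ↥(beta0Field A) (M * q)),
    atThrough 𝔫 (mgvV hπ ιC hq hqM true) →
    (∀ c', atThrough 𝔫 (mgvV hπ ιC hq hqM c') → c' = true) →
    ∀ s : ↥(zchClosure (A₀ := ↥(beta0Ring A (beta0Field A)))
      ({bgJ ↥(beta0Field A) (M * q)} :
        Set ↥(modularFunctionFieldFullC ↥(beta0Field A) (M * q)))),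
    s ∈ 𝔫.1 →
    NodesLocGen 𝔫.1 {algebraMap ↥(beta0Ring A (beta0Field A))
      ↥(zchClosure (A₀ := ↥(beta0Ring A (beta0Field A)))
        ({bgJ ↥(beta0Field A) (M * q)} :
          Set ↥(modularFunctionFieldFullC ↥(beta0Field A) (M * q)))) π, s} →
    ∃ ε : ↥(atLoc 𝔫), IsUnit ε ∧
      g = (ε : ↥(modularFunctionFieldFullC ↥(beta0Field A) (M * q)))) ∧
  (∀ (𝔫 : AtPt (F := ↥(modularFunctionFieldFullC ↥(beta0Field A) (M * q))) π
      (bgJ ↥(beta0Field A) (M * q)))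
    (X Y : ↥(zchClosure (A₀ := ↥(beta0Ring A (beta0Field A)))
      ({bgJ ↥(beta0Field A) (M * q)} :
        Set ↥(modularFunctionFieldFullC ↥(beta0Field A) (M * q))))),
    Rtk6lfCrossAt (mgvV hπ ιC hq hqM true) (mgvV hπ ιC hq hqM false) 𝔫 X Y →
    ∃ ε : ↥(atLoc 𝔫), IsUnit ε ∧
      g = (ε : ↥(modularFunctionFieldFullC ↥(beta0Field A) (M * q))) *
        (Y : ↥(modularFunctionFieldFullC ↥(beta0Field A) (M * q))) ^ e)

include hπ ιC hq hqM in
/-- the Ogg unit `Δ(Q)/Δ(Q^q)` of row 38 has the local shape with `e = 12` (`π` any uniformizer of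
`A ∩ ℚ̄^I`, which is unramified over `q`) -/
theorem s59lpcv_oggNode_five (hA : A.LiesOverPrime q)
    (rigid : (q ≠ 2 → 4 ∣ M) ∧ (q = 2 → 9 ∣ M)) :
    S59lpcvOggNode hπ ιC hq hqM (s36tuV ↥(beta0Field A) ιC (q := q) (M := M)) 12 := by
  haveI := rtk6lfb_noeth_J (A := A) (K₀ := beta0Field A) (M := M) (q := q)
  have h2 := rtk6lfb_rigid_h2 rigid
  have h3 := rtk6lfb_rigid_h3 rigid
  refine ⟨fun 𝔫 hthr hone s hs hgen => ?_, fun 𝔫 X Y hcross => ?_⟩
  · exact tres5o_smooth_unit hπ ιC hq hqM hA (le_refl (beta0Field A)) h2 h3 𝔫 hthr hone hs hgen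
  · obtain ⟨ε', hε', hh⟩ := tres5o_cross_fac hπ ιC hq hqM hA (le_refl (beta0Field A)) h2 h3
      (tres5o_assoc_q hπ hq hA) 𝔫 hcross
    exact ⟨ε', hε', by rw [hh]⟩

include hπ ιC hq hqM in
/-- **(I3) of `tresmono_frame` on the chart `j` of `X₀(M q)` over `ℚ̄^I`** (rigid level), for an
abstract Ogg unit `(g, e)`: twin of `R38.tres5npj_hfin_node`. -/
theorem s59lpcv_hfin_node (hA : A.LiesOverPrime q)
    (rigid : (q ≠ 2 → 4 ∣ M) ∧ (q = 2 → 9 ∣ M))
    {g : ↥(modularFunctionFieldFullC ↥(beta0Field A) (M * q))} {e : ℕ}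
    (hg : S59lpcvOggNode hπ ιC hq hqM g e)
    {L : Type*} [Field L] [Algebra ↥(modularFunctionFieldFullC ↥(beta0Field A) (M * q)) L]
    [Algebra ↥(beta0Field A) L]
    [IsScalarTower ↥(beta0Field A) ↥(modularFunctionFieldFullC ↥(beta0Field A) (M * q)) L]
    (W : ValuationSubring L)
    (hWV : W.comap (algebraMap ↥(modularFunctionFieldFullC ↥(beta0Field A) (M * q)) L) =
      mgvV hπ ιC hq hqM true)
    {ι : Type*} [Fintype ι]
    (hsplit : ∀ 𝔫 : AtPt (F := ↥(modularFunctionFieldFullC ↥(beta0Field A) (M * q))) π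
        (bgJ ↥(beta0Field A) (M * q)),
      atThrough 𝔫 (mgvV hπ ιC hq hqM true) → ∀ [IsLocalRing ↥(atLoc 𝔫)],
        ∃ (z : L) (P : (↥(atLoc 𝔫))[X]) (c : ι → ↥(atLoc 𝔫)),
          Tres5eSplit ↥(modularFunctionFieldFullC ↥(beta0Field A) (M * q)) z P c)
    {p : ℕ} {u : L} (hu0 : u ≠ 0)
    (hhor : ∀ Pl : Place ↥(beta0Field A) L, (p : ℤ) ∣ Pl.ord u)
    (m₀ : ℤ)
    (hm₀ : ∀ (𝔫 : AtPt (F := ↥(modularFunctionFieldFullC ↥(beta0Field A) (M * q))) π
        (bgJ ↥(beta0Field A) (M * q)))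
      (X Y : ↥(zchClosure (A₀ := ↥(beta0Ring A (beta0Field A)))
        ({bgJ ↥(beta0Field A) (M * q)} :
          Set ↥(modularFunctionFieldFullC ↥(beta0Field A) (M * q))))),
      Rtk6lfCrossAt (mgvV hπ ιC hq hqM true) (mgvV hπ ιC hq hqM false) 𝔫 X Y →
      ∀ W' : ValuationSubring L,
      W'.comap (algebraMap ↥(modularFunctionFieldFullC ↥(beta0Field A) (M * q)) L) =
        mgvV hπ ιC hq hqM false →
      (p : ℤ) ∣ tres5Ord W' (algebraMap ↥(modularFunctionFieldFullC ↥(beta0Field A) (M * q)) L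
        (algebraMap ↥(beta0Ring A (beta0Field A))
          ↥(modularFunctionFieldFullC ↥(beta0Field A) (M * q)) π)) u - m₀)
    (m : ℤ)
    (hm : W.valuation (u / algebraMap ↥(modularFunctionFieldFullC ↥(beta0Field A) (M * q)) L
      (algebraMap ↥(beta0Ring A (beta0Field A))
        ↥(modularFunctionFieldFullC ↥(beta0Field A) (M * q)) π) ^ m) = 1) :
    ∀ 𝔫 : AtPt (F := ↥(modularFunctionFieldFullC ↥(beta0Field A) (M * q))) π
        (bgJ ↥(beta0Field A) (M * q)),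
      ∀ T : ValuationSubring L,
      (∀ x ∈ atLoc 𝔫,
        algebraMap ↥(modularFunctionFieldFullC ↥(beta0Field A) (M * q)) L x ∈ T) →
      (∀ x ∈ T, x ∈ W) →
      ∃ O' : Subring L, (∀ x ∈ O', x ∈ T) ∧
        TresMonoPt W O' p (m₀ - m) (e : ℤ)
          (u / algebraMap ↥(modularFunctionFieldFullC ↥(beta0Field A) (M * q)) L
            (algebraMap ↥(beta0Ring A (beta0Field A))
              ↥(modularFunctionFieldFullC ↥(beta0Field A) (M * q)) π) ^ m)
          (algebraMap ↥(modularFunctionFieldFullC ↥(beta0Field A) (M * q)) L g) := by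
  intro 𝔫 T hRT hTW
  haveI := 𝔫.2.1.isPrime
  haveI := rtk6lfb_noeth_J (A := A) (K₀ := beta0Field A) (M := M) (q := q)
  haveI := ribmp_fc_fin (K₀ := beta0Field A) (M * q)
  haveI : IsLocalRing ↥(atLoc 𝔫) :=
    ls_localSubring_isLocalRing (F := ↥(modularFunctionFieldFullC ↥(beta0Field A) (M * q)))
      Subtype.val_injective 𝔫.1
  have h2 := rtk6lfb_rigid_h2 rigid
  have h3 := rtk6lfb_rigid_h3 rigid
  have hSS1 := ribmp_fc_hSS1 hπ ιC hq hqM hA (le_refl (beta0Field A)) h2 h3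
  have hthr : atThrough 𝔫 (mgvV hπ ιC hq hqM true) :=
    tres5npj_through 𝔫 W T _ hWV hRT hTW
  obtain ⟨z, P, c, H⟩ := hsplit 𝔫 hthr
  rcases rtk6lfb0_thinAt_J hπ ιC hq hqM hA rigid 𝔫 with ⟨s, hs, hgen⟩ | ⟨X, Y, hcross⟩
  · -- smooth point
    have harch' : ∀ c, StbArch (mgvV hπ ιC hq hqM c) := fun c x a ha => by
      obtain ⟨N, hN⟩ := mgv_harch hπ ιC hq hqM c a x ha
      exact ⟨N, by rw [mul_comm x (a ^ N)]; exact hN⟩
    obtain ⟨c₀, hc₀, hone⟩ := stb_sx_exists_unique (mgvV hπ ιC hq hqM) (mgv_hBV₁ hπ ιC hq hqM)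
      (mgv_hπV hπ ιC hq hqM) hSS1 (mgv_hVloc₁ hπ ιC hq hqM hA hSS1)
      (fun c c' hcc' => stb_not_le_of_ne (harch' c) (ribmp_fc_hπ0 hπ) (mgv_hπV hπ ιC hq hqM c')
        (rtk6lfb_hne hπ ιC hq hqM hA c c' hcc')) 𝔫 s hs hgen
    have hc₀t : c₀ = true := (hone true hthr).symm
    subst hc₀t
    obtain ⟨ε', hε', hh⟩ := hg.1 𝔫 hthr hone s hs hgen
    exact tres5np_smooth (E := ↥(beta0Field A)) hπ (mgvV hπ ιC hq hqM)
      (mgv_hBV₁ hπ ιC hq hqM) (mgv_hπV hπ ιC hq hqM) hSS1 (ribmp_fc_hU hπ ιC hq hqM) 𝔫 true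
      hthr hone hs hgen H W hWV hu0 (fun Pl _ => hhor Pl) ε' hε' (by rw [hh]) (m₀ - m) (e : ℤ)
      m hm T hRT hTW
  · -- thin node
    obtain ⟨ε', hε', hh⟩ := hg.2 𝔫 X Y hcross
    exact tres5np_node (E := ↥(beta0Field A)) hπ (mgvV hπ ιC hq hqM) true false mgv_hκ
      (mgv_hBV₁ hπ ιC hq hqM) (mgv_hπV hπ ιC hq hqM) hSS1 (ribmp_fc_hU hπ ιC hq hqM) 𝔫
      hcross H W hWV hu0 (fun Pl _ => hhor Pl) ε' hε' (e : ℤ)
      (by rw [hh, zpow_natCast]) m₀ (hm₀ 𝔫 X Y hcross) m hm T hRT hTW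

include hπ ιC hq hqM in
/-- **The (LOC) half of the cover block** for an abstract Ogg unit `(g, e)`: twin of
`R38.tresmt_loc`. -/
theorem s59lpcv_loc (hA : A.LiesOverPrime q)
    (rigid : (q ≠ 2 → 4 ∣ M) ∧ (q = 2 → 9 ∣ M))
    {g : ↥(modularFunctionFieldFullC ↥(beta0Field A) (M * q))} {e : ℕ}
    (hg : S59lpcvOggNode hπ ιC hq hqM g e)
    {L : Type*} [Field L] [Algebra ↥(modularFunctionFieldFullC ↥(beta0Field A) (M * q)) L]
    [Algebra ↥(beta0Field A) L]
    [IsScalarTower ↥(beta0Field A) ↥(modularFunctionFieldFullC ↥(beta0Field A) (M * q)) L]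
    (T : Tres5Gen ↥(modularFunctionFieldFullC ↥(beta0Field A) (M * q)) L
      (mgvV hπ ιC hq hqM true) q)
    {k₀ : ℕ} (hk₀ : k₀ < q)
    (ρK : L →ₐ[↥(modularFunctionFieldFullC ↥(beta0Field A) (M * q))] L)
    {w h : L} {a : ↥(modularFunctionFieldFullC ↥(beta0Field A) (M * q))}
    (hw0 : w ≠ 0) (ha0 : a ≠ 0) (hh0 : h ≠ 0)
    (hρu : ρK w =
      algebraMap ↥(modularFunctionFieldFullC ↥(beta0Field A) (M * q)) L a * w * h ^ q)
    (hpa : (q : ℤ) ∣ tres5Ord (mgvV hπ ιC hq hqM false)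
      (algebraMap ↥(beta0Ring A (beta0Field A))
        ↥(modularFunctionFieldFullC ↥(beta0Field A) (M * q)) π) a)
    (hhor : ∀ Pl : Place ↥(beta0Field A) L, (q : ℤ) ∣ Pl.ord w)
    (hsplitJ : ∀ 𝔫 : AtPt (F := ↥(modularFunctionFieldFullC ↥(beta0Field A) (M * q))) π
        (bgJ ↥(beta0Field A) (M * q)),
      atThrough 𝔫 (mgvV hπ ιC hq hqM true) → ∀ [IsLocalRing ↥(atLoc 𝔫)],
        ∃ (z : L) (P : (↥(atLoc 𝔫))[X]) (c : ZMod q → ↥(atLoc 𝔫)),
          Tres5eSplit ↥(modularFunctionFieldFullC ↥(beta0Field A) (M * q)) z P c ∧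
          ∀ i : ZMod q, ∃ b ∈ tres5eMax ↥(atLoc 𝔫) z (c i),
            ρK z = algebraMap ↥(atLoc 𝔫) L (c (i + 1)) + (b : L))
    (hsplitC : ∀ 𝔫 : AtPt (F := ↥(modularFunctionFieldFullC ↥(beta0Field A) (M * q))) π
        (bgJ ↥(beta0Field A) (M * q))⁻¹,
      atThrough 𝔫 (mgvV hπ ιC hq hqM true) →
      (∀ b : ↥(zchClosure (A₀ := ↥(beta0Ring A (beta0Field A)))
          ({(bgJ ↥(beta0Field A) (M * q))⁻¹} :
            Set ↥(modularFunctionFieldFullC ↥(beta0Field A) (M * q)))),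
        (b : ↥(modularFunctionFieldFullC ↥(beta0Field A) (M * q))) =
          (bgJ ↥(beta0Field A) (M * q))⁻¹ → b ∈ 𝔫.1) →
      ∀ [IsLocalRing ↥(atLoc 𝔫)],
        ∃ (z : L) (P : (↥(atLoc 𝔫))[X]) (c : ZMod q → ↥(atLoc 𝔫)),
          Tres5eSplit ↥(modularFunctionFieldFullC ↥(beta0Field A) (M * q)) z P c)
    (m : ℤ)
    (hm : (T.W k₀).valuation
      (w / algebraMap ↥(modularFunctionFieldFullC ↥(beta0Field A) (M * q)) L
        (algebraMap ↥(beta0Ring A (beta0Field A))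
          ↥(modularFunctionFieldFullC ↥(beta0Field A) (M * q)) π) ^ m) = 1) :
    ∃ m₀ : ℤ,
      (∀ 𝔫 : AtPt (F := ↥(modularFunctionFieldFullC ↥(beta0Field A) (M * q))) π
          (bgJ ↥(beta0Field A) (M * q)),
        ∀ T' : ValuationSubring L,
        (∀ x ∈ atLoc 𝔫,
          algebraMap ↥(modularFunctionFieldFullC ↥(beta0Field A) (M * q)) L x ∈ T') →
        (∀ x ∈ T', x ∈ T.W k₀) →
        ∃ O' : Subring L, (∀ x ∈ O', x ∈ T') ∧
          TresMonoPt (T.W k₀) O' q (m₀ - m) (e : ℤ)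
            (w / algebraMap ↥(modularFunctionFieldFullC ↥(beta0Field A) (M * q)) L
              (algebraMap ↥(beta0Ring A (beta0Field A))
                ↥(modularFunctionFieldFullC ↥(beta0Field A) (M * q)) π) ^ m)
            (algebraMap ↥(modularFunctionFieldFullC ↥(beta0Field A) (M * q)) L g)) ∧
      (∀ 𝔫 : AtPt (F := ↥(modularFunctionFieldFullC ↥(beta0Field A) (M * q))) π
          (bgJ ↥(beta0Field A) (M * q))⁻¹,
        ∀ T' : ValuationSubring L,
        (∀ x ∈ atLoc 𝔫,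
          algebraMap ↥(modularFunctionFieldFullC ↥(beta0Field A) (M * q)) L x ∈ T') →
        (∀ x ∈ T', x ∈ T.W k₀) →
        (∀ b : ↥(zchClosure (A₀ := ↥(beta0Ring A (beta0Field A)))
            ({(bgJ ↥(beta0Field A) (M * q))⁻¹} :
              Set ↥(modularFunctionFieldFullC ↥(beta0Field A) (M * q)))),
          (b : ↥(modularFunctionFieldFullC ↥(beta0Field A) (M * q))) =
            (bgJ ↥(beta0Field A) (M * q))⁻¹ → b ∈ 𝔫.1) →
        ∃ O' : Subring L, (∀ x ∈ O', x ∈ T') ∧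
          StbFacAt O' q
            (w / algebraMap ↥(modularFunctionFieldFullC ↥(beta0Field A) (M * q)) L
              (algebraMap ↥(beta0Ring A (beta0Field A))
                ↥(modularFunctionFieldFullC ↥(beta0Field A) (M * q)) π) ^ m)) := by
  haveI : Fact q.Prime := ⟨hq⟩
  have hWV := T.W_comap hk₀
  -- the deck transformation is bijective
  haveI : FiniteDimensional ↥(modularFunctionFieldFullC ↥(beta0Field A) (M * q)) L :=
    Module.finite_of_finrank_pos (by rw [T.hfin]; exact hq.pos)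
  have hbij : Function.Bijective ρK := Algebra.IsAlgebraic.algHom_bijective ρK
  -- MONO-0
  obtain ⟨m₀, hm₀⟩ := tresmzi_main_zmod hπ ιC hq hqM hA rigid (p := q) q hw0 ha0 hh0 ρK hbij hρu
    hpa (fun 𝔫 X Y hcross _ => hsplitJ 𝔫 hcross.1)
  refine ⟨m₀, ?_, ?_⟩
  · exact s59lpcv_hfin_node hπ ιC hq hqM hA rigid hg (T.W k₀) hWV
      (fun 𝔫 hthr _ => by
        obtain ⟨z, P, c, H, -⟩ := hsplitJ 𝔫 hthr
        exact ⟨z, P, c, H⟩) hw0 hhor m₀ hm₀ m hm
  · exact tres5npc_hcusp_rigid hπ ιC hq hqM hA rigid (T.W k₀) hWV hsplitC hw0 hhor m hm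

end Base

end Fermat.Agent.S59

end
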