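/-
S59, wall M4 (LOWER-P at `p = 3`), leaf COVER3 (helper89), part 3: THE CORE OF THE COVER BLOCK over
an abstract Ogg unit `(g, e)`.

Twin of `R38.tresmtb_core` (`R38/TresMonoTopCore.lean`, helper41), in the light form on
helper90's `R38.tresmchh_main` (which was written for `3 ≤ p`, `p = 3 → 2 ∣ M'`): the only change
is `R38.tresmt_loc` → `s59lpcv_loc`, i.e. `(s36tuV, 12)` → `(g, e)` with
`hg : S59lpcvOggNode hπ ιC hp hpM g e`.
-/
import Fermat.Agent.S59.LowP.Cover3Ogg
import Fermat.Agent.R38.TresDescKEntry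
import Fermat.Agent.R38.TresMonoWire
import Fermat.Agent.R38.TresFacTrFld
import Fermat.Agent.R38.TresHorForm
import Fermat.Agent.R38.TresMonoChainH
import Fermat.Agent.R38.TresHorInst

set_option autoImplicit false
set_option linter.unusedSectionVars false
set_option linter.unusedVariables false
set_option linter.style.haveILetI false
set_option linter.style.longLine false
set_option synthInstance.maxHeartbeats 400000
set_option maxHeartbeats 1600000

attribute [local instance 100000] Algebra.ofSubsemiring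

noncomputable section

namespace Fermat.Agent.S59

open ModularCurve AlgebraicCurve IntermediateField Polynomial Fermat.Agent.INJ Fermat.Agent.UNIP
  Fermat.Agent.STB Fermat.Agent.S36 Fermat.Agent.RIB.MP Fermat.Agent.RT.K6 Fermat.Agent.AL
  Fermat.Agent.ES Fermat.Agent.ES.G2 Fermat.Agent.ES.M
  Fermat.Agent.DEU Fermat.Agent.S24 Fermat.Agent.R38

section Core

variable {N : ℕ} [NeZero N] {p M' : ℕ} [NeZero p] [NeZero M'] [NeZero (M' * p)]

/-- **The core of the cover block (β).** -/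
theorem s59lpcv_core [Fact p.Prime] (A : ValuationSubring R38.Qb) (hA : A.LiesOverPrime p)
    [IsDiscreteValuationRing ↥(beta0Ring A (beta0Field A))]
    {π : ↥(beta0Ring A (beta0Field A))} (hπ : Irreducible π) (ιC : ↥(beta0Field A) →+* ℂ)
    (hp : p.Prime) (hpM : ¬ p ∣ M') (hp3 : 3 ≤ p) (h3 : p = 3 → 2 ∣ M')
    (rigid : (p ≠ 2 → 4 ∣ M') ∧ (p = 2 → 9 ∣ M'))
    {g : ↥(modularFunctionFieldFullC ↥(beta0Field A) (M' * p))} {e : ℕ}
    (hg : S59lpcvOggNode hπ ιC hp hpM g e)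
    (hRedF : StmtRedF M' A)
    {x z₀ : JZero N} {u w₀ : modularFunctionFieldBar N} (hu : KummerRel p x u)
    (hw : KummerRel p z₀ w₀) {y : LaurentSeries NfQb}
    (hy : y ^ p = (w₀ : LaurentSeries NfQb))
    (hle : modularFunctionFieldBar N ≤ modularFunctionFieldBar (M' * p))
    (hline : ∀ σ ∈ A.inertiaSubgroupIn ℚ, ∃ k : ℤ, σ • x - x = k • z₀)
    (hpeu : ∀ σ ∈ peuSubgroup A p, σ • x = x)
    (htor : ∀ τ ∈ A.inertiaSubgroupIn ℚ, τ • z₀ = ExtCitation.cycloExp p τ • z₀)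
    (hdiv : ∀ Q : Place NfQb ↥(modularFunctionFieldBar (M' * p)),
      (p : ℤ) ∣ Q.ord (⟨(u : LaurentSeries NfQb), hle u.2⟩ :
        ↥(modularFunctionFieldBar (M' * p))))
    -- the Kummer datum over the big field and the descended deck transformation
    {E : IntermediateField ℚ NfQb} (h : beta0Field A ≤ E)
    {V : ValuationSubring ↥(modularFunctionFieldFullC ↥E (M' * p))}
    (S : Tres5Kum ↥(modularFunctionFieldFullC ↥E (M' * p)) ↥(tres5cL E (M' * p) y) V p)
    (hSy : coeffMap (algebraMap ↥E NfQb) (S.y : LaurentSeries ↥E) = y)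
    {ζ : NfQb}
    (hSζ : coeffMap (algebraMap ↥E NfQb)
      ((S.ζ : ↥(modularFunctionFieldFullC ↥E (M' * p))) : LaurentSeries ↥E) = HahnSeries.C ζ)
    (ρK : ↥(tres5cL (beta0Field A) (M' * p) y) →ₐ[↥(modularFunctionFieldFullC
      ↥(beta0Field A) (M' * p))] ↥(tres5cL (beta0Field A) (M' * p) y))
    (hρ : ∀ f : ↥(tres5cL (beta0Field A) (M' * p) y),
      tres5cIncl (M' * p) y h (ρK f) = S.deck (tres5cIncl (M' * p) y h f))
    -- the split generator over `K`
    (T : Tres5Gen ↥(modularFunctionFieldFullC ↥(beta0Field A) (M' * p))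
      ↥(tres5cL (beta0Field A) (M' * p) y) (mgvV hπ ιC hp hpM true) p)
    (hTπ : T.π = algebraMap ↥(beta0Ring A (beta0Field A))
      ↥(modularFunctionFieldFullC ↥(beta0Field A) (M' * p)) π)
    -- Layer 3
    (hsplitJ : ∀ 𝔫 : AtPt (F := ↥(modularFunctionFieldFullC ↥(beta0Field A) (M' * p))) π
        (bgJ ↥(beta0Field A) (M' * p)),
      atThrough 𝔫 (mgvV hπ ιC hp hpM true) → ∀ [IsLocalRing ↥(atLoc 𝔫)],
        ∃ (z : ↥(tres5cL (beta0Field A) (M' * p) y)) (P : (↥(atLoc 𝔫))[X])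
          (c : ZMod p → ↥(atLoc 𝔫)),
          Tres5eSplit ↥(modularFunctionFieldFullC ↥(beta0Field A) (M' * p)) z P c ∧
          ∀ i : ZMod p, ∃ b ∈ tres5eMax ↥(atLoc 𝔫) z (c i),
            ρK z = algebraMap ↥(atLoc 𝔫) ↥(tres5cL (beta0Field A) (M' * p) y) (c (i + 1)) +
              (b : ↥(tres5cL (beta0Field A) (M' * p) y)))
    (hsplitC : ∀ 𝔫 : AtPt (F := ↥(modularFunctionFieldFullC ↥(beta0Field A) (M' * p))) π
        (bgJ ↥(beta0Field A) (M' * p))⁻¹,
      atThrough 𝔫 (mgvV hπ ιC hp hpM true) →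
      (∀ b : ↥(zchClosure (A₀ := ↥(beta0Ring A (beta0Field A)))
          ({(bgJ ↥(beta0Field A) (M' * p))⁻¹} :
            Set ↥(modularFunctionFieldFullC ↥(beta0Field A) (M' * p)))),
        (b : ↥(modularFunctionFieldFullC ↥(beta0Field A) (M' * p))) =
          (bgJ ↥(beta0Field A) (M' * p))⁻¹ → b ∈ 𝔫.1) →
      ∀ [IsLocalRing ↥(atLoc 𝔫)],
        ∃ (z : ↥(tres5cL (beta0Field A) (M' * p) y)) (P : (↥(atLoc 𝔫))[X])
          (c : ZMod p → ↥(atLoc 𝔫)),
          Tres5eSplit ↥(modularFunctionFieldFullC ↥(beta0Field A) (M' * p)) z P c)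
    -- (IN): the Kummer function `w₀` at the rigid level
    (hdivw : ∀ P : Place R38.Qb (modularFunctionFieldBar (M' * p)),
      (p : ℤ) ∣ P.ord (⟨(w₀ : LaurentSeries NfQb), hle w₀.2⟩ :
        modularFunctionFieldBar (M' * p)))
    (hsplit : Fermat.Agent.S33.IsSplitFn hp hpM A
      (⟨(w₀ : LaurentSeries NfQb), hle w₀.2⟩ : modularFunctionFieldBar (M' * p)))
    (hnp : ∀ c : ↥(modularFunctionFieldBar (M' * p)),
      c ^ p ≠ (⟨(w₀ : LaurentSeries NfQb), hle w₀.2⟩ : modularFunctionFieldBar (M' * p)))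
    -- the Gauss reduction of `u`
    {r : LaurentSeries (kA A)} (hr : R38Red A (u : LaurentSeries R38.Qb) r) :
    ∃ (W : ValuationSubring ↥(tres5cL (beta0Field A) (M' * p) y))
      (hWV : W.comap (algebraMap ↥(modularFunctionFieldFullC ↥(beta0Field A) (M' * p))
        ↥(tres5cL (beta0Field A) (M' * p) y)) = mgvV hπ ιC hp hpM true)
      (ρW : ↥W →+* ↥(modularFunctionFieldFullC (kA A) M'))
      (hρW : ∀ (a : ↥(modularFunctionFieldFullC ↥(beta0Field A) (M' * p)))
        (ha : a ∈ mgvV hπ ιC hp hpM true)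
        (haW : algebraMap ↥(modularFunctionFieldFullC ↥(beta0Field A) (M' * p))
          ↥(tres5cL (beta0Field A) (M' * p) y) a ∈ W),
        ρW ⟨algebraMap ↥(modularFunctionFieldFullC ↥(beta0Field A) (M' * p))
          ↥(tres5cL (beta0Field A) (M' * p) y) a, haW⟩ =
          ribmpRedF hp hpM hA hπ ιC hRedF ⟨a, ha⟩)
      (hρWker : ∀ x : ↥W, (x : ↥(tres5cL (beta0Field A) (M' * p) y)) ∈ W.nonunits → ρW x = 0)
      (Y : ↥(tres5cL (beta0Field A) (M' * p) y)) (hY : W.valuation Y = 1) (c : ℤ),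
      (∀ 𝔫 : AtPt (F := ↥(modularFunctionFieldFullC ↥(beta0Field A) (M' * p))) π
          (bgJ ↥(beta0Field A) (M' * p)),
        ∀ T' : ValuationSubring ↥(tres5cL (beta0Field A) (M' * p) y),
        (∀ x ∈ atLoc 𝔫,
          algebraMap ↥(modularFunctionFieldFullC ↥(beta0Field A) (M' * p))
            ↥(tres5cL (beta0Field A) (M' * p) y) x ∈ T') →
        (∀ x ∈ T', x ∈ W) →
        ∃ O' : Subring ↥(tres5cL (beta0Field A) (M' * p) y), (∀ x ∈ O', x ∈ T') ∧
          TresMonoPt W O' p c (e : ℤ) Y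
            (algebraMap ↥(modularFunctionFieldFullC ↥(beta0Field A) (M' * p))
              ↥(tres5cL (beta0Field A) (M' * p) y) g)) ∧
      (∀ 𝔫 : AtPt (F := ↥(modularFunctionFieldFullC ↥(beta0Field A) (M' * p))) π
          (bgJ ↥(beta0Field A) (M' * p))⁻¹,
        ∀ T' : ValuationSubring ↥(tres5cL (beta0Field A) (M' * p) y),
        (∀ x ∈ atLoc 𝔫,
          algebraMap ↥(modularFunctionFieldFullC ↥(beta0Field A) (M' * p))
            ↥(tres5cL (beta0Field A) (M' * p) y) x ∈ T') →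
        (∀ x ∈ T', x ∈ W) →
        (∀ b : ↥(zchClosure (A₀ := ↥(beta0Ring A (beta0Field A)))
            ({(bgJ ↥(beta0Field A) (M' * p))⁻¹} :
              Set ↥(modularFunctionFieldFullC ↥(beta0Field A) (M' * p)))),
          (b : ↥(modularFunctionFieldFullC ↥(beta0Field A) (M' * p))) =
            (bgJ ↥(beta0Field A) (M' * p))⁻¹ → b ∈ 𝔫.1) →
        ∃ O' : Subring ↥(tres5cL (beta0Field A) (M' * p) y), (∀ x ∈ O', x ∈ T') ∧
          StbFacAt O' p Y) ∧
      ∃ (hr' : r ∈ modularFunctionFieldFullC (kA A) M') (a : kA A)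
        (s : ↥(modularFunctionFieldFullC (kA A) M')), a ≠ 0 ∧ s ≠ 0 ∧
        (⟨r, hr'⟩ : ↥(modularFunctionFieldFullC (kA A) M')) =
          algebraMap (kA A) ↥(modularFunctionFieldFullC (kA A) M') a *
            ρW ⟨Y, tresdn_mem W hY⟩ * s ^ p := by
  classical
  -- step 3: the descended Kummer function of `x`
  obtain ⟨w, h', γ, a, hw0, hh0, ha0, hγF, hγ0, hfac, hρu, hV, hhor⟩ :=
    tresdesckv_entry (N := N) (M' := M') A hA hπ ιC hp hpM hu hw hy hle hline hpeu htor hdiv h S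
      hSy hSζ ρK hρ
  -- step 4: the sheet `k`, `m`, `ρW` and the comparison (helper90's `K₁`-chain)
  have hu0 : (u : LaurentSeries NfQb) ≠ 0 := fun h0 => hu.ne_zero (Subtype.ext h0)
  obtain ⟨k, hk, hWV, m, hm, ρW, hρW, hρWker, hr', a', s, ha', hs, hcmp⟩ :=
    tresmchh_main hp hpM hp3 h3 A hA hπ ιC hw hy hle htor hdivw hsplit hnp hRedF T hTπ
      (hle u.2) hu0 hγF hγ0 hw0 hfac hr
  -- step 6: the local conditions on the sheet `k`
  letI algKL : Algebra ↥(beta0Field A) ↥(tres5cL (beta0Field A) (M' * p) y) :=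
    tres5hAlgEL (beta0Field A) (M' * p) y
  haveI := tres5hi_tower (beta0Field A) (M' * p) y
  have hh := tres5hi_of_forall (beta0Field A) (M' * p) y w hhor
  have H := s59lpcv_loc hπ ιC hp hpM hA rigid hg T hk ρK hw0 ha0 hh0 hρu (hV false).2
    hh hsplitJ hsplitC m hm
  exact Exists.elim H (fun m₀ H' =>
    ⟨T.W k, hWV, ρW, hρW, hρWker, _, hm, m₀ - m, H'.1, H'.2, hr', a', s, ha', hs, hcmp⟩)

end Core

end Fermat.Agent.S59

end
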