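/-
S59, wall M4 (LOWER-P at `p = 3`), leaf COVER3 (helper89), part 2: THE FRAME THEOREM WITHOUT THE
HECKE CLAUSE.

`R38.tresmono_frame` / `R38.tresmonof_frame` conclude `FacMonoConcl M p A x`, whose last clause
(`T̄_ℓ h = c · h ^ (ℓ + 1)` for ALL primes `ℓ ≠ p`) is simply handed through from the hypothesis
`hhecke` on the reduction `hb` of the Ogg unit.  For a general Ogg unit (OGG3: a unit of level
`6` or `12`) the Hecke clause holds only for `ℓ` prime to the level of the unit, so the frame is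
re-stated here with the ORDER clauses only, for the GIVEN `hb`:

* `S59lpcvOrd M p A x hb` : `∃ u r hr hhb a b, KummerRel ∧ R38Red ∧ hb ≠ 0 ∧ ¬ p ∣ a ∧
  FacMonoOrdAt M p A r hb hr hhb a b`;
* `s59lpcv_ord_concl`  : with the strong Hecke clause for `hb` it gives `R38.FacMonoConcl`;
* `s59lpcv_ord_pred`   : with ANY property `P hb` it gives the conclusion of `FacMonoConcl` with
  the Hecke clause replaced by `P h` (the shape needed for a weak Hecke clause);
* `s59lpcv_frame`      : twin of `R38.tresmono_frame`;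
* `s59lpcv_framef`     : twin of `R38.tresmonof_frame` (concrete frame).
-/
import Fermat.Agent.R38.TresMonoConcF

set_option autoImplicit false
set_option linter.unusedSectionVars false
set_option linter.unusedVariables false
set_option linter.style.haveILetI false
set_option linter.style.longLine false
set_option synthInstance.maxHeartbeats 400000
set_option maxHeartbeats 1600000

noncomputable section

namespace Fermat.Agent.S59

open ModularCurve AlgebraicCurve Fermat.Agent.ES Fermat.Agent.ES.G2 Fermat.Agent.INJ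
  Fermat.Agent.UNIP Fermat.Agent.STB Fermat.Agent.ES.M Fermat.Agent.DEU Fermat.Agent.S36
  Fermat.Agent.RIB.MP Fermat.Agent.S24 Fermat.Agent.RIB Fermat.Agent.R38

/-- **The order clauses of `FacMonoConcl` for a GIVEN Eisenstein function `hb`** (no Hecke
clause). -/
def S59lpcvOrd (M p : ℕ) [NeZero M] [NeZero p] [NeZero (M * p)] (A : ValuationSubring R38.Qb)
    (x : JZero (M * p)) (hb : LaurentSeries (kA A)) : Prop :=
  ∃ (u : modularFunctionFieldBar (M * p)) (r : LaurentSeries (kA A))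
    (hr : r ∈ modularFunctionFieldFullC (kA A) M)
    (hhb : hb ∈ modularFunctionFieldFullC (kA A) M) (a b : ℤ),
    KummerRel p x u ∧ R38Red A (u : LaurentSeries R38.Qb) r ∧ hb ≠ 0 ∧ ¬ (p : ℤ) ∣ a ∧
    FacMonoOrdAt M p A r hb hr hhb a b

/-- the order clauses + the strong Hecke clause give `FacMonoConcl` -/
theorem s59lpcv_ord_concl {M p : ℕ} [NeZero M] [NeZero p] [NeZero (M * p)]
    {A : ValuationSubring R38.Qb} {x : JZero (M * p)} {hb : LaurentSeries (kA A)}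
    (H : S59lpcvOrd M p A x hb)
    (hhecke : ∀ (ℓ : ℕ) [NeZero ℓ], ℓ.Prime → ℓ ≠ p → ∀ ζ : (kA A)ˣ, IsPrimitiveRoot ζ ℓ →
      ∃ c : kA A, c ≠ 0 ∧ kronHecke ℓ ζ hb = HahnSeries.C c * hb ^ (ℓ + 1)) :
    FacMonoConcl M p A x :=
  Exists.elim H (fun u H => Exists.elim H (fun r H => Exists.elim H (fun hr H =>
    Exists.elim H (fun hhb H => Exists.elim H (fun a H => Exists.elim H (fun b H =>
      facMonoConcl_of_ordAt u r hb hr hhb a b H.1 H.2.1 H.2.2.1 H.2.2.2.1 H.2.2.2.2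
        hhecke))))))

/-- the order clauses + ANY property of `hb`: the conclusion of `FacMonoConcl` with the Hecke
clause replaced by `P h` -/
theorem s59lpcv_ord_pred {M p : ℕ} [NeZero M] [NeZero p] [NeZero (M * p)]
    {A : ValuationSubring R38.Qb} {x : JZero (M * p)} {hb : LaurentSeries (kA A)}
    (H : S59lpcvOrd M p A x hb) (P : LaurentSeries (kA A) → Prop) (hP : P hb) :
    ∃ (u : modularFunctionFieldBar (M * p)) (r h : LaurentSeries (kA A))
      (hr : r ∈ modularFunctionFieldFullC (kA A) M)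
      (hh : h ∈ modularFunctionFieldFullC (kA A) M) (a b : ℤ),
      KummerRel p x u ∧ R38Red A (u : LaurentSeries R38.Qb) r ∧ h ≠ 0 ∧ ¬ (p : ℤ) ∣ a ∧
      (∀ Q : Place (kA A) ↥(modularFunctionFieldFullC (kA A) M),
        0 ≤ Q.ord (⟨jqModC (kA A), jqModC_mem_full (kA A) M⟩ :
            ↥(modularFunctionFieldFullC (kA A) M)) →
          (p : ℤ) ∣ a * Q.ord (⟨r, hr⟩ : ↥(modularFunctionFieldFullC (kA A) M)) -
            b * Q.ord (⟨h, hh⟩ : ↥(modularFunctionFieldFullC (kA A) M))) ∧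
      (∀ Q : Place (kA A) ↥(modularFunctionFieldFullC (kA A) M),
        Q.ord (⟨jqModC (kA A), jqModC_mem_full (kA A) M⟩ :
            ↥(modularFunctionFieldFullC (kA A) M)) < 0 →
          (p : ℤ) ∣ Q.ord (⟨r, hr⟩ : ↥(modularFunctionFieldFullC (kA A) M))) ∧
      P h :=
  Exists.elim H (fun u H => Exists.elim H (fun r H => Exists.elim H (fun hr H =>
    Exists.elim H (fun hhb H => Exists.elim H (fun a H => Exists.elim H (fun b H =>
      ⟨u, r, hb, hr, hhb, a, b, H.1, H.2.1, H.2.2.1, H.2.2.2.1, H.2.2.2.2.1, H.2.2.2.2.2,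
        hP⟩))))))

section Frame

variable {A₀ E F : Type*} [CommRing A₀] [IsDomain A₀] [IsDiscreteValuationRing A₀]
  [Field E] [Algebra A₀ E] [IsFractionRing A₀ E] [CharZero E]
  [Field F] [Algebra E F] [Algebra A₀ F] [IsScalarTower A₀ E F]
  {F' : Type*} [Field F'] [Algebra F F']

/-- **The frame theorem, order clauses only**: twin of `R38.tresmono_frame`. -/
theorem s59lpcv_frame {M M' p : ℕ} [NeZero M] [NeZero M'] [NeZero p] [NeZero (M * p)]
    {A : ValuationSubring R38.Qb} {x : JZero (M * p)} (hp : 0 < p)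
    -- the K-side
    {π : A₀} {t : F} (W : ValuationSubring F')
    (ρ : ↥W →+* ↥(modularFunctionFieldFullC (kA A) M'))
    (hker : ∀ x : ↥W, (x : F') ∈ W.nonunits → ρ x = 0)
    (hAW : ∀ a : A₀, algebraMap F F' (algebraMap A₀ F a) ∈ W)
    (hπ : ρ ⟨algebraMap F F' (algebraMap A₀ F π), hAW π⟩ = 0)
    (ht : W.valuation (algebraMap F F' t) = 1)
    (hρt : ρ ⟨algebraMap F F' t, tresdn_mem W ht⟩ =
      ⟨jqModC (kA A), jqModC_mem_full (kA A) M'⟩)
    (hAQ : ∀ (Q : Place (kA A) ↥(modularFunctionFieldFullC (kA A) M')) (a : A₀),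
      ρ ⟨algebraMap F F' (algebraMap A₀ F a), hAW a⟩ ∈ Q.toValuationSubring)
    (hfinQ : ∀ Q : Place (kA A) ↥(modularFunctionFieldFullC (kA A) M'),
      ∀ x ∈ Q.toValuationSubring, x ∉ Q.toValuationSubring.nonunits →
        ∃ n : ℕ, 0 < n ∧ x ^ n - 1 ∈ Q.toValuationSubring.nonunits)
    -- the normalised Kummer function of the cover and the Ogg unit
    {y h : F'} (hy : W.valuation y = 1) (hh : W.valuation h = 1) (c e : ℤ)
    (he : ¬ (p : ℤ) ∣ e)
    (hfin : ∀ 𝔫 : AtPt (F := F) π t, ∀ T : ValuationSubring F',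
      (∀ x ∈ atLoc 𝔫, algebraMap F F' x ∈ T) → (∀ x ∈ T, x ∈ W) →
      ∃ O' : Subring F', (∀ x ∈ O', x ∈ T) ∧ TresMonoPt W O' p c e y h)
    (hcusp : ∀ 𝔫 : AtPt (F := F) π t⁻¹, ∀ T : ValuationSubring F',
      (∀ x ∈ atLoc 𝔫, algebraMap F F' x ∈ T) → (∀ x ∈ T, x ∈ W) →
      (∀ b : ↥(zchClosure (A₀ := A₀) ({t⁻¹} : Set F)), (b : F) = t⁻¹ → b ∈ 𝔫.1) →
      ∃ O' : Subring F', (∀ x ∈ O', x ∈ T) ∧ StbFacAt O' p y)
    -- the Kummer function of `x`, its Gauss reduction, the comparison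
    (u : modularFunctionFieldBar (M * p)) (hK : KummerRel p x u)
    (r : LaurentSeries (kA A)) (hr : r ∈ modularFunctionFieldFullC (kA A) M)
    (hr' : r ∈ modularFunctionFieldFullC (kA A) M')
    (hred : R38Red A (u : LaurentSeries R38.Qb) r)
    (hcmp : ∃ (a : kA A) (s : ↥(modularFunctionFieldFullC (kA A) M')), a ≠ 0 ∧ s ≠ 0 ∧
      (⟨r, hr'⟩ : ↥(modularFunctionFieldFullC (kA A) M')) =
        algebraMap (kA A) ↥(modularFunctionFieldFullC (kA A) M') a *
          ρ ⟨y, tresdn_mem W hy⟩ * s ^ p)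
    -- the reduction of the Ogg unit
    (hb : LaurentSeries (kA A)) (hhb : hb ∈ modularFunctionFieldFullC (kA A) M)
    (hhb' : hb ∈ modularFunctionFieldFullC (kA A) M')
    (hρh : ρ ⟨h, tresdn_mem W hh⟩ = ⟨hb, hhb'⟩)
    -- the descent to the level `M`
    (hrig : TresRigDescent M M' p A) :
    S59lpcvOrd M p A x hb := by
  have hρy0 : ρ ⟨y, tresdn_mem W hy⟩ ≠ 0 := tresdn_map_ne_zero W ρ hy
  have hρh0 : ρ ⟨h, tresdn_mem W hh⟩ ≠ 0 := tresdn_map_ne_zero W ρ hh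
  have hb0 : hb ≠ 0 := by
    rintro rfl
    apply hρh0
    rw [hρh]
    rfl
  obtain ⟨a, s, ha, hs, hrs⟩ := hcmp
  refine ⟨u, r, hr, hhb, e, c, hK, hred, hb0, he, ?_⟩
  refine hrig r hb hr hhb hr' hhb' e c ⟨fun Q hQ => ?_, fun Q hQ => ?_⟩
  · -- off the cusps
    have hmain := (tresmono_cover (π := π) (t := t) W ρ hker hAW hπ ht hp hy hh c e hfin hcusp Q
      (hAQ Q) (hfinQ Q)).1
    have hj0 : (⟨jqModC (kA A), jqModC_mem_full (kA A) M'⟩ :
        ↥(modularFunctionFieldFullC (kA A) M')) ≠ 0 := by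
      rw [← hρt]
      exact tresdn_map_ne_zero W ρ ht
    have hin : ρ ⟨algebraMap F F' t, tresdn_mem W ht⟩ ∈ Q.toValuationSubring := by
      rw [hρt]
      exact (PlaceAux.ord_nonneg_iff Q hj0).1 hQ
    have h1 := hmain hin
    rw [hρh] at h1
    exact (tresmono_clauses_congr Q p ha hρy0 hs hrs c e _).1 h1
  · -- at the cusps
    have hmain := (tresmono_cover (π := π) (t := t) W ρ hker hAW hπ ht hp hy hh c e hfin hcusp Q
      (hAQ Q) (hfinQ Q)).2
    have hj0 : (⟨jqModC (kA A), jqModC_mem_full (kA A) M'⟩ :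
        ↥(modularFunctionFieldFullC (kA A) M')) ≠ 0 := by
      rw [← hρt]
      exact tresdn_map_ne_zero W ρ ht
    have hout : ρ ⟨algebraMap F F' t, tresdn_mem W ht⟩ ∉ Q.toValuationSubring := by
      rw [hρt]
      intro hmem
      have := (PlaceAux.ord_nonneg_iff Q hj0).2 hmem
      omega
    have h1 := hmain hout
    exact (tresmono_clauses_congr Q p ha hρy0 hs hrs c e 0).2 h1

end Frame

section FrameF

variable {M M₁ p : ℕ} [NeZero M] [NeZero M₁] [NeZero p] [NeZero (M * p)] [NeZero (M₁ * p)]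
  (hq : p.Prime) (hqM : ¬ p ∣ M₁)
  {A : ValuationSubring R38.Qb} (hA : A.LiesOverPrime p) {K₀ : IntermediateField ℚ R38.Qb}
  [IsDiscreteValuationRing ↥(beta0Ring A K₀)] {π : ↥(beta0Ring A K₀)} (hπ : Irreducible π)
  (ιC : ↥K₀ →+* ℂ)

include hA in
/-- **The frame theorem in the concrete frame, order clauses only**: twin of
`R38.tresmonof_frame`. -/
theorem s59lpcv_framef (hRedF : StmtRedF M₁ A)
    (hfinQ : ∀ Q : Place (kA A) ↥(modularFunctionFieldFullC (kA A) M₁),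
      ∀ x ∈ Q.toValuationSubring, x ∉ Q.toValuationSubring.nonunits →
        ∃ n : ℕ, 0 < n ∧ x ^ n - 1 ∈ Q.toValuationSubring.nonunits)
    {x : JZero (M * p)}
    {L : Type*} [Field L] [Algebra ↥(modularFunctionFieldFullC ↥K₀ (M₁ * p)) L]
    (W : ValuationSubring L)
    (hWV : W.comap (algebraMap ↥(modularFunctionFieldFullC ↥K₀ (M₁ * p)) L) =
      mgvV hπ ιC hq hqM true)
    (ρW : ↥W →+* ↥(modularFunctionFieldFullC (kA A) M₁))
    (hρW : ∀ (a : ↥(modularFunctionFieldFullC ↥K₀ (M₁ * p))) (ha : a ∈ mgvV hπ ιC hq hqM true)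
      (haW : algebraMap ↥(modularFunctionFieldFullC ↥K₀ (M₁ * p)) L a ∈ W),
      ρW ⟨algebraMap ↥(modularFunctionFieldFullC ↥K₀ (M₁ * p)) L a, haW⟩ =
        ribmpRedF hq hqM hA hπ ιC hRedF ⟨a, ha⟩)
    (hρWker : ∀ x : ↥W, (x : L) ∈ W.nonunits → ρW x = 0)
    -- the normalised Kummer function of the cover and the Ogg unit
    {y h : L} (hy : W.valuation y = 1) (hh : W.valuation h = 1) (c e : ℤ)
    (he : ¬ (p : ℤ) ∣ e)
    (hfin : ∀ 𝔫 : AtPt (F := ↥(modularFunctionFieldFullC ↥K₀ (M₁ * p))) π (bgJ ↥K₀ (M₁ * p)),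
      ∀ T : ValuationSubring L,
      (∀ x ∈ atLoc 𝔫, algebraMap ↥(modularFunctionFieldFullC ↥K₀ (M₁ * p)) L x ∈ T) →
      (∀ x ∈ T, x ∈ W) →
      ∃ O' : Subring L, (∀ x ∈ O', x ∈ T) ∧ TresMonoPt W O' p c e y h)
    (hcusp : ∀ 𝔫 : AtPt (F := ↥(modularFunctionFieldFullC ↥K₀ (M₁ * p))) π
        (bgJ ↥K₀ (M₁ * p))⁻¹,
      ∀ T : ValuationSubring L,
      (∀ x ∈ atLoc 𝔫, algebraMap ↥(modularFunctionFieldFullC ↥K₀ (M₁ * p)) L x ∈ T) →
      (∀ x ∈ T, x ∈ W) →
      (∀ b : ↥(zchClosure (A₀ := ↥(beta0Ring A K₀))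
          ({(bgJ ↥K₀ (M₁ * p))⁻¹} : Set ↥(modularFunctionFieldFullC ↥K₀ (M₁ * p)))),
        (b : ↥(modularFunctionFieldFullC ↥K₀ (M₁ * p))) = (bgJ ↥K₀ (M₁ * p))⁻¹ → b ∈ 𝔫.1) →
      ∃ O' : Subring L, (∀ x ∈ O', x ∈ T) ∧ StbFacAt O' p y)
    -- the Kummer function of `x`, its Gauss reduction, the comparison
    (u : modularFunctionFieldBar (M * p)) (hK : KummerRel p x u)
    (r : LaurentSeries (kA A)) (hr : r ∈ modularFunctionFieldFullC (kA A) M)
    (hr' : r ∈ modularFunctionFieldFullC (kA A) M₁)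
    (hred : R38Red A (u : LaurentSeries R38.Qb) r)
    (hcmp : ∃ (a : kA A) (s : ↥(modularFunctionFieldFullC (kA A) M₁)), a ≠ 0 ∧ s ≠ 0 ∧
      (⟨r, hr'⟩ : ↥(modularFunctionFieldFullC (kA A) M₁)) =
        algebraMap (kA A) ↥(modularFunctionFieldFullC (kA A) M₁) a *
          ρW ⟨y, tresdn_mem W hy⟩ * s ^ p)
    -- the reduction of the Ogg unit
    (hb : LaurentSeries (kA A)) (hhb : hb ∈ modularFunctionFieldFullC (kA A) M)
    (hhb' : hb ∈ modularFunctionFieldFullC (kA A) M₁)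
    (hρh : ρW ⟨h, tresdn_mem W hh⟩ = ⟨hb, hhb'⟩)
    -- the descent to the level `M`
    (hrig : TresRigDescent M M₁ p A) :
    S59lpcvOrd M p A x hb := by
  -- (I1)
  have hmemW : ∀ (a : ↥(modularFunctionFieldFullC ↥K₀ (M₁ * p))),
      a ∈ mgvV hπ ιC hq hqM true →
        algebraMap ↥(modularFunctionFieldFullC ↥K₀ (M₁ * p)) L a ∈ W := by
    intro a ha
    have : a ∈ W.comap (algebraMap ↥(modularFunctionFieldFullC ↥K₀ (M₁ * p)) L) := by
      rw [hWV]; exact ha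
    exact this
  have hAV : ∀ a : ↥(beta0Ring A K₀),
      algebraMap ↥(beta0Ring A K₀) ↥(modularFunctionFieldFullC ↥K₀ (M₁ * p)) a ∈
        mgvV hπ ιC hq hqM true :=
    fun a => vtFam_const_mem (vtBase_residue hπ) ιC hq hqM true a
  have hAW : ∀ a : ↥(beta0Ring A K₀),
      algebraMap ↥(modularFunctionFieldFullC ↥K₀ (M₁ * p)) L
        (algebraMap ↥(beta0Ring A K₀) ↥(modularFunctionFieldFullC ↥K₀ (M₁ * p)) a) ∈ W :=
    fun a => hmemW _ (hAV a)
  have hπW : ρW ⟨algebraMap ↥(modularFunctionFieldFullC ↥K₀ (M₁ * p)) L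
      (algebraMap ↥(beta0Ring A K₀) ↥(modularFunctionFieldFullC ↥K₀ (M₁ * p)) π), hAW π⟩ = 0 := by
    apply hρWker
    show algebraMap ↥(modularFunctionFieldFullC ↥K₀ (M₁ * p)) L
      (algebraMap ↥(beta0Ring A K₀) ↥(modularFunctionFieldFullC ↥K₀ (M₁ * p)) π) ∈ W.nonunits
    rw [tresft_mem_nonunits_iff (mgvV hπ ιC hq hqM true) W hWV]
    exact mgv_hπV hπ ιC hq hqM true
  have ht : W.valuation (algebraMap ↥(modularFunctionFieldFullC ↥K₀ (M₁ * p)) L
      (bgJ ↥K₀ (M₁ * p))) = 1 :=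
    (tresft_val_one_comap _ (mgvV hπ ιC hq hqM true) W hWV).2 (mgv_T_valuation hπ ιC hq hqM true)
  have hρt : ρW ⟨algebraMap ↥(modularFunctionFieldFullC ↥K₀ (M₁ * p)) L (bgJ ↥K₀ (M₁ * p)),
      tresdn_mem W ht⟩ = ⟨jqModC (kA A), jqModC_mem_full (kA A) M₁⟩ := by
    rw [hρW _ (mgv_T_mem hπ ιC hq hqM true)]
    exact tresmonof_redF_J hq hqM hA hπ ιC hRedF
  have hAQ : ∀ (Q : Place (kA A) ↥(modularFunctionFieldFullC (kA A) M₁))
      (a : ↥(beta0Ring A K₀)),
      ρW ⟨algebraMap ↥(modularFunctionFieldFullC ↥K₀ (M₁ * p)) L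
        (algebraMap ↥(beta0Ring A K₀) ↥(modularFunctionFieldFullC ↥K₀ (M₁ * p)) a), hAW a⟩ ∈
          Q.toValuationSubring := by
    intro Q a
    rw [hρW _ (hAV a), tresmonof_redF_const hq hqM hA hπ ιC hRedF a]
    exact Q.algebraMap_mem' _
  exact s59lpcv_frame (A₀ := ↥(beta0Ring A K₀))
    (F := ↥(modularFunctionFieldFullC ↥K₀ (M₁ * p))) (F' := L) (π := π)
    (t := bgJ ↥K₀ (M₁ * p)) hq.pos W ρW hρWker hAW hπW ht hρt hAQ hfinQ hy hh c e he hfin hcusp
    u hK r hr hr' hred hcmp hb hhb hhb' hρh hrig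

end FrameF

end Fermat.Agent.S59

end
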