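/-
S59, wall M4 (LOWER-P at `p = 3`), leaf IN-EVEN (helper52).

Input (IN d) of the K-FORM instance of row 38 (`R38/TresBigInstInD.lean`, helper16): a Kummer
function of a nonzero class of `J₀(N)` is not an `m`-th power at the rigid level `N′ = 2 ^ a N`.
It was written for `gcd (6, m) = 1` (`[F̄_{2^a N} : F̄_N] ∣ 6 ^ a`).  For an EVEN level `N` the
degree is `2 ^ a`, so `m` odd suffices: the statement holds for `m = p = 3` (study
NOTES/S59-p3/tres-helper30.md, 1 C).

* `s59lpin_psi_pow_two` : `ψ (2 ^ a X) = 2 ^ a ψ (X)` for `2 ∣ X`;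
* `s59lpin_relfinrank_eq`, `s59lpin_relfinrank_dvd` : `[F̄_{2^a N} : F̄_N] = 2 ^ a` for `2 ∣ N`;
* `s59lpin_descent` : norm descent along `F̄_N ≤ F̄_{2^a N}` for odd exponents (`N` even);
* `s59lpin_hw` : **(IN d)** for odd `m`, `N` even;
* `s59lpin_hw_lcm_four` : (IN d) at `N = M p`, `N′ = lcm (M, 4) · p`, `m = p` an odd prime with
  `5 ≤ p ∨ 2 ∣ M` (literal shape of `R38.tres5bind_hw_lcm_four`).
-/
import Fermat.Agent.R38.TresBigInstInD

set_option autoImplicit false
set_option linter.style.haveILetI false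
set_option linter.unusedSectionVars false
set_option linter.unusedVariables false

noncomputable section

namespace Fermat.Agent.S59

open ModularCurve AlgebraicCurve IntermediateField Fermat.Agent.ES Fermat.Agent.ES.G2
  Fermat.Agent.INJ Fermat.Agent.UNIP Fermat.Agent.R38

section Psi

theorem s59lpin_psi_pow_two (a X : ℕ) (hX : X ≠ 0) (h2 : 2 ∣ X) :
    dedekindPsi (2 ^ a * X) = 2 ^ a * dedekindPsi X := by
  induction a with
  | zero => simp
  | succ a ih =>
    have e : 2 ^ (a + 1) * X = 2 * (2 ^ a * X) := by ring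
    have hX' : 2 ^ a * X ≠ 0 := mul_ne_zero (pow_ne_zero _ two_ne_zero) hX
    have hd : 2 ∣ 2 ^ a * X := h2.mul_left _
    rw [e, Fermat.Agent.S28.UB.psi_mul_of_dvd Nat.prime_two hd hX', ih]
    ring

end Psi

section Degree

/-- the degree of `F̄_{2^a N} / F̄_N` is `2 ^ a` for even `N` -/
theorem s59lpin_relfinrank_eq {N N' : ℕ} [NeZero N] [NeZero N'] (a : ℕ)
    (hN' : N' = 2 ^ a * N) (h2 : 2 ∣ N) :
    (modularFunctionFieldBar N).relfinrank (modularFunctionFieldBar N') = 2 ^ a := by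
  have hψ := s59lpin_psi_pow_two a N (NeZero.ne N) h2
  have hdvd : N ∣ N' := hN' ▸ Dvd.intro_left _ rfl
  have h1 := tres5bind_relfinrank_bar hdvd
  have hψ0 : dedekindPsi N ≠ 0 := tresrig_psi_ne_zero (NeZero.ne N)
  have h2' : dedekindPsi N *
      (modularFunctionFieldBar N).relfinrank (modularFunctionFieldBar N') =
        dedekindPsi N * 2 ^ a := by
    rw [h1, hN', hψ, Nat.mul_comm]
  exact Nat.eq_of_mul_eq_mul_left (Nat.pos_of_ne_zero hψ0) h2'

/-- the degree of `F̄_{2^a N} / F̄_N` divides `2 ^ a` for even `N` -/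
theorem s59lpin_relfinrank_dvd {N N' : ℕ} [NeZero N] [NeZero N'] (a : ℕ)
    (hN' : N' = 2 ^ a * N) (h2 : 2 ∣ N) :
    (modularFunctionFieldBar N).relfinrank (modularFunctionFieldBar N') ∣ 2 ^ a := by
  rw [s59lpin_relfinrank_eq a hN' h2]

end Degree

section Descent

/-- **norm descent along `F̄_N ≤ F̄_{2^a N}`**, `N` even, for odd exponents -/
theorem s59lpin_descent {N N' : ℕ} [NeZero N] [NeZero N'] (a : ℕ) (hN' : N' = 2 ^ a * N)
    (h2 : 2 ∣ N) {m : ℕ} (hm : Nat.Coprime 2 m)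
    (hle : modularFunctionFieldBar N ≤ modularFunctionFieldBar N')
    (w h' : LaurentSeries Fermat.Agent.R38.Qb) (hw : w ∈ modularFunctionFieldBar N)
    (hh : h' ∈ modularFunctionFieldBar N') (hwh : w = h' ^ m) :
    ∃ g ∈ modularFunctionFieldBar N, w = g ^ m := by
  have heq := s59lpin_relfinrank_eq (N := N) (N' := N') a hN' h2
  have h0 : (modularFunctionFieldBar N).relfinrank (modularFunctionFieldBar N') ≠ 0 := by
    rw [heq]
    exact pow_ne_zero a (by norm_num)
  have hcop : Nat.Coprime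
      ((modularFunctionFieldBar N).relfinrank (modularFunctionFieldBar N')) m := by
    rw [heq]
    exact Nat.Coprime.pow_left a hm
  exact unip_descent_generic hle h0 hcop w h' hw hh hwh

variable {N N' : ℕ} [NeZero N] [NeZero N']

/-- **(IN d)**, `N` even: a Kummer function of a nonzero class of `J₀(N)` is not an `m`-th power
at the level `N′ = 2 ^ a N` (`m` odd). -/
theorem s59lpin_hw (a : ℕ) (hN' : N' = 2 ^ a * N) (h2 : 2 ∣ N) {m : ℕ}
    (hm : Nat.Coprime 2 m)
    (hm0 : m ≠ 0) {z₀ : JZero N} {w₀ : modularFunctionFieldBar N} (hw : KummerRel m z₀ w₀)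
    (hz : z₀ ≠ 0) (hle : modularFunctionFieldBar N ≤ modularFunctionFieldBar N') :
    ∀ c : ↥(modularFunctionFieldBar N'),
      c ^ m ≠ (⟨(w₀ : LaurentSeries Fermat.Agent.R38.Qb), hle w₀.2⟩ : modularFunctionFieldBar N') := by
  intro c hc
  have h1 : (w₀ : LaurentSeries Fermat.Agent.R38.Qb) = (c : LaurentSeries Fermat.Agent.R38.Qb) ^ m := by
    have h2 := congrArg (fun z : modularFunctionFieldBar N' => (z : LaurentSeries Fermat.Agent.R38.Qb)) hc
    exact h2.symm
  obtain ⟨g, hg, hwg⟩ := s59lpin_descent a hN' h2 hm hle _ _ w₀.2 c.2 h1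
  exact tresdesc_not_pow hm0 hw hz ⟨g, hg⟩ (Subtype.ext hwg.symm)

end Descent

section LcmFour

variable {M p : ℕ} [NeZero M] [NeZero p] [NeZero (M * p)] [NeZero (Nat.lcm M 4 * p)]

/-- **(IN d) at the rigid level `lcm (M, 4) · p`**, `p` an odd prime, `M` even if `p = 3`:
the literal shape of `R38.tres5bind_hw_lcm_four` with `p ≠ 2`, `5 ≤ p ∨ 2 ∣ M`. -/
theorem s59lpin_hw_lcm_four (hp : p.Prime) (hp2 : p ≠ 2) (h5 : 5 ≤ p ∨ 2 ∣ M)
    {z₀ : JZero (M * p)}
    {w₀ : modularFunctionFieldBar (M * p)} (hw : KummerRel p z₀ w₀) (hz : z₀ ≠ 0)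
    (hle : modularFunctionFieldBar (M * p) ≤ modularFunctionFieldBar (Nat.lcm M 4 * p)) :
    ∀ c : ↥(modularFunctionFieldBar (Nat.lcm M 4 * p)),
      c ^ p ≠ (⟨(w₀ : LaurentSeries Fermat.Agent.R38.Qb), hle w₀.2⟩ :
        modularFunctionFieldBar (Nat.lcm M 4 * p)) := by
  rcases h5 with h5 | h2
  · exact tres5bind_hw_lcm_four hp h5 hw hz hle
  · obtain ⟨a, ha⟩ := tres5bind_lcm_four_eq M p
    have hcop : Nat.Coprime 2 p := (Nat.coprime_primes Nat.prime_two hp).mpr (Ne.symm hp2)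
    exact s59lpin_hw a ha (h2.mul_right p) hcop hp.ne_zero hw hz hle

end LcmFour

end Fermat.Agent.S59

end
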