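/-
S59, wall M4 (LOWER-P at `p = 3`), leaf COVER3, part 1 (helper16): THE `T`-INSTANCE at `p = 3`, EVEN level.

Twins of `R38.tres5bit_in_four` / `R38.tres5bit_descend_four` (`R38/TresBigInstT4.lean`) with
`(hp2 : p ≠ 2) (h : 5 ≤ p ∨ 2 ∣ M)` in place of `(hp5 : 5 ≤ p)`; statements otherwise LITERALLY
the same.  The frame `R38.tres5bit_descend` was written for `3 ≤ q`, `q = 3 → 2 ∣ (level)`, and the
rigid level `M * 4` is always even; the only consumer of `5 ≤ p` was (IN d), replaced here by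
`s59lpt_hw_mul_four` (below; from helper52's `s59lpin_hw`, S59/LowP/InEven.lean).

* `s59lpt_hw_mul_four` : (IN d) at the level `M * 4 * p`;
* `s59lpt_in_four` : (IN b), (IN c), (IN d) at the level `M * 4 * p`;
* `s59lpt_descend_four` : the `T`-instance (all conclusions of `R38.tres5bit_descend_four`).
-/
import Fermat.Agent.R38.TresBigInstT4
import Fermat.Agent.S59.LowP.InEven

set_option autoImplicit false
set_option linter.style.haveILetI false
set_option linter.unusedSectionVars false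
set_option linter.unusedVariables false
set_option linter.style.longLine false

noncomputable section

namespace Fermat.Agent.S59

open ModularCurve AlgebraicCurve Fermat.Agent.ES Fermat.Agent.ES.G2 Fermat.Agent.INJ
open Fermat.Agent.UNIP Fermat.Agent.STB Fermat.Agent.S33 Fermat.Agent.RIB.MP IntermediateField
open Fermat.Agent.R38

section Four

variable {M p : ℕ} [NeZero M] [NeZero p] [NeZero (M * p)] [NeZero (M * 4)] [NeZero (M * 4 * p)]

/-- **(IN d) at the rigid level `M * 4 * p`**, `p` an odd prime, `5 ≤ p` or `2 ∣ M`. -/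
theorem s59lpt_hw_mul_four (hp : p.Prime) (hp2 : p ≠ 2)
    (h : 5 ≤ p ∨ 2 ∣ M) {z₀ : JZero (M * p)}
    {w₀ : modularFunctionFieldBar (M * p)} (hw : KummerRel p z₀ w₀) (hz : z₀ ≠ 0)
    (hle : modularFunctionFieldBar (M * p) ≤ modularFunctionFieldBar (M * 4 * p)) :
    ∀ c : ↥(modularFunctionFieldBar (M * 4 * p)),
      c ^ p ≠ (⟨(w₀ : LaurentSeries R38.Qb), hle w₀.2⟩ :
        modularFunctionFieldBar (M * 4 * p)) := by
  have hc2 : Nat.Coprime 2 p := (Nat.coprime_primes Nat.prime_two hp).mpr (Ne.symm hp2)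
  rcases h with h5 | h2
  · have h3 : Nat.Coprime 3 p := (Nat.coprime_primes Nat.prime_three hp).mpr (by omega)
    have hcop : Nat.Coprime 6 p := by
      have : (6 : ℕ) = 2 * 3 := by norm_num
      rw [this]
      exact Nat.Coprime.mul_left hc2 h3
    exact tres5bind_hw 2 (by ring) hcop hp.ne_zero hw hz hle
  · exact s59lpin_hw 2 (by ring) (h2.mul_right p) hc2 hp.ne_zero hw hz hle

/-- **(IN b), (IN c), (IN d) at the rigid level `M * 4 * p`**, `p` odd, `5 ≤ p ∨ 2 ∣ M`: twin of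
`R38.tres5bit_in_four`. -/
theorem s59lpt_in_four [Fact p.Prime] (hp : p.Prime) (hpM : ¬ p ∣ M) (hpM4 : ¬ p ∣ M * 4)
    (hp2 : p ≠ 2) (h : 5 ≤ p ∨ 2 ∣ M) (A : ValuationSubring R38.Qb) (hA : A.LiesOverPrime p)
    {z₀ : JZero (M * p)} (hz : z₀ ≠ 0) (hα : stbPushAlpha M p z₀ = 0)
    (hβ : stbPushBeta M p z₀ = 0) (htriv : TrivInf A p z₀)
    {w₀ : modularFunctionFieldBar (M * p)} (hw : KummerRel p z₀ w₀)
    (hle : modularFunctionFieldBar (M * p) ≤ modularFunctionFieldBar (M * 4 * p)) :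
    (∀ P : Place R38.Qb (modularFunctionFieldBar (M * 4 * p)),
      (p : ℤ) ∣ P.ord
        (⟨(w₀ : LaurentSeries NfQb), hle w₀.2⟩ : modularFunctionFieldBar (M * 4 * p))) ∧
    IsSplitFn hp hpM4 A
      (⟨(w₀ : LaurentSeries NfQb), hle w₀.2⟩ : modularFunctionFieldBar (M * 4 * p)) ∧
    (∀ c : ↥(modularFunctionFieldBar (M * 4 * p)),
      c ^ p ≠ (⟨(w₀ : LaurentSeries NfQb), hle w₀.2⟩ : modularFunctionFieldBar (M * 4 * p))) := by
  refine ⟨fun P => tresdesck_up_hdiv M p 4 hw hle P, ?_, ?_⟩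
  · exact tres5binc_hsplit M p 4 hpM hpM4 A hA hle z₀ hα hβ htriv w₀ hw
  · exact s59lpt_hw_mul_four hp hp2 h hw hz hle

set_option synthInstance.maxHeartbeats 400000 in
set_option maxHeartbeats 1600000 in
/-- **THE `T`-INSTANCE at an odd prime `p`, `5 ≤ p ∨ 2 ∣ M`** (rigid level `M * 4 * p`): twin of
`R38.tres5bit_descend_four`. -/
theorem s59lpt_descend_four [Fact p.Prime] (hp : p.Prime) (hpM : ¬ p ∣ M)
    (hpM4 : ¬ p ∣ M * 4) (hp2 : p ≠ 2) (h : 5 ≤ p ∨ 2 ∣ M) (A : ValuationSubring R38.Qb) (hA : A.LiesOverPrime p)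
    {z₀ : JZero (M * p)} (hz : z₀ ≠ 0) (hα : stbPushAlpha M p z₀ = 0)
    (hβ : stbPushBeta M p z₀ = 0) (htriv : TrivInf A p z₀)
    (htor : ∀ τ ∈ A.inertiaSubgroupIn ℚ, τ • z₀ = ExtCitation.cycloExp p τ • z₀)
    {w₀ : modularFunctionFieldBar (M * p)} (hw : KummerRel p z₀ w₀)
    {y : LaurentSeries NfQb} (hy : y ^ p = (w₀ : LaurentSeries NfQb))
    (hle : modularFunctionFieldBar (M * p) ≤ modularFunctionFieldBar (M * 4 * p)) :
    ∃ K₀ : IntermediateField ℚ R38.Qb, FiniteDimensional ℚ K₀ ∧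
      ∀ (K₁ : IntermediateField ℚ R38.Qb), K₀ ≤ K₁ → ∀ [NumberField K₁] [IsGalois ℚ K₁]
        [IsDiscreteValuationRing ↥(mgcA A K₁)]
        [IsDiscreteValuationRing ↥(beta0Ring A (beta0Field A))]
        {π : ↥(mgcA A K₁)} (hπ : Irreducible π)
        {π₀ : ↥(beta0Ring A (beta0Field A))} (hπ₀ : Irreducible π₀)
        (ιC : ↥(mgcE A K₁) →+* ℂ) (ιC₀ : ↥(beta0Field A) →+* ℂ)
        {ζ : ↥(mgcA A K₁)}, IsPrimitiveRoot ζ p →
        ∃ (u₀ : ↥(mgcF A K₁ (M * 4 * p))) (yE : LaurentSeries ↥(mgcE A K₁))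
          (hyE : coeffMap (algebraMap ↥(mgcE A K₁) NfQb) yE = y)
          (S : Tres5Kum ↥(mgcF A K₁ (M * 4 * p)) ↥(tres5cL (mgcE A K₁) (M * 4 * p) y)
            (mgvV hπ ιC hp hpM4 true) p)
          (hfracY : VtFrac (algebraMap ↥(mgcA A K₁) ↥(mgcE A K₁))
            ((S.y : ↥(tres5cL (mgcE A K₁) (M * 4 * p) y)) : LaurentSeries ↥(mgcE A K₁)))
          (T : Tres5Gen ↥(modularFunctionFieldFullC ↥(beta0Field A) (M * 4 * p))
            ↥(tres5cL (beta0Field A) (M * 4 * p) y) (mgvV hπ₀ ιC₀ hp hpM4 true) p)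
          (ρK : ↥(tres5cL (beta0Field A) (M * 4 * p) y) →ₐ[↥(modularFunctionFieldFullC
            ↥(beta0Field A) (M * 4 * p))] ↥(tres5cL (beta0Field A) (M * 4 * p) y)),
          -- the Kummer datum over `E`
          (((nfEmb (mgcE A K₁) (M * 4 * p) u₀ : modularFunctionFieldBar (M * 4 * p)) :
              LaurentSeries NfQb) = (w₀ : LaurentSeries NfQb) ∧
            yE ^ p = (u₀ : LaurentSeries ↥(mgcE A K₁)) ∧
            (∀ a : ↥(mgcF A K₁ (M * 4 * p)), a ^ p ≠ u₀) ∧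
            S.ζ = algebraMap ↥(mgcA A K₁) ↥(mgcF A K₁ (M * 4 * p)) ζ ∧
            S.π = algebraMap ↥(mgcA A K₁) ↥(mgcF A K₁ (M * 4 * p)) π ∧
            S.w = u₀ ∧
            S.y = tres5cGenL (mgcE A K₁) (M * 4 * p) y hyE ∧
            ∃ y' ∈ mgvV hπ ιC hp hpM4 true,
              u₀ / S.g ^ p - 1 =
                (algebraMap ↥(mgcA A K₁) ↥(mgcF A K₁ (M * 4 * p)) ζ - 1) ^ p *
                  algebraMap ↥(mgcA A K₁) ↥(mgcF A K₁ (M * 4 * p)) π * y') ∧
          -- the nine conclusions of `tres5kiv_descend`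
          (T.π = algebraMap ↥(beta0Ring A (beta0Field A))
              ↥(modularFunctionFieldFullC ↥(beta0Field A) (M * 4 * p)) π₀ ∧
            (∀ k, T.c k = ((k : ℕ) : ↥(mgvV hπ₀ ιC₀ hp hpM4 true))) ∧
            (∀ k < p, tres5cIncl (M * 4 * p) y (le_sup_left : beta0Field A ≤ mgcE A K₁) T.z -
                ((k : ℕ) : ↥(tres5cL (mgcE A K₁) (M * 4 * p) y)) ∈ (S.gen.W k).nonunits) ∧
            (∀ k < p, T.W k = (S.gen.W k).comap
              (tres5cIncl (M * 4 * p) y (le_sup_left : beta0Field A ≤ mgcE A K₁))) ∧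
            (∃ k₀ < p,
              tres5kivW hπ (M * 4 * p) y (tres5kiv_frac hπ (M * 4 * p) y S.htop hfracY) = S.gen.W k₀ ∧
              T.W k₀ = (tres5kivW hπ (M * 4 * p) y
                (tres5kiv_frac hπ (M * 4 * p) y S.htop hfracY)).comap
                  (tres5cIncl (M * 4 * p) y (le_sup_left : beta0Field A ≤ mgcE A K₁))) ∧
            (∀ f : ↥(tres5cL (beta0Field A) (M * 4 * p) y),
              tres5cIncl (M * 4 * p) y (le_sup_left : beta0Field A ≤ mgcE A K₁) (ρK f) =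
                S.deck (tres5cIncl (M * 4 * p) y (le_sup_left : beta0Field A ≤ mgcE A K₁) f)) ∧
            (∀ k < p, (T.W k).comap
              (ρK : ↥(tres5cL (beta0Field A) (M * 4 * p) y) →+*
                ↥(tres5cL (beta0Field A) (M * 4 * p) y)) = T.W ((k + 1) % p)) ∧
            Module.finrank ↥(modularFunctionFieldFullC ↥(beta0Field A) (M * 4 * p))
              ↥(tres5cL (beta0Field A) (M * 4 * p) y) = p ∧
            IntermediateField.adjoin ↥(mgcF A K₁ (M * 4 * p))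
              {tres5cIncl (M * 4 * p) y (le_sup_left : beta0Field A ≤ mgcE A K₁) T.z} = ⊤) ∧
          -- the Kummer shape of the SAME model at the closed points of both charts
          (∀ i, ∃ g : ↥(mgcF A K₁ (M * 4 * p)), g ≠ 0 ∧ ∃ y' ∈ atO π (mgcT A K₁ (M * 4 * p)) i,
            u₀ / g ^ p - 1 =
              (algebraMap ↥(mgcA A K₁) ↥(mgcF A K₁ (M * 4 * p)) ζ - 1) ^ p *
                algebraMap ↥(mgcA A K₁) ↥(mgcF A K₁ (M * 4 * p)) π * y') := by
  obtain ⟨hdiv, hsplit, hnp⟩ := s59lpt_in_four hp hpM hpM4 hp2 h A hA hz hα hβ htriv hw hle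
  have hp3 : 3 ≤ p := by
    have := hp.two_le
    omega
  exact tres5bit_descend hp hpM4 hp3 (fun _ => ⟨M * 2, by ring⟩) A hA hw hy hle htor hdiv hsplit
    hnp

end Four

end Fermat.Agent.S59

end
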