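/-
S59, wall M4 (LOWER-P at `p = 3`), leaf OGG3, part (b0) (helper16): THE ABSTRACT OGG PACKAGE.

`R38/TresOgg.lean`, `R38/TresOggConc.lean` (helper10) prove the node formula for THE Ogg unit
`h = s36tuV = Δ(Q)/Δ(Q^q)` (`e = 12`).  Their proofs use only four facts on `h`.  Here they are
made a `Prop`-valued structure `S59lpOgg … g n` on an ARBITRARY function `g ∈ F = F_{Mq}(K₀)`:

* `ne_zero`   : `g ≠ 0`;
* `val_true`  : `v_∞(g) = 1`;
* `val_false` : `v_0(g) = v_0(π) ^ n`   (`n : ℤ`);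
* `hor`       : `ord_P g = 0` at every place `P` of `F / K₀` with `0 ≤ ord_P j` (the divisor of
                `g` is cuspidal);

and the whole package of `TresOgg` is re-proved for `(g, n)`:

* `s59lpog_of_pair` : the ROOT INTERFACE `(U, h)`, `U h = c ∼ π ^ e`, `U, h ∈ B_j`, `v_∞(h) = 1`,
  `v_0(U) = 1` gives an Ogg datum `(h, e)`;
* `s59lpog_h`   : THE Ogg unit `h` is an Ogg datum with `n = 12 e` (`q ∼ π ^ e`);
* `s59lpog_one`, `s59lpog_mul`, `s59lpog_inv`, `s59lpog_zpow`, `s59lpog_pow` : Ogg data form a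
  group, `n` is additive;
* `s59lpog_root` : **the root**: if `g ^ N` is an Ogg datum with exponent `N * n`, `N ≠ 0`, then
  `g` is an Ogg datum with exponent `n` (this is how `e = 12` becomes `e = 1` or `2` at `p = 3`:
  `g ^ 24 = ∏ Δ(d z) ^ r_d`);
* `s59lpog_hhor` : `hhor` of `RT.K6.rtk6lfc_cross_fac` for `g`, `m = 0`;
* `s59lpog_cross_fac_of`, `s59lpog_cross_fac_of'` : **the node formula** `g = ε · Y ^ n`
  (resp. `ε · X ^ n`) at a thin crossing point;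
* `s59lpog_smooth_unit_of`, `s59lpog_smooth_fac_of` : smooth points on `V_∞`, resp. `V_0`;
* `s59lpog_cross_fac`, `s59lpog_cross_fac'`, `s59lpog_smooth_unit`, `s59lpog_smooth_fac` : the
  concrete forms over `K₀ ⊇ ℚ̄^I` (literal shapes of `R38.tres5o_cross_fac` … with `g`, `n`).
-/
import Fermat.Agent.R38.TresOggConc

set_option autoImplicit false
set_option linter.unusedSectionVars false
set_option linter.unusedVariables false
set_option linter.style.haveILetI false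
set_option linter.style.longLine false

noncomputable section

namespace Fermat.Agent.S59

open ModularCurve AlgebraicCurve IntermediateField Fermat.Agent.INJ Fermat.Agent.UNIP
  Fermat.Agent.STB Fermat.Agent.S36 Fermat.Agent.S33 Fermat.Agent.S28 Fermat.Agent.RIB.MP
  Fermat.Agent.RT.K6 Fermat.Agent.AL Fermat.Agent.ES Fermat.Agent.ES.G2 Fermat.Agent.S24
  Fermat.Agent.R38

section Abs

variable {F : Type*} [Field F]

/-- in a valuation subring, an element whose `N`-th power has valuation one has valuation one -/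
theorem s59lpog_val_of_pow (V : ValuationSubring F) {N : ℕ} (hN : 0 < N) {γ : F}
    (h : V.valuation (γ ^ N) = 1) : V.valuation γ = 1 := by
  rw [map_pow] at h
  rcases lt_trichotomy (V.valuation γ) 1 with h1 | h1 | h1
  · exact absurd h (ne_of_lt (pow_lt_one₀ zero_le h1 hN.ne'))
  · exact h1
  · exact absurd h (ne_of_gt (one_lt_pow₀ h1 hN.ne'))

end Abs

section Mgv

variable {A : ValuationSubring Fermat.Agent.ES.G2.Qb} {K₀ : IntermediateField ℚ Fermat.Agent.ES.G2.Qb}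
  [IsDiscreteValuationRing ↥(beta0Ring A K₀)] {π : ↥(beta0Ring A K₀)} (hπ : Irreducible π)
  (ιC : ↥K₀ →+* ℂ) {q M : ℕ} [NeZero q] [NeZero M] [NeZero (M * q)]
  (hq : q.Prime) (hqM : ¬ q ∣ M)

/-- **an abstract Ogg datum** `(g, n)` on `X₀(M q)` over `K₀`: `g ≠ 0`, `v_∞(g) = 1`,
`v_0(g) = v_0(π) ^ n`, and the divisor of `g` is cuspidal. -/
structure S59lpOgg (g : ↥(modularFunctionFieldFullC ↥K₀ (M * q))) (n : ℤ) : Prop where
  ne_zero : g ≠ 0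
  val_true : (mgvV hπ ιC hq hqM true).valuation g = 1
  val_false : (mgvV hπ ιC hq hqM false).valuation g =
    (mgvV hπ ιC hq hqM false).valuation
      (algebraMap ↥(beta0Ring A K₀) ↥(modularFunctionFieldFullC ↥K₀ (M * q)) π) ^ n
  hor : ∀ P : Place ↥K₀ ↥(modularFunctionFieldFullC ↥K₀ (M * q)),
    0 ≤ P.ord (bgJ ↥K₀ (M * q)) → P.ord g = 0

variable {hπ ιC hq hqM}

/-- THE Ogg unit `h = Δ(Q)/Δ(Q^q)` is an Ogg datum with `n = 12 e`, `q ∼ π ^ e` -/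
theorem s59lpog_h (hA : A.LiesOverPrime q) {e : ℕ}
    (hqπ : Associated ((q : ℕ) : ↥(beta0Ring A K₀)) (π ^ e)) :
    S59lpOgg hπ ιC hq hqM (s36tuV ↥K₀ ιC (q := q) (M := M)) ((12 * e : ℕ) : ℤ) where
  ne_zero := s36tuV_ne_zero ↥K₀ ιC
  val_true := tres5o_val_true hπ ιC hq hqM hA
  val_false := by
    rw [tres5o_val_false_pi hπ ιC hq hqM hA hqπ, zpow_natCast]
  hor := fun P hP => tres5o_ord_eq_zero K₀ ιC hq P hP

/-- the constant `1` is an Ogg datum with `n = 0` -/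
theorem s59lpog_one : S59lpOgg hπ ιC hq hqM (1 : ↥(modularFunctionFieldFullC ↥K₀ (M * q))) 0 where
  ne_zero := one_ne_zero
  val_true := map_one _
  val_false := by rw [map_one, zpow_zero]
  hor := fun P _ => by
    have h := P.ord_mul (one_ne_zero : (1 : ↥(modularFunctionFieldFullC ↥K₀ (M * q))) ≠ 0)
      one_ne_zero
    rw [mul_one] at h
    omega

/-- Ogg data multiply -/
theorem s59lpog_mul {g₁ g₂ : ↥(modularFunctionFieldFullC ↥K₀ (M * q))} {n₁ n₂ : ℤ}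
    (h₁ : S59lpOgg hπ ιC hq hqM g₁ n₁) (h₂ : S59lpOgg hπ ιC hq hqM g₂ n₂) :
    S59lpOgg hπ ιC hq hqM (g₁ * g₂) (n₁ + n₂) where
  ne_zero := mul_ne_zero h₁.ne_zero h₂.ne_zero
  val_true := by rw [map_mul, h₁.val_true, h₂.val_true, one_mul]
  val_false := by
    have hπ0 : algebraMap ↥(beta0Ring A K₀) ↥(modularFunctionFieldFullC ↥K₀ (M * q)) π ≠ 0 :=
      ei_algebraMap_ne_zero (E := ↥K₀) hπ
    have hv0 : (mgvV hπ ιC hq hqM false).valuation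
        (algebraMap ↥(beta0Ring A K₀) ↥(modularFunctionFieldFullC ↥K₀ (M * q)) π) ≠ 0 :=
      (Valuation.ne_zero_iff _).2 hπ0
    rw [map_mul, h₁.val_false, h₂.val_false, zpow_add₀ hv0]
  hor := fun P hP => by
    rw [P.ord_mul h₁.ne_zero h₂.ne_zero, h₁.hor P hP, h₂.hor P hP, add_zero]

/-- Ogg data invert -/
theorem s59lpog_inv {g : ↥(modularFunctionFieldFullC ↥K₀ (M * q))} {n : ℤ}
    (h : S59lpOgg hπ ιC hq hqM g n) : S59lpOgg hπ ιC hq hqM g⁻¹ (-n) where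
  ne_zero := inv_ne_zero h.ne_zero
  val_true := by rw [map_inv₀, h.val_true, inv_one]
  val_false := by rw [map_inv₀, h.val_false, zpow_neg]
  hor := fun P hP => by
    have h1 := P.ord_mul h.ne_zero (inv_ne_zero h.ne_zero)
    rw [mul_inv_cancel₀ h.ne_zero, h.hor P hP, zero_add] at h1
    have h2 := P.ord_mul (one_ne_zero : (1 : ↥(modularFunctionFieldFullC ↥K₀ (M * q))) ≠ 0)
      one_ne_zero
    rw [mul_one] at h2
    omega

/-- natural powers of Ogg data -/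
theorem s59lpog_pow {g : ↥(modularFunctionFieldFullC ↥K₀ (M * q))} {n : ℤ}
    (h : S59lpOgg hπ ιC hq hqM g n) (N : ℕ) : S59lpOgg hπ ιC hq hqM (g ^ N) (N * n) := by
  induction N with
  | zero =>
    rw [pow_zero, Nat.cast_zero, zero_mul]
    exact s59lpog_one
  | succ N ih =>
    have e : ((N + 1 : ℕ) : ℤ) * n = N * n + n := by push_cast; ring
    rw [pow_succ, e]
    exact s59lpog_mul ih h

/-- integral powers of Ogg data -/
theorem s59lpog_zpow {g : ↥(modularFunctionFieldFullC ↥K₀ (M * q))} {n : ℤ}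
    (h : S59lpOgg hπ ιC hq hqM g n) (N : ℤ) : S59lpOgg hπ ιC hq hqM (g ^ N) (N * n) := by
  rcases Int.eq_nat_or_neg N with ⟨k, rfl | rfl⟩
  · rw [zpow_natCast]
    exact s59lpog_pow h k
  · rw [zpow_neg, zpow_natCast, neg_mul]
    exact s59lpog_inv (s59lpog_pow h k)

/-- **the root**: `g ^ N` an Ogg datum with exponent `N n`, `N ≠ 0` ⇒ `g` is an Ogg datum with
exponent `n`. -/
theorem s59lpog_root {g : ↥(modularFunctionFieldFullC ↥K₀ (M * q))} {n : ℤ} {N : ℕ}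
    (hN : N ≠ 0) (h : S59lpOgg hπ ιC hq hqM (g ^ N) (N * n)) : S59lpOgg hπ ιC hq hqM g n := by
  have hg0 : g ≠ 0 := fun h0 => h.ne_zero (by rw [h0, zero_pow hN])
  have hπ0 : algebraMap ↥(beta0Ring A K₀) ↥(modularFunctionFieldFullC ↥K₀ (M * q)) π ≠ 0 :=
    ei_algebraMap_ne_zero (E := ↥K₀) hπ
  refine ⟨hg0, ?_, ?_, ?_⟩
  · exact s59lpog_val_of_pow _ (Nat.pos_of_ne_zero hN) h.val_true
  · have h1 := h.val_false
    set v := (mgvV hπ ιC hq hqM false).valuation with hv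
    have hv0 : v (algebraMap ↥(beta0Ring A K₀) ↥(modularFunctionFieldFullC ↥K₀ (M * q)) π) ≠ 0 :=
      (Valuation.ne_zero_iff _).2 hπ0
    have h2 : v (g * (algebraMap ↥(beta0Ring A K₀)
        ↥(modularFunctionFieldFullC ↥K₀ (M * q)) π ^ n)⁻¹) ^ N = 1 := by
      rw [map_mul, map_inv₀, map_zpow₀, mul_pow, ← map_pow, h1, inv_pow, ← zpow_natCast
        (v (algebraMap ↥(beta0Ring A K₀) ↥(modularFunctionFieldFullC ↥K₀ (M * q)) π) ^ n) N,
        ← zpow_mul, mul_comm n (N : ℤ)]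
      exact mul_inv_cancel₀ (zpow_ne_zero _ hv0)
    have h3 : v ((g * (algebraMap ↥(beta0Ring A K₀)
        ↥(modularFunctionFieldFullC ↥K₀ (M * q)) π ^ n)⁻¹) ^ N) = 1 := by
      rw [map_pow]; exact h2
    have h4 := s59lpog_val_of_pow (mgvV hπ ιC hq hqM false) (Nat.pos_of_ne_zero hN) h3
    rw [map_mul, map_inv₀, map_zpow₀] at h4
    exact (mul_inv_eq_one₀ (zpow_ne_zero _ hv0)).1 h4
  · intro P hP
    have h1 := h.hor P hP
    have h2 : ∀ k : ℕ, P.ord (g ^ k) = k * P.ord g := by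
      intro k
      induction k with
      | zero =>
        have h3 := P.ord_mul (one_ne_zero : (1 : ↥(modularFunctionFieldFullC ↥K₀ (M * q))) ≠ 0)
          one_ne_zero
        rw [mul_one] at h3
        rw [pow_zero, Nat.cast_zero, zero_mul]
        omega
      | succ k ih =>
        rw [pow_succ, P.ord_mul (pow_ne_zero k hg0) hg0, ih]
        push_cast
        ring
    rw [h2 N] at h1
    rcases mul_eq_zero.1 h1 with h3 | h3
    · exact absurd (by exact_mod_cast h3) hN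
    · exact h3

/-- a place of `F / K₀` at which `j` is regular contains `A′[j]` -/
theorem s59lpog_adjoin_le_place
    (P : Place ↥K₀ ↥(modularFunctionFieldFullC ↥K₀ (M * q)))
    (hj : bgJ ↥K₀ (M * q) ∈ P.toValuationSubring) :
    ∀ x ∈ Algebra.adjoin ↥(beta0Ring A K₀)
      ({bgJ ↥K₀ (M * q)} : Set ↥(modularFunctionFieldFullC ↥K₀ (M * q))),
      x ∈ P.toValuationSubring := by
  intro x hx
  induction hx using Algebra.adjoin_induction with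
  | mem x hx =>
    rw [Set.mem_singleton_iff] at hx
    rw [hx]
    exact hj
  | algebraMap a =>
    rw [IsScalarTower.algebraMap_apply ↥(beta0Ring A K₀) ↥K₀
      ↥(modularFunctionFieldFullC ↥K₀ (M * q))]
    exact P.algebraMap_mem' _
  | add x y _ _ hx hy => exact add_mem hx hy
  | mul x y _ _ hx hy => exact mul_mem hx hy

/-- **the ROOT INTERFACE ⇒ an Ogg datum**: a pair `(U, h)` in the chart `B_j` with
`U h = c ∈ A′`, `c ∼ π ^ e`, `v_∞(h) = 1`, `v_0(U) = 1` (the interface of `S33/WildUnit.lean`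
for `(s36tuU, s36tuV, q ^ 12)`). -/
theorem s59lpog_of_pair {U h : ↥(modularFunctionFieldFullC ↥K₀ (M * q))}
    {c : ↥(beta0Ring A K₀)} {e : ℕ} (hcπ : Associated c (π ^ e))
    (hU : U ∈ zchClosure (A₀ := ↥(beta0Ring A K₀))
      ({bgJ ↥K₀ (M * q)} : Set ↥(modularFunctionFieldFullC ↥K₀ (M * q))))
    (hh : h ∈ zchClosure (A₀ := ↥(beta0Ring A K₀))
      ({bgJ ↥K₀ (M * q)} : Set ↥(modularFunctionFieldFullC ↥K₀ (M * q))))
    (hUh : U * h = algebraMap ↥(beta0Ring A K₀) ↥(modularFunctionFieldFullC ↥K₀ (M * q)) c)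
    (hv₁ : (mgvV hπ ιC hq hqM true).valuation h = 1)
    (hv₂ : (mgvV hπ ιC hq hqM false).valuation U = 1) :
    S59lpOgg hπ ιC hq hqM h (e : ℤ) := by
  have hπ0 : algebraMap ↥(beta0Ring A K₀) ↥(modularFunctionFieldFullC ↥K₀ (M * q)) π ≠ 0 :=
    ei_algebraMap_ne_zero (E := ↥K₀) hπ
  obtain ⟨u, hu⟩ := hcπ
  have hc' : algebraMap ↥(beta0Ring A K₀) ↥(modularFunctionFieldFullC ↥K₀ (M * q)) c *
      algebraMap ↥(beta0Ring A K₀) ↥(modularFunctionFieldFullC ↥K₀ (M * q))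
        (u : ↥(beta0Ring A K₀)) =
      algebraMap ↥(beta0Ring A K₀) ↥(modularFunctionFieldFullC ↥K₀ (M * q)) π ^ e := by
    rw [← map_mul, hu, map_pow]
  have hu0 : algebraMap ↥(beta0Ring A K₀) ↥(modularFunctionFieldFullC ↥K₀ (M * q))
      (u : ↥(beta0Ring A K₀)) ≠ 0 := by
    intro h0
    rw [h0, mul_zero] at hc'
    exact pow_ne_zero e hπ0 hc'.symm
  have hc0 : algebraMap ↥(beta0Ring A K₀) ↥(modularFunctionFieldFullC ↥K₀ (M * q)) c ≠ 0 := by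
    intro h0
    rw [h0, zero_mul] at hc'
    exact pow_ne_zero e hπ0 hc'.symm
  have hU0 : U ≠ 0 := fun h0 => hc0 (by rw [← hUh, h0, zero_mul])
  have hh0 : h ≠ 0 := fun h0 => hc0 (by rw [← hUh, h0, mul_zero])
  refine ⟨hh0, hv₁, ?_, ?_⟩
  · have h1 := congrArg (mgvV hπ ιC hq hqM false).valuation hUh
    have h2 := congrArg (mgvV hπ ιC hq hqM false).valuation hc'
    rw [map_mul, tres5o_val_const_unit hπ ιC hq hqM false u.isUnit, mul_one, map_pow] at h2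
    rw [map_mul, hv₂, one_mul, h2] at h1
    rw [h1, zpow_natCast]
  · intro P hP
    have hj : bgJ ↥K₀ (M * q) ∈ P.toValuationSubring := PlaceAux.mem_of_ord_nonneg P hP
    have hUP : U ∈ P.toValuationSubring :=
      crossing_mem_of_isIntegral P.toValuationSubring _ (s59lpog_adjoin_le_place P hj) hU
    have hhP : h ∈ P.toValuationSubring :=
      crossing_mem_of_isIntegral P.toValuationSubring _ (s59lpog_adjoin_le_place P hj) hh
    have h1 : 0 ≤ P.ord U := (PlaceAux.ord_nonneg_iff P hU0).mpr hUP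
    have h2 : 0 ≤ P.ord h := (PlaceAux.ord_nonneg_iff P hh0).mpr hhP
    have h3 : P.ord U + P.ord h = 0 := by
      rw [← P.ord_mul hU0 hh0, hUh,
        IsScalarTower.algebraMap_apply ↥(beta0Ring A K₀) ↥K₀
          ↥(modularFunctionFieldFullC ↥K₀ (M * q)), PlaceAux.ord_algebraMap]
    omega

/-! ### the chart `j` -/

/-- **`hhor` for an Ogg datum**, `m = 0`, at every closed point of the chart `j`. -/
theorem s59lpog_hhor {g : ↥(modularFunctionFieldFullC ↥K₀ (M * q))} {n : ℤ}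
    (hg : S59lpOgg hπ ιC hq hqM g n)
    (𝔫 : AtPt (F := ↥(modularFunctionFieldFullC ↥K₀ (M * q))) π (bgJ ↥K₀ (M * q)))
    (P : Place ↥K₀ ↥(modularFunctionFieldFullC ↥K₀ (M * q)))
    (hP : ∀ x ∈ atLoc 𝔫, x ∈ P.toValuationSubring) :
    ((0 : ℕ) : ℤ) ∣ P.ord g := by
  have hj : bgJ ↥K₀ (M * q) ∈ P.toValuationSubring :=
    hP _ (tres5o_chart_mem_atLoc 𝔫
      (show bgJ ↥K₀ (M * q) ∈ zchClosure (A₀ := ↥(beta0Ring A K₀))
        ({bgJ ↥K₀ (M * q)} : Set ↥(modularFunctionFieldFullC ↥K₀ (M * q))) from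
        (mem_zchClosure).2 (isIntegral_algebraMap (x := (⟨bgJ ↥K₀ (M * q),
          Algebra.subset_adjoin (Set.mem_singleton _)⟩ : ↥(Algebra.adjoin ↥(beta0Ring A K₀)
            ({bgJ ↥K₀ (M * q)} : Set ↥(modularFunctionFieldFullC ↥K₀ (M * q))))))))) 
  have hj0 : 0 ≤ P.ord (bgJ ↥K₀ (M * q)) := by
    by_cases h0 : bgJ ↥K₀ (M * q) = 0
    · rw [h0, P.ord_zero]
    · exact (PlaceAux.ord_nonneg_iff P h0).mpr hj
  rw [hg.hor P hj0]
  exact dvd_zero _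

/-! ### the node formula -/

/-- **The node formula for an Ogg datum** at a thin crossing point of the chart `j`
(`X ∈ 𝔪(V_∞)`, `Y ∈ 𝔪(V_0)`): `g = ε · Y ^ n`, from (LF) with `m = 0`. -/
theorem s59lpog_cross_fac_of {g : ↥(modularFunctionFieldFullC ↥K₀ (M * q))} {n : ℤ}
    (hg : S59lpOgg hπ ιC hq hqM g n)
    [FiniteDimensional (↥K₀)⟮bgJ ↥K₀ (M * q)⟯ ↥(modularFunctionFieldFullC ↥K₀ (M * q))]
    [IsNoetherianRing ↥(zchClosure (A₀ := ↥(beta0Ring A K₀))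
      ({bgJ ↥K₀ (M * q)} : Set ↥(modularFunctionFieldFullC ↥K₀ (M * q))))]
    (hSS1 : ∀ b : ↥(modularFunctionFieldFullC ↥K₀ (M * q)),
      IsIntegral ↥(Algebra.adjoin ↥(beta0Ring A K₀)
        ({bgJ ↥K₀ (M * q)} : Set ↥(modularFunctionFieldFullC ↥K₀ (M * q)))) b →
      (∀ c, b ∈ (mgvV hπ ιC hq hqM c).nonunits) →
      ∃ b' : ↥(modularFunctionFieldFullC ↥K₀ (M * q)),
        IsIntegral ↥(Algebra.adjoin ↥(beta0Ring A K₀)
          ({bgJ ↥K₀ (M * q)} : Set ↥(modularFunctionFieldFullC ↥K₀ (M * q)))) b' ∧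
        b = algebraMap ↥(beta0Ring A K₀) ↥(modularFunctionFieldFullC ↥K₀ (M * q)) π * b')
    (hU : ∀ c (x : ↥(modularFunctionFieldFullC ↥K₀ (M * q))),
      x ∈ (mgvV hπ ιC hq hqM c).nonunits → ∃ z ∈ mgvV hπ ιC hq hqM c,
        x = algebraMap ↥(beta0Ring A K₀) ↥(modularFunctionFieldFullC ↥K₀ (M * q)) π * z)
    (𝔫 : AtPt (F := ↥(modularFunctionFieldFullC ↥K₀ (M * q))) π (bgJ ↥K₀ (M * q)))
    {X Y : ↥(zchClosure (A₀ := ↥(beta0Ring A K₀))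
      ({bgJ ↥K₀ (M * q)} : Set ↥(modularFunctionFieldFullC ↥K₀ (M * q))))}
    (h : Rtk6lfCrossAt (mgvV hπ ιC hq hqM true) (mgvV hπ ιC hq hqM false) 𝔫 X Y) :
    ∃ ε : ↥(atLoc 𝔫), IsUnit ε ∧
      g =
        (ε : ↥(modularFunctionFieldFullC ↥K₀ (M * q))) *
          (Y : ↥(modularFunctionFieldFullC ↥K₀ (M * q))) ^ n := by
  obtain ⟨γ, ε, a, b, hε, hy, -, -, -, hv₁, hv₂⟩ :=
    rtk6lfc_cross_fac (E := ↥K₀) hπ (mgvV hπ ιC hq hqM) true false (fun c => mgv_hκ c)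
      (mgv_hBV₁ hπ ιC hq hqM) (mgv_hπV hπ ιC hq hqM) hSS1 hU 𝔫 h 0
      hg.ne_zero (s59lpog_hhor hg 𝔫)
  have hπ0 : algebraMap ↥(beta0Ring A K₀) ↥(modularFunctionFieldFullC ↥K₀ (M * q)) π ≠ 0 :=
    ei_algebraMap_ne_zero (E := ↥K₀) hπ
  have ha : a = 0 := by
    rw [hg.val_true] at hv₁
    exact rtk6lfp_zpow_eq_one _ (mgv_hπV hπ ιC hq hqM true) hπ0 hv₁.symm
  have hb : b = n := by
    rw [hg.val_false] at hv₂
    exact (tres5o_zpow_inj _ (mgv_hπV hπ ιC hq hqM false) hπ0 hv₂).symm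
  refine ⟨ε, hε, ?_⟩
  rw [hy, ha, hb, zpow_zero, mul_one, pow_zero, mul_one]

/-- **The node formula for an Ogg datum**, other orientation (`X ∈ 𝔪(V_0)`, `Y ∈ 𝔪(V_∞)`):
`g = ε · X ^ n`. -/
theorem s59lpog_cross_fac_of' {g : ↥(modularFunctionFieldFullC ↥K₀ (M * q))} {n : ℤ}
    (hg : S59lpOgg hπ ιC hq hqM g n)
    [FiniteDimensional (↥K₀)⟮bgJ ↥K₀ (M * q)⟯ ↥(modularFunctionFieldFullC ↥K₀ (M * q))]
    [IsNoetherianRing ↥(zchClosure (A₀ := ↥(beta0Ring A K₀))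
      ({bgJ ↥K₀ (M * q)} : Set ↥(modularFunctionFieldFullC ↥K₀ (M * q))))]
    (hSS1 : ∀ b : ↥(modularFunctionFieldFullC ↥K₀ (M * q)),
      IsIntegral ↥(Algebra.adjoin ↥(beta0Ring A K₀)
        ({bgJ ↥K₀ (M * q)} : Set ↥(modularFunctionFieldFullC ↥K₀ (M * q)))) b →
      (∀ c, b ∈ (mgvV hπ ιC hq hqM c).nonunits) →
      ∃ b' : ↥(modularFunctionFieldFullC ↥K₀ (M * q)),
        IsIntegral ↥(Algebra.adjoin ↥(beta0Ring A K₀)
          ({bgJ ↥K₀ (M * q)} : Set ↥(modularFunctionFieldFullC ↥K₀ (M * q)))) b' ∧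
        b = algebraMap ↥(beta0Ring A K₀) ↥(modularFunctionFieldFullC ↥K₀ (M * q)) π * b')
    (hU : ∀ c (x : ↥(modularFunctionFieldFullC ↥K₀ (M * q))),
      x ∈ (mgvV hπ ιC hq hqM c).nonunits → ∃ z ∈ mgvV hπ ιC hq hqM c,
        x = algebraMap ↥(beta0Ring A K₀) ↥(modularFunctionFieldFullC ↥K₀ (M * q)) π * z)
    (𝔫 : AtPt (F := ↥(modularFunctionFieldFullC ↥K₀ (M * q))) π (bgJ ↥K₀ (M * q)))
    {X Y : ↥(zchClosure (A₀ := ↥(beta0Ring A K₀))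
      ({bgJ ↥K₀ (M * q)} : Set ↥(modularFunctionFieldFullC ↥K₀ (M * q))))}
    (h : Rtk6lfCrossAt (mgvV hπ ιC hq hqM false) (mgvV hπ ιC hq hqM true) 𝔫 X Y) :
    ∃ ε : ↥(atLoc 𝔫), IsUnit ε ∧
      g =
        (ε : ↥(modularFunctionFieldFullC ↥K₀ (M * q))) *
          (X : ↥(modularFunctionFieldFullC ↥K₀ (M * q))) ^ n := by
  obtain ⟨h₁, h₂, hX, hY, ⟨w, hw, hXY⟩, hgen⟩ := h
  have hgen' : NodesLocGen 𝔫.1 {algebraMap ↥(beta0Ring A K₀) ↥(zchClosure (A₀ := ↥(beta0Ring A K₀))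
      ({bgJ ↥K₀ (M * q)} : Set ↥(modularFunctionFieldFullC ↥K₀ (M * q)))) π, Y, X} := by
    have e1 : ({algebraMap ↥(beta0Ring A K₀) ↥(zchClosure (A₀ := ↥(beta0Ring A K₀))
        ({bgJ ↥K₀ (M * q)} : Set ↥(modularFunctionFieldFullC ↥K₀ (M * q)))) π, Y, X} :
        Set ↥(zchClosure (A₀ := ↥(beta0Ring A K₀))
        ({bgJ ↥K₀ (M * q)} : Set ↥(modularFunctionFieldFullC ↥K₀ (M * q))))) =
        {algebraMap ↥(beta0Ring A K₀) ↥(zchClosure (A₀ := ↥(beta0Ring A K₀))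
        ({bgJ ↥K₀ (M * q)} : Set ↥(modularFunctionFieldFullC ↥K₀ (M * q)))) π, X, Y} := by
      ext z
      simp only [Set.mem_insert_iff, Set.mem_singleton_iff]
      tauto
    rw [e1]
    exact hgen
  exact s59lpog_cross_fac_of hg hSS1 hU 𝔫
    ⟨h₂, h₁, hY, hX, ⟨w, hw, hXY.trans (mul_comm X Y)⟩, hgen'⟩

/-- **The Ogg unit is a unit of `(B_j)_𝔫`** at a smooth point of the chart `j` through which
only the component `V_∞` passes. -/
theorem s59lpog_smooth_unit_of {g : ↥(modularFunctionFieldFullC ↥K₀ (M * q))} {n : ℤ}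
    (hg : S59lpOgg hπ ιC hq hqM g n)
    [FiniteDimensional (↥K₀)⟮bgJ ↥K₀ (M * q)⟯ ↥(modularFunctionFieldFullC ↥K₀ (M * q))]
    [IsNoetherianRing ↥(zchClosure (A₀ := ↥(beta0Ring A K₀))
      ({bgJ ↥K₀ (M * q)} : Set ↥(modularFunctionFieldFullC ↥K₀ (M * q))))]
    (hSS1 : ∀ b : ↥(modularFunctionFieldFullC ↥K₀ (M * q)),
      IsIntegral ↥(Algebra.adjoin ↥(beta0Ring A K₀)
        ({bgJ ↥K₀ (M * q)} : Set ↥(modularFunctionFieldFullC ↥K₀ (M * q)))) b →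
      (∀ c, b ∈ (mgvV hπ ιC hq hqM c).nonunits) →
      ∃ b' : ↥(modularFunctionFieldFullC ↥K₀ (M * q)),
        IsIntegral ↥(Algebra.adjoin ↥(beta0Ring A K₀)
          ({bgJ ↥K₀ (M * q)} : Set ↥(modularFunctionFieldFullC ↥K₀ (M * q)))) b' ∧
        b = algebraMap ↥(beta0Ring A K₀) ↥(modularFunctionFieldFullC ↥K₀ (M * q)) π * b')
    (hU : ∀ c (x : ↥(modularFunctionFieldFullC ↥K₀ (M * q))),
      x ∈ (mgvV hπ ιC hq hqM c).nonunits → ∃ z ∈ mgvV hπ ιC hq hqM c,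
        x = algebraMap ↥(beta0Ring A K₀) ↥(modularFunctionFieldFullC ↥K₀ (M * q)) π * z)
    (𝔫 : AtPt (F := ↥(modularFunctionFieldFullC ↥K₀ (M * q))) π (bgJ ↥K₀ (M * q)))
    (hthr : atThrough 𝔫 (mgvV hπ ιC hq hqM true))
    (hone : ∀ c', atThrough 𝔫 (mgvV hπ ιC hq hqM c') → c' = true)
    {s : ↥(zchClosure (A₀ := ↥(beta0Ring A K₀))
      ({bgJ ↥K₀ (M * q)} : Set ↥(modularFunctionFieldFullC ↥K₀ (M * q))))} (hs : s ∈ 𝔫.1)
    (hgen : NodesLocGen 𝔫.1 {algebraMap ↥(beta0Ring A K₀) ↥(zchClosure (A₀ := ↥(beta0Ring A K₀))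
      ({bgJ ↥K₀ (M * q)} : Set ↥(modularFunctionFieldFullC ↥K₀ (M * q)))) π, s}) :
    ∃ ε : ↥(atLoc 𝔫), IsUnit ε ∧
      g = (ε : ↥(modularFunctionFieldFullC ↥K₀ (M * q))) := by
  obtain ⟨γ, ε, a, hε, hy, -, -, hv⟩ :=
    rtk6lfc_smooth_fac (E := ↥K₀) hπ (mgvV hπ ιC hq hqM)
      (mgv_hBV₁ hπ ιC hq hqM) (mgv_hπV hπ ιC hq hqM) hSS1 hU 𝔫 true hthr
      hone hs hgen 0 hg.ne_zero (s59lpog_hhor hg 𝔫)
  have hπ0 : algebraMap ↥(beta0Ring A K₀) ↥(modularFunctionFieldFullC ↥K₀ (M * q)) π ≠ 0 :=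
    ei_algebraMap_ne_zero (E := ↥K₀) hπ
  have ha : a = 0 := by
    rw [hg.val_true] at hv
    exact rtk6lfp_zpow_eq_one _ (mgv_hπV hπ ιC hq hqM true) hπ0 hv.symm
  exact ⟨ε, hε, by rw [hy, ha, zpow_zero, mul_one, pow_zero, mul_one]⟩

/-- **The Ogg unit at a smooth point of the chart `j`** through which only the component `V_0`
passes: `g = ε · π ^ n`. -/
theorem s59lpog_smooth_fac_of {g : ↥(modularFunctionFieldFullC ↥K₀ (M * q))} {n : ℤ}
    (hg : S59lpOgg hπ ιC hq hqM g n)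
    [FiniteDimensional (↥K₀)⟮bgJ ↥K₀ (M * q)⟯ ↥(modularFunctionFieldFullC ↥K₀ (M * q))]
    [IsNoetherianRing ↥(zchClosure (A₀ := ↥(beta0Ring A K₀))
      ({bgJ ↥K₀ (M * q)} : Set ↥(modularFunctionFieldFullC ↥K₀ (M * q))))]
    (hSS1 : ∀ b : ↥(modularFunctionFieldFullC ↥K₀ (M * q)),
      IsIntegral ↥(Algebra.adjoin ↥(beta0Ring A K₀)
        ({bgJ ↥K₀ (M * q)} : Set ↥(modularFunctionFieldFullC ↥K₀ (M * q)))) b →
      (∀ c, b ∈ (mgvV hπ ιC hq hqM c).nonunits) →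
      ∃ b' : ↥(modularFunctionFieldFullC ↥K₀ (M * q)),
        IsIntegral ↥(Algebra.adjoin ↥(beta0Ring A K₀)
          ({bgJ ↥K₀ (M * q)} : Set ↥(modularFunctionFieldFullC ↥K₀ (M * q)))) b' ∧
        b = algebraMap ↥(beta0Ring A K₀) ↥(modularFunctionFieldFullC ↥K₀ (M * q)) π * b')
    (hU : ∀ c (x : ↥(modularFunctionFieldFullC ↥K₀ (M * q))),
      x ∈ (mgvV hπ ιC hq hqM c).nonunits → ∃ z ∈ mgvV hπ ιC hq hqM c,
        x = algebraMap ↥(beta0Ring A K₀) ↥(modularFunctionFieldFullC ↥K₀ (M * q)) π * z)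
    (𝔫 : AtPt (F := ↥(modularFunctionFieldFullC ↥K₀ (M * q))) π (bgJ ↥K₀ (M * q)))
    (hthr : atThrough 𝔫 (mgvV hπ ιC hq hqM false))
    (hone : ∀ c', atThrough 𝔫 (mgvV hπ ιC hq hqM c') → c' = false)
    {s : ↥(zchClosure (A₀ := ↥(beta0Ring A K₀))
      ({bgJ ↥K₀ (M * q)} : Set ↥(modularFunctionFieldFullC ↥K₀ (M * q))))} (hs : s ∈ 𝔫.1)
    (hgen : NodesLocGen 𝔫.1 {algebraMap ↥(beta0Ring A K₀) ↥(zchClosure (A₀ := ↥(beta0Ring A K₀))
      ({bgJ ↥K₀ (M * q)} : Set ↥(modularFunctionFieldFullC ↥K₀ (M * q)))) π, s}) :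
    ∃ ε : ↥(atLoc 𝔫), IsUnit ε ∧
      g =
        (ε : ↥(modularFunctionFieldFullC ↥K₀ (M * q))) *
          algebraMap ↥(beta0Ring A K₀) ↥(modularFunctionFieldFullC ↥K₀ (M * q)) π ^ n := by
  obtain ⟨γ, ε, a, hε, hy, -, -, hv⟩ :=
    rtk6lfc_smooth_fac (E := ↥K₀) hπ (mgvV hπ ιC hq hqM)
      (mgv_hBV₁ hπ ιC hq hqM) (mgv_hπV hπ ιC hq hqM) hSS1 hU 𝔫 false hthr
      hone hs hgen 0 hg.ne_zero (s59lpog_hhor hg 𝔫)
  have hπ0 : algebraMap ↥(beta0Ring A K₀) ↥(modularFunctionFieldFullC ↥K₀ (M * q)) π ≠ 0 :=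
    ei_algebraMap_ne_zero (E := ↥K₀) hπ
  have ha : a = n := by
    rw [hg.val_false] at hv
    exact (tres5o_zpow_inj _ (mgv_hπV hπ ιC hq hqM false) hπ0 hv).symm
  exact ⟨ε, hε, by rw [hy, ha, pow_zero, mul_one]⟩

/-! ### concrete forms over `K₀ ⊇ ℚ̄^I` -/

/-- **The node formula for an Ogg datum**, concrete form. -/
theorem s59lpog_cross_fac {g : ↥(modularFunctionFieldFullC ↥K₀ (M * q))} {n : ℤ}
    (hg : S59lpOgg hπ ιC hq hqM g n) (hA : A.LiesOverPrime q) (hE : beta0Field A ≤ K₀)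
    (h2 : q = 2 → 3 ∣ M) (h3 : q = 3 → 2 ∣ M)
    [IsNoetherianRing ↥(zchClosure (A₀ := ↥(beta0Ring A K₀))
      ({bgJ ↥K₀ (M * q)} : Set ↥(modularFunctionFieldFullC ↥K₀ (M * q))))]
    (𝔫 : AtPt (F := ↥(modularFunctionFieldFullC ↥K₀ (M * q))) π (bgJ ↥K₀ (M * q)))
    {X Y : ↥(zchClosure (A₀ := ↥(beta0Ring A K₀))
      ({bgJ ↥K₀ (M * q)} : Set ↥(modularFunctionFieldFullC ↥K₀ (M * q))))}
    (h : Rtk6lfCrossAt (mgvV hπ ιC hq hqM true) (mgvV hπ ιC hq hqM false) 𝔫 X Y) :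
    ∃ ε : ↥(atLoc 𝔫), IsUnit ε ∧
      g =
        (ε : ↥(modularFunctionFieldFullC ↥K₀ (M * q))) *
          (Y : ↥(modularFunctionFieldFullC ↥K₀ (M * q))) ^ n := by
  haveI := ribmp_fc_fin (K₀ := K₀) (M * q)
  exact s59lpog_cross_fac_of hg (ribmp_fc_hSS1 hπ ιC hq hqM hA hE h2 h3)
    (ribmp_fc_hU hπ ιC hq hqM) 𝔫 h

/-- **The node formula for an Ogg datum**, concrete form, other orientation. -/
theorem s59lpog_cross_fac' {g : ↥(modularFunctionFieldFullC ↥K₀ (M * q))} {n : ℤ}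
    (hg : S59lpOgg hπ ιC hq hqM g n) (hA : A.LiesOverPrime q) (hE : beta0Field A ≤ K₀)
    (h2 : q = 2 → 3 ∣ M) (h3 : q = 3 → 2 ∣ M)
    [IsNoetherianRing ↥(zchClosure (A₀ := ↥(beta0Ring A K₀))
      ({bgJ ↥K₀ (M * q)} : Set ↥(modularFunctionFieldFullC ↥K₀ (M * q))))]
    (𝔫 : AtPt (F := ↥(modularFunctionFieldFullC ↥K₀ (M * q))) π (bgJ ↥K₀ (M * q)))
    {X Y : ↥(zchClosure (A₀ := ↥(beta0Ring A K₀))
      ({bgJ ↥K₀ (M * q)} : Set ↥(modularFunctionFieldFullC ↥K₀ (M * q))))}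
    (h : Rtk6lfCrossAt (mgvV hπ ιC hq hqM false) (mgvV hπ ιC hq hqM true) 𝔫 X Y) :
    ∃ ε : ↥(atLoc 𝔫), IsUnit ε ∧
      g =
        (ε : ↥(modularFunctionFieldFullC ↥K₀ (M * q))) *
          (X : ↥(modularFunctionFieldFullC ↥K₀ (M * q))) ^ n := by
  haveI := ribmp_fc_fin (K₀ := K₀) (M * q)
  exact s59lpog_cross_fac_of' hg (ribmp_fc_hSS1 hπ ιC hq hqM hA hE h2 h3)
    (ribmp_fc_hU hπ ιC hq hqM) 𝔫 h

/-- **An Ogg datum is a unit** at a smooth point on the component `V_∞`, concrete form. -/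
theorem s59lpog_smooth_unit {g : ↥(modularFunctionFieldFullC ↥K₀ (M * q))} {n : ℤ}
    (hg : S59lpOgg hπ ιC hq hqM g n) (hA : A.LiesOverPrime q) (hE : beta0Field A ≤ K₀)
    (h2 : q = 2 → 3 ∣ M) (h3 : q = 3 → 2 ∣ M)
    [IsNoetherianRing ↥(zchClosure (A₀ := ↥(beta0Ring A K₀))
      ({bgJ ↥K₀ (M * q)} : Set ↥(modularFunctionFieldFullC ↥K₀ (M * q))))]
    (𝔫 : AtPt (F := ↥(modularFunctionFieldFullC ↥K₀ (M * q))) π (bgJ ↥K₀ (M * q)))
    (hthr : atThrough 𝔫 (mgvV hπ ιC hq hqM true))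
    (hone : ∀ c', atThrough 𝔫 (mgvV hπ ιC hq hqM c') → c' = true)
    {s : ↥(zchClosure (A₀ := ↥(beta0Ring A K₀))
      ({bgJ ↥K₀ (M * q)} : Set ↥(modularFunctionFieldFullC ↥K₀ (M * q))))} (hs : s ∈ 𝔫.1)
    (hgen : NodesLocGen 𝔫.1 {algebraMap ↥(beta0Ring A K₀) ↥(zchClosure (A₀ := ↥(beta0Ring A K₀))
      ({bgJ ↥K₀ (M * q)} : Set ↥(modularFunctionFieldFullC ↥K₀ (M * q)))) π, s}) :
    ∃ ε : ↥(atLoc 𝔫), IsUnit ε ∧
      g = (ε : ↥(modularFunctionFieldFullC ↥K₀ (M * q))) := by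
  haveI := ribmp_fc_fin (K₀ := K₀) (M * q)
  exact s59lpog_smooth_unit_of hg (ribmp_fc_hSS1 hπ ιC hq hqM hA hE h2 h3)
    (ribmp_fc_hU hπ ιC hq hqM) 𝔫 hthr hone hs hgen

/-- **An Ogg datum at a smooth point on the component `V_0`**, concrete form. -/
theorem s59lpog_smooth_fac {g : ↥(modularFunctionFieldFullC ↥K₀ (M * q))} {n : ℤ}
    (hg : S59lpOgg hπ ιC hq hqM g n) (hA : A.LiesOverPrime q) (hE : beta0Field A ≤ K₀)
    (h2 : q = 2 → 3 ∣ M) (h3 : q = 3 → 2 ∣ M)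
    [IsNoetherianRing ↥(zchClosure (A₀ := ↥(beta0Ring A K₀))
      ({bgJ ↥K₀ (M * q)} : Set ↥(modularFunctionFieldFullC ↥K₀ (M * q))))]
    (𝔫 : AtPt (F := ↥(modularFunctionFieldFullC ↥K₀ (M * q))) π (bgJ ↥K₀ (M * q)))
    (hthr : atThrough 𝔫 (mgvV hπ ιC hq hqM false))
    (hone : ∀ c', atThrough 𝔫 (mgvV hπ ιC hq hqM c') → c' = false)
    {s : ↥(zchClosure (A₀ := ↥(beta0Ring A K₀))
      ({bgJ ↥K₀ (M * q)} : Set ↥(modularFunctionFieldFullC ↥K₀ (M * q))))} (hs : s ∈ 𝔫.1)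
    (hgen : NodesLocGen 𝔫.1 {algebraMap ↥(beta0Ring A K₀) ↥(zchClosure (A₀ := ↥(beta0Ring A K₀))
      ({bgJ ↥K₀ (M * q)} : Set ↥(modularFunctionFieldFullC ↥K₀ (M * q)))) π, s}) :
    ∃ ε : ↥(atLoc 𝔫), IsUnit ε ∧
      g =
        (ε : ↥(modularFunctionFieldFullC ↥K₀ (M * q))) *
          algebraMap ↥(beta0Ring A K₀) ↥(modularFunctionFieldFullC ↥K₀ (M * q)) π ^ n := by
  haveI := ribmp_fc_fin (K₀ := K₀) (M * q)
  exact s59lpog_smooth_fac_of hg (ribmp_fc_hSS1 hπ ιC hq hqM hA hE h2 h3)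
    (ribmp_fc_hU hπ ιC hq hqM) 𝔫 hthr hone hs hgen

end Mgv

end Fermat.Agent.S59

end
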