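/-
S59, wall M4 (LOWER-P at `p = 3`), leaf RIG-EVEN (helper52).

FAC-RIG of row 38 (`R38/TresRig.lean`, helper35: the `k`-side descent from the rigid level
`lcm (M, 4)`) was written for characteristic `p ≥ 5`: the tower `F̄_M ⊂ F̄_{2M} ⊂ F̄_{4M}` has steps
of degree `≤ ℓ + 1 = 3 < p`.  At `p = 3` the step of degree `3` can be wildly ramified (study
NOTES/S59-p3/tres-helper10.md, 1 (b)).  For an EVEN level `M` every step `M → 2 M` has degree
`≤ 2 < 3` (`ψ (2 M) = 2 ψ (M)` for `2 ∣ M`), so FAC-RIG holds for every odd `p`.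

* `s59lprig_relrank_step_dvd` : `ℓ ∣ M` ⇒ `[F̄_{ℓ M} : F̄_M] ≤ ℓ`;
* `s59lprig_up_step_dvd`, `s59lprig_up_pow_dvd` : the lifting property `TresRigUp k p M (ℓ ^ a * M)`
  for `ℓ ∣ M`, `ℓ < p`;
* `s59lprig_up_two_pow` : `TresRigUp k p M (2 ^ a * M)` for `p ≠ 2` and (`5 ≤ p` or `2 ∣ M`);
* `s59lprig_up_lcm_four`, `s59lprig_up_mul_four` : the rigid levels `lcm (M, 4)`, `M * 4`;
* `s59lprig_descent_lcm_four`, `s59lprig_descent_mul_four` : FAC-RIG (literal shape of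
  `R38.tresrig_descent_lcm_four`) with `(hp2 : p ≠ 2) (h : 5 ≤ p ∨ 2 ∣ M)` in place of `5 ≤ p`.
-/
import Fermat.Agent.R38.TresRig

set_option autoImplicit false
set_option linter.unusedSectionVars false
set_option linter.unusedVariables false

noncomputable section

namespace Fermat.Agent.S59

open AlgebraicCurve ModularCurve Fermat.Agent.S24 Fermat.Agent.S28 Fermat.Agent.R38

section Mod

variable (k : Type*) [Field k]

/-- the degree of one step `M → ℓ M` of the tower is at most `ℓ` when `ℓ ∣ M` -/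
theorem s59lprig_relrank_step_dvd {ℓ M : ℕ} (hℓ : ℓ.Prime) (hM : M ≠ 0) (hℓM : ℓ ∣ M)
    (hΦ : ∀ r (hr : r.Prime), r ∣ ℓ * M → @UB.ModEq k _ r ⟨hr.ne_zero⟩) :
    ∃ n : ℕ, n ≤ ℓ ∧
      (modularFunctionFieldFullC k M).relrank (modularFunctionFieldFullC k (ℓ * M)) =
        (n : Cardinal) := by
  have hstep := UB.relrank_step k hℓ hM hΦ
  have hψ0 := tresrig_psi_ne_zero hM
  have hψ : dedekindPsi (ℓ * M) = ℓ * dedekindPsi M := UB.psi_mul_of_dvd hℓ hℓM hM
  set c := (modularFunctionFieldFullC k M).relrank (modularFunctionFieldFullC k (ℓ * M)) with hc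
  have hcle : c ≤ c * (dedekindPsi M : Cardinal) :=
    Cardinal.le_mul_right (Nat.cast_ne_zero.mpr hψ0)
  have hfin : c < Cardinal.aleph0 := (hcle.trans hstep).trans_lt (Cardinal.natCast_lt_aleph0)
  obtain ⟨n, hn⟩ := Cardinal.lt_aleph0.mp hfin
  refine ⟨n, ?_, hn⟩
  rw [hn] at hstep
  have h2 : n * dedekindPsi M ≤ dedekindPsi (ℓ * M) := by exact_mod_cast hstep
  rw [hψ] at h2
  exact Nat.le_of_mul_le_mul_right h2 (Nat.pos_of_ne_zero hψ0)

/-- one step `M → ℓ M` with `ℓ ∣ M` and `ℓ < p` -/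
theorem s59lprig_up_step_dvd {p ℓ M : ℕ} (hp : p.Prime) [CharP k p] (hℓ : ℓ.Prime) (hℓp : ℓ < p)
    (hM : M ≠ 0) (hℓM : ℓ ∣ M) : TresRigUp k p M (ℓ * M) := by
  intro Q
  have hAB : modularFunctionFieldFullC k M ≤ modularFunctionFieldFullC k (ℓ * M) :=
    UB.full_mono k (Dvd.intro_left ℓ rfl)
  obtain ⟨n, hn, hrel⟩ := s59lprig_relrank_step_dvd k hℓ hM hℓM
    (fun r hr _ => @ub_modEq k _ r ⟨hr.ne_zero⟩ hr)
  have hfin : (modularFunctionFieldFullC k M).relrank (modularFunctionFieldFullC k (ℓ * M)) <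
      Cardinal.aleph0 := by
    rw [hrel]
    exact Cardinal.natCast_lt_aleph0
  have hlt : (modularFunctionFieldFullC k M).relfinrank (modularFunctionFieldFullC k (ℓ * M)) <
      p := by
    rw [IntermediateField.relfinrank_eq_toNat_relrank, hrel, Cardinal.toNat_natCast]
    omega
  exact tresrig_if_step hAB p hp hfin hlt Q

/-- the tower `M → ℓ ^ a * M` with `ℓ ∣ M` and `ℓ < p` -/
theorem s59lprig_up_pow_dvd {p ℓ M : ℕ} (hp : p.Prime) [CharP k p] (hℓ : ℓ.Prime) (hℓp : ℓ < p)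
    (hM : M ≠ 0) (hℓM : ℓ ∣ M) (a : ℕ) : TresRigUp k p M (ℓ ^ a * M) := by
  induction a with
  | zero =>
    rw [pow_zero, one_mul]
    exact tresrig_up_refl k hp M
  | succ a ih =>
    have e : ℓ ^ (a + 1) * M = ℓ * (ℓ ^ a * M) := by ring
    rw [e]
    exact tresrig_up_trans k hp (Dvd.intro_left _ rfl) ih
      (s59lprig_up_step_dvd k hp hℓ hℓp (mul_ne_zero (pow_ne_zero _ hℓ.ne_zero) hM)
        (hℓM.mul_left _))

/-- **the tower at `2`**, every odd characteristic: `p ≥ 5`, or `p = 3` and `M` even. -/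
theorem s59lprig_up_two_pow {p M : ℕ} (hp : p.Prime) [CharP k p] (hp2 : p ≠ 2)
    (h : 5 ≤ p ∨ 2 ∣ M) (hM : M ≠ 0) (a : ℕ) : TresRigUp k p M (2 ^ a * M) := by
  rcases h with h5 | h2
  · exact tresrig_up_pow k hp Nat.prime_two (by omega) hM a
  · have h2p : 2 < p := lt_of_le_of_ne hp.two_le (Ne.symm hp2)
    exact s59lprig_up_pow_dvd k hp Nat.prime_two h2p hM h2 a

/-- the rigid level `lcm (M, 4)`, every odd characteristic (`M` even if `p = 3`) -/
theorem s59lprig_up_lcm_four {p M : ℕ} (hp : p.Prime) [CharP k p] (hp2 : p ≠ 2)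
    (h : 5 ≤ p ∨ 2 ∣ M) (hM : M ≠ 0) : TresRigUp k p M (Nat.lcm M 4) := by
  obtain ⟨a, ha⟩ := tresrig_lcm_four M
  rw [ha, pow_zero, one_mul]
  exact s59lprig_up_two_pow k hp hp2 h hM a

/-- the level `M * 4`, every odd characteristic (`M` even if `p = 3`) -/
theorem s59lprig_up_mul_four {p M : ℕ} (hp : p.Prime) [CharP k p] (hp2 : p ≠ 2)
    (h : 5 ≤ p ∨ 2 ∣ M) (hM : M ≠ 0) : TresRigUp k p M (M * 4) := by
  have e : M * 4 = 2 ^ 2 * M := by ring
  rw [e]
  exact s59lprig_up_two_pow k hp hp2 h hM 2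

/-- **FAC-RIG** for the rigid level `lcm (M, 4)`, every odd characteristic (`M` even if
`p = 3`): the literal shape of `R38.tresrig_descent_lcm_four`. -/
theorem s59lprig_descent_lcm_four {p M : ℕ} (hp : p.Prime) [CharP k p] (hp2 : p ≠ 2)
    (h5 : 5 ≤ p ∨ 2 ∣ M) (hM : M ≠ 0)
    (r h : LaurentSeries k) (hr : r ∈ modularFunctionFieldFullC k M)
    (hh : h ∈ modularFunctionFieldFullC k M) (c d : ℤ)
    (H : ∀ Q' : Place k (modularFunctionFieldFullC k (Nat.lcm M 4)),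
      0 ≤ Q'.ord (⟨jqModC k, jqModC_mem_full k _⟩ : modularFunctionFieldFullC k (Nat.lcm M 4)) →
      (p : ℤ) ∣ c * Q'.ord (⟨r, UB.full_mono k (Nat.dvd_lcm_left M 4) hr⟩ :
          modularFunctionFieldFullC k (Nat.lcm M 4)) -
        d * Q'.ord (⟨h, UB.full_mono k (Nat.dvd_lcm_left M 4) hh⟩ :
          modularFunctionFieldFullC k (Nat.lcm M 4)))
    (Hc : ∀ Q' : Place k (modularFunctionFieldFullC k (Nat.lcm M 4)),
      Q'.ord (⟨jqModC k, jqModC_mem_full k _⟩ : modularFunctionFieldFullC k (Nat.lcm M 4)) < 0 →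
      (p : ℤ) ∣ Q'.ord (⟨r, UB.full_mono k (Nat.dvd_lcm_left M 4) hr⟩ :
          modularFunctionFieldFullC k (Nat.lcm M 4))) :
    (∀ Q : Place k (modularFunctionFieldFullC k M),
      0 ≤ Q.ord (⟨jqModC k, jqModC_mem_full k M⟩ : modularFunctionFieldFullC k M) →
      (p : ℤ) ∣ c * Q.ord (⟨r, hr⟩ : modularFunctionFieldFullC k M) -
        d * Q.ord (⟨h, hh⟩ : modularFunctionFieldFullC k M)) ∧
    (∀ Q : Place k (modularFunctionFieldFullC k M),
      Q.ord (⟨jqModC k, jqModC_mem_full k M⟩ : modularFunctionFieldFullC k M) < 0 →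
      (p : ℤ) ∣ Q.ord (⟨r, hr⟩ : modularFunctionFieldFullC k M)) :=
  tresrig_descent_of_up k hp (Nat.dvd_lcm_left M 4) (s59lprig_up_lcm_four k hp hp2 h5 hM)
    r h hr hh c d H Hc

/-- **FAC-RIG** for the level `M * 4`, every odd characteristic (`M` even if `p = 3`). -/
theorem s59lprig_descent_mul_four {p M : ℕ} (hp : p.Prime) [CharP k p] (hp2 : p ≠ 2)
    (h5 : 5 ≤ p ∨ 2 ∣ M) (hM : M ≠ 0)
    (r h : LaurentSeries k) (hr : r ∈ modularFunctionFieldFullC k M)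
    (hh : h ∈ modularFunctionFieldFullC k M) (c d : ℤ)
    (H : ∀ Q' : Place k (modularFunctionFieldFullC k (M * 4)),
      0 ≤ Q'.ord (⟨jqModC k, jqModC_mem_full k _⟩ : modularFunctionFieldFullC k (M * 4)) →
      (p : ℤ) ∣ c * Q'.ord (⟨r, UB.full_mono k (Dvd.intro 4 rfl) hr⟩ :
          modularFunctionFieldFullC k (M * 4)) -
        d * Q'.ord (⟨h, UB.full_mono k (Dvd.intro 4 rfl) hh⟩ :
          modularFunctionFieldFullC k (M * 4)))
    (Hc : ∀ Q' : Place k (modularFunctionFieldFullC k (M * 4)),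
      Q'.ord (⟨jqModC k, jqModC_mem_full k _⟩ : modularFunctionFieldFullC k (M * 4)) < 0 →
      (p : ℤ) ∣ Q'.ord (⟨r, UB.full_mono k (Dvd.intro 4 rfl) hr⟩ :
          modularFunctionFieldFullC k (M * 4))) :
    (∀ Q : Place k (modularFunctionFieldFullC k M),
      0 ≤ Q.ord (⟨jqModC k, jqModC_mem_full k M⟩ : modularFunctionFieldFullC k M) →
      (p : ℤ) ∣ c * Q.ord (⟨r, hr⟩ : modularFunctionFieldFullC k M) -
        d * Q.ord (⟨h, hh⟩ : modularFunctionFieldFullC k M)) ∧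
    (∀ Q : Place k (modularFunctionFieldFullC k M),
      Q.ord (⟨jqModC k, jqModC_mem_full k M⟩ : modularFunctionFieldFullC k M) < 0 →
      (p : ℤ) ∣ Q.ord (⟨r, hr⟩ : modularFunctionFieldFullC k M)) :=
  tresrig_descent_of_up k hp (Dvd.intro 4 rfl) (s59lprig_up_mul_four k hp hp2 h5 hM)
    r h hr hh c d H Hc

end Mod

end Fermat.Agent.S59
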