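/-
S59, wall M4 (LOWER-P at `p = 3`), leaf COVER3 (helper89), part 4: THE TOP — the COVER case of
FAC-MONO for an odd prime `p` with `5 ≤ p ∨ 2 ∣ M`, over an ABSTRACT Ogg unit `(g, e, hb)`.

Frame (as in `R38/TresMonoTopA.lean`): rigid level `M * 4`, `K = ℚ̄^I = beta0Field A`, `π = p`
(`beta0Ring_irreducible_q`), `ιC = mgdIota K`, `hRedF = stmtRedF (M * 4) A p …`.

* `S59lpcvBlock …` : THE COVER BLOCK for one class `x` (the body of `R38.StmtMonoCoverData`, with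
  `(g, e)` in place of `(s36tuV, 12)`);
* `s59lpcv_block`   : (β) — the cover block holds (twin of `R38.stmtMonoCoverData`; the `T`-instance
  via (IN d) `s59lpt_hw_mul_four` of helper16 / helper52, the core `s59lpcv_core`);
* `s59lpcv_cover_ord` : (α) + (β) — **the order clauses `S59lpcvOrd M p A x hb`** from
    - `he   : ¬ p ∣ e`,
    - `hg   : S59lpcvOggNode … g e`           (local shape at the smooth points and thin nodes),
    - `hval : v_∞(g) = 1`, `hρg : ρ_F(g) = hb`, `hb ∈ F̄_M` (and `∈ F̄_{4M}`),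
  with (RIG) from helper52's `s59lprig_up_mul_four`;
* `s59lpcv_cover`   : with the strong Hecke clause for `hb`: `R38.FacMonoConcl M p A x`;
* `s59lpcv_oggNode_of_ogg` : helper16's abstract Ogg datum `S59lpOgg … g e` gives `hg`.
-/
import Fermat.Agent.S59.LowP.Cover3Core
import Fermat.Agent.S59.LowP.Cover3Frame
import Fermat.Agent.S59.LowP.RigEven
import Fermat.Agent.S59.LowP.InFourT
import Fermat.Agent.S59.LowP.OggAbs
import Fermat.Agent.R38.TresMonoTopA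
import Fermat.Agent.R38.TresBigInstT
import Fermat.Agent.R38.TresBigInstInC
import Fermat.Agent.R38.TresMonoTopC
import Fermat.Agent.R38.TresKFormInstC
import Fermat.Agent.R38.TresMonoTopJ
import Fermat.Agent.R38.TresLine
import Fermat.Agent.R38.TresDeckEx

set_option autoImplicit false
set_option linter.unusedSectionVars false
set_option linter.unusedVariables false
set_option linter.style.haveILetI false
set_option linter.style.longLine false
set_option synthInstance.maxHeartbeats 400000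
set_option maxHeartbeats 1600000

attribute [local instance 100000] Algebra.ofSubsemiring

noncomputable section

namespace Fermat.Agent.S59

open ModularCurve AlgebraicCurve IntermediateField Polynomial Fermat.Agent.INJ Fermat.Agent.UNIP
  Fermat.Agent.STB Fermat.Agent.S36 Fermat.Agent.S33 Fermat.Agent.RIB.MP Fermat.Agent.RT.K6
  Fermat.Agent.AL Fermat.Agent.ES Fermat.Agent.ES.G2 Fermat.Agent.ES.M
  Fermat.Agent.DEU Fermat.Agent.S24 Fermat.Agent.S28 Fermat.Agent.S15 Fermat.Agent.W1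
  Fermat.Agent.RIB ExtCitation Fermat.Agent.R38

/-- helper16's abstract Ogg datum (`S59/LowP/OggAbs.lean`) with a natural exponent has the local
shape used by the cover block -/
theorem s59lpcv_oggNode_of_ogg {A : ValuationSubring R38.Qb} {q M : ℕ} [NeZero q] [NeZero M]
    [NeZero (M * q)] [IsDiscreteValuationRing ↥(beta0Ring A (beta0Field A))]
    {π : ↥(beta0Ring A (beta0Field A))} (hπ : Irreducible π)
    (ιC : ↥(beta0Field A) →+* ℂ) (hq : q.Prime) (hqM : ¬ q ∣ M) (hA : A.LiesOverPrime q)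
    (rigid : (q ≠ 2 → 4 ∣ M) ∧ (q = 2 → 9 ∣ M))
    {g : ↥(modularFunctionFieldFullC ↥(beta0Field A) (M * q))} {e : ℕ}
    (hg : S59lpOgg hπ ιC hq hqM g (e : ℤ)) :
    S59lpcvOggNode hπ ιC hq hqM g e := by
  haveI := rtk6lfb_noeth_J (A := A) (K₀ := beta0Field A) (M := M) (q := q)
  have h2 := rtk6lfb_rigid_h2 rigid
  have h3 := rtk6lfb_rigid_h3 rigid
  refine ⟨fun 𝔫 hthr hone s hs hgen => ?_, fun 𝔫 X Y hcross => ?_⟩
  · exact s59lpog_smooth_unit hg hA (le_refl (beta0Field A)) h2 h3 𝔫 hthr hone hs hgen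
  · obtain ⟨ε', hε', hh⟩ := s59lpog_cross_fac hg hA (le_refl (beta0Field A)) h2 h3 𝔫 hcross
    exact ⟨ε', hε', by rw [hh, zpow_natCast]⟩

section Top

variable {M p : ℕ} [NeZero M] [NeZero p] [NeZero (M * p)] [NeZero (M * 4)] [NeZero (M * 4 * p)]

/-- **THE COVER BLOCK for the class `x`**, abstract Ogg unit `(g, e)`: the body of
`R38.StmtMonoCoverData`. -/
def S59lpcvBlock (hp : p.Prime) (hpM4 : ¬ p ∣ M * 4)
    (A : ValuationSubring R38.Qb) (hA : A.LiesOverPrime p)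
    [IsDiscreteValuationRing ↥(beta0Ring A (beta0Field A))]
    (g : ↥(modularFunctionFieldFullC ↥(beta0Field A) (M * 4 * p))) (e : ℕ)
    (x : JZero (M * p)) : Prop :=
  ∃ (u : modularFunctionFieldBar (M * p)) (r : LaurentSeries (kA A))
    (L : Type) (_ : Field L)
    (_ : Algebra ↥(modularFunctionFieldFullC ↥(beta0Field A) (M * 4 * p)) L)
    (W : ValuationSubring L)
    (ρW : ↥W →+* ↥(modularFunctionFieldFullC (kA A) (M * 4)))
    (y : L) (hy : W.valuation y = 1) (c : ℤ),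
    KummerRel p x u ∧ R38Red A (u : LaurentSeries R38.Qb) r ∧
    -- `W` lies over `V_∞`, `ρ_W` extends `ρ_F` and kills `𝔪_W`
    W.comap (algebraMap ↥(modularFunctionFieldFullC ↥(beta0Field A) (M * 4 * p)) L) =
      mgvV (beta0Ring_irreducible_q (A := A) hp hA) (mgdIota (beta0Field A)) hp hpM4 true ∧
    (∀ (a : ↥(modularFunctionFieldFullC ↥(beta0Field A) (M * 4 * p)))
      (ha : a ∈ mgvV (beta0Ring_irreducible_q (A := A) hp hA) (mgdIota (beta0Field A))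
        hp hpM4 true)
      (haW : algebraMap ↥(modularFunctionFieldFullC ↥(beta0Field A) (M * 4 * p)) L a ∈ W),
      ρW ⟨algebraMap ↥(modularFunctionFieldFullC ↥(beta0Field A) (M * 4 * p)) L a, haW⟩ =
        ribmpRedF hp hpM4 hA (beta0Ring_irreducible_q (A := A) hp hA)
          (mgdIota (beta0Field A)) (stmtRedF (M * 4) A p hp hpM4 hA) ⟨a, ha⟩) ∧
    (∀ x : ↥W, (x : L) ∈ W.nonunits → ρW x = 0) ∧
    -- (I3) `hfin` : the closed points of the chart `j`
    (∀ 𝔫 : AtPt (F := ↥(modularFunctionFieldFullC ↥(beta0Field A) (M * 4 * p)))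
        ((p : ℕ) : ↥(beta0Ring A (beta0Field A))) (bgJ ↥(beta0Field A) (M * 4 * p)),
      ∀ T : ValuationSubring L,
      (∀ x ∈ atLoc 𝔫,
        algebraMap ↥(modularFunctionFieldFullC ↥(beta0Field A) (M * 4 * p)) L x ∈ T) →
      (∀ x ∈ T, x ∈ W) →
      ∃ O' : Subring L, (∀ x ∈ O', x ∈ T) ∧
        TresMonoPt W O' p c (e : ℤ) y
          (algebraMap ↥(modularFunctionFieldFullC ↥(beta0Field A) (M * 4 * p)) L g)) ∧
    -- (I4) `hcusp` : the cusps (chart `1 / j`)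
    (∀ 𝔫 : AtPt (F := ↥(modularFunctionFieldFullC ↥(beta0Field A) (M * 4 * p)))
        ((p : ℕ) : ↥(beta0Ring A (beta0Field A))) (bgJ ↥(beta0Field A) (M * 4 * p))⁻¹,
      ∀ T : ValuationSubring L,
      (∀ x ∈ atLoc 𝔫,
        algebraMap ↥(modularFunctionFieldFullC ↥(beta0Field A) (M * 4 * p)) L x ∈ T) →
      (∀ x ∈ T, x ∈ W) →
      (∀ b : ↥(zchClosure (A₀ := ↥(beta0Ring A (beta0Field A)))
          ({(bgJ ↥(beta0Field A) (M * 4 * p))⁻¹} :
            Set ↥(modularFunctionFieldFullC ↥(beta0Field A) (M * 4 * p)))),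
        (b : ↥(modularFunctionFieldFullC ↥(beta0Field A) (M * 4 * p))) =
          (bgJ ↥(beta0Field A) (M * 4 * p))⁻¹ → b ∈ 𝔫.1) →
      ∃ O' : Subring L, (∀ x ∈ O', x ∈ T) ∧ StbFacAt O' p y) ∧
    -- (I6) `hcmp` : the comparison of the two reductions
    (∃ (hr' : r ∈ modularFunctionFieldFullC (kA A) (M * 4)) (a : kA A)
      (s : ↥(modularFunctionFieldFullC (kA A) (M * 4))), a ≠ 0 ∧ s ≠ 0 ∧
      (⟨r, hr'⟩ : ↥(modularFunctionFieldFullC (kA A) (M * 4))) =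
        algebraMap (kA A) ↥(modularFunctionFieldFullC (kA A) (M * 4)) a *
          ρW ⟨y, tresdn_mem W hy⟩ * s ^ p)

/-- **(β): THE COVER BLOCK holds** for an odd prime `p`, `5 ≤ p ∨ 2 ∣ M`, and an abstract Ogg unit
with the local shape `S59lpcvOggNode`.  Twin of `R38.stmtMonoCoverData`. -/
theorem s59lpcv_block [Fact p.Prime] (hp : p.Prime) (hpM : ¬ p ∣ M) (hpM4 : ¬ p ∣ M * 4)
    (hp2 : p ≠ 2) (h52 : 5 ≤ p ∨ 2 ∣ M)
    (A : ValuationSubring R38.Qb) (hA : A.LiesOverPrime p)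
    [IsDiscreteValuationRing ↥(beta0Ring A (beta0Field A))]
    {g : ↥(modularFunctionFieldFullC ↥(beta0Field A) (M * 4 * p))} {e : ℕ}
    (hg : S59lpcvOggNode (beta0Ring_irreducible_q (A := A) hp hA) (mgdIota (beta0Field A))
      hp hpM4 g e)
    (x : JZero (M * p)) (hx : p • x = 0) (hα : stbPushAlpha M p x = 0)
    (hβ : stbPushBeta M p x = 0) (hpeu : PeuFixed A p x)
    (σ₀ : Gal(R38.Qb/ℚ)) (hσ₀ : σ₀ ∈ A.inertiaSubgroupIn ℚ) (hz : σ₀ • x - x ≠ 0)
    (hpz : p • (σ₀ • x - x) = 0)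
    (hzα : stbPushAlpha M p (σ₀ • x - x) = 0) (hzβ : stbPushBeta M p (σ₀ • x - x) = 0)
    (htriv : TrivInf A p (σ₀ • x - x))
    (htor : ∀ τ ∈ A.inertiaSubgroupIn ℚ, τ • (σ₀ • x - x) = cycloExp p τ • (σ₀ • x - x))
    (hspan : ∀ σ ∈ A.inertiaSubgroupIn ℚ, ∃ k : ℤ, σ • x - x = k • (σ₀ • x - x)) :
    S59lpcvBlock hp hpM4 A hA g e x := by
  classical
  have hp3 : 3 ≤ p := by
    have := hp.two_le
    omega
  have h3M : p = 3 → 2 ∣ M * 4 := fun _ => Dvd.intro_left (M * 2) (by ring)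
  have hπ₀ := beta0Ring_irreducible_q (A := A) hp hA
  -- the Kummer function of `x` and its Gauss reduction
  obtain ⟨u, hu⟩ := exists_kummerRel (n := p) hx
  obtain ⟨r, -, hred⟩ := tresmi5_main hp hpM hA u hu.ne_zero
  -- the Kummer function of `z₀ = σ₀ x − x` and its `p`-th root
  have hw : KummerRel p (σ₀ • x - x) (gcInertiaOp (M * p) σ₀ u) := tresline_kummer hu σ₀
  obtain ⟨y, hy⟩ := tresdesc_exists_root hp.ne_zero hw
  have hle : modularFunctionFieldBar (M * p) ≤ modularFunctionFieldBar (M * 4 * p) :=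
    stb_d_le M p 4
  -- (IN)
  have hdivw : ∀ P : Place R38.Qb (modularFunctionFieldBar (M * 4 * p)),
      (p : ℤ) ∣ P.ord (⟨((gcInertiaOp (M * p) σ₀ u : modularFunctionFieldBar (M * p)) :
        LaurentSeries NfQb), hle (gcInertiaOp (M * p) σ₀ u).2⟩ :
          modularFunctionFieldBar (M * 4 * p)) :=
    fun P => tresdesck_up_hdiv M p 4 hw hle P
  have hsplit : IsSplitFn hp hpM4 A
      (⟨((gcInertiaOp (M * p) σ₀ u : modularFunctionFieldBar (M * p)) : LaurentSeries NfQb),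
        hle (gcInertiaOp (M * p) σ₀ u).2⟩ : modularFunctionFieldBar (M * 4 * p)) :=
    tres5binc_hsplit M p 4 hpM hpM4 A hA hle (σ₀ • x - x) hzα hzβ htriv
      (gcInertiaOp (M * p) σ₀ u) hw
  have hnp : ∀ c : ↥(modularFunctionFieldBar (M * 4 * p)),
      c ^ p ≠ (⟨((gcInertiaOp (M * p) σ₀ u : modularFunctionFieldBar (M * p)) :
        LaurentSeries NfQb), hle (gcInertiaOp (M * p) σ₀ u).2⟩ :
          modularFunctionFieldBar (M * 4 * p)) :=
    s59lpt_hw_mul_four hp hp2 h52 hw hz hle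
  -- the `T`-instance
  obtain ⟨K₀', hK₀', hdesc⟩ := tres5bit_descend hp hpM4 hp3 h3M A hA hw hy
    hle htor hdivw hsplit hnp
  obtain ⟨K₁, nf, gal, dvr1, dvr0, ζ, hK₁le, hζ⟩ := tres5bit_exists hp A hA K₀' hK₀'
  haveI := nf
  haveI := gal
  haveI := dvr1
  obtain ⟨π₁, hπ₁⟩ := IsDiscreteValuationRing.exists_irreducible ↥(mgcA A K₁)
  obtain ⟨u₀, yE, hyE, S, hfracY, T, ρK, hKum, hnine, hshape⟩ :=
    hdesc K₁ hK₁le hπ₁ hπ₀ (mgdIota (mgcE A K₁)) (mgdIota (beta0Field A)) hζ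
  obtain ⟨hu₀, hyu, hw', hSζ, hSπ, hSw, hSy, hsh⟩ := hKum
  obtain ⟨hTπ, hTc, hTz, hTW, hGauss, hρ, hWρ, hfinrank, htop⟩ := hnine
  -- Layer 3
  have hsplitJ := tresmtc_hsplitJ_bit hπ₁ hπ₀ (mgdIota (mgcE A K₁)) (mgdIota (beta0Field A)) hp
    hpM4 hA hw hy hle htor hζ hyE S hfracY hSζ hSw hSy hshape ρK hρ
  have hsplitC := tresmtc_hsplitC_bit hπ₁ hπ₀ (mgdIota (mgcE A K₁)) (mgdIota (beta0Field A)) hp
    hpM4 hA hw hy hle htor hζ hyE S hfracY hSζ hSw hSy hshape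
  -- the inputs of the core
  have hSy' := tresmtc_coeffMap_y hπ₁ (mgdIota (mgcE A K₁)) hp hpM4 hyE S hSy
  have hSζ' := tresmtc_coeffMap_ζ hπ₁ (mgdIota (mgcE A K₁)) hp hpM4 S hSζ
  -- the core
  have H := s59lpcv_core (N := M * p) (M' := M * 4) A hA hπ₀ (mgdIota (beta0Field A)) hp hpM4
      hp3 h3M
      ⟨fun _ => Dvd.intro_left M rfl, fun h2 => absurd h2 hp2⟩ hg
      (stmtRedF (M * 4) A p hp hpM4 hA) hu hw hy hle hspan hpeu htor
      (fun Q => tresdesck_up_hdiv M p 4 hu hle Q)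
      (le_sup_left : beta0Field A ≤ mgcE A K₁) S hSy' hSζ' ρK hρ T hTπ hsplitJ hsplitC
      hdivw hsplit hnp hred
  exact Exists.elim H (fun W H => Exists.elim H (fun hWV H => Exists.elim H (fun ρW H =>
    Exists.elim H (fun hρW H => Exists.elim H (fun hρWker H => Exists.elim H (fun Y H =>
      Exists.elim H (fun hY H => Exists.elim H (fun c H =>
        ⟨u, r, ↥(tres5cL (beta0Field A) (M * 4 * p) y), inferInstance, inferInstance, W, ρW, Y,
          hY, c, hu, hred, hWV, hρW, hρWker, H.1, H.2.1, H.2.2⟩))))))))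

/-- **(α) + (β): the order clauses of FAC-MONO in the COVER case**, for an odd prime `p` with
`5 ≤ p ∨ 2 ∣ M` and an abstract Ogg unit `(g, e)` with reduction `hb`. -/
theorem s59lpcv_cover_ord [Fact p.Prime] (hp : p.Prime) (hpM : ¬ p ∣ M) (hpM4 : ¬ p ∣ M * 4)
    (hp2 : p ≠ 2) (h52 : 5 ≤ p ∨ 2 ∣ M)
    (A : ValuationSubring R38.Qb) (hA : A.LiesOverPrime p)
    [IsDiscreteValuationRing ↥(beta0Ring A (beta0Field A))]
    {g : ↥(modularFunctionFieldFullC ↥(beta0Field A) (M * 4 * p))} {e : ℕ}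
    {hb : LaurentSeries (kA A)}
    (he : ¬ (p : ℤ) ∣ (e : ℤ))
    (hg : S59lpcvOggNode (beta0Ring_irreducible_q (A := A) hp hA) (mgdIota (beta0Field A))
      hp hpM4 g e)
    (hval : (mgvV (beta0Ring_irreducible_q (A := A) hp hA) (mgdIota (beta0Field A))
      hp hpM4 true).valuation g = 1)
    (hhb : hb ∈ modularFunctionFieldFullC (kA A) M)
    (hhb' : hb ∈ modularFunctionFieldFullC (kA A) (M * 4))
    (hρg : ribmpRedF hp hpM4 hA (beta0Ring_irreducible_q (A := A) hp hA)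
        (mgdIota (beta0Field A)) (stmtRedF (M * 4) A p hp hpM4 hA)
        ⟨g, tresdn_mem _ hval⟩ = ⟨hb, hhb'⟩)
    (x : JZero (M * p)) (hx : p • x = 0) (hα : stbPushAlpha M p x = 0)
    (hβ : stbPushBeta M p x = 0) (hpeu : PeuFixed A p x)
    (σ₀ : Gal(R38.Qb/ℚ)) (hσ₀ : σ₀ ∈ A.inertiaSubgroupIn ℚ) (hz : σ₀ • x - x ≠ 0)
    (hpz : p • (σ₀ • x - x) = 0)
    (hzα : stbPushAlpha M p (σ₀ • x - x) = 0) (hzβ : stbPushBeta M p (σ₀ • x - x) = 0)
    (htriv : TrivInf A p (σ₀ • x - x))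
    (htor : ∀ τ ∈ A.inertiaSubgroupIn ℚ, τ • (σ₀ • x - x) = cycloExp p τ • (σ₀ • x - x))
    (hspan : ∀ σ ∈ A.inertiaSubgroupIn ℚ, ∃ k : ℤ, σ • x - x = k • (σ₀ • x - x)) :
    S59lpcvOrd M p A x hb := by
  haveI : CharP (kA A) p := Fermat.Agent.RED.charP_residueField A hp hA
  have hπ := beta0Ring_irreducible_q (A := A) hp hA
  have h5N : 5 ≤ p ∨ (5 - p) ∣ M * 4 := by
    rcases h52 with h5 | h2
    · exact Or.inl h5
    · by_cases h5 : 5 ≤ p
      · exact Or.inl h5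
      · right
        have h3 : p = 3 ∨ p = 4 := by
          have := hp.two_le
          omega
        rcases h3 with h3 | h4
        · rw [h3]
          exact Dvd.intro_left (M * 2) (by ring)
        · rw [h4]
          exact one_dvd _
  obtain ⟨rr, sp, Pinf, Qinf, hpkg⟩ := s15red_exists_pkg (M * 4) p hp hpM4 h5N A hA
  obtain ⟨u, r, L, instL, instA, W, ρW, y, hy, c, hK, hred, hWV, hρW, hρWker, hfin, hcusp,
    hr', a, s, ha, hs, hcmp⟩ :=
    s59lpcv_block hp hpM hpM4 hp2 h52 A hA hg x hx hα hβ hpeu σ₀ hσ₀ hz hpz hzα hzβ htriv htor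
      hspan
  have hr : r ∈ modularFunctionFieldFullC (kA A) M := tresmi5_mem hp hpM hA hred
  have hWle : ∀ a : ↥(modularFunctionFieldFullC ↥(beta0Field A) (M * 4 * p)),
      a ∈ mgvV hπ (mgdIota (beta0Field A)) hp hpM4 true →
        algebraMap ↥(modularFunctionFieldFullC ↥(beta0Field A) (M * 4 * p)) L a ∈ W := by
    intro a ha
    have : a ∈ W.comap (algebraMap ↥(modularFunctionFieldFullC ↥(beta0Field A) (M * 4 * p)) L) := by
      rw [hWV]; exact ha
    exact this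
  have hh : W.valuation
      (algebraMap ↥(modularFunctionFieldFullC ↥(beta0Field A) (M * 4 * p)) L g) = 1 :=
    tresmi7_cover_val (mgvV hπ (mgdIota (beta0Field A)) hp hpM4 true) W hWle hval
  have hρh := tresmi7_cover (mgvV hπ (mgdIota (beta0Field A)) hp hpM4 true) W
    (ribmpRedF hp hpM4 hA hπ (mgdIota (beta0Field A)) (stmtRedF (M * 4) A p hp hpM4 hA)) ρW
    hval hh (fun x hx hx' => hρW x hx hx') hρg
  exact s59lpcv_framef hp hpM4 hA hπ (mgdIota (beta0Field A))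
    (stmtRedF (M * 4) A p hp hpM4 hA) (fun Q => ribmp_rf_hfin hpkg Q) W hWV ρW hρW hρWker
    hy hh c (e : ℤ) he hfin hcusp u hK r hr hr' hred
    ⟨a, s, ha, hs, hcmp⟩ hb hhb hhb' hρh
    (tresmta_rigDescent_of_up M (M * 4) p A hp (Dvd.intro 4 rfl)
      (s59lprig_up_mul_four (kA A) hp hp2 h52 (NeZero.ne M)))

/-- **The COVER case of FAC-MONO** (strong Hecke clause for `hb`): `R38.FacMonoConcl M p A x`. -/
theorem s59lpcv_cover [Fact p.Prime] (hp : p.Prime) (hpM : ¬ p ∣ M) (hpM4 : ¬ p ∣ M * 4)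
    (hp2 : p ≠ 2) (h52 : 5 ≤ p ∨ 2 ∣ M)
    (A : ValuationSubring R38.Qb) (hA : A.LiesOverPrime p)
    [IsDiscreteValuationRing ↥(beta0Ring A (beta0Field A))]
    {g : ↥(modularFunctionFieldFullC ↥(beta0Field A) (M * 4 * p))} {e : ℕ}
    {hb : LaurentSeries (kA A)}
    (he : ¬ (p : ℤ) ∣ (e : ℤ))
    (hg : S59lpcvOggNode (beta0Ring_irreducible_q (A := A) hp hA) (mgdIota (beta0Field A))
      hp hpM4 g e)
    (hval : (mgvV (beta0Ring_irreducible_q (A := A) hp hA) (mgdIota (beta0Field A))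
      hp hpM4 true).valuation g = 1)
    (hhb : hb ∈ modularFunctionFieldFullC (kA A) M)
    (hhb' : hb ∈ modularFunctionFieldFullC (kA A) (M * 4))
    (hρg : ribmpRedF hp hpM4 hA (beta0Ring_irreducible_q (A := A) hp hA)
        (mgdIota (beta0Field A)) (stmtRedF (M * 4) A p hp hpM4 hA)
        ⟨g, tresdn_mem _ hval⟩ = ⟨hb, hhb'⟩)
    (hhecke : ∀ (ℓ : ℕ) [NeZero ℓ], ℓ.Prime → ℓ ≠ p → ∀ ζ : (kA A)ˣ, IsPrimitiveRoot ζ ℓ →
      ∃ c : kA A, c ≠ 0 ∧ kronHecke ℓ ζ hb = HahnSeries.C c * hb ^ (ℓ + 1))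
    (x : JZero (M * p)) (hx : p • x = 0) (hα : stbPushAlpha M p x = 0)
    (hβ : stbPushBeta M p x = 0) (hpeu : PeuFixed A p x)
    (σ₀ : Gal(R38.Qb/ℚ)) (hσ₀ : σ₀ ∈ A.inertiaSubgroupIn ℚ) (hz : σ₀ • x - x ≠ 0)
    (hpz : p • (σ₀ • x - x) = 0)
    (hzα : stbPushAlpha M p (σ₀ • x - x) = 0) (hzβ : stbPushBeta M p (σ₀ • x - x) = 0)
    (htriv : TrivInf A p (σ₀ • x - x))
    (htor : ∀ τ ∈ A.inertiaSubgroupIn ℚ, τ • (σ₀ • x - x) = cycloExp p τ • (σ₀ • x - x))
    (hspan : ∀ σ ∈ A.inertiaSubgroupIn ℚ, ∃ k : ℤ, σ • x - x = k • (σ₀ • x - x)) :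
    FacMonoConcl M p A x :=
  s59lpcv_ord_concl
    (s59lpcv_cover_ord hp hpM hpM4 hp2 h52 A hA he hg hval hhb hhb' hρg x hx hα hβ hpeu σ₀ hσ₀
      hz hpz hzα hzβ htriv htor hspan) hhecke

end Top

end Fermat.Agent.S59

end
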