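/-
S59, wall M4 (LOWER-P), leaf TRIV3-ASM (helper30): THE ASSEMBLY OF (TRIV-3).

Clones, at ONE pair `(M, p)`, of the chain of row 38
  `stmtTresTriv_of_open = stmtTresTriv_of_hol ∘ stmtFacP_of ∘ stmtFacEis_of ∘ stmtFacMono_of`
(R38/HolBridge.lean, PlanFac.lean, TresEisGlue.lean, PlanMono.lean), whose proofs only THREAD
the hypothesis `5 ≤ p`.  The bodies of the Props and the proofs are copied verbatim.

Props at one pair `(M, p)` (= the bodies of the Props of row 38 after `5 ≤ p →`):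
* `s59lptr_EisNormKAt` (EIS3: `R38.StmtEisNormK`),  `s59lptr_MonoFixAt` (MONOFIX3: `R38.StmtMonoFix`),
  `s59lptr_MonoCoverAt` (COVER3: `R38.StmtMonoCover`), `s59lptr_HolTrivAt` (HOL3, step (D):
  `R38.StmtHolTriv`), `R38.StmtHolSpan M A p` (HOL3, span: the clause of `R38.StmtHolSpanAll`),
  `s59lptr_FacMonoAt` (`R38.StmtFacMono`), `s59lptr_FacPAt` (`R38.StmtFacP`).
Theorems:
* `s59lptr_facMonoAt_of` : `StmtTresT0` + MONOFIX + COVER ⇒ FAC-MONO   (`p ≠ 2`);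
* `s59lptr_facPAt_of`    : EIS + FAC-MONO ⇒ FAC-p;
* `s59lptr_trivAt_of_hol`: FAC-p + HOL-SPAN + (D) ⇒ `s59lpc_TrivAt M p`;
* `s59lptr_trivAt_of`    : the five leaves at `(M, p)` ⇒ `s59lpc_TrivAt M p`;
* `s59lptr_trivThree_of` : the five leaves at every `(M, 3)`, `2 ∣ M`, `3 ∤ M` ⇒ `s59lpc_StmtTrivThree`.

Namespace: the clones live in `Fermat.Agent.R38` (name resolution of the copied texts: `Qb`, `Kb`);
their names keep the prefix `s59lptr_`.
-/
import Fermat.Agent.S59.LowP.PlanCore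
import Fermat.Agent.R38.HolBridge
import Fermat.Agent.R38.TresEisGlue
import Fermat.Agent.R38.PlanMono
import Fermat.Agent.R38.TresT0

set_option autoImplicit false
set_option linter.unusedSectionVars false
set_option linter.unusedVariables false
set_option linter.style.haveILetI false
set_option linter.style.longLine false
set_option synthInstance.maxHeartbeats 400000
set_option maxHeartbeats 1600000

noncomputable section

namespace Fermat.Agent.R38

open Fermat.Agent.S59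

/-! ### The Props at one pair `(M, p)` -/

section Props

open ModularCurve AlgebraicCurve Fermat.Agent.ES Fermat.Agent.ES.G2 Fermat.Agent.STB
  Fermat.Agent.RIB.MP Fermat.Agent.S24 Fermat.Agent.DEU Fermat.Agent.ES.M Fermat.Agent.W1
  Fermat.Agent.S15 Fermat.Agent.RIB ExtCitation Fermat.Agent.R38

/-- the clause of `R38.StmtEisNormK` at `(M, p)` -/
def s59lptr_EisNormKAt (M p : ℕ) [NeZero M] : Prop :=
    ∀ A : ValuationSubring Qb, A.LiesOverPrime p →
    ∀ (ℓ : ℕ) [NeZero ℓ], ℓ.Prime → ¬ ℓ ∣ M → ℓ ≠ p →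
    ∀ ζ : (kA A)ˣ, IsPrimitiveRoot ζ ℓ →
    ∀ (f : ↥(modularFunctionFieldFullC (kA A) M))
      (g : ↥(modularFunctionFieldFullC (kA A) (M * ℓ))),
      (g : LaurentSeries (kA A)) = qExpand (kA A) ℓ (f : LaurentSeries (kA A)) →
        letI := (IntermediateField.inclusion
          (Fermat.Agent.S28.UB.full_mono (kA A) (Dvd.intro ℓ rfl) :
            modularFunctionFieldFullC (kA A) M ≤
              modularFunctionFieldFullC (kA A) (M * ℓ))).toRingHom.toAlgebra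
        ((Algebra.norm ↥(modularFunctionFieldFullC (kA A) M) g :
            ↥(modularFunctionFieldFullC (kA A) M)) : LaurentSeries (kA A)) =
          kronHecke ℓ ζ (f : LaurentSeries (kA A))

/-- the clause of `R38.StmtMonoFix` at `(M, p)` -/
def s59lptr_MonoFixAt (M p : ℕ) [NeZero M] [NeZero p] [NeZero (M * p)] : Prop :=
    ∀ A : ValuationSubring Qb, A.LiesOverPrime p →
    ∀ x : JZero (M * p), p • x = 0 → stbPushAlpha M p x = 0 → stbPushBeta M p x = 0 →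
      (∀ σ ∈ A.inertiaSubgroupIn ℚ, σ • x = x) → FacMonoConcl M p A x

/-- the clause of `R38.StmtMonoCover` at `(M, p)` -/
def s59lptr_MonoCoverAt (M p : ℕ) [NeZero M] [NeZero p] [NeZero (M * p)] [Fact p.Prime] : Prop :=
    ∀ A : ValuationSubring Qb, A.LiesOverPrime p →
    ∀ x : JZero (M * p), p • x = 0 → stbPushAlpha M p x = 0 → stbPushBeta M p x = 0 →
      PeuFixed A p x →
    ∀ σ₀ ∈ A.inertiaSubgroupIn ℚ, σ₀ • x - x ≠ 0 → p • (σ₀ • x - x) = 0 →
      stbPushAlpha M p (σ₀ • x - x) = 0 → stbPushBeta M p (σ₀ • x - x) = 0 →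
      TrivInf A p (σ₀ • x - x) →
      (∀ τ ∈ A.inertiaSubgroupIn ℚ, τ • (σ₀ • x - x) = cycloExp p τ • (σ₀ • x - x)) →
      (∀ σ ∈ A.inertiaSubgroupIn ℚ, ∃ k : ℤ, σ • x - x = k • (σ₀ • x - x)) →
      FacMonoConcl M p A x

/-- the clause of `R38.StmtFacMono` at `(M, p)` -/
def s59lptr_FacMonoAt (M p : ℕ) [NeZero M] [NeZero p] [NeZero (M * p)] : Prop :=
    ∀ A : ValuationSubring Qb, A.LiesOverPrime p →
    ∀ x : JZero (M * p), p • x = 0 → stbPushAlpha M p x = 0 → stbPushBeta M p x = 0 →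
      PeuFixed A p x → InertiaLine A x → FacMonoConcl M p A x

/-- the clause of `R38.StmtFacP` at `(M, p)` -/
def s59lptr_FacPAt (M p : ℕ) [NeZero M] [NeZero p] [NeZero (M * p)] : Prop :=
    ∀ A : ValuationSubring Qb, A.LiesOverPrime p →
    ∀ x : JZero (M * p), p • x = 0 → stbPushAlpha M p x = 0 → stbPushBeta M p x = 0 →
      PeuFixed A p x → InertiaLine A x →
    ∀ ℓ : Nat.Primes, ¬ (ℓ : ℕ) ∣ M * p * p →
      ∃ (u : modularFunctionFieldBar (M * p)) (ub : LaurentSeries (kA A))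
        (hubF : ub ∈ modularFunctionFieldFullC (kA A) M),
        KummerRel p (eisKill ℓ x) u ∧ R38Red A (u : LaurentSeries Qb) ub ∧
          ∀ Q : Place (kA A) ↥(modularFunctionFieldFullC (kA A) M),
            (p : ℤ) ∣ Q.ord (⟨ub, hubF⟩ : ↥(modularFunctionFieldFullC (kA A) M))

/-- the clause of `R38.StmtHolTriv` at `(M, p)` -/
def s59lptr_HolTrivAt (M p : ℕ) [NeZero M] [NeZero p] [NeZero (M * p)] : Prop :=
    ∀ (A : ValuationSubring Qb), A.LiesOverPrime p →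
    ∀ (x : JZero (M * p)) (u : modularFunctionFieldBar (M * p)), KummerRel p x u →
    ∀ r : LaurentSeries (kA A), r ∈ modularFunctionFieldFullC (kA A) M →
      R38Red A (u : LaurentSeries Qb) r → r38dlog r = 0 → TrivInf A p x

end Props

/-! ### FAC-MONO from its two cases (clone of `R38.stmtFacMono_of`) -/

section Mono

open ModularCurve AlgebraicCurve Fermat.Agent.ES Fermat.Agent.ES.G2 Fermat.Agent.STB
  Fermat.Agent.RIB.MP Fermat.Agent.S24 Fermat.Agent.DEU Fermat.Agent.ES.M Fermat.Agent.W1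
  Fermat.Agent.S15 Fermat.Agent.RIB ExtCitation Fermat.Agent.R38

theorem s59lptr_facMonoAt_of (hT0 : StmtTresT0) {M p : ℕ} [NeZero M] [NeZero p]
    [NeZero (M * p)] [hpF : Fact p.Prime] (hp2 : p ≠ 2) (hpM : ¬ p ∣ M)
    (hFix : s59lptr_MonoFixAt M p) (hCov : s59lptr_MonoCoverAt M p) :
    s59lptr_FacMonoAt M p := by
  intro A hA x hx hα hβ hpeu hline
  have hp : p.Prime := hpF.out
  rcases tresline_main M p hT0 hp2 hpM A hA x hx hα hβ hline with hfix |
    ⟨σ₀, hσ₀, hz, hpz, hzα, hzβ, htriv, htor, hspan⟩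
  · exact hFix A hA x hx hα hβ hfix
  · exact hCov A hA x hx hα hβ hpeu σ₀ hσ₀ hz hpz hzα hzβ htriv htor hspan

end Mono

/-! ### FAC-p from EIS and FAC-MONO (clone of `R38.stmtFacEis_of`) -/

section Eis

open HahnSeries ModularCurve AlgebraicCurve Fermat.Agent.ES Fermat.Agent.ES.G2 Fermat.Agent.ES.M
  Fermat.Agent.RIB.MP Fermat.Agent.S24 Fermat.Agent.DEU Fermat.Agent.STB Fermat.Agent.RIB
  IntermediateField Fermat.Agent.R38

theorem s59lptr_facPAt_of {M p : ℕ} [NeZero M] [NeZero p] [NeZero (M * p)] (hp : p.Prime)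
    (hpM : ¬ p ∣ M) (hC : s59lptr_EisNormKAt M p) (hMono : s59lptr_FacMonoAt M p) :
    s59lptr_FacPAt M p := by
  intro A hA x hx hα hβ hpeu hline ℓ hℓ
  obtain ⟨u, r, h, hr, hh, a, b, hxu, hred, hh0, ha, hnc, hc, hHecke⟩ :=
    hMono A hA x hx hα hβ hpeu hline
  haveI : NeZero (ℓ : ℕ) := ⟨ℓ.2.ne_zero⟩
  have hℓMp : ¬ (ℓ : ℕ) ∣ M * p := fun hd => hℓ (Dvd.dvd.mul_right hd p)
  have hℓM : ¬ (ℓ : ℕ) ∣ M := fun hd => hℓMp (Dvd.dvd.mul_right hd p)
  have hℓp : (ℓ : ℕ) ≠ p := fun e => hℓMp (e ▸ Dvd.intro_left M rfl)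
  obtain ⟨u', ζb, hζb, hxu', hred'⟩ := tres4r_main hp hA ℓ hℓMp hℓp hxu hred
  obtain ⟨c, hc0, hcH⟩ := hHecke (ℓ : ℕ) ℓ.2 hℓp ζb hζb
  obtain ⟨hub, hdiv⟩ := tres4g_main A hp hA M (ℓ : ℕ) ℓ.2 hℓM hℓp ζb hζb
    (hC A hA (ℓ : ℕ) ℓ.2 hℓM hℓp ζb hζb) hr hh hred.ne_zero_right hh0 a b ha hnc hc
    hc0 hcH
  exact ⟨u', tres4rEis (ℓ : ℕ) ζb r, hub, hxu', hred', hdiv⟩

end Eis

/-! ### (TRIV) from FAC-p and HOL (clone of `R38.stmtTresTriv_of_hol`) -/

section Hol

open ModularCurve AlgebraicCurve HahnSeries Fermat.Agent.ES Fermat.Agent.ES.G2 Fermat.Agent.ES.M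
  Fermat.Agent.STB Fermat.Agent.RIB.MP Fermat.Agent.S24 ExtCitation Fermat.Agent.R38

theorem s59lptr_trivAt_of_hol {M p : ℕ} [NeZero M] [NeZero p] [NeZero (M * p)]
    [hpF : Fact p.Prime] (hpM : ¬ p ∣ M) (hFac : s59lptr_FacPAt M p)
    (hSpan : ∀ A : ValuationSubring Kb, A.LiesOverPrime p → StmtHolSpan M A p)
    (hD : s59lptr_HolTrivAt M p) : s59lpc_TrivAt M p := by
  unfold s59lpc_TrivAt
  letI := pDivGalois (M * p) p
  letI := pDivModule (M * p) p
  intro A hA x hx hα hβ t₀ ht₀ hK n₀ hn₀ hpn₀ ℓ₁ hℓ₁ n₁ hn₁ hpn₁ hpeu hline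
  have hp : p.Prime := hpF.out
  haveI : CharP (kA A) p := kron_charP_residueField hp hA
  -- translation to `JZero`
  have hx' : p • (x : JZero (M * p)) = 0 := by
    have := congrArg Subtype.val hx
    simpa using this
  have hα' : stbPushAlpha M p (x : JZero (M * p)) = 0 := by
    have := congrArg Subtype.val hα
    rwa [stbPushAlphaP_coe] at this
  have hβ' : stbPushBeta M p (x : JZero (M * p)) = 0 := by
    have := congrArg Subtype.val hβ
    rwa [stbPushBetaP_coe] at this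
  have hpeu' : PeuFixed A p (x : JZero (M * p)) := by
    intro σ hσ
    have := congrArg Subtype.val (hpeu σ hσ)
    rwa [pDivGalois_coe] at this
  have hline' : InertiaLine A (x : JZero (M * p)) := by
    obtain ⟨z₀, hz⟩ := hline
    refine ⟨(z₀ : JZero (M * p)), fun σ hσ => ?_⟩
    obtain ⟨k, hk⟩ := hz σ hσ
    refine ⟨k, ?_⟩
    have := congrArg Subtype.val hk
    simpa [pDivGalois_coe] using this
  have hℓ₁' : ¬ ((ℓ₁ : Nat.Primes) : ℕ) ∣ M * p * p := hℓ₁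
  have hcomm := stb_tfComm (p := p) (M * p) hp
  -- the eigenvalue of `T_ℓ₁`
  have hT : heckeOperatorBar (M * p) ℓ₁ (x : JZero (M * p)) = n₁ • (x : JZero (M * p)) := by
    have h1 : (heckeGen ℓ₁ • x : PDiv (M * p) p) = pDivOp (M * p) p ℓ₁ x :=
      tfModule_heckeGen_smul hcomm ℓ₁ x
    have h2 := congrArg Subtype.val (h1.symm.trans hn₁)
    rw [pDivOp_of_good hℓ₁'] at h2
    rw [h2]
    exact AddSubgroup.coe_zsmul _ _ _
  set c₁ : ℤ := n₁ - (((ℓ₁ : Nat.Primes) : ℕ) + 1) with hc₁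
  have heis : eisKill ℓ₁ (x : JZero (M * p)) = ((c₁ • x : PDiv (M * p) p) : JZero (M * p)) := by
    rw [eisKill, hT, AddSubgroup.coe_zsmul, hc₁, sub_smul]
    congr 1
  -- step 1: (FAC-p)
  obtain ⟨u, r, hrF, hxu, hred, hdvd⟩ :=
    hFac A hA (x : JZero (M * p)) hx' hα' hβ' hpeu' hline' ℓ₁ hℓ₁'
  -- step 2: (HOL-SPAN)
  have hb : r38dlog r ∈ holSpan (kA A) M :=
    hSpan A hA r hred.ne_zero_right ⟨hrF, hdvd⟩
  -- step 3: (T2)
  have hrel : HolRel A p ((c₁ • x : PDiv (M * p) p) : JZero (M * p)) (r38dlog r) := by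
    rw [← heis]
    exact ⟨u, r, hxu, hred, rfl⟩
  have hpoly := tresalg_tfEval_rel hcomm (r38hol_tfComm (kA A))
    (fun (a : PDiv (M * p) p) (b : LaurentSeries (kA A)) => HolRel A p (a : JZero (M * p)) b)
    holRel_zero
    (fun a a' b b' h1 h2 => by
      show HolRel A p ((a + a' : PDiv (M * p) p) : JZero (M * p)) (b + b')
      rw [AddSubgroup.coe_add]
      exact holRel_add h1 h2)
    (fun a b h1 => by
      show HolRel A p ((-a : PDiv (M * p) p) : JZero (M * p)) (-b)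
      rw [AddSubgroup.coe_neg]
      exact holRel_neg h1)
    (goodPrimes (M * p) p)
    (fun ℓ hℓ a b h1 => by
      show HolRel A p ((pDivOp (M * p) p ℓ a : PDiv (M * p) p) : JZero (M * p))
        (r38holOp (kA A) ℓ b)
      rw [pDivOp_of_good hℓ]
      have hℓ' : ¬ ((ℓ : Nat.Primes) : ℕ) ∣ M * p * p := hℓ
      exact holRel_hecke hp hA ℓ (fun h => hℓ' (h.mul_right p))
        (fun h => hℓ' (by rw [h]; exact dvd_mul_left p (M * p))) h1)
    t₀ ht₀ (c₁ • x) (r38dlog r) hrel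
  have hnew : tfEval hcomm t₀ (c₁ • x) = n₀ • (c₁ • x) := by
    rw [map_zsmul, ← stb_pDiv_smul_def (M * p) hp, hn₀, smul_comm]
  rw [hnew, AddSubgroup.coe_zsmul] at hpoly
  have heig : n₀ • r38dlog r = tfEval (r38hol_tfComm (kA A)) t₀ (r38dlog r) :=
    holRel_unique hp hA hpoly (holRel_zsmul n₀ hrel)
  -- step 4: (KILL)
  have hkill : tfEval (r38hol_tfComm (kA A)) t₀ (r38dlog r) = 0 := by
    have := stmtHolKill M (kA A) (goodPrimes (M * p) p)
      (fun ℓ hℓ h => hℓ ((h.mul_right p).mul_right p)) t₀ ht₀ hK (r38dlog r) hb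
    rwa [r38hol_smul_def] at this
  rw [hkill] at heig
  have hn₀k : ((n₀ : ℤ) : kA A) ≠ 0 := by
    intro h0
    exact hpn₀ ((CharP.intCast_eq_zero_iff (kA A) p n₀).1 h0)
  have hb0 : r38dlog r = 0 := by
    rw [← Int.cast_smul_eq_zsmul (kA A)] at heig
    exact (smul_eq_zero.1 heig).resolve_left hn₀k
  -- step 5: (D)
  have htriv : TrivInf A p (eisKill ℓ₁ (x : JZero (M * p))) :=
    hD A hA _ u hxu r hrF hred hb0
  rw [heis, AddSubgroup.coe_zsmul] at htriv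
  exact tresalg_trivInf_of_zsmul hp hpn₁ hx' htriv

end Hol

/-! ### The assembly -/

section Asm

open ModularCurve AlgebraicCurve Fermat.Agent.ES Fermat.Agent.ES.G2 Fermat.Agent.STB
  Fermat.Agent.RIB.MP Fermat.Agent.S24 ExtCitation Fermat.Agent.R38

/-- **(TRIV) at `(M, p)` from the five leaves**, `p` odd. -/
theorem s59lptr_trivAt_of (hT0 : StmtTresT0) {M p : ℕ} [NeZero M] [NeZero p] [NeZero (M * p)]
    [hpF : Fact p.Prime] (hp2 : p ≠ 2) (hpM : ¬ p ∣ M)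
    (hEis : s59lptr_EisNormKAt M p) (hFix : s59lptr_MonoFixAt M p)
    (hCov : s59lptr_MonoCoverAt M p)
    (hSpan : ∀ A : ValuationSubring Kb, A.LiesOverPrime p → StmtHolSpan M A p)
    (hD : s59lptr_HolTrivAt M p) : s59lpc_TrivAt M p :=
  s59lptr_trivAt_of_hol hpM
    (s59lptr_facPAt_of hpF.out hpM hEis (s59lptr_facMonoAt_of hT0 hp2 hpM hFix hCov)) hSpan hD

/-- **(TRIV-3) from the five leaves at `p = 3`, even level.** -/
theorem s59lptr_trivThree_of (hT0 : StmtTresT0)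
    (hEis : ∀ (M : ℕ) [NeZero M], 2 ∣ M → ¬ 3 ∣ M → s59lptr_EisNormKAt M 3)
    (hFix : ∀ (M : ℕ) [NeZero M], 2 ∣ M → ¬ 3 ∣ M → s59lptr_MonoFixAt M 3)
    (hCov : ∀ (M : ℕ) [NeZero M], 2 ∣ M → ¬ 3 ∣ M →
      haveI : Fact (Nat.Prime 3) := ⟨Nat.prime_three⟩
      s59lptr_MonoCoverAt M 3)
    (hSpan : ∀ (M : ℕ) [NeZero M], 2 ∣ M → ¬ 3 ∣ M →
      ∀ A : ValuationSubring Kb, A.LiesOverPrime 3 → StmtHolSpan M A 3)
    (hD : ∀ (M : ℕ) [NeZero M], 2 ∣ M → ¬ 3 ∣ M → s59lptr_HolTrivAt M 3) :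
    s59lpc_StmtTrivThree := by
  intro M _ h2 h3
  haveI : Fact (Nat.Prime 3) := ⟨Nat.prime_three⟩
  exact s59lptr_trivAt_of hT0 (by norm_num) h3 (hEis M h2 h3) (hFix M h2 h3) (hCov M h2 h3)
    (hSpan M h2 h3) (hD M h2 h3)

end Asm

end Fermat.Agent.R38

end
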