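/-
S59, wall M4 (LOWER-P), leaf TRIV3-ASM, part b (helper30): THE ASSEMBLY OF (TRIV-3) WITH THE
WEAK HECKE CLAUSE.

Why (helper52, helper10 (C2), 04:08Z): the Hecke clause of `R38.FacMonoConcl`,
    `∀ ℓ prime, ℓ ≠ p → kronHecke ℓ ζ h = C c * h ^ (ℓ + 1)`,
is FALSE at `ℓ = 2` for the reduction of a unit of even level (the level-6 unit `h6` of OGG3),
and its only consumer (`R38.stmtFacEis_of` = `s59lptr_facPAt_of`) uses it at `ℓ ∤ M p` only.
So at `p = 3` the leaves MONOFIX3 / COVER3 prove the conclusion with the clause restricted to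
`¬ ℓ ∣ M`:

* `s59lptr_ConclW M p A x`   = `R38.FacMonoConcl M p A x` with the last clause replaced by
      `∀ ℓ prime, ¬ ℓ ∣ M → ℓ ≠ p → ∀ ζ primitive, ∃ c ≠ 0, kronHecke ℓ ζ h = C c * h ^ (ℓ + 1)`;
* `s59lptr_MonoFixWAt`, `s59lptr_MonoCoverWAt`, `s59lptr_FacMonoWAt` = the Props of `Triv3.lean`
  with `FacMonoConcl` replaced by `s59lptr_ConclW`.

Theorems:
* `s59lptr_conclW_of`       : `FacMonoConcl ⇒ s59lptr_ConclW` (so the `p ≥ 5` leaves still apply);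
* `s59lptr_facMonoWAt_of`   : `StmtTresT0` + MONOFIX-W + COVER-W ⇒ FAC-MONO-W   (`p ≠ 2`);
* `s59lptr_facPAt_of_weak`  : EIS + FAC-MONO-W ⇒ FAC-p   (the SAME `s59lptr_FacPAt`);
* `s59lptr_trivAtW_of`      : the five leaves (weak form) at `(M, p)` ⇒ `s59lpc_TrivAt M p`;
* `s59lptr_trivThreeW_of`   : the five leaves (weak form) at every `(M, 3)`, `2 ∣ M`, `3 ∤ M`
                               ⇒ `s59lpc_StmtTrivThree`.

LEAF OWNERS (MONOFIX3, COVER3, OGG3-L9/L10): target `s59lptr_MonoFixWAt M 3` /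
`s59lptr_MonoCoverWAt M 3`.  EIS3 and HOL3 are unchanged (`s59lptr_EisNormKAt`,
`s59lptr_HolTrivAt`, `R38.StmtHolSpan M A 3`).
-/
import Fermat.Agent.S59.LowP.Triv3

set_option autoImplicit false
set_option linter.unusedSectionVars false
set_option linter.unusedVariables false
set_option linter.style.haveILetI false
set_option linter.style.longLine false
set_option synthInstance.maxHeartbeats 400000
set_option maxHeartbeats 1600000

noncomputable section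

namespace Fermat.Agent.R38

open Fermat.Agent.S59

/-! ### The Props with the weak Hecke clause -/

section PropsW

open ModularCurve AlgebraicCurve Fermat.Agent.ES Fermat.Agent.ES.G2 Fermat.Agent.STB
  Fermat.Agent.RIB.MP Fermat.Agent.S24 Fermat.Agent.DEU Fermat.Agent.ES.M Fermat.Agent.W1
  Fermat.Agent.S15 Fermat.Agent.RIB ExtCitation Fermat.Agent.R38

/-- the conclusion `R38.FacMonoConcl` for the class `x`, with the Hecke clause restricted to the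
primes `ℓ ∤ M` -/
def s59lptr_ConclW (M p : ℕ) [NeZero M] [NeZero p] [NeZero (M * p)] (A : ValuationSubring Qb)
    (x : JZero (M * p)) : Prop :=
  ∃ (u : modularFunctionFieldBar (M * p)) (r h : LaurentSeries (kA A))
    (hr : r ∈ modularFunctionFieldFullC (kA A) M)
    (hh : h ∈ modularFunctionFieldFullC (kA A) M) (a b : ℤ),
    KummerRel p x u ∧ R38Red A (u : LaurentSeries Qb) r ∧ h ≠ 0 ∧ ¬ (p : ℤ) ∣ a ∧
    (∀ Q : Place (kA A) ↥(modularFunctionFieldFullC (kA A) M),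
      0 ≤ Q.ord (⟨jqModC (kA A), jqModC_mem_full (kA A) M⟩ :
          ↥(modularFunctionFieldFullC (kA A) M)) →
        (p : ℤ) ∣ a * Q.ord (⟨r, hr⟩ : ↥(modularFunctionFieldFullC (kA A) M)) -
          b * Q.ord (⟨h, hh⟩ : ↥(modularFunctionFieldFullC (kA A) M))) ∧
    (∀ Q : Place (kA A) ↥(modularFunctionFieldFullC (kA A) M),
      Q.ord (⟨jqModC (kA A), jqModC_mem_full (kA A) M⟩ :
          ↥(modularFunctionFieldFullC (kA A) M)) < 0 →
        (p : ℤ) ∣ Q.ord (⟨r, hr⟩ : ↥(modularFunctionFieldFullC (kA A) M))) ∧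
    (∀ (ℓ : ℕ) [NeZero ℓ], ℓ.Prime → ¬ ℓ ∣ M → ℓ ≠ p → ∀ ζ : (kA A)ˣ, IsPrimitiveRoot ζ ℓ →
      ∃ c : kA A, c ≠ 0 ∧ kronHecke ℓ ζ h = HahnSeries.C c * h ^ (ℓ + 1))

/-- the strong conclusion implies the weak one -/
theorem s59lptr_conclW_of {M p : ℕ} [NeZero M] [NeZero p] [NeZero (M * p)]
    {A : ValuationSubring Qb} {x : JZero (M * p)} (h : FacMonoConcl M p A x) :
    s59lptr_ConclW M p A x := by
  obtain ⟨u, r, h', hr, hh, a, b, hxu, hred, hh0, ha, hnc, hc, hHecke⟩ := h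
  exact ⟨u, r, h', hr, hh, a, b, hxu, hred, hh0, ha, hnc, hc,
    fun ℓ _ hℓ _ hℓp ζ hζ => hHecke ℓ hℓ hℓp ζ hζ⟩

/-- MONOFIX3, weak form: the clause of `R38.StmtMonoFix` at `(M, p)` with `s59lptr_ConclW` -/
def s59lptr_MonoFixWAt (M p : ℕ) [NeZero M] [NeZero p] [NeZero (M * p)] : Prop :=
    ∀ A : ValuationSubring Qb, A.LiesOverPrime p →
    ∀ x : JZero (M * p), p • x = 0 → stbPushAlpha M p x = 0 → stbPushBeta M p x = 0 →
      (∀ σ ∈ A.inertiaSubgroupIn ℚ, σ • x = x) → s59lptr_ConclW M p A x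

/-- COVER3, weak form: the clause of `R38.StmtMonoCover` at `(M, p)` with `s59lptr_ConclW` -/
def s59lptr_MonoCoverWAt (M p : ℕ) [NeZero M] [NeZero p] [NeZero (M * p)] [Fact p.Prime] :
    Prop :=
    ∀ A : ValuationSubring Qb, A.LiesOverPrime p →
    ∀ x : JZero (M * p), p • x = 0 → stbPushAlpha M p x = 0 → stbPushBeta M p x = 0 →
      PeuFixed A p x →
    ∀ σ₀ ∈ A.inertiaSubgroupIn ℚ, σ₀ • x - x ≠ 0 → p • (σ₀ • x - x) = 0 →
      stbPushAlpha M p (σ₀ • x - x) = 0 → stbPushBeta M p (σ₀ • x - x) = 0 →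
      TrivInf A p (σ₀ • x - x) →
      (∀ τ ∈ A.inertiaSubgroupIn ℚ, τ • (σ₀ • x - x) = cycloExp p τ • (σ₀ • x - x)) →
      (∀ σ ∈ A.inertiaSubgroupIn ℚ, ∃ k : ℤ, σ • x - x = k • (σ₀ • x - x)) →
      s59lptr_ConclW M p A x

/-- FAC-MONO, weak form -/
def s59lptr_FacMonoWAt (M p : ℕ) [NeZero M] [NeZero p] [NeZero (M * p)] : Prop :=
    ∀ A : ValuationSubring Qb, A.LiesOverPrime p →
    ∀ x : JZero (M * p), p • x = 0 → stbPushAlpha M p x = 0 → stbPushBeta M p x = 0 →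
      PeuFixed A p x → InertiaLine A x → s59lptr_ConclW M p A x

theorem s59lptr_monoFixWAt_of {M p : ℕ} [NeZero M] [NeZero p] [NeZero (M * p)]
    (h : s59lptr_MonoFixAt M p) : s59lptr_MonoFixWAt M p :=
  fun A hA x hx hα hβ hfix => s59lptr_conclW_of (h A hA x hx hα hβ hfix)

theorem s59lptr_monoCoverWAt_of {M p : ℕ} [NeZero M] [NeZero p] [NeZero (M * p)]
    [Fact p.Prime] (h : s59lptr_MonoCoverAt M p) : s59lptr_MonoCoverWAt M p :=
  fun A hA x hx hα hβ hpeu σ₀ hσ₀ hz hpz hzα hzβ htriv htor hspan =>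
    s59lptr_conclW_of (h A hA x hx hα hβ hpeu σ₀ hσ₀ hz hpz hzα hzβ htriv htor hspan)

end PropsW

/-! ### FAC-MONO-W from its two cases -/

section MonoW

open ModularCurve AlgebraicCurve Fermat.Agent.ES Fermat.Agent.ES.G2 Fermat.Agent.STB
  Fermat.Agent.RIB.MP Fermat.Agent.S24 Fermat.Agent.DEU Fermat.Agent.ES.M Fermat.Agent.W1
  Fermat.Agent.S15 Fermat.Agent.RIB ExtCitation Fermat.Agent.R38

theorem s59lptr_facMonoWAt_of (hT0 : StmtTresT0) {M p : ℕ} [NeZero M] [NeZero p]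
    [NeZero (M * p)] [hpF : Fact p.Prime] (hp2 : p ≠ 2) (hpM : ¬ p ∣ M)
    (hFix : s59lptr_MonoFixWAt M p) (hCov : s59lptr_MonoCoverWAt M p) :
    s59lptr_FacMonoWAt M p := by
  intro A hA x hx hα hβ hpeu hline
  have hp : p.Prime := hpF.out
  rcases tresline_main M p hT0 hp2 hpM A hA x hx hα hβ hline with hfix |
    ⟨σ₀, hσ₀, hz, hpz, hzα, hzβ, htriv, htor, hspan⟩
  · exact hFix A hA x hx hα hβ hfix
  · exact hCov A hA x hx hα hβ hpeu σ₀ hσ₀ hz hpz hzα hzβ htriv htor hspan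

end MonoW

/-! ### FAC-p from EIS and FAC-MONO-W -/

section EisW

open HahnSeries ModularCurve AlgebraicCurve Fermat.Agent.ES Fermat.Agent.ES.G2 Fermat.Agent.ES.M
  Fermat.Agent.RIB.MP Fermat.Agent.S24 Fermat.Agent.DEU Fermat.Agent.STB Fermat.Agent.RIB
  IntermediateField Fermat.Agent.R38

theorem s59lptr_facPAt_of_weak {M p : ℕ} [NeZero M] [NeZero p] [NeZero (M * p)] (hp : p.Prime)
    (hpM : ¬ p ∣ M) (hC : s59lptr_EisNormKAt M p) (hMono : s59lptr_FacMonoWAt M p) :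
    s59lptr_FacPAt M p := by
  intro A hA x hx hα hβ hpeu hline ℓ hℓ
  obtain ⟨u, r, h, hr, hh, a, b, hxu, hred, hh0, ha, hnc, hc, hHecke⟩ :=
    hMono A hA x hx hα hβ hpeu hline
  haveI : NeZero (ℓ : ℕ) := ⟨ℓ.2.ne_zero⟩
  have hℓMp : ¬ (ℓ : ℕ) ∣ M * p := fun hd => hℓ (Dvd.dvd.mul_right hd p)
  have hℓM : ¬ (ℓ : ℕ) ∣ M := fun hd => hℓMp (Dvd.dvd.mul_right hd p)
  have hℓp : (ℓ : ℕ) ≠ p := fun e => hℓMp (e ▸ Dvd.intro_left M rfl)
  obtain ⟨u', ζb, hζb, hxu', hred'⟩ := tres4r_main hp hA ℓ hℓMp hℓp hxu hred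
  obtain ⟨c, hc0, hcH⟩ := hHecke (ℓ : ℕ) ℓ.2 hℓM hℓp ζb hζb
  obtain ⟨hub, hdiv⟩ := tres4g_main A hp hA M (ℓ : ℕ) ℓ.2 hℓM hℓp ζb hζb
    (hC A hA (ℓ : ℕ) ℓ.2 hℓM hℓp ζb hζb) hr hh hred.ne_zero_right hh0 a b ha hnc hc
    hc0 hcH
  exact ⟨u', tres4rEis (ℓ : ℕ) ζb r, hub, hxu', hred', hdiv⟩

end EisW

/-! ### The assembly -/

section AsmW

open ModularCurve AlgebraicCurve Fermat.Agent.ES Fermat.Agent.ES.G2 Fermat.Agent.STB
  Fermat.Agent.RIB.MP Fermat.Agent.S24 ExtCitation Fermat.Agent.R38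

/-- **(TRIV) at `(M, p)` from the five leaves (weak Hecke clause)**, `p` odd. -/
theorem s59lptr_trivAtW_of (hT0 : StmtTresT0) {M p : ℕ} [NeZero M] [NeZero p] [NeZero (M * p)]
    [hpF : Fact p.Prime] (hp2 : p ≠ 2) (hpM : ¬ p ∣ M)
    (hEis : s59lptr_EisNormKAt M p) (hFix : s59lptr_MonoFixWAt M p)
    (hCov : s59lptr_MonoCoverWAt M p)
    (hSpan : ∀ A : ValuationSubring Kb, A.LiesOverPrime p → StmtHolSpan M A p)
    (hD : s59lptr_HolTrivAt M p) : s59lpc_TrivAt M p :=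
  s59lptr_trivAt_of_hol hpM
    (s59lptr_facPAt_of_weak hpF.out hpM hEis (s59lptr_facMonoWAt_of hT0 hp2 hpM hFix hCov))
    hSpan hD

/-- **(TRIV-3) from the five leaves at `p = 3`, even level (weak Hecke clause).** -/
theorem s59lptr_trivThreeW_of (hT0 : StmtTresT0)
    (hEis : ∀ (M : ℕ) [NeZero M], 2 ∣ M → ¬ 3 ∣ M → s59lptr_EisNormKAt M 3)
    (hFix : ∀ (M : ℕ) [NeZero M], 2 ∣ M → ¬ 3 ∣ M → s59lptr_MonoFixWAt M 3)
    (hCov : ∀ (M : ℕ) [NeZero M], 2 ∣ M → ¬ 3 ∣ M →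
      haveI : Fact (Nat.Prime 3) := ⟨Nat.prime_three⟩
      s59lptr_MonoCoverWAt M 3)
    (hSpan : ∀ (M : ℕ) [NeZero M], 2 ∣ M → ¬ 3 ∣ M →
      ∀ A : ValuationSubring Kb, A.LiesOverPrime 3 → StmtHolSpan M A 3)
    (hD : ∀ (M : ℕ) [NeZero M], 2 ∣ M → ¬ 3 ∣ M → s59lptr_HolTrivAt M 3) :
    s59lpc_StmtTrivThree := by
  intro M _ h2 h3
  haveI : Fact (Nat.Prime 3) := ⟨Nat.prime_three⟩
  exact s59lptr_trivAtW_of hT0 (by norm_num) h3 (hEis M h2 h3) (hFix M h2 h3) (hCov M h2 h3)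
    (hSpan M h2 h3) (hD M h2 h3)

end AsmW

end Fermat.Agent.R38

end
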