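/-
S59, wall M4 (LOWER-P at `p = 3`), leaf COVER3 (helper89), part 5: THE LEAF TARGET
`s59lptr_MonoCoverWAt M p` of helper30's `S59/LowP/Triv3b.lean`.

* `S59lpcvOggW M p hp hpM4` : THE OGG INPUT of COVER3 — for every `A` over `p` an abstract Ogg unit
  `g ∈ F_{4 M p}(ℚ̄^I)` with node exponent `e`, `¬ p ∣ e`, reduction `hb ∈ F̄_M`, and the WEAK Hecke
  clause for `hb` (`ℓ ∤ M`, `ℓ ≠ p`);
* `s59lpcv_monoCoverWAt` : `S59lpcvOggW M p … → s59lptr_MonoCoverWAt M p` for every odd prime `p`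
  with `p ∤ M` and `5 ≤ p ∨ 2 ∣ M` — in particular at `p = 3`, `M` even;
* `s59lpcv_oggW_five` : for `5 ≤ p` the Ogg unit `Δ(Q)/Δ(Q^p)` of row 38 (`e = 12`) is such an
  input (so the theorem contains the COVER case of row 38).
-/
import Fermat.Agent.S59.LowP.Cover3Top
import Fermat.Agent.S59.LowP.Triv3b

set_option autoImplicit false
set_option linter.unusedSectionVars false
set_option linter.unusedVariables false
set_option linter.style.haveILetI false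
set_option linter.style.longLine false
set_option synthInstance.maxHeartbeats 400000
set_option maxHeartbeats 1600000

noncomputable section

namespace Fermat.Agent.S59

open ModularCurve AlgebraicCurve IntermediateField Polynomial Fermat.Agent.INJ Fermat.Agent.UNIP
  Fermat.Agent.STB Fermat.Agent.S36 Fermat.Agent.S33 Fermat.Agent.RIB.MP Fermat.Agent.RT.K6
  Fermat.Agent.AL Fermat.Agent.ES Fermat.Agent.ES.G2 Fermat.Agent.ES.M
  Fermat.Agent.DEU Fermat.Agent.S24 Fermat.Agent.S28 Fermat.Agent.S15 Fermat.Agent.W1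
  Fermat.Agent.RIB ExtCitation Fermat.Agent.R38

section W

variable {M p : ℕ} [NeZero M] [NeZero p] [NeZero (M * p)] [NeZero (M * 4)] [NeZero (M * 4 * p)]

/-- **THE OGG INPUT of COVER3 at `(M, p)`**, weak Hecke clause. -/
def S59lpcvOggW (M p : ℕ) [NeZero M] [NeZero p] [NeZero (M * p)] [NeZero (M * 4)]
    [NeZero (M * 4 * p)] (hp : p.Prime) (hpM4 : ¬ p ∣ M * 4) : Prop :=
  ∀ (A : ValuationSubring R38.Qb) (hA : A.LiesOverPrime p)
    [IsDiscreteValuationRing ↥(beta0Ring A (beta0Field A))],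
    ∃ (g : ↥(modularFunctionFieldFullC ↥(beta0Field A) (M * 4 * p))) (e : ℕ)
      (hb : LaurentSeries (kA A))
      (hval : (mgvV (beta0Ring_irreducible_q (A := A) hp hA) (mgdIota (beta0Field A))
        hp hpM4 true).valuation g = 1)
      (hhb' : hb ∈ modularFunctionFieldFullC (kA A) (M * 4)),
      ¬ (p : ℤ) ∣ (e : ℤ) ∧
      S59lpcvOggNode (beta0Ring_irreducible_q (A := A) hp hA) (mgdIota (beta0Field A))
        hp hpM4 g e ∧
      hb ∈ modularFunctionFieldFullC (kA A) M ∧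
      ribmpRedF hp hpM4 hA (beta0Ring_irreducible_q (A := A) hp hA)
        (mgdIota (beta0Field A)) (stmtRedF (M * 4) A p hp hpM4 hA)
        ⟨g, tresdn_mem _ hval⟩ = ⟨hb, hhb'⟩ ∧
      (∀ (ℓ : ℕ) [NeZero ℓ], ℓ.Prime → ¬ ℓ ∣ M → ℓ ≠ p → ∀ ζ : (kA A)ˣ, IsPrimitiveRoot ζ ℓ →
        ∃ c : kA A, c ≠ 0 ∧ kronHecke ℓ ζ hb = HahnSeries.C c * hb ^ (ℓ + 1))

/-- **COVER3**: the leaf target `s59lptr_MonoCoverWAt M p` from the Ogg input, for an odd prime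
`p ∤ M` with `5 ≤ p ∨ 2 ∣ M`. -/
theorem s59lpcv_monoCoverWAt [Fact p.Prime] (hp : p.Prime) (hpM : ¬ p ∣ M)
    (hpM4 : ¬ p ∣ M * 4) (hp2 : p ≠ 2) (h52 : 5 ≤ p ∨ 2 ∣ M)
    (hOgg : S59lpcvOggW M p hp hpM4) : s59lptr_MonoCoverWAt M p := by
  intro A hA x hx hα hβ hpeu σ₀ hσ₀ hz hpz hzα hzβ htriv htor hspan
  haveI : IsDiscreteValuationRing ↥(beta0Ring A (beta0Field A)) := beta0Ring_isDVR_base hp hA
  obtain ⟨g, e, hb, hval, hhb', he, hg, hhb, hρg, hhecke⟩ := hOgg A hA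
  have H := s59lpcv_cover_ord hp hpM hpM4 hp2 h52 A hA he hg hval hhb hhb' hρg x hx hα hβ hpeu
    σ₀ hσ₀ hz hpz hzα hzβ htriv htor hspan
  exact s59lpcv_ord_pred H
    (fun h => ∀ (ℓ : ℕ) [NeZero ℓ], ℓ.Prime → ¬ ℓ ∣ M → ℓ ≠ p → ∀ ζ : (kA A)ˣ,
      IsPrimitiveRoot ζ ℓ →
      ∃ c : kA A, c ≠ 0 ∧ kronHecke ℓ ζ h = HahnSeries.C c * h ^ (ℓ + 1)) hhecke

/-- a prime `p ≠ 2` does not divide `4 M` if it does not divide `M` -/
theorem s59lpcv_not_dvd_mul_four (hp : p.Prime) (hp2 : p ≠ 2) (hpM : ¬ p ∣ M) :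
    ¬ p ∣ M * 4 := by
  intro h
  rcases (Nat.Prime.dvd_mul hp).1 h with h1 | h1
  · exact hpM h1
  · have h4 : p ∣ 2 ^ 2 := by simpa using h1
    exact hp2 ((Nat.prime_dvd_prime_iff_eq hp Nat.prime_two).1 (hp.dvd_of_dvd_pow h4))

/-- for `5 ≤ p` the Ogg unit `Δ(Q)/Δ(Q^p)` of row 38 is an Ogg input with `e = 12` -/
theorem s59lpcv_oggW_five (hp : p.Prime) (hpM4 : ¬ p ∣ M * 4) (h5 : 5 ≤ p) :
    S59lpcvOggW M p hp hpM4 := by
  intro A hA _
  haveI : CharP (kA A) p := Fermat.Agent.RED.charP_residueField A hp hA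
  have hπ := beta0Ring_irreducible_q (A := A) hp hA
  refine ⟨s36tuV ↥(beta0Field A) (mgdIota (beta0Field A)) (q := p) (M := M * 4), 12,
    uInvS (kA A) p, tresmi7_hh hp hpM4 hA hπ (mgdIota (beta0Field A)),
    tresmi7_hhb hp hA (M * 4), ?_, ?_, tresmi7_hhb hp hA M, ?_, ?_⟩
  · exact_mod_cast tresmta_not_dvd_twelve hp h5
  · exact s59lpcv_oggNode_five hπ (mgdIota (beta0Field A)) hp hpM4 hA
      ⟨fun _ => Dvd.intro_left M rfl, fun h2 => absurd h2 (by omega)⟩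
  · exact tresmi7_hρh hp hpM4 hA hπ (mgdIota (beta0Field A)) (stmtRedF (M * 4) A p hp hpM4 hA)
  · intro ℓ _ hℓ _ hℓp ζ hζ
    exact tresmi7_hhecke A hp ℓ hℓ hℓp ζ hζ

end W

end Fermat.Agent.S59

end
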