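/-
S59, wall M4 (LOWER-P at `p = 3`), leaf EIS3 (helper87).

The Hecke norm on the residue side, (C) of FAC-EIS of row 38 (`R38/TresEisNormK.lean`, helper60,
with helper63, helper83), is stated for `5 ≤ p`, but the hypothesis is only threaded: the proof of
`R38.stmtEisNormK_of` never uses it.  This file restates (C) at ONE pair `(M, p)` and proves it
for EVERY prime `p ∤ M` (in particular `p = 3`, no parity hypothesis on `M`).

* `s59lpeis_NormKAt M p`   : the clause of `R38.StmtEisNormK` at the pair `(M, p)`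
                             (the same body as `R38.s59lptr_EisNormKAt M p` of `S59/LowP/Triv3.lean`);
* `s59lpeis_normKAt_of`    : (C) at `(M, p)` from (C2) (`StmtEisGRBeta`, `StmtEisGRHecke`);
* `s59lpeis_normKAt`       : **(C)** at every pair, `p` prime, `p ∤ M`
                             (`N_{F̄_{Mℓ}/F̄_M} (f(q^ℓ)) = kronHecke ℓ ζ̄ f`, `ℓ ∤ M p`);
* `s59lpeis_normK_three`   : the case `p = 3`;
* `s59lpeis_normKAt_of_five`, `s59lpeis_stmtEisNormK` : row 38's Prop gives the clauses at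
  `5 ≤ p`, and comes back from the clauses (checks).
The glue (G) `FAC-MONO ⇒ FAC-p` at `p = 3` is in `S59/LowP/Triv3.lean`, `Triv3b.lean` (helper30).
-/
import Fermat.Agent.R38.TresEisNormK
import Fermat.Agent.R38.TresEisGR

set_option autoImplicit false
set_option linter.unusedSectionVars false
set_option linter.unusedVariables false
set_option linter.style.haveILetI false
set_option linter.style.longLine false
set_option synthInstance.maxHeartbeats 400000
set_option maxHeartbeats 1600000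

noncomputable section

namespace Fermat.Agent.S59

open HahnSeries ModularCurve AlgebraicCurve Fermat.Agent.ES Fermat.Agent.ES.G2 Fermat.Agent.ES.M
  Fermat.Agent.S24 Fermat.Agent.DEU IntermediateField Fermat.Agent.R38

/-! ### (C): the Hecke norm on the residue side, every prime `p ∤ M` -/

/-- the clause of `R38.StmtEisNormK` at one pair `(M, p)` -/
def s59lpeis_NormKAt (M p : ℕ) [NeZero M] : Prop :=
  ∀ A : ValuationSubring Qb, A.LiesOverPrime p →
    ∀ (ℓ : ℕ) [NeZero ℓ], ℓ.Prime → ¬ ℓ ∣ M → ℓ ≠ p →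
    ∀ ζ : (kA A)ˣ, IsPrimitiveRoot ζ ℓ →
    ∀ (f : ↥(modularFunctionFieldFullC (kA A) M))
      (g : ↥(modularFunctionFieldFullC (kA A) (M * ℓ))),
      (g : LaurentSeries (kA A)) = qExpand (kA A) ℓ (f : LaurentSeries (kA A)) →
        letI := (IntermediateField.inclusion
          (Fermat.Agent.S28.UB.full_mono (kA A) (Dvd.intro ℓ rfl) :
            modularFunctionFieldFullC (kA A) M ≤
              modularFunctionFieldFullC (kA A) (M * ℓ))).toRingHom.toAlgebra
        ((Algebra.norm ↥(modularFunctionFieldFullC (kA A) M) g :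
            ↥(modularFunctionFieldFullC (kA A) M)) : LaurentSeries (kA A)) =
          kronHecke ℓ ζ (f : LaurentSeries (kA A))

/-- row 38's (C) is the clause at every pair with `5 ≤ p` -/
theorem s59lpeis_normKAt_of_five (h : StmtEisNormK) (M p : ℕ) [NeZero M] (hp : p.Prime)
    (hpM : ¬ p ∣ M) (h5 : 5 ≤ p) : s59lpeis_NormKAt M p :=
  h M p hp hpM h5

/-- (C) at one pair from (C2): the proof of `R38.stmtEisNormK_of`, which does not use `5 ≤ p` -/
theorem s59lpeis_normKAt_of (hGβ : StmtEisGRBeta) (hGH : StmtEisGRHecke) (M p : ℕ) [NeZero M]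
    (hp : p.Prime) (hpM : ¬ p ∣ M) : s59lpeis_NormKAt M p := by
  intro A hA ℓ _ hℓ hℓM hℓp ζ hζ f g hg
  letI algK : Algebra ↥(modularFunctionFieldFullC (kA A) M)
      ↥(modularFunctionFieldFullC (kA A) (M * ℓ)) :=
    (IntermediateField.inclusion
      (Fermat.Agent.S28.UB.full_mono (kA A) (Dvd.intro ℓ rfl) :
        modularFunctionFieldFullC (kA A) M ≤
          modularFunctionFieldFullC (kA A) (M * ℓ))).toRingHom.toAlgebra
  letI alg0 : Algebra (FF M) (FF (M * ℓ)) := (heckeAlphaBar Kb M ℓ).toRingHom.toAlgebra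
  have hpMℓ : ¬ p ∣ M * ℓ := by
    intro h
    rcases (Nat.Prime.dvd_mul hp).1 h with h | h
    · exact hpM h
    · exact hℓp ((Nat.prime_dvd_prime_iff_eq hp hℓ).1 h).symm
  haveI : CharP (kA A) p := kron_charP_residueField hp hA
  have hk : ((M * ℓ : ℕ) : kA A) ≠ 0 := by
    rw [Ne, CharP.cast_eq_zero_iff (kA A) p]
    exact hpMℓ
  have hℓk : ((ℓ : ℕ) : kA A) ≠ 0 := by
    rw [Ne, CharP.cast_eq_zero_iff (kA A) p]
    intro h
    exact hℓp ((Nat.prime_dvd_prime_iff_eq hp hℓ).1 h).symm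
  -- roots of unity
  obtain ⟨ζ₀, hζ₀⟩ := frob_exists_primitiveRoot ℓ hℓ.ne_zero
  obtain ⟨ζA, hζA, hζb⟩ := r38red_exists_root A hℓ hℓk ζ₀ hζ₀
  rw [kronHecke_eq_of_isPrimitiveRoot _ ζ hζb hζ]
  -- the lift of `f`
  obtain ⟨x, hx⟩ := deuVal_exists_gaussRed M A (f : LaurentSeries (kA A)) f.2
  have hβ := hGβ M ℓ A hx
  have hβO : heckeBetaBar Kb M ℓ x ∈ deuValO (M * ℓ) A := ⟨_, hβ⟩
  have hred' : deuValRed (M * ℓ) A (stmtRedF (M * ℓ) A p hp hpMℓ hA)
      ⟨heckeBetaBar Kb M ℓ x, hβO⟩ = g := by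
    apply Subtype.ext
    obtain ⟨h', h2⟩ := (deuValRed_iff (M * ℓ) A (stmtRedF (M * ℓ) A p hp hpMℓ hA) _ _).1 hβ
    rw [hg]
    exact h2
  -- the norm commutes with the reduction
  haveI : FiniteDimensional (FF M) (FF (M * ℓ)) := hdeg_finiteDimensional M ℓ hℓ hℓM
  have hrank : Module.finrank ↥(modularFunctionFieldFullC (kA A) M)
      ↥(modularFunctionFieldFullC (kA A) (M * ℓ)) = Module.finrank (FF M) (FF (M * ℓ)) := by
    rw [tres4k_finrank (kA A) M ℓ hℓ hℓM hk]
    exact (hdeg_finrank M ℓ hℓ hℓM).symm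
  obtain ⟨y, hy1, hy2⟩ := tres4_norm_red (tres4h_normRedHyp M ℓ A p hp hpM hpMℓ hA) hrank
    ⟨heckeBetaBar Kb M ℓ x, hβO⟩
  rw [hred'] at hy2
  rw [← hy2]
  -- the norm upstairs is `kronHecke`
  have hyL : ((y : FF M) : LaurentSeries Kb) = kronHecke ℓ ζ₀ (x : LaurentSeries Kb) := by
    rw [hy1]
    exact stmtHeckeNorm M ℓ hℓ hℓM ζ₀ hζ₀ x
  subst hζA
  have hGR := hGH M ℓ hℓ hℓM A ζA hζ₀ hζb hx hyL
  obtain ⟨h', h2⟩ := (deuValRed_iff M A (stmtRedF M A p hp hpM hA) _ _).1 hGR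
  exact h2

/-- **EIS3, (C)**: the Hecke norm on the residue side at EVERY prime `p ∤ M` (`p = 3`
included): `N_{F̄_{Mℓ}/F̄_M} (f(q^ℓ)) = kronHecke ℓ ζ̄ f` for `f ∈ F̄_M`, `ℓ ∤ M p`. -/
theorem s59lpeis_normKAt (M p : ℕ) [NeZero M] (hp : p.Prime) (hpM : ¬ p ∣ M) :
    s59lpeis_NormKAt M p :=
  s59lpeis_normKAt_of (fun M ℓ _ _ A _ _ h => tres4g_gaussRed_beta M ℓ A h)
    (fun M ℓ _ _ hℓ hℓM A ζA hζ hζb _ _ _ h hy =>
      tres4g_gaussRed_kronHecke M ℓ A hℓ hℓM ζA hζ hζb h hy) M p hp hpM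

/-- **EIS3 at `p = 3`**: (C) at the pairs `(M, 3)`, `3 ∤ M` -/
theorem s59lpeis_normK_three (M : ℕ) [NeZero M] (h3M : ¬ 3 ∣ M) : s59lpeis_NormKAt M 3 :=
  s59lpeis_normKAt M 3 Nat.prime_three h3M

/-- check: row 38's (C) from the clauses -/
theorem s59lpeis_stmtEisNormK : StmtEisNormK :=
  fun M p _ hp hpM _ => s59lpeis_normKAt M p hp hpM

end Fermat.Agent.S59

end
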