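/-
S59, wall M4 (LOWER-P at `p = 3`), leaf EIS3 (helper87): the leaf in the LITERAL shape of the
assembly `S59/LowP/Triv3.lean`, `Triv3b.lean` (helper30).

* `s59lpeis_tr_normKAt` : `R38.s59lptr_EisNormKAt M p` for every prime `p ∤ M`;
* `s59lpeis_tr_three`   : the hypothesis `hEis` of `R38.s59lptr_trivThree_of` and of
                          `R38.s59lptr_trivThreeW_of`;
* `s59lpeis_trivThree_of`, `s59lpeis_trivThreeW_of` : (TRIV-3) from the FOUR remaining leaves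
  (MONOFIX3, COVER3, HOL3-SPAN, HOL3-D).
-/
import Fermat.Agent.S59.LowP.Eis3
import Fermat.Agent.S59.LowP.Triv3b

set_option autoImplicit false
set_option linter.unusedSectionVars false
set_option linter.unusedVariables false
set_option linter.style.haveILetI false
set_option linter.style.longLine false
set_option synthInstance.maxHeartbeats 400000
set_option maxHeartbeats 1600000

noncomputable section

namespace Fermat.Agent.S59

open Fermat.Agent.R38
open ModularCurve AlgebraicCurve Fermat.Agent.ES Fermat.Agent.ES.G2 Fermat.Agent.STB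
  Fermat.Agent.RIB.MP Fermat.Agent.S24 Fermat.Agent.DEU Fermat.Agent.ES.M Fermat.Agent.W1
  Fermat.Agent.S15 Fermat.Agent.RIB ExtCitation Fermat.Agent.R38

/-- **EIS3** in the shape of the assembly: `R38.s59lptr_EisNormKAt M p`, every prime `p ∤ M` -/
theorem s59lpeis_tr_normKAt (M p : ℕ) [NeZero M] (hp : p.Prime) (hpM : ¬ p ∣ M) :
    R38.s59lptr_EisNormKAt M p :=
  s59lpeis_normKAt M p hp hpM

/-- **EIS3 at `p = 3`**: the hypothesis `hEis` of the assembly of (TRIV-3) -/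
theorem s59lpeis_tr_three :
    ∀ (M : ℕ) [NeZero M], 2 ∣ M → ¬ 3 ∣ M → R38.s59lptr_EisNormKAt M 3 :=
  fun M _ _ h3 => s59lpeis_tr_normKAt M 3 Nat.prime_three h3

/-- **(TRIV-3) from the four remaining leaves** (strong Hecke clause) -/
theorem s59lpeis_trivThree_of (hT0 : StmtTresT0)
    (hFix : ∀ (M : ℕ) [NeZero M], 2 ∣ M → ¬ 3 ∣ M → R38.s59lptr_MonoFixAt M 3)
    (hCov : ∀ (M : ℕ) [NeZero M], 2 ∣ M → ¬ 3 ∣ M →
      haveI : Fact (Nat.Prime 3) := ⟨Nat.prime_three⟩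
      R38.s59lptr_MonoCoverAt M 3)
    (hSpan : ∀ (M : ℕ) [NeZero M], 2 ∣ M → ¬ 3 ∣ M →
      ∀ A : ValuationSubring Kb, A.LiesOverPrime 3 → StmtHolSpan M A 3)
    (hD : ∀ (M : ℕ) [NeZero M], 2 ∣ M → ¬ 3 ∣ M → R38.s59lptr_HolTrivAt M 3) :
    s59lpc_StmtTrivThree :=
  R38.s59lptr_trivThree_of hT0 s59lpeis_tr_three hFix hCov hSpan hD

/-- **(TRIV-3) from the four remaining leaves** (weak Hecke clause) -/
theorem s59lpeis_trivThreeW_of (hT0 : StmtTresT0)
    (hFix : ∀ (M : ℕ) [NeZero M], 2 ∣ M → ¬ 3 ∣ M → R38.s59lptr_MonoFixWAt M 3)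
    (hCov : ∀ (M : ℕ) [NeZero M], 2 ∣ M → ¬ 3 ∣ M →
      haveI : Fact (Nat.Prime 3) := ⟨Nat.prime_three⟩
      R38.s59lptr_MonoCoverWAt M 3)
    (hSpan : ∀ (M : ℕ) [NeZero M], 2 ∣ M → ¬ 3 ∣ M →
      ∀ A : ValuationSubring Kb, A.LiesOverPrime 3 → StmtHolSpan M A 3)
    (hD : ∀ (M : ℕ) [NeZero M], 2 ∣ M → ¬ 3 ∣ M → R38.s59lptr_HolTrivAt M 3) :
    s59lpc_StmtTrivThree :=
  R38.s59lptr_trivThreeW_of hT0 s59lpeis_tr_three hFix hCov hSpan hD

end Fermat.Agent.S59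

end
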