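/-
S59, wall M4 (LOWER-P), leaf EPEU-W (helper68), part 4: FINAL.

`W` an integral Weierstrass curve, `Δ ≠ 0`, `p` an odd prime at which `W` is semistable
(`p ∣ Δ → p ∤ c₄`) and PEU RAMIFIÉ in the prelude's sense (`p ∣ v_p(Δ)`;
`WeierstrassCurve.IsPeuRamifieeAt`), `A` a valuation subring of `ℚ̄` over `p`.

* `s59epw_centre`  : the centre `r₁ + e₂ / 2` of the node is fixed by the inertia group of `A`;
* `s59epw_lift`    : every point of `E[p]` is congruent modulo the kernel of reduction at `A` to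
                     a point fixed by the inertia group of `A`;
* `s59epw_chart`   : the kernel chart `R38.EpmChartAt` of `W` at `A`;
* **`s59epw_main`** : under the toric hypothesis, the peu ramifié subgroup `R38.peuSubgroup A p`
                     acts trivially on `E[p]`  (the statement `R38.StmtEPeu` WITHOUT good
                     reduction and without irreducibility; for the Frey curve this is
                     `R38.stmtEpmFrey`).
-/
import Fermat.Agent.S59.LowP.EpwRoots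
import Fermat.Agent.R38.EPM.Final
import Fermat.Agent.S15.SelKU
import Fermat.Prelude.Def_WeierstrassCurve_PeuRamifiee

set_option autoImplicit false
set_option linter.unusedSectionVars false
set_option linter.unusedVariables false
set_option linter.style.haveILetI false

namespace Fermat.Agent.S59

open WeierstrassCurve WeierstrassCurve.Affine Fermat.Agent.S05 Fermat.Agent.EC Fermat.Agent.W1
  Fermat.Agent.R38 Fermat.Agent.PT Fermat.Agent.PT.B Fermat.Agent.TW.L Fermat.Agent.TW.W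
  ExtCitation GaloisRep
open scoped WeierstrassCurve.Affine

section Centre

variable {A : ValuationSubring Qb} {E : WeierstrassCurve Qb}

/-- **the centre of the node is fixed by inertia** -/
theorem s59epw_centre (h2 : A.valuation (2 : Qb) = 1)
    (fb₂ : ∀ σ : Qb ≃ₐ[ℚ] Qb, σ E.b₂ = E.b₂) (fb₄ : ∀ σ : Qb ≃ₐ[ℚ] Qb, σ E.b₄ = E.b₄)
    (fb₆ : ∀ σ : Qb ≃ₐ[ℚ] Qb, σ E.b₆ = E.b₆)
    {r₁ e₂ e₃ : Qb} (hr : RootData E r₁ e₂ e₃) (hr₁ : r₁ ∈ A) (he₂A : e₂ ∈ A) (he₃A : e₃ ∈ A)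
    (he₃ : A.valuation e₃ = 1) (he₂₃ : A.valuation (e₃ - e₂) = 1) :
    r₁ + e₂ / 2 ∈ A ∧ (∀ σ ∈ A.inertiaSubgroupIn ℚ, σ (r₁ + e₂ / 2) = r₁ + e₂ / 2) ∧
      A.valuation (r₁ + e₂ / 2 - r₁) ≤ A.valuation e₂ := by
  classical
  have h20 : (2 : Qb) ≠ 0 := key_val_two_ne_zero _ h2
  have h40 : (4 : Qb) ≠ 0 := by
    have : (4 : Qb) = 2 * 2 := by norm_num
    rw [this]
    exact mul_ne_zero h20 h20
  have hhalf : A.valuation (e₂ / 2) = A.valuation e₂ := by
    rw [map_div₀, h2, div_one]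
  refine ⟨?_, ?_, ?_⟩
  · refine add_mem hr₁ ((A.valuation_le_one_iff _).1 ?_)
    rw [hhalf]
    exact (A.valuation_le_one_iff _).2 he₂A
  · intro σ hσ
    -- `σ` fixes the third root
    have hρ₃A : r₁ + e₃ ∈ A := add_mem hr₁ he₃A
    have hm := inertia_apply_sub_mem_nonunits hσ hρ₃A
    have hcub0 : cub E (r₁ + e₃) = 0 := by rw [hr.cub_eq]; ring
    have hcubσ : cub E (σ (r₁ + e₃)) = 0 := by
      have := congrArg σ hcub0
      simp only [cub, map_add, map_mul, map_pow, map_ofNat, fb₂, fb₄, fb₆, map_zero] at this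
      simp only [cub, map_add]
      exact this
    rw [hr.cub_eq] at hcubσ
    have hfix : σ (r₁ + e₃) = r₁ + e₃ := by
      rcases mul_eq_zero.1 hcubσ with h | h
      · rcases mul_eq_zero.1 h with h | h
        · rcases mul_eq_zero.1 h with h | h
          · exact absurd h h40
          · exfalso
            have e : σ (r₁ + e₃) - (r₁ + e₃) = -e₃ := by
              rw [sub_eq_zero.1 h]; ring
            rw [e, ValuationSubring.mem_nonunits_iff, Valuation.map_neg, he₃] at hm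
            exact lt_irrefl _ hm
        · exfalso
          have e : σ (r₁ + e₃) - (r₁ + e₃) = -(e₃ - e₂) := by
            have : σ (r₁ + e₃) = r₁ + e₂ := by linear_combination h
            rw [this]; ring
          rw [e, ValuationSubring.mem_nonunits_iff, Valuation.map_neg, he₂₃] at hm
          exact lt_irrefl _ hm
      · linear_combination h
    have e2r : r₁ + e₂ / 2 = (-(E.b₂ / 4) - (r₁ + e₃)) / 2 := by
      rw [hr.hb₂]
      field_simp
      ring
    rw [e2r, map_div₀, map_sub, map_neg, map_div₀, fb₂, hfix, map_ofNat, map_ofNat]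
  · have e : r₁ + e₂ / 2 - r₁ = e₂ / 2 := by ring
    rw [e, hhalf]

end Centre

section Main

variable (W : WeierstrassCurve ℤ)

/-- `E = W ⊗ ℚ̄` -/
local notation "EQb" => (W.map (Int.castRingHom ℚ))⁄Qb

theorem s59epw_Δ_cast : (EQb).Δ = ((W.Δ : ℤ) : Qb) := by
  simp only [WeierstrassCurve.baseChange, WeierstrassCurve.map_Δ]
  simp

theorem s59epw_c₄_cast : (EQb).c₄ = ((W.c₄ : ℤ) : Qb) := by
  simp only [WeierstrassCurve.baseChange, WeierstrassCurve.map_c₄]
  simp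

theorem s59epw_b_fix (σ : Qb ≃ₐ[ℚ] Qb) :
    σ (EQb).b₂ = (EQb).b₂ ∧ σ (EQb).b₄ = (EQb).b₄ ∧ σ (EQb).b₆ = (EQb).b₆ := by
  refine ⟨?_, ?_, ?_⟩
  · simp only [WeierstrassCurve.baseChange, WeierstrassCurve.map_b₂]; exact σ.commutes _
  · simp only [WeierstrassCurve.baseChange, WeierstrassCurve.map_b₄]; exact σ.commutes _
  · simp only [WeierstrassCurve.baseChange, WeierstrassCurve.map_b₆]; exact σ.commutes _

/-- **EPEU-W, lifting**: every point killed by `p` is congruent modulo the kernel of reduction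
to a point fixed by inertia. -/
theorem s59epw_lift (hΔ : W.Δ ≠ 0) {p : ℕ} (hp : p.Prime) (hp2 : p ≠ 2)
    (hsemi : (p : ℤ) ∣ W.Δ → ¬ (p : ℤ) ∣ W.c₄)
    (hpeu : (W.map (Int.castRingHom ℚ)).IsPeuRamifieeAt p p)
    (A : ValuationSubring Qb) (hA : A.LiesOverPrime p)
    (x : (EQb).Point) (htors : p • x = 0) :
    ∃ b : (EQb).Point,
      (∀ σ ∈ A.inertiaSubgroupIn ℚ, σ • b = b) ∧ ecflat_InKer A (x - b) := by
  classical
  obtain ⟨S, hS⟩ := stmtTeich p hp A hA
  have h₁ := ecflat_a₁_mem W A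
  have h₂ := ecflat_a₂_mem W A
  have h₃ := ecflat_a₃_mem W A
  have h₄ := ecflat_a₄_mem W A
  have h₆ := ecflat_a₆_mem W A
  obtain ⟨hb₂, hb₄, hb₆, -⟩ := kernel_b_mem A h₁ h₂ h₃ h₄ h₆
  have h2 : A.valuation (2 : Qb) = 1 := valuation_two_eq_one A hp hA hp2
  have hΔQ : (EQb).Δ ≠ 0 := by
    rw [s59epw_Δ_cast]
    exact_mod_cast hΔ
  have hss : A.valuation (EQb).Δ < 1 → A.valuation (EQb).c₄ = 1 := by
    intro h
    rw [s59epw_Δ_cast, valuation_intCast_lt_one_iff A hp hA] at h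
    rw [s59epw_c₄_cast, valuation_intCast_eq_one_iff A hp hA]
    exact hsemi h
  obtain ⟨r₁, e₂, e₃, hr, hr₁, he₂A, he₃A, he₃, he₂₃, he₂0, hvΔ⟩ :=
    s59epw_exists_node_data h2 hb₂ hb₄ hb₆ hΔQ hss
  obtain ⟨hrA, fr, hrr⟩ := s59epw_centre h2 (fun σ => (s59epw_b_fix W σ).1)
    (fun σ => (s59epw_b_fix W σ).2.1) (fun σ => (s59epw_b_fix W σ).2.2) hr hr₁ he₂A he₃A he₃ he₂₃
  -- the valuation of `Δ`
  have hΔq : ((W.map (Int.castRingHom ℚ)).Δ : ℚ) ≠ 0 := by
    rw [WeierstrassCurve.map_Δ]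
    simpa using hΔ
  obtain ⟨m, hm⟩ : ∃ m : ℤ, padicValRat p (W.map (Int.castRingHom ℚ)).Δ = p * m := hpeu
  have hvΔ' : A.valuation (EQb).Δ
      = A.valuation (algebraMap ℚ Qb ((p : ℚ) ^ m)) ^ p := by
    have e : (EQb).Δ = algebraMap ℚ Qb (W.map (Int.castRingHom ℚ)).Δ := by
      simp only [WeierstrassCurve.baseChange, WeierstrassCurve.map_Δ]
    have e3 : algebraMap ℚ Qb ((p : ℚ) ^ m) = (p : Qb) ^ m := by
      rw [map_zpow₀, map_natCast]
    rw [e, Fermat.Agent.S15.selku_valuation_ratCast hp A hA hΔq, hm, e3, map_zpow₀,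
      ← zpow_natCast (A.valuation (p : Qb) ^ m) p, ← zpow_mul, mul_comm]
  exact s59epw_local_lift A hS (W.map (Int.castRingHom ℚ)) h₁ h₂ h₃ h₄ h₆ h2 hΔQ
    (hp.odd_of_ne_two hp2) r₁ e₂ e₃ (r₁ + e₂ / 2) hr₁ hr he₃ he₂₃
    ((A.valuation_le_one_iff _).2 he₂A)
    (fun _ => ⟨he₂0, hrA, fr, hrr, (p : ℚ) ^ m, hvΔ.trans hvΔ'⟩) x htors

/-- **EPEU-W, the kernel chart.** -/
theorem s59epw_chart (hΔ : W.Δ ≠ 0) {p : ℕ} (hp : p.Prime) (hp2 : p ≠ 2)
    (hsemi : (p : ℤ) ∣ W.Δ → ¬ (p : ℤ) ∣ W.c₄)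
    (hpeu : (W.map (Int.castRingHom ℚ)).IsPeuRamifieeAt p p)
    (A : ValuationSubring Qb) (hA : A.LiesOverPrime p) :
    EpmChartAt A (EQb).Point
      (epmlJ1 (W.map (Int.castRingHom ℚ)) A (ecflat_a₁_mem W A) (ecflat_a₂_mem W A)
        (ecflat_a₃_mem W A) (ecflat_a₄_mem W A) (ecflat_a₆_mem W A)) 1
      (fun P _ => ecflat_z P) p :=
  epml_chart (W.map (Int.castRingHom ℚ)) A _ _ _ _ _ p
    (fun x hx => s59epw_lift W hΔ hp hp2 hsemi hpeu A hA x hx)

/-- **EPEU-W**: for an integral Weierstrass curve `W`, semistable and peu ramifié at the odd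
prime `p` (`p ∣ v_p(Δ)`), the peu ramifié subgroup of the inertia group of `A` acts trivially on
`E[p]` (under the toric hypothesis). -/
theorem s59epw_main (hΔ : W.Δ ≠ 0) (p : ℕ) [Fact p.Prime] (hp2 : p ≠ 2)
    (hsemi : (p : ℤ) ∣ W.Δ → ¬ (p : ℤ) ∣ W.c₄)
    (hpeu : (W.map (Int.castRingHom ℚ)).IsPeuRamifieeAt p p)
    (A : ValuationSubring Qb) (hA : A.LiesOverPrime p)
    (hωA : ∀ σ ∈ A.inertiaSubgroupIn ℚ, ∀ τ ∈ A.inertiaSubgroupIn ℚ, ∀ x : ETors W p,
        τ • (σ • x - x) = cycloExp p τ • (σ • x - x)) :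
    ∀ σ ∈ peuSubgroup A p, ∀ x : ETors W p, σ • x = x := by
  have hp : p.Prime := Fact.out
  have hK := s59epw_chart W hΔ hp hp2 hsemi hpeu A hA
  have hfin := Fermat.Agent.EC.ecflat_finite_torsionBy W hΔ hp.ne_zero
  have hcont := Fermat.Agent.EC.ecflat_isContAction W hΔ hp.ne_zero
  obtain ⟨Ht, hHt⟩ := stmtEpmCTL p hp A hA _ inferInstance inferInstance _ 1 _ p hK hp.pos
    hfin hcont
  obtain ⟨H, hH⟩ := localToGlobalStatement p hp A hA _ inferInstance hfin _ hcont Ht hHt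
  exact epmasm_of_lattice W hΔ p hp2 H hH A hA hωA

end Main

end Fermat.Agent.S59
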