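/-
S59, wall M4 (LOWER-P), leaf EPM-W: THE GLUE (helper10).

helper68's `s59epw_main` (S59/LowP/EpwMain.lean) has, pointwise in the valuation ring `A` over
`p`, exactly the body of `R38.EPeuAt W p`.  Hence the two forms of the leaf EPM-W that the wiring
of the wall consumes:

* `s59lpeg_stmtEpmGen : s59lpc_StmtEpmGen`     (form of `PlanCore.lean` / `Wall3.lean`);
* `s59lpeg_epmW p hp2 : S59lppEpmW p`          (form of `Plan.lean` / `Glue3.lean`), `p` odd;
* `s59lpeg_epmW_three`, `s59lpeg_epmW_five`.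
-/
import Fermat.Agent.S59.LowP.EpwMain
import Fermat.Agent.S59.LowP.PlanCore
import Fermat.Agent.S59.LowP.Plan

set_option autoImplicit false
set_option linter.unusedSectionVars false
set_option linter.unusedVariables false
set_option linter.style.haveILetI false
set_option linter.style.longLine false
set_option synthInstance.maxHeartbeats 400000
set_option maxHeartbeats 1600000

noncomputable section

namespace Fermat.Agent.S59

open ModularCurve AlgebraicCurve Fermat.Agent.ES Fermat.Agent.ES.G2 Fermat.Agent.STB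
  Fermat.Agent.RIB.MP Fermat.Agent.S24 ExtCitation Fermat.Agent.R38

/-- **Leaf (EPM-GEN)**, unconditional: `E[p]` is peu ramifié at `p` (in the sense of
`R38.EPeuAt`) for a general integral `W`, semistable at the odd prime `p` with `p ∣ v_p(Δ)`. -/
theorem s59lpeg_stmtEpmGen : s59lpc_StmtEpmGen :=
  fun W hΔ p _ hp2 hsemi hpeu _ A hA hωA => s59epw_main W hΔ p hp2 hsemi hpeu A hA hωA

/-- **Leaf EPM-W** at an odd prime `p`, unconditional. -/
theorem s59lpeg_epmW (p : ℕ) [Fact p.Prime] (hp2 : p ≠ 2) : S59lppEpmW p :=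
  fun W hΔ _ hc4 _ hpeu A hA hωA =>
    s59epw_main W hΔ p hp2 (fun _ => hc4) hpeu A hA hωA

/-- **Leaf EPM-W** at `p = 3`. -/
theorem s59lpeg_epmW_three :
    haveI : Fact (Nat.Prime 3) := ⟨Nat.prime_three⟩
    S59lppEpmW 3 :=
  haveI : Fact (Nat.Prime 3) := ⟨Nat.prime_three⟩
  s59lpeg_epmW 3 (by norm_num)

/-- **Leaf EPM-W** at `p = 5`. -/
theorem s59lpeg_epmW_five :
    haveI : Fact (Nat.Prime 5) := ⟨by norm_num⟩
    S59lppEpmW 5 :=
  haveI : Fact (Nat.Prime 5) := ⟨by norm_num⟩
  s59lpeg_epmW 5 (by norm_num)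

end Fermat.Agent.S59
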