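/-
S59, wall M4 (LOWER-P), leaf EPM-GEN = EPEU-W (helper68): the leaf `s59lpc_StmtEpmGen` of
`S59/LowP/PlanCore.lean` (helper30) is PROVED: `s59epw_stmtEpmGen` (from `s59epw_main`,
`S59/LowP/EpwMain.lean`; the irreducibility hypothesis is not used).
-/
import Fermat.Agent.S59.LowP.EpwMain
import Fermat.Agent.S59.LowP.PlanCore

set_option autoImplicit false

namespace Fermat.Agent.S59

open Fermat.Agent.R38

/-- **LEAF (EPM-GEN)** of wall M4. -/
theorem s59epw_stmtEpmGen : s59lpc_StmtEpmGen :=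
  fun W hΔ p _ hp2 hsemi hpeu _ A hA hω => s59epw_main W hΔ p hp2 hsemi hpeu A hA hω

end Fermat.Agent.S59
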