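/-
S59, wall M4 (LOWER-P), leaf EPEU-W (helper68), part 1: lifting at the node with an
INERTIA-FIXED CENTRE.

Generalisation of `R38.epml_lift_node` (R38/EPM/LiftNode.lean): there the node of the 2-division
cubic `4 (x - r₁)(x - r₁ - e₂)(x - r₁ - e₃)` sits at a root `r₁` fixed by the inertia group `I`
of `A`.  For a general curve with multiplicative reduction the two roots `r₁`, `r₁ + e₂` at the
node are conjugate over a (possibly ramified) quadratic extension; but the CENTRE
`r = r₁ + e₂ / 2` is fixed by `I`.  Here `r` is any `I`-fixed element of `A` with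
`v (r - r₁) ≤ v e₂`.
-/
import Fermat.Agent.R38.EPM.LiftNode

set_option autoImplicit false
set_option linter.unusedSectionVars false
set_option linter.unusedVariables false

namespace Fermat.Agent.S59

open WeierstrassCurve WeierstrassCurve.Affine Fermat.Agent.S05 Fermat.Agent.EC Fermat.Agent.W1
  Fermat.Agent.R38

section Coord

variable {A : ValuationSubring Qb} {E : WeierstrassCurve Qb}

/-- the valuation of `x - r` for a centre `r` with `v (r - r₁) ≤ v e₂ < v (x - r₁)` -/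
theorem s59epw_val_centre {r r₁ e₂ x : Qb} (hrr : A.valuation (r - r₁) ≤ A.valuation e₂)
    (hlow : A.valuation e₂ < A.valuation (x - r₁)) :
    A.valuation (x - r) = A.valuation (x - r₁) := by
  have e : x - r = (x - r₁) - (r - r₁) := by ring
  rw [e]
  exact Valuation.map_sub_eq_of_lt_left _ (lt_of_le_of_lt hrr hlow)

/-- the square of the tangent direction at the node, measured from the centre `r`,
is `≡ -4 e₃` -/
theorem s59epw_tangent_sq (h2 : A.valuation (2 : Qb) = 1)
    {r₁ e₂ e₃ : Qb} (hr : RootData E r₁ e₂ e₃)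
    (he₃ : A.valuation e₃ = 1) (he₂ : A.valuation e₂ < 1)
    {r : Qb} (hrr : A.valuation (r - r₁) ≤ A.valuation e₂)
    {x y : Qb} (h : E.toAffine.Equation x y)
    (hlow : A.valuation e₂ < A.valuation (x - r₁)) (hlt : A.valuation (x - r₁) < 1) :
    A.valuation ((eta E x y / (x - r)) ^ 2 + 4 * e₃) < 1 ∧
      A.valuation (eta E x y / (x - r)) = 1 := by
  classical
  obtain ⟨hT, htu⟩ := epml_tangent_sq h2 hr he₃ he₂ h hlow hlt
  have hvc := s59epw_val_centre (A := A) hrr hlow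
  have hX0 : x - r₁ ≠ 0 := by
    intro h0
    rw [h0, map_zero] at hlow
    exact not_lt_zero hlow
  have hXr0 : x - r ≠ 0 := by
    intro h0
    rw [h0, map_zero] at hvc
    exact hX0 ((Valuation.zero_iff _).1 hvc.symm)
  -- `ε = (r - r₁)/(x - r)`
  have hε : A.valuation ((r - r₁) / (x - r)) < 1 := by
    rw [map_div₀, hvc]
    exact (div_lt_one₀ (zero_lt_iff.2 ((Valuation.ne_zero_iff _).2 hX0))).2
      (lt_of_le_of_lt hrr hlow)
  have hratio : eta E x y / (x - r) = eta E x y / (x - r₁) * (1 + (r - r₁) / (x - r)) := by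
    field_simp
    ring
  have h1ε : A.valuation (1 + (r - r₁) / (x - r)) = 1 := by
    have := Valuation.map_add_eq_of_lt_left A.valuation (x := (1 : Qb))
      (y := (r - r₁) / (x - r)) (by rw [map_one]; exact hε)
    rw [this, map_one]
  have hu : A.valuation (eta E x y / (x - r)) = 1 := by
    rw [hratio, map_mul, htu, h1ε, one_mul]
  refine ⟨?_, hu⟩
  have e : (eta E x y / (x - r)) ^ 2 + 4 * e₃
      = ((eta E x y / (x - r₁)) ^ 2 + 4 * e₃)
        + (eta E x y / (x - r₁)) ^ 2 * ((r - r₁) / (x - r)) * (2 + (r - r₁) / (x - r)) := by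
    rw [hratio]
    ring
  rw [e]
  refine lt_of_le_of_lt (Valuation.map_add _ _ _) (max_lt hT ?_)
  rw [map_mul, map_mul, map_pow, htu, one_pow, one_mul]
  have h2ε : A.valuation (2 + (r - r₁) / (x - r)) ≤ 1 :=
    le_trans (Valuation.map_add _ _ _) (max_le h2.le hε.le)
  calc A.valuation ((r - r₁) / (x - r)) * A.valuation (2 + (r - r₁) / (x - r))
      ≤ A.valuation ((r - r₁) / (x - r)) * 1 := by gcongr
    _ = A.valuation ((r - r₁) / (x - r)) := mul_one _
    _ < 1 := hε

/-- **Lifting at the node** (coordinates), with an inertia-fixed centre `r`. -/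
theorem s59epw_lift_node {S : Set A} (hS : IsTeich A S)
    (h₁ : E.a₁ ∈ A) (h₂ : E.a₂ ∈ A) (h₃ : E.a₃ ∈ A) (h₄ : E.a₄ ∈ A) (h₆ : E.a₆ ∈ A)
    (f : ∀ σ ∈ A.inertiaSubgroupIn ℚ, σ E.a₁ = E.a₁ ∧ σ E.a₂ = E.a₂ ∧ σ E.a₃ = E.a₃ ∧
      σ E.a₄ = E.a₄ ∧ σ E.a₆ = E.a₆)
    (h2 : A.valuation (2 : Qb) = 1)
    {r₁ e₂ e₃ : Qb} (hr : RootData E r₁ e₂ e₃)
    {r : Qb} (hrA : r ∈ A) (fr : ∀ σ ∈ A.inertiaSubgroupIn ℚ, σ r = r)
    (hrr : A.valuation (r - r₁) ≤ A.valuation e₂)
    (he₃ : A.valuation e₃ = 1) (he₂ : A.valuation e₂ < 1)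
    {x y : Qb} (h : E.toAffine.Equation x y)
    (hlow : A.valuation e₂ < A.valuation (x - r₁)) (hlt : A.valuation (x - r₁) < 1)
    {c : Qb} (fc : ∀ σ ∈ A.inertiaSubgroupIn ℚ, σ c = c)
    (hval : A.valuation (x - r₁) = A.valuation c) :
    ∃ x' y' : Qb, E.toAffine.Equation x' y' ∧ x' ∈ A ∧
      (∀ σ ∈ A.inertiaSubgroupIn ℚ, σ x' = x' ∧ σ y' = y') ∧
      A.valuation (x' - x) < A.valuation (x - r) ∧
      A.valuation (eta E x y / (x - r)) = 1 ∧
      A.valuation (eta E x' y' / (x' - r) - eta E x y / (x - r)) < 1 := by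
  classical
  have hvc := s59epw_val_centre (A := A) hrr hlow
  have hval' : A.valuation (x - r) = A.valuation c := hvc.trans hval
  have hX0 : x - r₁ ≠ 0 := by
    intro h0
    rw [h0, map_zero] at hlow
    exact not_lt_zero hlow
  have hXr0 : x - r ≠ 0 := by
    intro h0
    rw [h0, map_zero] at hvc
    exact hX0 ((Valuation.zero_iff _).1 hvc.symm)
  have hvX0 : A.valuation (x - r) ≠ 0 := (Valuation.ne_zero_iff _).2 hXr0
  have hvc0 : A.valuation c ≠ 0 := hval' ▸ hvX0
  have hc0 : c ≠ 0 := (Valuation.ne_zero_iff _).1 hvc0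
  -- the unit `u₀ = (x - r)/c` and its Teichmüller representative
  have hu₀ : A.valuation ((x - r) / c) = 1 := by
    rw [map_div₀, hval', div_self hvc0]
  have hu₀A : (x - r) / c ∈ A := (A.valuation_le_one_iff _).1 hu₀.le
  obtain ⟨s, hsS, hs⟩ := hS.surj (IsLocalRing.residue A ⟨(x - r) / c, hu₀A⟩)
  have hsu : (s : Qb) - (x - r) / c ∈ A.nonunits :=
    (Fermat.Agent.RED.residue_eq_iff_sub_mem_nonunits (a := s) (b := ⟨(x - r) / c, hu₀A⟩)).1 hs
  have hsu' : A.valuation ((s : Qb) - (x - r) / c) < 1 := (A.mem_nonunits_iff).1 hsu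
  -- the new abscissa
  set x' : Qb := r + c * s with hx'
  have hxx : x' - x = c * ((s : Qb) - (x - r) / c) := by
    rw [hx']; field_simp; ring
  have hvxx : A.valuation (x' - x) < A.valuation (x - r) := by
    rw [hxx, map_mul, hval']
    calc A.valuation c * A.valuation ((s : Qb) - (x - r) / c)
        < A.valuation c * 1 := by
          exact mul_lt_mul_of_pos_left hsu' (zero_lt_iff.2 hvc0)
      _ = A.valuation c := mul_one _
  have hX' : x' - r = (x - r) + (x' - x) := by ring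
  have hvX' : A.valuation (x' - r) = A.valuation (x - r) := by
    rw [hX', Valuation.map_add_eq_of_lt_left _ hvxx]
  have hlt_r : A.valuation (x - r) < 1 := by rw [hvc]; exact hlt
  have hx'A : x' ∈ A := by
    have : x' = r + (x' - r) := by ring
    rw [this]
    exact add_mem hrA ((A.valuation_le_one_iff _).1 (hvX'.trans_le hlt_r.le))
  have fx' : ∀ σ ∈ A.inertiaSubgroupIn ℚ, σ x' = x' := by
    intro σ hσ
    rw [hx', map_add, map_mul, fr σ hσ, fc σ hσ, hS.fixed σ hσ s hsS]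
  -- `x'` is as close to `r₁` as `x`
  have hX'₁ : x' - r₁ = (x - r₁) + (x' - x) := by ring
  have hvX'₁ : A.valuation (x' - r₁) = A.valuation (x - r₁) := by
    rw [hX'₁, Valuation.map_add_eq_of_lt_left _ (by rw [← hvc]; exact hvxx)]
  have hlow' : A.valuation e₂ < A.valuation (x' - r₁) := by rw [hvX'₁]; exact hlow
  have hlt' : A.valuation (x' - r₁) < 1 := by rw [hvX'₁]; exact hlt
  obtain ⟨hT, htu⟩ := s59epw_tangent_sq h2 hr he₃ he₂ hrr h hlow hlt
  -- a root over `x'` with the right tangent direction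
  have hroot : ∃ y' : Qb, E.toAffine.Equation x' y' ∧
      A.valuation (eta E x' y' / (x' - r) - eta E x y / (x - r)) < 1 := by
    obtain ⟨y₀, hy₀⟩ := ecflat_exists_root_quadratic (E.a₁ * x' + E.a₃)
      (-(x' ^ 3 + E.a₂ * x' ^ 2 + E.a₄ * x' + E.a₆))
    have hE₀ : E.toAffine.Equation x' y₀ := by
      rw [Affine.equation_iff]; linear_combination hy₀
    have hE₁ : E.toAffine.Equation x' (-y₀ - E.a₁ * x' - E.a₃) := by
      rw [Affine.equation_iff]; linear_combination hy₀
    obtain ⟨hT₀, htu₀⟩ := s59epw_tangent_sq h2 hr he₃ he₂ hrr hE₀ hlow' hlt'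
    have hη₁ : eta E x' (-y₀ - E.a₁ * x' - E.a₃) = -eta E x' y₀ := by
      simp only [eta]; ring
    -- `(t₀ - t)(t₀ + t) ∈ 𝔪`
    have hprod : (eta E x' y₀ / (x' - r) - eta E x y / (x - r)) *
        (eta E x' y₀ / (x' - r) + eta E x y / (x - r)) ∈ A.nonunits := by
      have e : (eta E x' y₀ / (x' - r) - eta E x y / (x - r)) *
          (eta E x' y₀ / (x' - r) + eta E x y / (x - r))
          = ((eta E x' y₀ / (x' - r)) ^ 2 + 4 * e₃)
            - ((eta E x y / (x - r)) ^ 2 + 4 * e₃) := by ring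
      rw [e]
      exact sub_mem ((A.mem_nonunits_iff).2 hT₀) ((A.mem_nonunits_iff).2 hT)
    have htA : eta E x y / (x - r) ∈ A := (A.valuation_le_one_iff _).1 htu.le
    have ht₀A : eta E x' y₀ / (x' - r) ∈ A := (A.valuation_le_one_iff _).1 htu₀.le
    rcases vs_prime A (sub_mem ht₀A htA) (add_mem ht₀A htA) hprod with hm | hm
    · exact ⟨y₀, hE₀, (A.mem_nonunits_iff).1 hm⟩
    · refine ⟨-y₀ - E.a₁ * x' - E.a₃, hE₁, ?_⟩
      rw [hη₁]
      have e : -eta E x' y₀ / (x' - r) - eta E x y / (x - r)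
          = -(eta E x' y₀ / (x' - r) + eta E x y / (x - r)) := by ring
      rw [e, Valuation.map_neg]
      exact (A.mem_nonunits_iff).1 hm
  obtain ⟨y', hE', htt⟩ := hroot
  obtain ⟨-, htu'⟩ := s59epw_tangent_sq h2 hr he₃ he₂ hrr hE' hlow' hlt'
  refine ⟨x', y', hE', hx'A, fun σ hσ => ⟨fx' σ hσ, ?_⟩, hvxx, htu, htt⟩
  obtain ⟨f₁, f₂, f₃, f₄, f₆⟩ := f σ hσ
  exact epml_fix_root hσ f₁ f₂ f₃ f₄ f₆ h2 hE' (fx' σ hσ) (fr σ hσ) htu'

end Coord

end Fermat.Agent.S59
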