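/-
S59, wall M4 (LOWER-P), leaf EPEU-W (helper68), part 2: lifting of torsion points for a curve
whose node (if any) has an inertia-fixed CENTRE.

`s59epw_local_lift` : `W₀` over `ℚ`, integral at `A`, 2-division cubic with roots `r₁`,
`r₁ + e₂`, `r₁ + e₃` in `ℚ̄` and at most a node at `r₁` (`v e₂ ≤ 1 = v e₃ = v (e₃ - e₂)`); in the
node case: a centre `r ∈ A` fixed by the inertia group with `v (r - r₁) ≤ v e₂`, and
`v e₂ ^ 2 = v d ^ p` for some `d ∈ ℚ` (i.e. `p ∣ v(Δ)`).  Then every point `P` killed by the odd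
number `p` is congruent modulo the kernel of reduction to a point fixed by the inertia group.
(Generalises `R38.epml_local_lift`, where `r₁ ∈ ℚ` and `v e₂ = v d ^ p`.)
-/
import Fermat.Agent.S59.LowP.EpwNode
import Fermat.Agent.R38.EPM.LiftPt

set_option autoImplicit false
set_option linter.unusedSectionVars false
set_option linter.unusedVariables false

namespace Fermat.Agent.S59

open WeierstrassCurve WeierstrassCurve.Affine Fermat.Agent.S05 Fermat.Agent.EC Fermat.Agent.W1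
  Fermat.Agent.R38

section Pt

variable (A : ValuationSubring Qb)

/-- **Lifting of `p`-torsion points** modulo the kernel of reduction (at most a node at `r₁`,
with an inertia-fixed centre `r` and `v e₂ ^ 2 = v d ^ p` in the node case). -/
theorem s59epw_local_lift {S : Set A} (hS : IsTeich A S) (W₀ : WeierstrassCurve ℚ)
    (h₁ : (W₀.baseChange Qb).a₁ ∈ A) (h₂ : (W₀.baseChange Qb).a₂ ∈ A)
    (h₃ : (W₀.baseChange Qb).a₃ ∈ A) (h₄ : (W₀.baseChange Qb).a₄ ∈ A)
    (h₆ : (W₀.baseChange Qb).a₆ ∈ A)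
    (h2 : A.valuation (2 : Qb) = 1) (hΔ : (W₀.baseChange Qb).Δ ≠ 0)
    {p : ℕ} (hp : Odd p)
    (r₁ e₂ e₃ r : Qb) (hr₁ : r₁ ∈ A)
    (hr : RootData (W₀.baseChange Qb) r₁ e₂ e₃)
    (he₃ : A.valuation e₃ = 1) (he₂₃ : A.valuation (e₃ - e₂) = 1) (he₂ : A.valuation e₂ ≤ 1)
    (hnode : A.valuation e₂ < 1 →
      e₂ ≠ 0 ∧ r ∈ A ∧ (∀ σ ∈ A.inertiaSubgroupIn ℚ, σ r = r) ∧
        A.valuation (r - r₁) ≤ A.valuation e₂ ∧
        ∃ d : ℚ, A.valuation e₂ ^ 2 = A.valuation (algebraMap ℚ Qb d) ^ p)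
    (P : (W₀⁄Qb).Point) (htors : p • P = 0) :
    ∃ b : (W₀⁄Qb).Point, (∀ σ ∈ A.inertiaSubgroupIn ℚ, σ • b = b) ∧ ecflat_InKer A (P - b) := by
  classical
  have f : ∀ σ ∈ A.inertiaSubgroupIn ℚ, σ (W₀.baseChange Qb).a₁ = (W₀.baseChange Qb).a₁ ∧
      σ (W₀.baseChange Qb).a₂ = (W₀.baseChange Qb).a₂ ∧
      σ (W₀.baseChange Qb).a₃ = (W₀.baseChange Qb).a₃ ∧
      σ (W₀.baseChange Qb).a₄ = (W₀.baseChange Qb).a₄ ∧
      σ (W₀.baseChange Qb).a₆ = (W₀.baseChange Qb).a₆ :=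
    fun σ _ => ⟨σ.commutes _, σ.commutes _, σ.commutes _, σ.commutes _, σ.commutes _⟩
  obtain ⟨hb₂, hb₄, hb₆, hb₈⟩ := kernel_b_mem A h₁ h₂ h₃ h₄ h₆
  have hvb₂ : A.valuation (W₀.baseChange Qb).b₂ ≤ 1 := (A.valuation_le_one_iff _).2 hb₂
  have hvb₄ : A.valuation (W₀.baseChange Qb).b₄ ≤ 1 := (A.valuation_le_one_iff _).2 hb₄
  rcases P with _ | ⟨x, y, h⟩
  · refine ⟨0, fun σ _ => rfl, ?_⟩
    rw [sub_zero]
    exact trivial
  by_cases hxA : x ∈ A
  swap
  · refine ⟨0, fun σ _ => rfl, ?_⟩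
    rw [sub_zero]
    exact hxA
  have hyA : y ∈ A := ecflat_y_mem h₁ h₂ h₃ h₄ h₆ h.1 hxA
  have hvx : A.valuation x ≤ 1 := (A.valuation_le_one_iff _).2 hxA
  have hηA : eta (W₀.baseChange Qb) x y ∈ A := by
    simp only [eta]
    exact add_mem (add_mem (mul_mem (ofNat_mem A 2) hyA) (mul_mem h₁ hxA)) h₃
  have hvη : A.valuation (eta (W₀.baseChange Qb) x y) ≤ 1 := (A.valuation_le_one_iff _).2 hηA
  -- the endgame
  suffices hmain : ∃ (x' y' : Qb) (h' : (W₀.baseChange Qb).toAffine.Nonsingular x' y'),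
      (∀ σ ∈ A.inertiaSubgroupIn ℚ, σ x' = x' ∧ σ y' = y') ∧
      ((Point.some x' y' h' : (W₀⁄Qb).Point) ≠ Point.some x y h →
        ∃ (x'' y'' : Qb) (h'' : (W₀.baseChange Qb).toAffine.Nonsingular x'' y''),
          (Point.some x' y' h' : (W₀⁄Qb).Point) - Point.some x y h = Point.some x'' y'' h'' ∧
            1 < A.valuation x'') by
    obtain ⟨x', y', h', hfix, hsub⟩ := hmain
    refine ⟨Point.some x' y' h', fun σ hσ =>
      galois_smul_some_eq_self σ h' (hfix σ hσ).1 (hfix σ hσ).2, ?_⟩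
    by_cases hne : (Point.some x' y' h' : (W₀⁄Qb).Point) = Point.some x y h
    · rw [hne, sub_self]
      exact trivial
    · obtain ⟨x'', y'', h'', hQ, hlt⟩ := hsub hne
      have e : (Point.some x y h : (W₀⁄Qb).Point) - Point.some x' y' h'
          = -(Point.some x'' y'' h'') := by rw [← hQ, neg_sub]
      rw [e, Point.neg_some]
      show x'' ∉ A
      intro hx''
      exact absurd ((A.valuation_le_one_iff _).2 hx'') (not_le.2 hlt)
  -- nonsingular reduction
  have hnonsing : (A.valuation (eta (W₀.baseChange Qb) x y) = 1 ∨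
      A.valuation (dcub (W₀.baseChange Qb) x) = 1) →
      ∃ (x' y' : Qb) (h' : (W₀.baseChange Qb).toAffine.Nonsingular x' y'),
      (∀ σ ∈ A.inertiaSubgroupIn ℚ, σ x' = x' ∧ σ y' = y') ∧
      ((Point.some x' y' h' : (W₀⁄Qb).Point) ≠ Point.some x y h →
        ∃ (x'' y'' : Qb) (h'' : (W₀.baseChange Qb).toAffine.Nonsingular x'' y''),
          (Point.some x' y' h' : (W₀⁄Qb).Point) - Point.some x y h = Point.some x'' y'' h'' ∧
            1 < A.valuation x'') := by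
    intro hns
    obtain ⟨x', y', hE', hx'A, hfix, hxx, hηη⟩ :=
      epml_lift_nonsing hS h₁ h₂ h₃ h₄ h₆ f h2 h.1 hxA hns
    have h' : (W₀.baseChange Qb).toAffine.Nonsingular x' y' :=
      (Affine.equation_iff_nonsingular_of_Δ_ne_zero hΔ).1 hE'
    exact ⟨x', y', h', hfix, fun hne =>
      key_nonsing _ hvb₂ hvb₄ h2 h h' hvx hvη hxx hηη hne hns⟩
  have hη_sq : eta (W₀.baseChange Qb) x y ^ 2 = 4 * (x - r₁) * (x - r₁ - e₂) * (x - r₁ - e₃) := by
    rw [eta_sq _ h.1, hr.cub_eq]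
  have hdc := hr.dcub_eq x
  have hs₁ : A.valuation (x - r₁) ≤ 1 := (A.valuation_le_one_iff _).2 (sub_mem hxA hr₁)
  have he₂A : e₂ ∈ A := (A.valuation_le_one_iff _).1 he₂
  have he₃A : e₃ ∈ A := (A.valuation_le_one_iff _).1 he₃.le
  have hs₂ : A.valuation (x - r₁ - e₂) ≤ 1 :=
    (A.valuation_le_one_iff _).2 (sub_mem (sub_mem hxA hr₁) he₂A)
  have hs₃ : A.valuation (x - r₁ - e₃) ≤ 1 :=
    (A.valuation_le_one_iff _).2 (sub_mem (sub_mem hxA hr₁) he₃A)
  rcases hs₁.lt_or_eq with hlt | heq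
  · -- `x ≡ r₁`
    have hs₃' : A.valuation (x - r₁ - e₃) = 1 := by
      rw [Valuation.map_sub_eq_of_lt_right _ (by rw [he₃]; exact hlt), he₃]
    rcases he₂.lt_or_eq with he₂lt | he₂eq
    · -- the node
      obtain ⟨he₂0, hrA, fr, hrr, d, hd⟩ := hnode he₂lt
      obtain ⟨hlow, k, hk⟩ := tropical_torsion A.valuation hr.hb₂ hr.hb₄ hr.hb₆ h2 he₃
        he₂lt he₂0 hp h htors hlt
      have hp0 : p ≠ 0 := by
        rintro rfl
        exact Nat.not_odd_zero hp
      have hk' : A.valuation (x - r₁) = A.valuation ((algebraMap ℚ Qb d) ^ k) := by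
        rw [map_zpow₀]
        have : A.valuation (x - r₁) ^ p = (A.valuation (algebraMap ℚ Qb d) ^ k) ^ p := by
          rw [hk, zpow_mul, zpow_ofNat, hd, ← zpow_natCast (A.valuation (algebraMap ℚ Qb d)) p,
            ← zpow_mul, ← zpow_natCast (A.valuation (algebraMap ℚ Qb d) ^ k) p, ← zpow_mul]
          congr 1; ring
        exact (pow_left_inj₀ zero_le zero_le hp0).mp this
      obtain ⟨x', y', hE', hx'A, hfix, hxx, ht, htt⟩ :=
        s59epw_lift_node hS h₁ h₂ h₃ h₄ h₆ f h2 hr hrA fr hrr he₃ he₂lt h.1 hlow hlt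
          (c := (algebraMap ℚ Qb d) ^ k)
          (fun σ _ => by rw [map_zpow₀, σ.commutes]) hk'
      have h' : (W₀.baseChange Qb).toAffine.Nonsingular x' y' :=
        (Affine.equation_iff_nonsingular_of_Δ_ne_zero hΔ).1 hE'
      have hX0 : x - r₁ ≠ 0 := by
        intro h0
        rw [h0, map_zero] at hlow
        exact not_lt_zero hlow
      have hXr0 : x - r ≠ 0 := by
        intro h0
        have hvc := s59epw_val_centre (A := A) hrr hlow
        rw [h0, map_zero] at hvc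
        exact hX0 ((Valuation.zero_iff _).1 hvc.symm)
      exact ⟨x', y', h', hfix, fun hne =>
        key_node _ hvb₂ h2 h h' r hvx ((A.valuation_le_one_iff _).2 hx'A) hXr0 hxx ht htt hne⟩
    · -- `e₂` is a unit: no node
      have hs₂' : A.valuation (x - r₁ - e₂) = 1 := by
        rw [Valuation.map_sub_eq_of_lt_right _ (by rw [he₂eq]; exact hlt), he₂eq]
      exact hnonsing (hns_of_two_units A.valuation h2 (η := eta (W₀.baseChange Qb) x y)
        (c := 0) (d := dcub (W₀.baseChange Qb) x) (u₁ := x - r₁ - e₂) (u₂ := x - r₁ - e₃)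
        (s := x - r₁) (hη_sq.trans (by ring)) (hdc.trans (by ring)) hs₂' hs₃' hs₁)
  · -- `x ≢ r₁`
    rcases hs₂.lt_or_eq with hlt₂ | heq₂
    · have hs₃' : A.valuation (x - r₁ - e₃) = 1 := by
        have e : x - r₁ - e₃ = (x - r₁ - e₂) - (e₃ - e₂) := by ring
        rw [e, Valuation.map_sub_eq_of_lt_right _ (by rw [he₂₃]; exact hlt₂), he₂₃]
      exact hnonsing (hns_of_two_units A.valuation h2 (η := eta (W₀.baseChange Qb) x y)
        (c := 0) (d := dcub (W₀.baseChange Qb) x) (u₁ := x - r₁) (u₂ := x - r₁ - e₃)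
        (s := x - r₁ - e₂) (hη_sq.trans (by ring)) (hdc.trans (by ring)) heq hs₃' hs₂)
    · exact hnonsing (hns_of_two_units A.valuation h2 (η := eta (W₀.baseChange Qb) x y)
        (c := 0) (d := dcub (W₀.baseChange Qb) x) (u₁ := x - r₁) (u₂ := x - r₁ - e₂)
        (s := x - r₁ - e₃) (hη_sq.trans (by ring)) (hdc.trans (by ring)) heq heq₂ hs₃)

end Pt

end Fermat.Agent.S59
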