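/-
S59, wall M4 (LOWER-P), leaf EPEU-W (helper68), part 3: the roots of the 2-division cubic of a
Weierstrass curve over `ℚ̄`.

* `s59epw_exists_roots`   : the cubic `4x³ + b₂x² + 2b₄x + b₆` splits over `ℚ̄` (root data exist);
* `s59epw_rootData_swap`, `s59epw_rootData_shift` : relabelling of the roots;
* `s59epw_Δ_eq`, `s59epw_c₄_eq` : `Δ = 16 e₂² e₃² (e₃ - e₂)²`, `c₄ = 16 (e₂² - e₂ e₃ + e₃²)`;
* `s59epw_root_mem`      : the roots are integral at `A` (`2` a unit, `b_i ∈ A`);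
* `s59epw_exists_node_data` : if `v Δ < 1 → v c₄ = 1` (semistable), the roots can be labelled
  such that `v e₃ = 1 = v (e₃ - e₂)`, `v e₂ ≤ 1`, `v e₂ ^ 2 = v Δ`.
-/
import Fermat.Agent.S59.LowP.EpwPt

set_option autoImplicit false
set_option linter.unusedSectionVars false
set_option linter.unusedVariables false

namespace Fermat.Agent.S59

open WeierstrassCurve WeierstrassCurve.Affine Fermat.Agent.S05 Fermat.Agent.EC Fermat.Agent.W1
  Fermat.Agent.R38 Polynomial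

section Roots

variable {K : Type*} [Field K] [DecidableEq K]

/-- a monic cubic over an algebraically closed field has a root -/
theorem s59epw_exists_root_cubic [IsAlgClosed K] (a b c : K) :
    ∃ r : K, r ^ 3 + a * r ^ 2 + b * r + c = 0 := by
  have hdeg : (C 1 * X ^ 3 + C a * X ^ 2 + C b * X + C c : K[X]).degree = 3 :=
    degree_cubic one_ne_zero
  obtain ⟨r, hr⟩ := IsAlgClosed.exists_root (C 1 * X ^ 3 + C a * X ^ 2 + C b * X + C c : K[X])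
    (by rw [hdeg]; norm_num)
  refine ⟨r, ?_⟩
  have : (C 1 * X ^ 3 + C a * X ^ 2 + C b * X + C c : K[X]).eval r
      = r ^ 3 + a * r ^ 2 + b * r + c := by
    simp
  rw [← this]
  exact hr

/-- the 2-division cubic splits: root data exist -/
theorem s59epw_exists_roots [IsAlgClosed K] [CharZero K] (W : WeierstrassCurve K) :
    ∃ r₁ e₂ e₃ : K, RootData W r₁ e₂ e₃ := by
  obtain ⟨ρ₃, h₃⟩ := s59epw_exists_root_cubic (W.b₂ / 4) (W.b₄ / 2) (W.b₆ / 4)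
  obtain ⟨ρ₁, h₁⟩ := ecflat_exists_root_quadratic (W.b₂ / 4 + ρ₃)
    (W.b₄ / 2 + W.b₂ / 4 * ρ₃ + ρ₃ ^ 2)
  -- `ρ₂ = -(b₂/4 + ρ₃) - ρ₁`
  refine ⟨ρ₁, -(W.b₂ / 4 + ρ₃) - ρ₁ - ρ₁, ρ₃ - ρ₁, ⟨?_, ?_, ?_⟩⟩
  · ring
  · linear_combination 2 * h₁
  · linear_combination 4 * h₃ - 4 * ρ₃ * h₁

/-- relabelling: exchange the second and the third root -/
theorem s59epw_rootData_swap {W : WeierstrassCurve K} {r₁ e₂ e₃ : K}
    (h : RootData W r₁ e₂ e₃) : RootData W r₁ e₃ e₂ :=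
  ⟨by rw [h.hb₂]; ring, by rw [h.hb₄]; ring, by rw [h.hb₆]; ring⟩

/-- relabelling: the second root becomes the first one -/
theorem s59epw_rootData_shift {W : WeierstrassCurve K} {r₁ e₂ e₃ : K}
    (h : RootData W r₁ e₂ e₃) : RootData W (r₁ + e₂) (e₃ - e₂) (-e₂) :=
  ⟨by rw [h.hb₂]; ring, by rw [h.hb₄]; ring, by rw [h.hb₆]; ring⟩

/-- `Δ = 16 e₂² e₃² (e₃ - e₂)²` -/
theorem s59epw_Δ_eq {W : WeierstrassCurve K} {r₁ e₂ e₃ : K} (h : RootData W r₁ e₂ e₃) :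
    4 * W.Δ = 4 * (16 * e₂ ^ 2 * e₃ ^ 2 * (e₃ - e₂) ^ 2) := by
  have hb := W.b_relation
  have e : 4 * W.Δ = -W.b₂ ^ 2 * (W.b₂ * W.b₆ - W.b₄ ^ 2) - 32 * W.b₄ ^ 3 - 108 * W.b₆ ^ 2
      + 36 * W.b₂ * W.b₄ * W.b₆ := by
    rw [WeierstrassCurve.Δ]
    linear_combination (-W.b₂ ^ 2) * hb
  rw [e, h.hb₂, h.hb₄, h.hb₆]
  ring

/-- `c₄ = 16 (e₂² - e₂ e₃ + e₃²)` -/
theorem s59epw_c₄_eq {W : WeierstrassCurve K} {r₁ e₂ e₃ : K} (h : RootData W r₁ e₂ e₃) :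
    W.c₄ = 16 * (e₂ ^ 2 - e₂ * e₃ + e₃ ^ 2) := by
  rw [WeierstrassCurve.c₄, h.hb₂, h.hb₄]
  ring

end Roots

section Val

variable {A : ValuationSubring Qb} {E : WeierstrassCurve Qb}

/-- the first root of a root datum is integral at `A` -/
theorem s59epw_root_mem (h2 : A.valuation (2 : Qb) = 1)
    (hb₂ : E.b₂ ∈ A) (hb₄ : E.b₄ ∈ A) (hb₆ : E.b₆ ∈ A)
    {r₁ e₂ e₃ : Qb} (hr : RootData E r₁ e₂ e₃) : r₁ ∈ A := by
  classical
  rw [← A.valuation_le_one_iff]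
  by_contra hcon
  rw [not_le] at hcon
  have h4 : A.valuation (4 : Qb) = 1 := key_val_four _ h2
  have hcub : cub E r₁ = 0 := by rw [hr.cub_eq]; ring
  have hv0 : (0 : _) < A.valuation r₁ := lt_trans zero_lt_one hcon
  have e : 4 * r₁ ^ 3 = -(E.b₂ * r₁ ^ 2 + 2 * E.b₄ * r₁ + E.b₆) := by
    rw [cub] at hcub
    linear_combination hcub
  have hL : A.valuation (4 * r₁ ^ 3) = A.valuation r₁ ^ 3 := by
    rw [map_mul, h4, one_mul, map_pow]
  have hvb₂ : A.valuation E.b₂ ≤ 1 := (A.valuation_le_one_iff _).2 hb₂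
  have hvb₄ : A.valuation E.b₄ ≤ 1 := (A.valuation_le_one_iff _).2 hb₄
  have hvb₆ : A.valuation E.b₆ ≤ 1 := (A.valuation_le_one_iff _).2 hb₆
  have h1 : A.valuation (E.b₂ * r₁ ^ 2) ≤ A.valuation r₁ ^ 2 := by
    rw [map_mul, map_pow]
    calc A.valuation E.b₂ * A.valuation r₁ ^ 2 ≤ 1 * A.valuation r₁ ^ 2 := by gcongr
      _ = A.valuation r₁ ^ 2 := one_mul _
  have hsq : A.valuation r₁ ≤ A.valuation r₁ ^ 2 := by
    calc A.valuation r₁ = A.valuation r₁ * 1 := (mul_one _).symm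
      _ ≤ A.valuation r₁ * A.valuation r₁ := by gcongr
      _ = A.valuation r₁ ^ 2 := (pow_two _).symm
  have h2' : A.valuation (2 * E.b₄ * r₁) ≤ A.valuation r₁ ^ 2 := by
    rw [map_mul, map_mul, h2, one_mul]
    calc A.valuation E.b₄ * A.valuation r₁ ≤ 1 * A.valuation r₁ := by gcongr
      _ = A.valuation r₁ := one_mul _
      _ ≤ A.valuation r₁ ^ 2 := hsq
  have h3 : A.valuation E.b₆ ≤ A.valuation r₁ ^ 2 :=
    le_trans hvb₆ (le_trans hcon.le hsq)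
  have hR : A.valuation (-(E.b₂ * r₁ ^ 2 + 2 * E.b₄ * r₁ + E.b₆)) ≤ A.valuation r₁ ^ 2 := by
    rw [Valuation.map_neg]
    exact le_trans (Valuation.map_add _ _ _)
      (max_le (le_trans (Valuation.map_add _ _ _) (max_le h1 h2')) h3)
  rw [← e, hL] at hR
  have hlt : A.valuation r₁ ^ 2 < A.valuation r₁ ^ 3 := by
    calc A.valuation r₁ ^ 2 = A.valuation r₁ ^ 2 * 1 := (mul_one _).symm
      _ < A.valuation r₁ ^ 2 * A.valuation r₁ :=
          mul_lt_mul_of_pos_left hcon (pow_pos hv0 2)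
      _ = A.valuation r₁ ^ 3 := (pow_succ _ 2).symm
  exact absurd hR (not_le.2 hlt)

/-- all the roots and their differences are integral at `A` -/
theorem s59epw_diff_mem (h2 : A.valuation (2 : Qb) = 1)
    (hb₂ : E.b₂ ∈ A) (hb₄ : E.b₄ ∈ A) (hb₆ : E.b₆ ∈ A)
    {r₁ e₂ e₃ : Qb} (hr : RootData E r₁ e₂ e₃) : r₁ ∈ A ∧ e₂ ∈ A ∧ e₃ ∈ A := by
  have h₁ := s59epw_root_mem h2 hb₂ hb₄ hb₆ hr
  have h₂ := s59epw_root_mem h2 hb₂ hb₄ hb₆ (s59epw_rootData_shift hr)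
  have h₃ := s59epw_root_mem h2 hb₂ hb₄ hb₆ (s59epw_rootData_shift (s59epw_rootData_swap hr))
  refine ⟨h₁, ?_, ?_⟩
  · have : e₂ = (r₁ + e₂) - r₁ := by ring
    rw [this]; exact sub_mem h₂ h₁
  · have : e₃ = (r₁ + e₃) - r₁ := by ring
    rw [this]; exact sub_mem h₃ h₁

/-- the valuation of the discriminant -/
theorem s59epw_val_Δ (h2 : A.valuation (2 : Qb) = 1) {r₁ e₂ e₃ : Qb}
    (hr : RootData E r₁ e₂ e₃) :
    A.valuation E.Δ = A.valuation e₂ ^ 2 * A.valuation e₃ ^ 2 * A.valuation (e₃ - e₂) ^ 2 := by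
  have h4 : A.valuation (4 : Qb) = 1 := key_val_four _ h2
  have h40 : (4 : Qb) ≠ 0 := by
    intro h0
    rw [h0, map_zero] at h4
    exact zero_ne_one h4
  have hΔ : E.Δ = 16 * e₂ ^ 2 * e₃ ^ 2 * (e₃ - e₂) ^ 2 :=
    mul_left_cancel₀ h40 (s59epw_Δ_eq hr)
  have h16 : A.valuation (16 : Qb) = 1 := by
    have : (16 : Qb) = 4 * 4 := by norm_num
    rw [this, map_mul, h4, one_mul]
  rw [hΔ, map_mul, map_mul, map_mul, h16, one_mul, map_pow, map_pow, map_pow]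

/-- **the node datum** of a semistable curve: the roots can be labelled such that
`v e₃ = 1 = v (e₃ - e₂)`, and then `v e₂ ^ 2 = v Δ`. -/
theorem s59epw_exists_node_data (h2 : A.valuation (2 : Qb) = 1)
    (hb₂ : E.b₂ ∈ A) (hb₄ : E.b₄ ∈ A) (hb₆ : E.b₆ ∈ A) (hΔ : E.Δ ≠ 0)
    (hss : A.valuation E.Δ < 1 → A.valuation E.c₄ = 1) :
    ∃ r₁ e₂ e₃ : Qb, RootData E r₁ e₂ e₃ ∧ r₁ ∈ A ∧ e₂ ∈ A ∧ e₃ ∈ A ∧
      A.valuation e₃ = 1 ∧ A.valuation (e₃ - e₂) = 1 ∧ e₂ ≠ 0 ∧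
      A.valuation e₂ ^ 2 = A.valuation E.Δ := by
  classical
  have h4 : A.valuation (4 : Qb) = 1 := key_val_four _ h2
  have h16 : A.valuation (16 : Qb) = 1 := by
    have : (16 : Qb) = 4 * 4 := by norm_num
    rw [this, map_mul, h4, one_mul]
  -- the conclusion for a labelling with `v e₃ = 1 = v (e₃ - e₂)`
  have hfin : ∀ r₁ e₂ e₃ : Qb, RootData E r₁ e₂ e₃ → A.valuation e₃ = 1 →
      A.valuation (e₃ - e₂) = 1 →
      ∃ r₁ e₂ e₃ : Qb, RootData E r₁ e₂ e₃ ∧ r₁ ∈ A ∧ e₂ ∈ A ∧ e₃ ∈ A ∧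
        A.valuation e₃ = 1 ∧ A.valuation (e₃ - e₂) = 1 ∧ e₂ ≠ 0 ∧
        A.valuation e₂ ^ 2 = A.valuation E.Δ := by
    intro r₁ e₂ e₃ hr he₃ he₂₃
    obtain ⟨m₁, m₂, m₃⟩ := s59epw_diff_mem h2 hb₂ hb₄ hb₆ hr
    have hv := s59epw_val_Δ h2 hr
    refine ⟨r₁, e₂, e₃, hr, m₁, m₂, m₃, he₃, he₂₃, ?_, ?_⟩
    · rintro rfl
      apply hΔ
      rw [← Valuation.zero_iff A.valuation, hv, map_zero]
      simp
    · rw [hv, he₃, he₂₃, one_pow, mul_one, mul_one]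
  obtain ⟨r₁, e₂, e₃, hr⟩ := s59epw_exists_roots E
  obtain ⟨m₁, m₂, m₃⟩ := s59epw_diff_mem h2 hb₂ hb₄ hb₆ hr
  have hv := s59epw_val_Δ h2 hr
  have hve₂ : A.valuation e₂ ≤ 1 := (A.valuation_le_one_iff _).2 m₂
  have hve₃ : A.valuation e₃ ≤ 1 := (A.valuation_le_one_iff _).2 m₃
  have hve₂₃ : A.valuation (e₃ - e₂) ≤ 1 := (A.valuation_le_one_iff _).2 (sub_mem m₃ m₂)
  rcases hve₃.lt_or_eq with h3 | h3
  · -- `e₃ ∈ 𝔪`: exchange `e₂` and `e₃`
    have hΔlt : A.valuation E.Δ < 1 := by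
      rw [hv]
      have ha : A.valuation e₂ ^ 2 ≤ 1 := pow_le_one₀ zero_le hve₂
      have hb : A.valuation e₃ ^ 2 < 1 := pow_lt_one₀ zero_le h3 (by norm_num)
      have hc : A.valuation (e₃ - e₂) ^ 2 ≤ 1 := pow_le_one₀ zero_le hve₂₃
      calc A.valuation e₂ ^ 2 * A.valuation e₃ ^ 2 * A.valuation (e₃ - e₂) ^ 2
          ≤ 1 * A.valuation e₃ ^ 2 * 1 := by gcongr
        _ = A.valuation e₃ ^ 2 := by rw [one_mul, mul_one]
        _ < 1 := hb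
    have hc₄ := hss hΔlt
    have he₂ : A.valuation e₂ = 1 := by
      rcases hve₂.lt_or_eq with h | h
      · exfalso
        rw [s59epw_c₄_eq hr, map_mul, h16, one_mul] at hc₄
        have : A.valuation (e₂ ^ 2 - e₂ * e₃ + e₃ ^ 2) < 1 := by
          refine lt_of_le_of_lt (Valuation.map_add _ _ _) (max_lt ?_ ?_)
          · refine lt_of_le_of_lt (Valuation.map_sub _ _ _) (max_lt ?_ ?_)
            · rw [map_pow]; exact pow_lt_one₀ zero_le h (by norm_num)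
            · rw [map_mul]; exact mul_lt_one_of_nonneg_of_lt_one_left zero_le h hve₃
          · rw [map_pow]; exact pow_lt_one₀ zero_le h3 (by norm_num)
        rw [hc₄] at this
        exact lt_irrefl _ this
      · exact h
    refine hfin r₁ e₃ e₂ (s59epw_rootData_swap hr) he₂ ?_
    rw [Valuation.map_sub_eq_of_lt_left _ (by rw [he₂]; exact h3), he₂]
  · rcases hve₂₃.lt_or_eq with h23 | h23
    · -- the second and the third root are close: shift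
      have he₂ : A.valuation e₂ = 1 := by
        have e : e₂ = e₃ - (e₃ - e₂) := by ring
        rw [e, Valuation.map_sub_eq_of_lt_left _ (by rw [h3]; exact h23), h3]
      refine hfin (r₁ + e₂) (e₃ - e₂) (-e₂) (s59epw_rootData_shift hr) ?_ ?_
      · rw [Valuation.map_neg, he₂]
      · have e : -e₂ - (e₃ - e₂) = -e₃ := by ring
        rw [e, Valuation.map_neg, h3]
    · exact hfin r₁ e₂ e₃ hr h3 h23

end Val

end Fermat.Agent.S59
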