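/-
S59, wall M4 (LOWER-P), leaves GLUE3 + PKG3 (helper30): the glue of row 38 at `p = 3`, even level.

Clones of `R38.glue5_core` and `R38.stmtPkgCore5_of` (R38/Glue5.lean) in which the hypothesis
`5 ≤ p` is replaced by what the proofs use: `p ≠ 2` and the package `AtPCore5 M' p J` at the
level at hand.

* `s59lpgl_core`     : the core of the glue for an odd prime `p`, from the package at `(M', p)`;
* `S59lpglTresP3`    : TRÈS (concrete form with the line, `R38.StmtTresP5`) at `p = 3`, `2 ∣ M`;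
* `S59lpglPkg3`      : the package `AtPCore5 M 3 J` at `p = 3`, `2 ∣ M`;
* `s59lpgl_pkg3_of`  : `StmtToricP` (landed for all odd `p`) + `S59lpglTresP3` ⇒ `S59lpglPkg3`;
* `s59lpgl_core3_of` : `S59lpglPkg3` ⇒ `S59lppCoreAt 3 (2 ∣ ·)` (the leaf CORE of the plan at 3);
* `s59lpgl_wall3_of` : `StmtToricP` + `S59lpglTresP3` + `S59lppEpmW 3` ⇒ the wall at `p = 3`.
-/
import Fermat.Agent.S59.LowP.Plan
import Fermat.Agent.R38.Lift
import Fermat.Agent.R38.Rep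
import Fermat.Agent.R38.EDet
import Fermat.Agent.R38.EPeuFinal

set_option autoImplicit false
set_option linter.style.haveILetI false
set_option linter.unusedSectionVars false
set_option linter.unusedVariables false
set_option linter.style.longLine false

noncomputable section

namespace Fermat.Agent.S59

open ModularCurve Fermat.Agent.ES Fermat.Agent.STB ExtCitation Fermat.Agent.R38
open scoped WeierstrassCurve.Affine

/-- **The core of the glue for an odd prime `p`**, from the package at `(M', p)`: clone of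
`R38.glue5_core`. -/
theorem s59lpgl_core (hLift : StmtLift) (hRep : StmtRep) (hEDet : StmtEDet)
    (W : WeierstrassCurve ℤ) (hΔ : W.Δ ≠ 0) {p : ℕ} [hpF : Fact p.Prime] (hp2 : p ≠ 2)
    (hirr : W.ModRepIsIrreducible p) (hpeu : EPeuAt W p)
    {M' : ℕ} (hM' : 0 < M') (hpM' : ¬ p ∣ M')
    (hPkgAt : haveI : NeZero M' := ⟨hM'.ne'⟩;
      ∃ (J : Type) (_ : AddCommGroup J) (_ : Module HeckeAlg J) (_ : DistribMulAction GQ J),
        AtPCore5 M' p J)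
    (hmod : W.IsResiduallyModularOfLevel p (M' * p)) :
    W.IsResiduallyModularOfLevel p M' := by
  have hp : p.Prime := hpF.out
  have : NeZero M' := ⟨hM'.ne'⟩
  by_cases hold : ∀ t ∈ MvPolynomial.supported ℤ (goodFor W M' p), KillsForms M' t →
      (p : ℤ) ∣ MvPolynomial.aeval (fun ℓ : Nat.Primes => W.apOfModel ℓ) t
  · -- OLD case
    obtain ⟨g, 𝔪, hg, hm, hpm, hcong⟩ := hLift M' p hp (goodFor W M' p) _
      (fun ℓ hℓ h => hℓ.1 (Dvd.dvd.mul_right (Dvd.dvd.mul_right h p) p)) hold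
    refine ⟨g, 𝔪, hg, hm, hpm, fun ℓ hℓ hgℓ hℓM hℓp => ?_⟩
    refine hcong ⟨ℓ, hℓ⟩ ⟨?_, hgℓ⟩
    intro h
    rcases (Nat.Prime.dvd_mul hℓ).1 h with h | h
    · rcases (Nat.Prime.dvd_mul hℓ).1 h with h | h
      · exact hℓM h
      · exact hℓp ((Nat.prime_dvd_prime_iff_eq hℓ hp).1 h)
    · exact hℓp ((Nat.prime_dvd_prime_iff_eq hℓ hp).1 h)
  · -- NEW case
    exfalso
    push Not at hold
    obtain ⟨t₀, ht₀S, ht₀K, hn₀⟩ := hold
    obtain ⟨J, _, _, _, hJ⟩ := hPkgAt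
    obtain ⟨v, hv0, hpv, hv⟩ := glue_exists_eigenvector W hJ.es hmod
    obtain ⟨V₀, e, hV₀p, hV₀eig, hst, he⟩ :=
      hRep W hΔ p hp hp2 hirr M' hM' J _ _ _ hJ.es v hv0 hpv hv
    have ht₀g : t₀ ∈ MvPolynomial.supported ℤ (goodPrimes (M' * p) p) :=
      MvPolynomial.supported_mono (goodFor_subset W M' p) ht₀S
    have hpoly := glue_poly_eigen V₀ (goodFor W M' p) (fun ℓ : Nat.Primes => W.apOfModel ℓ)
      hV₀eig
    -- a place over `p`
    obtain ⟨A, hA⟩ := Fermat.Agent.Common.exists_liesOverPrime p hp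
    set n₀ : ℤ := MvPolynomial.aeval (fun ℓ : Nat.Primes => W.apOfModel ℓ) t₀ with hn₀def
    -- toric on `E[p]`
    have htorE : ∀ σ ∈ A.inertiaSubgroupIn ℚ, ∀ τ ∈ A.inertiaSubgroupIn ℚ, ∀ y : ETors W p,
        τ • (σ • y - y) = cycloExp p τ • (σ • y - y) := by
      intro σ hσ τ hτ y
      obtain ⟨x, rfl⟩ := e.surjective y
      have h1 := hJ.toric A hA x (hV₀p x x.2) t₀ ht₀g ht₀K n₀ (hpoly t₀ ht₀S x x.2) hn₀
        σ hσ τ hτ
      have hmem : σ • (x : J) - x ∈ V₀ := V₀.sub_mem (hst σ x x.2) x.2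
      have h2 : σ • e x - e x = e ⟨σ • (x : J) - x, hmem⟩ := by
        rw [← he σ x, ← map_sub]
        rfl
      rw [h2, ← he τ ⟨_, hmem⟩, ← map_nsmul]
      congr 1
      exact Subtype.ext h1
    -- the peu ramifié subgroup fixes `V₀`
    have hpeuE := hpeu A hA htorE
    have hpeuV : ∀ σ ∈ peuSubgroup A p, ∀ x ∈ V₀, σ • x = x := by
      intro σ hσ x hx
      have h := hpeuE σ hσ (e ⟨x, hx⟩)
      rw [← he σ ⟨x, hx⟩] at h
      exact congrArg Subtype.val (e.injective h)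
    -- the determinant
    have hdet := hEDet W hΔ p hp2 hirr A hA
    -- the line
    obtain ⟨z, hz⟩ := glue5_line W hΔ A htorE hdet
    have hlineV : ∀ x ∈ V₀, ∃ z₀ : J, ∀ σ ∈ A.inertiaSubgroupIn ℚ, ∃ k : ℤ,
        σ • x - x = k • z₀ := by
      intro x hx
      refine ⟨((e.symm z : V₀) : J), fun σ hσ => ?_⟩
      obtain ⟨k, hk⟩ := hz σ hσ (e ⟨x, hx⟩)
      refine ⟨k, ?_⟩
      have hmem : σ • x - x ∈ V₀ := V₀.sub_mem (hst σ x hx) hx
      have h2 : σ • e ⟨x, hx⟩ - e ⟨x, hx⟩ = e ⟨σ • x - x, hmem⟩ := by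
        rw [← he σ ⟨x, hx⟩, ← map_sub]
        rfl
      rw [h2] at hk
      have h3 : (⟨σ • x - x, hmem⟩ : V₀) = k • e.symm z := by
        apply e.injective
        rw [hk, map_zsmul, AddEquiv.apply_symm_apply]
      have := congrArg Subtype.val h3
      simpa using this
    -- a non-Eisenstein prime
    obtain ⟨ℓ, hℓ, hℓS, -, hℓp, hℓg, -, hℓE⟩ :=
      Fermat.Agent.RED.exists_prime_not_dvd_of_model W hΔ hp2 hirr (M' * p * p).primeFactors
        (M := 1) one_pos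
    have hℓmem : (⟨ℓ, hℓ⟩ : Nat.Primes) ∈ goodFor W M' p := by
      refine ⟨fun h => hℓS ?_, hℓg⟩
      rw [Nat.mem_primeFactors]
      exact ⟨hℓ, h, (Nat.mul_pos (Nat.mul_pos hM' hp.pos) hp.pos).ne'⟩
    -- très: inertia acts on `V₀` through `ω`
    have htresV : ∀ τ ∈ A.inertiaSubgroupIn ℚ, ∀ x ∈ V₀, τ • x = cycloExp p τ • x := by
      intro τ hτ x hx
      exact hJ.tres A hA x (hV₀p x hx) t₀ ht₀g ht₀K n₀ (hpoly t₀ ht₀S x hx) hn₀
        ⟨ℓ, hℓ⟩ (goodFor_subset W M' p hℓmem) (W.apOfModel ℓ) (hV₀eig x hx _ hℓmem) hℓE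
        (fun σ hσ => hpeuV σ hσ x hx) (hlineV x hx) τ hτ
    -- contradiction with the determinant
    obtain ⟨σ, hσ, y, hy⟩ := hdet
    apply hy
    obtain ⟨x, rfl⟩ := e.surjective y
    rw [← he σ x, ← map_nsmul]
    congr 1
    exact Subtype.ext (htresV σ hσ x x.2)

/-- **TRÈS, concrete form with the line, at `p = 3` and even level** (`R38.StmtTresP5` with
`5 ≤ p` replaced by `p = 3`, `2 ∣ M`). -/
def S59lpglTresP3 : Prop :=
  ∀ (M : ℕ) [NeZero M], 2 ∣ M → ¬ 3 ∣ M →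
    haveI : Fact (Nat.Prime 3) := ⟨Nat.prime_three⟩
    letI := pDivGalois (M * 3) 3
    letI := pDivModule (M * 3) 3
    ∀ A : ValuationSubring Qb, A.LiesOverPrime 3 → ∀ x : PDiv (M * 3) 3, 3 • x = 0 →
      stbPushAlphaP M 3 3 x = 0 → stbPushBetaP M 3 3 x = 0 →
      ∀ t₀ ∈ MvPolynomial.supported ℤ (goodPrimes (M * 3) 3), KillsForms M t₀ →
        ∀ n₀ : ℤ, t₀ • x = n₀ • x → ¬ ((3 : ℕ) : ℤ) ∣ n₀ →
      ∀ ℓ₁ ∈ goodPrimes (M * 3) 3, ∀ n₁ : ℤ, heckeGen ℓ₁ • x = n₁ • x →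
        ¬ ((3 : ℕ) : ℤ) ∣ n₁ - ((ℓ₁ : ℕ) + 1) →
      (∀ σ ∈ peuSubgroup A 3, σ • x = x) →
      (∃ z₀ : PDiv (M * 3) 3, ∀ σ ∈ A.inertiaSubgroupIn ℚ, ∃ k : ℤ, σ • x - x = k • z₀) →
      ∀ τ ∈ A.inertiaSubgroupIn ℚ, τ • x = cycloExp 3 τ • x

/-- **The package at `p = 3`, even level.** -/
def S59lpglPkg3 : Prop :=
  ∀ (M : ℕ) [NeZero M], 2 ∣ M → ¬ 3 ∣ M →
    haveI : Fact (Nat.Prime 3) := ⟨Nat.prime_three⟩
    ∃ (J : Type) (_ : AddCommGroup J) (_ : Module HeckeAlg J) (_ : DistribMulAction GQ J),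
      AtPCore5 M 3 J

/-- the package at `3` for the concrete `J = PDiv (M * 3) 3`: clone of `R38.stmtPkgCore5_of` -/
theorem s59lpgl_pkg3_of (hT : StmtToricP) (hR : S59lpglTresP3) : S59lpglPkg3 := by
  intro M _ h2M hpM
  haveI hpF : Fact (Nat.Prime 3) := ⟨Nat.prime_three⟩
  haveI : NeZero 3 := ⟨by norm_num⟩
  have hp2 : (3 : ℕ) ≠ 2 := by norm_num
  letI := pDivModule (M * 3) 3
  letI := pDivGalois (M * 3) 3
  refine ⟨PDiv (M * 3) 3, inferInstance, pDivModule (M * 3) 3, pDivGalois (M * 3) 3,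
    r38pkg_es M 3, ?_, ?_⟩
  · intro A hA x hx t₀ ht₀ hK n₀ hn₀ hpn₀ σ hσ τ hτ
    obtain ⟨ha, hb⟩ := r38pkg_newF M 3 hpM x hx t₀ ht₀ hK n₀ hn₀ hpn₀
    exact hT M 3 hp2 hpM A hA x hx ha hb σ hσ τ hτ
  · intro A hA x hx t₀ ht₀ hK n₀ hn₀ hpn₀ ℓ₁ hℓ₁ n₁ hn₁ hpn₁ hpeu hline τ hτ
    obtain ⟨ha, hb⟩ := r38pkg_newF M 3 hpM x hx t₀ ht₀ hK n₀ hn₀ hpn₀
    exact hR M h2M hpM A hA x hx ha hb t₀ ht₀ hK n₀ hn₀ hpn₀ ℓ₁ hℓ₁ n₁ hn₁ hpn₁ hpeu hline
      τ hτ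

/-- **CORE at `3`** (the leaf `S59lppCoreAt 3 (2 ∣ ·)` of the plan) from the package at `3`. -/
theorem s59lpgl_core3_of (hPkg : S59lpglPkg3) :
    haveI : Fact (Nat.Prime 3) := ⟨Nat.prime_three⟩
    S59lppCoreAt 3 (fun M => 2 ∣ M) := by
  haveI : Fact (Nat.Prime 3) := ⟨Nat.prime_three⟩
  intro W hΔ hirr hpeu M' hM' hpM' h2 hmod
  have h2M' : 2 ∣ M' := by
    rcases (Nat.Prime.dvd_mul Nat.prime_two).1 h2 with h | h
    · exact h
    · exact absurd h (by norm_num)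
  haveI : NeZero M' := ⟨hM'.ne'⟩
  exact s59lpgl_core stmtLift stmtRep stmtEDet W hΔ (by norm_num) hirr hpeu hM' hpM'
    (hPkg M' h2M' hpM') hmod

/-- **The wall at `p = 3`, even level**, from TRÈS at `3` and EPM-W at `3`. -/
theorem s59lpgl_wall3_of (hT : StmtToricP) (hR : S59lpglTresP3)
    (hEpm : haveI : Fact (Nat.Prime 3) := ⟨Nat.prime_three⟩; S59lppEpmW 3) :
    S59lppWallAt 3 (fun M => 2 ∣ M) := by
  haveI : Fact (Nat.Prime 3) := ⟨Nat.prime_three⟩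
  exact s59lpp_wallAt_of 3 _ stmtEPeu hEpm (s59lpgl_core3_of (s59lpgl_pkg3_of hT hR))

end Fermat.Agent.S59

end
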