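/-
S59, wall M4 (LOWER-P), the GOOD case at `p ≥ 5` for a GENERAL curve `W` (helper44).

Row 38 was written for the Frey curve only in its last step (EPEU-MULT); everything else is
for a general integral Weierstrass curve.  With the three Props of row 38 closed
(`stmtEisNormK`, `stmtMonoFix`, `stmtMonoCoverData`) and `stmtEPeu` (good reduction at `p`
⇒ peu ramifié), the statement of S40 for every prime `p ≥ 5` is unconditional:

* `s59lpg_pkgCore5 : R38.StmtPkgCore5` — the package at `p ≥ 5` (TORIC + TRÈS with the line);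
* `s59lpg_s40_p5   : R38.StmtS40p5`    — S40 for `p ≥ 5`;
* `s59lpg_s40_five` — the frozen shape of S40 at `p = 5`.
-/
import Fermat.Agent.R38.TresTrivOf
import Fermat.Agent.R38.TresEisFinal
import Fermat.Agent.R38.TresMonoFix
import Fermat.Agent.R38.TresMonoTopA
import Fermat.Agent.R38.TresMonoTopB
import Fermat.Agent.R38.EPeuFinal

set_option autoImplicit false

namespace Fermat.Agent.S59

open Fermat.Agent.R38

/-- **TRES-TRIV**, unconditional (row 38 closed). -/
theorem s59lpg_tresTriv : StmtTresTriv :=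
  stmtTresTriv_of_open stmtEisNormK stmtMonoFix (stmtMonoCover_of_data stmtMonoCoverData)

/-- **R38-PKG for `p ≥ 5`**, unconditional. -/
theorem s59lpg_pkgCore5 : StmtPkgCore5 :=
  stmtPkgCore5_of
    (stmtToricP_of (Fermat.Agent.S33.stmtWildT_of_kummer Fermat.Agent.S33.stmtWildKummer))
    (stmtTresP5_of_triv s59lpg_tresTriv (stmtTresT0_of Fermat.Agent.S33.stmtWildKummer))

/-- **S40 for every prime `p ≥ 5`**, general `W`, unconditional. -/
theorem s59lpg_s40_p5 : StmtS40p5 :=
  stmtS40p5_of stmtLift stmtRep stmtEDet stmtEPeu s59lpg_pkgCore5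

/-- The frozen shape of S40 at `p = 5`. -/
theorem s59lpg_s40_five (W : WeierstrassCurve ℤ) (hΔ : W.Δ ≠ 0)
    (hgood : W.IsGoodPrimeFor 5) (hirr : W.ModRepIsIrreducible 5)
    {M : ℕ} (hM : 0 < M) (hpM : 5 ∣ M) (hp2M : ¬ 5 ^ 2 ∣ M)
    (hmod : W.IsResiduallyModularOfLevel 5 M) :
    W.IsResiduallyModularOfLevel 5 (M / 5) :=
  s59lpg_s40_p5 W hΔ (by norm_num) le_rfl hgood hirr hM hpM hp2M hmod

end Fermat.Agent.S59
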