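import Fermat.Agent.R38.HolB1Asm
import Fermat.Agent.ES.I2aux.MFh
import Fermat.Agent.ES.I2aux.MFhk

/-!
# S59 / M4 (LOWER-P) / HOL3, leaf `(B1)_h` (helper42)

The `h`-line twin of `R38.r38hb1a_at` (`D′(B̄) ⊂ 𝔑`), for the Hauptmodul `h = hm2` of `X₀(2)`
and its elliptic point `c₀ = -64`, at the levels `2 ∣ N`, in ANY residue characteristic
`ℓ ∤ N` (used at `ℓ = 3`, where `1728 = 0` kills the `j`-line argument):

for `c ∈ B̄` (integral closure of `k[j̄]` in `F̄`), the functions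

  `yh  = θc · (h + 64) / θh`,  `yh' = yh² / (h + 64)`

lie in `B̄`.  Proof: lift `c` to `C ∈ A((q)) ∩ F_N` with poles only at the cusps (B1-LIFT), take
`Yt, Y1, Y2` of (B1-MF); over `A((q))` put `Yh = Yt h / ((h + 256)(h - 512))`,
`Yh' = Y2 / (h + 256)²` (the algebra `ES.I2aux.mfh_alg2`, with `f := θC`); in characteristic `0`
they are integral over `ℚ̄[j]` (Bezout, as in `ES.I2aux.mfh_case2`), so their reductions are
integral over `k[j̄]` (`StmtIR`) and lie in `F̄` (`RedF`); the two relations reduce.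
-/

set_option autoImplicit false
set_option linter.unusedSectionVars false
set_option linter.style.haveILetI false

noncomputable section

namespace Fermat.Agent.S59

open ModularCurve AlgebraicCurve HahnSeries Fermat.Agent.ES Fermat.Agent.S24 Fermat.Agent.ES.M
open Fermat.Agent.ES.I2 Fermat.Agent.S28.Deriv Fermat.Agent.S28 Polynomial
open Fermat.Agent.R38 Fermat.Agent.ES.I2aux Fermat.Agent.INJ

/-- **(B1)_h** at `(N, A)`: `yh = θc (h + 64) / θh` and `yh' = yh² / (h + 64)` lie in `B̄` for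
every `c ∈ B̄` (`h = hm2`, the Hauptmodul of `X₀(2)`). -/
def s59lph3b_StmtB1h (N : ℕ) [NeZero N] (A : ValuationSubring Kb) : Prop :=
  ∀ c : LaurentSeries (kA A), HolInt (kA A) N c →
    ∃ yh yh' : LaurentSeries (kA A), HolInt (kA A) N yh ∧ HolInt (kA A) N yh' ∧
      yh * thetaFun (hm2 (kA A)) = thetaFun c * (hm2 (kA A) + 64) ∧
      yh ^ 2 = (hm2 (kA A) + 64) * yh'

/-- the derivative of the modular equation of `X₀(2)` over any ring -/
theorem s59lph3b_theta2 (R : Type*) [CommRing R] :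
    thetaFun (jqModC R) * hm2 R ^ 2 + 2 * jqModC R * hm2 R * thetaFun (hm2 R) =
      3 * (hm2 R + 256) ^ 2 * thetaFun (hm2 R) := by
  have h := congrArg (coeffMap (Int.castRingHom R)) mfh_theta2
  simpa only [map_mul, map_add, map_pow, ← thetaFun_coeffMap, coeffMap_jqModC, map_ofNat, hm2]
    using h

/-- the images of the units `hm2Z + c` -/
theorem s59lph3b_lin_ne_zero (R : Type*) [CommRing R] [Nontrivial R] (c : ℤ) :
    hm2 R + (c : LaurentSeries R) ≠ 0 := by
  have h := ((mfh_isUnit_lin2 c).map (coeffMap (Int.castRingHom R))).ne_zero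
  simpa only [map_add, map_intCast, hm2] using h

/-- **(B1)_h** at `(N, A)`, `2 ∣ N`. -/
theorem s59lph3b_at (N : ℕ) [NeZero N] (h2 : 2 ∣ N) (ℓ : ℕ) (hℓ : ℓ.Prime) (hℓN : ¬ ℓ ∣ N)
    (A : ValuationSubring Kb) (hA : A.LiesOverPrime ℓ) (hLift : StmtHolLift N A)
    (hMF : StmtHolMF N) : s59lph3b_StmtB1h N A := by
  intro c hc
  obtain ⟨C, hC, hPC, hCc⟩ := hLift c hc
  obtain ⟨Yt, Y1, Y2, hPt, hP1, hP2, e1, e2, e3⟩ := hMF ⟨kronIncl A C, hC⟩ hPC
  have hRedF := stmtRedF N A ℓ hℓ hℓN hA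
  have hIR := stmtIRAll N ℓ hℓ hℓN A hA
  have hjB : jBar = jqModC Kb := mf_jBar_eq
  -- the `A`-integral forms of `Yt`, `Y2`, `Y1` (as in `r38hb1a_at`)
  have hYt : (Yt : LaurentSeries Kb) = kronIncl A (r38hb1aYt C) := by
    have h1 := r38hb1a_relT (kronIncl A C)
    have h2 : (Yt : LaurentSeries Kb) * thetaFun (jqModC Kb) =
        r38hb1aYt (kronIncl A C) * thetaFun (jqModC Kb) := by
      rw [h1, ← hjB]
      exact e1
    rw [r38hb1a_map_Yt]
    exact mul_right_cancel₀ r38hb1a_thetaJ_ne_zero h2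
  have hY2 : (Y2 : LaurentSeries Kb) = kronIncl A (r38hb1aY2 C) := by
    have h1 := r38hb1a_rel2 (kronIncl A C)
    have h2 : (Y2 : LaurentSeries Kb) * (jqModC Kb - 1728) =
        r38hb1aY2 (kronIncl A C) * (jqModC Kb - 1728) := by
      rw [← h1, ← hjB, ← e2, hYt, r38hb1a_map_Yt]
    rw [r38hb1a_map_Y2]
    exact mul_right_cancel₀ r38hb1a_j_sub_ne_zero h2
  have hY1 : (Y1 : LaurentSeries Kb) = kronIncl A (r38hb1aY1 C) := by
    have h1 := r38hb1a_rel1 (kronIncl A C)
    have h2 : (Y1 : LaurentSeries Kb) * (jqModC Kb * (jqModC Kb - 1728)) =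
        r38hb1aY1 (kronIncl A C) * (jqModC Kb * (jqModC Kb - 1728)) := by
      rw [← mul_assoc, ← mul_assoc, ← h1, ← hjB, ← e3, hYt, r38hb1a_map_Yt]
    rw [r38hb1a_map_Y1]
    exact mul_right_cancel₀ (mul_ne_zero r38hb1a_j_ne_zero r38hb1a_j_sub_ne_zero) h2
  -- the inverses of `h + 256`, `h - 512` over `ℤ`
  obtain ⟨ai, hai⟩ := (mfh_isUnit_lin2 256).exists_right_inv
  obtain ⟨bi, hbi⟩ := (mfh_isUnit_lin2 (-512)).exists_right_inv
  have ha : (hm2Z + 256) * ai = 1 := by
    rw [← hai]; push_cast; rfl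
  have hb : (hm2Z - 512) * bi = 1 := by
    rw [← hbi]; push_cast; rw [sub_eq_add_neg]
  -- the algebra over `A((q))`
  set aA : LaurentSeries A := coeffMap (Int.castRingHom A) ai with haA
  set bA : LaurentSeries A := coeffMap (Int.castRingHom A) bi with hbA
  have haA1 : (hm2 A + 256) * aA = 1 := by
    have h := congrArg (coeffMap (Int.castRingHom A)) ha
    simpa only [map_mul, map_add, map_one, map_ofNat, hm2] using h
  have hbA1 : (hm2 A - 512) * bA = 1 := by
    have h := congrArg (coeffMap (Int.castRingHom A)) hb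
    simpa only [map_mul, map_sub, map_one, map_ofNat, hm2] using h
  have hhA : hm2 A ≠ 0 := by
    have := s59lph3b_lin_ne_zero A 0
    rwa [Int.cast_zero, add_zero] at this
  have hcA : hm2 A + 64 ≠ 0 := by
    have := s59lph3b_lin_ne_zero A 64
    rwa [Int.cast_ofNat] at this
  obtain ⟨E1, E2, E4, E5, E6, E7⟩ := mfh_alg2 (jqModC A) (hm2 A) (thetaFun (jqModC A))
    (thetaFun (hm2 A)) (thetaFun C) (r38hb1aYt C) (r38hb1aY1 C) (r38hb1aY2 C) aA bA
    (hm2_j A) (s59lph3b_theta2 A) (r38hb1a_relT C) (r38hb1a_rel2 C) (r38hb1a_rel1 C)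
    haA1 hbA1 hhA hcA
  -- the images in `ℚ̄((q))`
  have ihm : kronIncl A (hm2 A) = hm2 Kb := hm2_map _
  have hhF : hm2 Kb ∈ modularFunctionFieldBar N := hm2_mem N h2
  have haF : kronIncl A aA ∈ modularFunctionFieldBar N := by
    have h := congrArg (kronIncl A) haA1
    rw [map_mul, map_one, map_add, map_ofNat, ihm] at h
    rw [eq_inv_of_mul_eq_one_right h]
    exact inv_mem (add_mem hhF (ofNat_mem _ 256))
  have hbF : kronIncl A bA ∈ modularFunctionFieldBar N := by
    have h := congrArg (kronIncl A) hbA1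
    rw [map_mul, map_one, map_sub, map_ofNat, ihm] at h
    rw [eq_inv_of_mul_eq_one_right h]
    exact inv_mem (sub_mem hhF (ofNat_mem _ 512))
  -- integrality over `ℚ̄[j]`
  have iY1 : kronIncl A (r38hb1aY1 C) ∈ mfhB := by
    rw [← hY1]; exact r38hb1a_intJ N Y1 hP1
  have iY2 : kronIncl A (r38hb1aY2 C) ∈ mfhB := by
    rw [← hY2]; exact r38hb1a_intJ N Y2 hP2
  have ih : hm2 Kb ∈ mfhB := mfh_h2_mem
  obtain ⟨hB, hBv⟩ : ∃ hB : mfhB, mfhB.val hB = hm2 Kb := ⟨⟨hm2 Kb, mfh_h2_mem⟩, rfl⟩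
  have k1 : IsCoprime (hB + 256) hB :=
    mfh_coprime _ _ 1 (-256) (by norm_num) (by push_cast; ring)
  have k2 : IsCoprime (hB + 256) (hB - 512) :=
    mfh_coprime _ _ 1 (-768) (by norm_num) (by push_cast; ring)
  have k3 : IsCoprime (hB + 256) (hB + 64) :=
    mfh_coprime _ _ 1 (-192) (by norm_num) (by push_cast; ring)
  have k4 : IsCoprime ((hB + 256) ^ 6) (hB ^ 2 * (hB - 512) ^ 2) :=
    IsCoprime.pow_left (IsCoprime.mul_right k1.pow_right k2.pow_right)
  have k5 : IsCoprime ((hB + 256) ^ 6) (hB ^ 2 * (hB - 512) ^ 2 * (hB + 64)) :=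
    IsCoprime.pow_left (IsCoprime.mul_right (IsCoprime.mul_right k1.pow_right k2.pow_right) k3)
  have iYh : kronIncl A (r38hb1aYt C * hm2 A * aA * bA) ∈ mfhB := by
    refine mfh_int_of_two (n := 6) (by norm_num) k4
      (P := kronIncl A (r38hb1aY2 C) ^ 3 * (hm2 Kb + 64) ^ 3)
      (P' := kronIncl A (r38hb1aY1 C) ^ 2 * (hm2 Kb + 64) ^ 2) ?_ ?_ ?_ ?_
    · have := congrArg (kronIncl A) E4
      simpa only [map_mul, map_pow, map_add, map_ofNat, ihm, hBv] using this
    · have := congrArg (kronIncl A) E5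
      simpa only [map_mul, map_pow, map_add, map_sub, map_ofNat, ihm, hBv] using this
    · exact mul_mem (pow_mem iY2 3) (pow_mem (add_mem ih (ofNat_mem _ 64)) 3)
    · exact mul_mem (pow_mem iY1 2) (pow_mem (add_mem ih (ofNat_mem _ 64)) 2)
  have iYh' : kronIncl A (r38hb1aY2 C * aA ^ 2) ∈ mfhB := by
    refine mfh_int_of_two (n := 3) (by norm_num) k5
      (P := kronIncl A (r38hb1aY2 C) ^ 3) (P' := kronIncl A (r38hb1aY1 C) ^ 2) ?_ ?_
      (pow_mem iY2 3) (pow_mem iY1 2)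
    · have := congrArg (kronIncl A) E6
      simpa only [map_mul, map_pow, map_add, map_ofNat, ihm, hBv] using this
    · have := congrArg (kronIncl A) E7
      simpa only [map_mul, map_pow, map_add, map_sub, map_ofNat, ihm, hBv] using this
  -- membership in `F_N`
  have mYt : kronIncl A (r38hb1aYt C) ∈ modularFunctionFieldBar N := by
    rw [← hYt]; exact Yt.2
  have mY2 : kronIncl A (r38hb1aY2 C) ∈ modularFunctionFieldBar N := by
    rw [← hY2]; exact Y2.2
  have mYh : kronIncl A (r38hb1aYt C * hm2 A * aA * bA) ∈ modularFunctionFieldBar N := by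
    rw [map_mul, map_mul, map_mul, ihm]
    exact mul_mem (mul_mem (mul_mem mYt hhF) haF) hbF
  have mYh' : kronIncl A (r38hb1aY2 C * aA ^ 2) ∈ modularFunctionFieldBar N := by
    rw [map_mul, map_pow]
    exact mul_mem mY2 (pow_mem haF 2)
  -- the reductions
  have rhm : kronRed A (hm2 A) = hm2 (kA A) := hm2_map _
  refine ⟨kronRed A (r38hb1aYt C * hm2 A * aA * bA), kronRed A (r38hb1aY2 C * aA ^ 2),
    ⟨hRedF _ mYh, hIR _ mYh iYh⟩, ⟨hRedF _ mYh', hIR _ mYh' iYh'⟩, ?_, ?_⟩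
  · have := congrArg (kronRed A) E1
    rw [← hCc]
    simpa only [map_mul, map_add, ← thetaFun_coeffMap, map_ofNat, rhm] using this
  · have := congrArg (kronRed A) E2
    simpa only [map_mul, map_add, map_pow, map_ofNat, rhm] using this

end Fermat.Agent.S59

end
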