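/-
S59, wall M4 (LOWER-P), leaf HOL3, piece (B1)_h (helper30): THE DERIVATION ON THE HAUPTMODUL LINE
OF `X₀(2)`.

`h = hm2` the Hauptmodul of `X₀(2)` (`j h² = (h + 256)³`), `c₀ = -64` its elliptic point.  For
`C ∈ R((q))` put (with `ai = (h + 256)⁻¹`, `bi = (h - 512)⁻¹` in `ℤ((q))`)

  `Yh C  := Yt C · h · ai · bi`  ( `= (h + 64) θC / θh` ),   `Yh' C := Y2 C · ai²`  ( `= Yh² / (h + 64)` ),

where `Yt C = j (j − 1728) θC / θj`, `Y2 C = Yt² / (j − 1728)` are the series of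
`R38/HolB1Asm.lean`.  Over a domain (`s59lph3b_rel`, from `ES.I2aux.mfh_alg2`):

  `Yh C · θh = θC · (h + 64)`,   `(Yh C)² = (h + 64) · Yh' C`.

**(B1)_h** (`s59lph3b_b1h`): for `2 ∣ N`, `A` over `ℓ ∤ N` with (B1-LIFT): for every `c ∈ B̄` the
series `Yh c`, `Yh' c` lie in `B̄` (in `F̄_N`, integral over `k[j̄]`).  Integrality is proved in
characteristic `0` (the Bezout argument of `ES.I2aux.mfh_case2`, with `θC` for the cusp form) and
transported by `ES.I2.stmtIRAll`.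
-/
import Fermat.Agent.ES.I2aux.MFh
import Fermat.Agent.R38.HolB1Asm
import Fermat.Agent.R38.HolB1MF

set_option autoImplicit false
set_option linter.unusedSectionVars false
set_option linter.unusedVariables false
set_option linter.style.haveILetI false
set_option linter.style.longLine false
set_option synthInstance.maxHeartbeats 400000
set_option maxHeartbeats 1600000

noncomputable section

namespace Fermat.Agent.R38

open ModularCurve AlgebraicCurve HahnSeries Fermat.Agent.ES Fermat.Agent.S24 Fermat.Agent.ES.M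
open Fermat.Agent.ES.I2 Fermat.Agent.INJ Fermat.Agent.S28.Deriv Fermat.Agent.ES.I2aux

/-! ### the inverses of `h + 256` and `h - 512` in `ℤ((q))` -/

/-- `(h + 256)⁻¹ ∈ ℤ((q))` -/
def s59lph3bAi : LaurentSeries ℤ := Classical.choose (mfh_isUnit_lin2 256).exists_right_inv

/-- `(h - 512)⁻¹ ∈ ℤ((q))` -/
def s59lph3bBi : LaurentSeries ℤ := Classical.choose (mfh_isUnit_lin2 (-512)).exists_right_inv

theorem s59lph3b_ai : (hm2Z + 256) * s59lph3bAi = 1 := by
  have h := Classical.choose_spec (mfh_isUnit_lin2 256).exists_right_inv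
  rw [← h]; push_cast; rfl

theorem s59lph3b_bi : (hm2Z - 512) * s59lph3bBi = 1 := by
  have h := Classical.choose_spec (mfh_isUnit_lin2 (-512)).exists_right_inv
  have e : hm2Z - 512 = hm2Z + ((-512 : ℤ) : LaurentSeries ℤ) := by push_cast; ring
  rw [e]
  exact h

section Ring

variable (R : Type*) [CommRing R]

/-- `(h + 256)⁻¹` over `R` -/
def s59lph3bAiR : LaurentSeries R := coeffMap (Int.castRingHom R) s59lph3bAi

/-- `(h - 512)⁻¹` over `R` -/
def s59lph3bBiR : LaurentSeries R := coeffMap (Int.castRingHom R) s59lph3bBi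

theorem s59lph3b_aiR : (hm2 R + 256) * s59lph3bAiR R = 1 := by
  have h := congrArg (coeffMap (Int.castRingHom R)) s59lph3b_ai
  rw [map_mul, map_add, map_ofNat, map_one] at h
  exact h

theorem s59lph3b_biR : (hm2 R - 512) * s59lph3bBiR R = 1 := by
  have h := congrArg (coeffMap (Int.castRingHom R)) s59lph3b_bi
  rw [map_mul, map_sub, map_ofNat, map_one] at h
  exact h

theorem s59lph3b_thetaR :
    thetaFun (jqModC R) * hm2 R ^ 2 + 2 * jqModC R * hm2 R * thetaFun (hm2 R) =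
      3 * (hm2 R + 256) ^ 2 * thetaFun (hm2 R) := by
  have h := congrArg (coeffMap (Int.castRingHom R)) mfh_theta2
  simp only [map_add, map_mul, map_pow, map_ofNat, ← thetaFun_coeffMap, coeffMap_jqModC] at h
  exact h

variable {R}

/-- `Yh C = (h + 64) θC / θh` -/
def s59lph3bYh (C : LaurentSeries R) : LaurentSeries R :=
  r38hb1aYt C * hm2 R * s59lph3bAiR R * s59lph3bBiR R

/-- `Yh' C = Yh² / (h + 64)` -/
def s59lph3bYh' (C : LaurentSeries R) : LaurentSeries R :=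
  r38hb1aY2 C * s59lph3bAiR R ^ 2

variable {S : Type*} [CommRing S] (φ : R →+* S)

theorem s59lph3b_map_aiR : coeffMap φ (s59lph3bAiR R) = s59lph3bAiR S := by
  rw [s59lph3bAiR, s59lph3bAiR, coeffMap_coeffMap]
  exact coeffMap_congr (RingHom.ext_int _ _) _

theorem s59lph3b_map_biR : coeffMap φ (s59lph3bBiR R) = s59lph3bBiR S := by
  rw [s59lph3bBiR, s59lph3bBiR, coeffMap_coeffMap]
  exact coeffMap_congr (RingHom.ext_int _ _) _

theorem s59lph3b_map_Yh (C : LaurentSeries R) :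
    coeffMap φ (s59lph3bYh C) = s59lph3bYh (coeffMap φ C) := by
  rw [s59lph3bYh, s59lph3bYh, map_mul, map_mul, map_mul, r38hb1a_map_Yt, hm2_map,
    s59lph3b_map_aiR, s59lph3b_map_biR]

theorem s59lph3b_map_Yh' (C : LaurentSeries R) :
    coeffMap φ (s59lph3bYh' C) = s59lph3bYh' (coeffMap φ C) := by
  rw [s59lph3bYh', s59lph3bYh', map_mul, map_pow, r38hb1a_map_Y2, s59lph3b_map_aiR]

end Ring

section Domain

variable {K : Type*} [Field K]

theorem s59lph3b_h_ne_zero : hm2 K ≠ 0 := by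
  have h : IsUnit (hm2 K) := by
    have := (mfh_isUnit_lin2 0).map (coeffMap (Int.castRingHom K))
    rwa [Int.cast_zero, add_zero] at this
  exact h.ne_zero

theorem s59lph3b_h64_ne_zero : hm2 K + 64 ≠ 0 := by
  have h : IsUnit (hm2 K + 64) := by
    have := (mfh_isUnit_lin2 64).map (coeffMap (Int.castRingHom K))
    rwa [Int.cast_ofNat, map_add, map_ofNat] at this
  exact h.ne_zero

/-- the six identities of `ES.I2aux.mfh_alg2` for `(Yh C, Yh' C)` over a field -/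
theorem s59lph3b_rel (C : LaurentSeries K) :
    s59lph3bYh C * thetaFun (hm2 K) = thetaFun C * (hm2 K + 64) ∧
    s59lph3bYh C ^ 2 = (hm2 K + 64) * s59lph3bYh' C ∧
    s59lph3bYh C ^ 6 * (hm2 K + 256) ^ 6 = r38hb1aY2 C ^ 3 * (hm2 K + 64) ^ 3 ∧
    s59lph3bYh C ^ 6 * (hm2 K ^ 2 * (hm2 K - 512) ^ 2) = r38hb1aY1 C ^ 2 * (hm2 K + 64) ^ 2 ∧
    s59lph3bYh' C ^ 3 * (hm2 K + 256) ^ 6 = r38hb1aY2 C ^ 3 ∧
    s59lph3bYh' C ^ 3 * (hm2 K ^ 2 * (hm2 K - 512) ^ 2 * (hm2 K + 64)) = r38hb1aY1 C ^ 2 :=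
  mfh_alg2 (jqModC K) (hm2 K) (thetaFun (jqModC K)) (thetaFun (hm2 K)) (thetaFun C)
    (r38hb1aYt C) (r38hb1aY1 C) (r38hb1aY2 C) (s59lph3bAiR K) (s59lph3bBiR K) (hm2_j K)
    (s59lph3b_thetaR K) (r38hb1a_relT C) (r38hb1a_rel2 C) (r38hb1a_rel1 C) (s59lph3b_aiR K)
    (s59lph3b_biR K) s59lph3b_h_ne_zero s59lph3b_h64_ne_zero

end Domain

/-! ### (B1)_h at `(N, A)` -/

/-- **(B1)_h**: for `c ∈ B̄`, the series `Yh c = (h̄ + 64) θc / θh̄` and `Yh' c = (Yh c)² / (h̄ + 64)`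
lie in `B̄`. -/
theorem s59lph3b_b1h (N : ℕ) [NeZero N] (h2 : 2 ∣ N) (ℓ : ℕ) (hℓ : ℓ.Prime) (hℓN : ¬ ℓ ∣ N)
    (A : ValuationSubring Kb) (hA : A.LiesOverPrime ℓ) (hLift : StmtHolLift N A)
    (c : LaurentSeries (kA A)) (hc : HolInt (kA A) N c) :
    HolInt (kA A) N (s59lph3bYh c) ∧ HolInt (kA A) N (s59lph3bYh' c) := by
  obtain ⟨C, hC, hPC, hCc⟩ := hLift c hc
  obtain ⟨Yt, Y1, Y2, hPt, hP1, hP2, e1, e2, e3⟩ := stmtHolMF N ⟨kronIncl A C, hC⟩ hPC
  have hRedF := stmtRedF N A ℓ hℓ hℓN hA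
  have hIR := stmtIRAll N ℓ hℓ hℓN A hA
  have hjB : jBar = jqModC Kb := mf_jBar_eq
  rw [hjB] at e1 e2 e3
  -- the `A`-integral forms of `Yt`, `Y2`, `Y1`
  have hYt : (Yt : LaurentSeries Kb) = r38hb1aYt (kronIncl A C) := by
    have h1 := r38hb1a_relT (kronIncl A C)
    have h2 : (Yt : LaurentSeries Kb) * thetaFun (jqModC Kb) =
        r38hb1aYt (kronIncl A C) * thetaFun (jqModC Kb) := by
      rw [h1]
      exact e1
    exact mul_right_cancel₀ r38hb1a_thetaJ_ne_zero h2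
  have hY2 : (Y2 : LaurentSeries Kb) = r38hb1aY2 (kronIncl A C) := by
    have h1 := r38hb1a_rel2 (kronIncl A C)
    have h2 : (Y2 : LaurentSeries Kb) * (jqModC Kb - 1728) =
        r38hb1aY2 (kronIncl A C) * (jqModC Kb - 1728) := by
      rw [← h1, ← e2, hYt]
    exact mul_right_cancel₀ r38hb1a_j_sub_ne_zero h2
  have hY1 : (Y1 : LaurentSeries Kb) = r38hb1aY1 (kronIncl A C) := by
    have h1 := r38hb1a_rel1 (kronIncl A C)
    have h2 : (Y1 : LaurentSeries Kb) * (jqModC Kb * (jqModC Kb - 1728)) =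
        r38hb1aY1 (kronIncl A C) * (jqModC Kb * (jqModC Kb - 1728)) := by
      rw [← mul_assoc, ← mul_assoc, ← h1, ← e3, hYt]
    exact mul_right_cancel₀ (mul_ne_zero r38hb1a_j_ne_zero r38hb1a_j_sub_ne_zero) h2
  -- memberships in `F_N`
  have mt : r38hb1aYt (kronIncl A C) ∈ modularFunctionFieldBar N := hYt ▸ Yt.2
  have m2 : r38hb1aY2 (kronIncl A C) ∈ modularFunctionFieldBar N := hY2 ▸ Y2.2
  have hhF : hm2 Kb ∈ modularFunctionFieldBar N := hm2_mem N h2
  have haF : s59lph3bAiR Kb ∈ modularFunctionFieldBar N := by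
    rw [eq_inv_of_mul_eq_one_right (s59lph3b_aiR Kb)]
    exact inv_mem (add_mem hhF (ofNat_mem _ 256))
  have hbF : s59lph3bBiR Kb ∈ modularFunctionFieldBar N := by
    rw [eq_inv_of_mul_eq_one_right (s59lph3b_biR Kb)]
    exact inv_mem (sub_mem hhF (ofNat_mem _ 512))
  -- integrality in characteristic `0`
  have iY1 : r38hb1aY1 (kronIncl A C) ∈ mfhB := by
    rw [← hY1, mfh_mem_B]
    exact r38hb1a_intJ N Y1 hP1
  have iY2 : r38hb1aY2 (kronIncl A C) ∈ mfhB := by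
    rw [← hY2, mfh_mem_B]
    exact r38hb1a_intJ N Y2 hP2
  have ih : hm2 Kb ∈ mfhB := mfh_h2_mem
  obtain ⟨hB, hBv⟩ : ∃ hB : mfhB, mfhB.val hB = hm2 Kb := ⟨⟨hm2 Kb, mfh_h2_mem⟩, rfl⟩
  have k1 : IsCoprime (hB + 256) hB :=
    mfh_coprime _ _ 1 (-256) (by norm_num) (by push_cast; ring)
  have k2 : IsCoprime (hB + 256) (hB - 512) :=
    mfh_coprime _ _ 1 (-768) (by norm_num) (by push_cast; ring)
  have k3 : IsCoprime (hB + 256) (hB + 64) :=
    mfh_coprime _ _ 1 (-192) (by norm_num) (by push_cast; ring)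
  have k4 : IsCoprime ((hB + 256) ^ 6) (hB ^ 2 * (hB - 512) ^ 2) :=
    IsCoprime.pow_left (IsCoprime.mul_right k1.pow_right k2.pow_right)
  have k5 : IsCoprime ((hB + 256) ^ 6) (hB ^ 2 * (hB - 512) ^ 2 * (hB + 64)) :=
    IsCoprime.pow_left (IsCoprime.mul_right (IsCoprime.mul_right k1.pow_right k2.pow_right) k3)
  obtain ⟨-, -, E4, E5, E6, E7⟩ := s59lph3b_rel (kronIncl A C)
  have iYh : s59lph3bYh (kronIncl A C) ∈ mfhB := by
    refine mfh_int_of_two (n := 6) (by norm_num) k4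
      (P := r38hb1aY2 (kronIncl A C) ^ 3 * (hm2 Kb + 64) ^ 3)
      (P' := r38hb1aY1 (kronIncl A C) ^ 2 * (hm2 Kb + 64) ^ 2) ?_ ?_ ?_ ?_
    · simpa only [map_mul, map_pow, map_add, map_ofNat, hBv] using E4
    · simpa only [map_mul, map_pow, map_add, map_sub, map_ofNat, hBv] using E5
    · exact mul_mem (pow_mem iY2 3) (pow_mem (add_mem ih (ofNat_mem _ 64)) 3)
    · exact mul_mem (pow_mem iY1 2) (pow_mem (add_mem ih (ofNat_mem _ 64)) 2)
  have iYh' : s59lph3bYh' (kronIncl A C) ∈ mfhB := by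
    refine mfh_int_of_two (n := 3) (by norm_num) k5
      (P := r38hb1aY2 (kronIncl A C) ^ 3) (P' := r38hb1aY1 (kronIncl A C) ^ 2) ?_ ?_
      (pow_mem iY2 3) (pow_mem iY1 2)
    · simpa only [map_mul, map_pow, map_add, map_ofNat, hBv] using E6
    · simpa only [map_mul, map_pow, map_add, map_sub, map_ofNat, hBv] using E7
  have mYh : s59lph3bYh (kronIncl A C) ∈ modularFunctionFieldBar N :=
    mul_mem (mul_mem (mul_mem mt hhF) haF) hbF
  have mYh' : s59lph3bYh' (kronIncl A C) ∈ modularFunctionFieldBar N :=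
    mul_mem m2 (pow_mem haF 2)
  -- the reductions
  have key : ∀ Y' : LaurentSeries A, kronIncl A Y' ∈ modularFunctionFieldBar N →
      IntJ jBar (kronIncl A Y') → HolInt (kA A) N (kronRed A Y') :=
    fun Y' hm hi => ⟨hRedF Y' hm, hIR Y' hm hi⟩
  have r1 := key (s59lph3bYh C) (by rw [s59lph3b_map_Yh]; exact mYh)
    (by rw [s59lph3b_map_Yh]; exact iYh)
  have r2 := key (s59lph3bYh' C) (by rw [s59lph3b_map_Yh']; exact mYh')
    (by rw [s59lph3b_map_Yh']; exact iYh')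
  rw [s59lph3b_map_Yh, hCc] at r1
  rw [s59lph3b_map_Yh', hCc] at r2
  exact ⟨r1, r2⟩

end Fermat.Agent.R38

end
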