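/-
S59, wall M4 (LOWER-P) at `p = 3`, HOL3 leaf C0 (helper44; design of helper42,
NOTES/S59-M4-HOL3.md): the characteristic-`0` functions `Y₀`, `Ỹ₂`.

`t = INJ.hm2 Kb ∈ F_N` (`2 ∣ N`), `j t² = (t + 256)³`, hence `(j − 1728) t² = (t + 64)(t − 512)²`.
For `Yt, Y1, Y2 ∈ F_N` with `Yt² = Y2 (j − 1728)`, `Yt³ = Y1 j (j − 1728)` and `Y1`, `Y2` regular
away from the cusps (`StmtMF` / `StmtHolMF`), put
    `Y₀ := t² Yt / ((t + 256)(t − 512))`,   `Ỹ₂ := Y₀² / (t + 64)`.
Then `Y₀² (t + 256)² = t² Y2 (t + 64)`, `Y₀³ (t − 512) = t² Y1 (t + 64)`,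
`Ỹ₂ (t + 256)² = t² Y2`, and `Y₀`, `Ỹ₂` have poles only at the cusps.

* `s59lph3c_abs`  : the abstract statement in a valuation ring `O ∋ j, Y1, Y2` in which
                    `768` and `192` are units (no case distinction on the three orders:
                    one of `t + 256`, `t − 512` is a unit, one of `t + 256`, `t + 64` is a unit,
                    and `O` is integrally closed);
* `s59lph3c_main` : the statement for `F_N`, `2 ∣ N` (identities between `q`-expansions).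
-/
import Fermat.Agent.ES.M.Plan
import Fermat.Agent.ES.Riemann
import Fermat.Agent.INJ.HMMem
import Fermat.Agent.INJ.Hauptmodul
import Fermat.Agent.S24.PlaceBasic

set_option autoImplicit false
set_option linter.unusedSectionVars false
set_option linter.unusedVariables false
set_option linter.style.haveILetI false
set_option linter.style.longLine false

noncomputable section

namespace Fermat.Agent.S59

open AlgebraicCurve ModularCurve HahnSeries
open Fermat.Agent.S24 Fermat.Agent.ES Fermat.Agent.ES.M Fermat.Agent.INJ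

/-! ### The abstract statement -/

section Abs

variable {F : Type*} [Field F] (O : ValuationSubring F)

/-- a valuation ring is closed under roots -/
theorem s59lph3c_mem_of_pow_mem {x : F} {n : ℕ} (hn : n ≠ 0) (h : x ^ n ∈ O) : x ∈ O := by
  by_contra hx
  rw [← O.valuation_le_one_iff, not_le] at hx
  have h1 : 1 < O.valuation (x ^ n) := by
    rw [map_pow]
    exact one_lt_pow₀ hx hn
  rw [← O.valuation_le_one_iff] at h
  exact absurd h (not_le.mpr h1)

/-- if `a - b` is a unit of `O` then `a` or `b` is a unit -/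
theorem s59lph3c_inv_mem_or {a b : F} (ha : a ∈ O) (hb : b ∈ O) (hab : (a - b)⁻¹ ∈ O)
    (hab0 : a - b ≠ 0) : a⁻¹ ∈ O ∨ b⁻¹ ∈ O := by
  by_contra hcon
  rw [not_or] at hcon
  obtain ⟨h1, h2⟩ := hcon
  rw [← O.valuation_le_one_iff, not_le, map_inv₀] at h1 h2
  have ha0 : O.valuation a ≠ 0 := by
    intro h0
    rw [h0, inv_zero] at h1
    exact absurd h1 (not_lt.mpr zero_le_one)
  have hb0 : O.valuation b ≠ 0 := by
    intro h0
    rw [h0, inv_zero] at h2
    exact absurd h2 (not_lt.mpr zero_le_one)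
  have h1' : O.valuation a < 1 := by
    rw [one_lt_inv₀ (zero_lt_iff.mpr ha0)] at h1
    exact h1
  have h2' : O.valuation b < 1 := by
    rw [one_lt_inv₀ (zero_lt_iff.mpr hb0)] at h2
    exact h2
  have h3 : O.valuation (a - b) < 1 :=
    lt_of_le_of_lt (Valuation.map_sub _ a b) (max_lt h1' h2')
  have h4 : O.valuation (a - b)⁻¹ ≤ 1 := (O.valuation_le_one_iff _).mpr hab
  rw [map_inv₀] at h4
  have h5 : O.valuation (a - b) ≠ 0 := (Valuation.ne_zero_iff _).mpr hab0
  rw [inv_le_one₀ (zero_lt_iff.mpr h5)] at h4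
  exact absurd h3 (not_lt.mpr h4)

/-- `j t² = (t + 256)³` with `j ∈ O` and `256` a unit: `t ∈ O` -/
theorem s59lph3c_t_mem {t j : F} (hj : j ∈ O) (h256 : (256 : F) ∈ O)
    (htj : j * t ^ 2 = (t + 256) ^ 3) : t ∈ O := by
  by_contra ht
  have ht0 : t ≠ 0 := fun h => ht (h ▸ O.zero_mem)
  rw [← O.valuation_le_one_iff, not_le] at ht
  have hvt0 : O.valuation t ≠ 0 := (Valuation.ne_zero_iff _).mpr ht0
  have h256' : O.valuation (256 : F) ≤ 1 := (O.valuation_le_one_iff _).mpr h256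
  have h1 : O.valuation (t + 256) = O.valuation t :=
    Valuation.map_add_eq_of_lt_left _ (lt_of_le_of_lt h256' ht)
  have h2 := congrArg O.valuation htj
  rw [map_mul, map_pow, map_pow, h1] at h2
  have hj' : O.valuation j ≤ 1 := (O.valuation_le_one_iff _).mpr hj
  have h3 : O.valuation j * O.valuation t ^ 2 ≤ O.valuation t ^ 2 :=
    mul_le_of_le_one_left' hj'
  rw [h2] at h3
  have h4 : O.valuation t ^ 2 < O.valuation t ^ 3 := by
    have : O.valuation t ^ 3 = O.valuation t ^ 2 * O.valuation t := pow_succ _ 2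
    rw [this]
    have hp : 0 < O.valuation t ^ 2 := pow_pos (zero_lt_iff.mpr hvt0) 2
    calc O.valuation t ^ 2 = O.valuation t ^ 2 * 1 := (mul_one _).symm
      _ < O.valuation t ^ 2 * O.valuation t := by
          exact (mul_lt_mul_iff_right₀ hp).mpr ht
  exact absurd h3 (not_le.mpr h4)

/-- **HOL3 / C0, abstract.** -/
theorem s59lph3c_abs {t j Yt Y1 Y2 : F} (hj : j ∈ O) (hY1 : Y1 ∈ O) (hY2 : Y2 ∈ O)
    (hc : ∀ n : ℕ, (n : F) ∈ O) (h768 : ((768 : F))⁻¹ ∈ O) (h192 : ((192 : F))⁻¹ ∈ O)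
    (hF768 : (768 : F) ≠ 0) (hF192 : (192 : F) ≠ 0)
    (hA : t + 256 ≠ 0) (hB : t - 512 ≠ 0) (hC : t + 64 ≠ 0)
    (htj : j * t ^ 2 = (t + 256) ^ 3)
    (e2 : Yt ^ 2 = Y2 * (j - 1728)) (e3 : Yt ^ 3 = Y1 * j * (j - 1728)) :
    t ^ 2 * Yt / ((t + 256) * (t - 512)) ∈ O ∧
      (t ^ 2 * Yt / ((t + 256) * (t - 512))) ^ 2 / (t + 64) ∈ O := by
  have h256 : (256 : F) ∈ O := by exact_mod_cast hc 256
  have h512 : (512 : F) ∈ O := by exact_mod_cast hc 512
  have h64 : (64 : F) ∈ O := by exact_mod_cast hc 64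
  have ht : t ∈ O := s59lph3c_t_mem O hj h256 htj
  have hAm : t + 256 ∈ O := add_mem ht h256
  have hBm : t - 512 ∈ O := sub_mem ht h512
  have hCm : t + 64 ∈ O := add_mem ht h64
  -- `(j − 1728) t² = (t + 64)(t − 512)²`
  have hj2 : (j - 1728) * t ^ 2 = (t + 64) * (t - 512) ^ 2 := by
    linear_combination htj
  set Y0 : F := t ^ 2 * Yt / ((t + 256) * (t - 512)) with hY0
  have hY0e : Y0 * ((t + 256) * (t - 512)) = t ^ 2 * Yt := by
    rw [hY0, div_mul_cancel₀ _ (mul_ne_zero hA hB)]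
  -- `Y₀² (t + 256)² = t² Y2 (t + 64)`
  have hsq : Y0 ^ 2 * (t + 256) ^ 2 = t ^ 2 * Y2 * (t + 64) := by
    have h1 : (Y0 ^ 2 * (t + 256) ^ 2) * (t - 512) ^ 2 = (t ^ 2 * Y2 * (t + 64)) * (t - 512) ^ 2 := by
      have : (Y0 * ((t + 256) * (t - 512))) ^ 2 = (t ^ 2 * Yt) ^ 2 := by rw [hY0e]
      linear_combination this + t ^ 4 * e2 + t ^ 2 * Y2 * hj2
    exact mul_right_cancel₀ (pow_ne_zero 2 hB) h1
  -- `Y₀³ (t − 512) = t² Y1 (t + 64)`
  have hcu : Y0 ^ 3 * (t - 512) = t ^ 2 * Y1 * (t + 64) := by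
    have h1 : (Y0 ^ 3 * (t - 512)) * ((t + 256) ^ 3 * (t - 512) ^ 2) =
        (t ^ 2 * Y1 * (t + 64)) * ((t + 256) ^ 3 * (t - 512) ^ 2) := by
      have : (Y0 * ((t + 256) * (t - 512))) ^ 3 = (t ^ 2 * Yt) ^ 3 := by rw [hY0e]
      linear_combination this + t ^ 6 * e3 + t ^ 2 * Y1 * (j - 1728) * t ^ 2 * htj +
        t ^ 2 * Y1 * (t + 256) ^ 3 * hj2
    exact mul_right_cancel₀ (mul_ne_zero (pow_ne_zero 3 hA) (pow_ne_zero 2 hB)) h1
  -- units
  have hAB : (t + 256)⁻¹ ∈ O ∨ (t - 512)⁻¹ ∈ O := by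
    refine s59lph3c_inv_mem_or O hAm hBm ?_ ?_
    · have : t + 256 - (t - 512) = 768 := by ring
      rw [this]; exact h768
    · have : t + 256 - (t - 512) = 768 := by ring
      rw [this]; exact hF768
  have hAC : (t + 256)⁻¹ ∈ O ∨ (t + 64)⁻¹ ∈ O := by
    refine s59lph3c_inv_mem_or O hAm hCm ?_ ?_
    · have : t + 256 - (t + 64) = 192 := by ring
      rw [this]; exact h192
    · have : t + 256 - (t + 64) = 192 := by ring
      rw [this]; exact hF192
  have hY0m : Y0 ∈ O := by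
    rcases hAB with h | h
    · refine s59lph3c_mem_of_pow_mem O (n := 2) (by norm_num) ?_
      have : Y0 ^ 2 = t ^ 2 * Y2 * (t + 64) * ((t + 256)⁻¹) ^ 2 := by
        rw [← hsq]
        field_simp
      rw [this]
      exact mul_mem (mul_mem (mul_mem (pow_mem ht 2) hY2) hCm) (pow_mem h 2)
    · refine s59lph3c_mem_of_pow_mem O (n := 3) (by norm_num) ?_
      have : Y0 ^ 3 = t ^ 2 * Y1 * (t + 64) * (t - 512)⁻¹ := by
        rw [← hcu]
        field_simp
      rw [this]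
      exact mul_mem (mul_mem (mul_mem (pow_mem ht 2) hY1) hCm) h
  refine ⟨hY0m, ?_⟩
  rcases hAC with h | h
  · have : Y0 ^ 2 / (t + 64) = t ^ 2 * Y2 * ((t + 256)⁻¹) ^ 2 := by
      rw [div_eq_iff hC]
      have h1 : Y0 ^ 2 = t ^ 2 * Y2 * (t + 64) * ((t + 256)⁻¹) ^ 2 := by
        rw [← hsq]
        field_simp
      rw [h1]
      ring
    rw [this]
    exact mul_mem (mul_mem (pow_mem ht 2) hY2) (pow_mem h 2)
  · rw [div_eq_mul_inv]
    exact mul_mem (pow_mem hY0m 2) h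

end Abs

/-! ### The function field `F_N` -/

section Modular

variable (N : ℕ) [NeZero N]

/-- the Hauptmodul of `X₀(2)` as an element of `F_N` -/
def s59lph3c_t (h2 : 2 ∣ N) : FF N := ⟨hm2 Kb, hm2_mem N h2⟩

theorem s59lph3c_t_coe (h2 : 2 ∣ N) :
    ((s59lph3c_t N h2 : FF N) : LaurentSeries Kb) = hm2 Kb := rfl

/-- `j t² = (t + 256)³` in `F_N` -/
theorem s59lph3c_t_j (h2 : 2 ∣ N) :
    jF N * s59lph3c_t N h2 ^ 2 = (s59lph3c_t N h2 + 256) ^ 3 := by
  apply Subtype.ext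
  have h := hm2_j Kb
  have e1 : ((jF N * s59lph3c_t N h2 ^ 2 : FF N) : LaurentSeries Kb) =
      jqModC Kb * hm2 Kb ^ 2 := by
    rw [← Fermat.Agent.ES.R.jF_coe N]
    rfl
  have e2 : (((s59lph3c_t N h2 + 256) ^ 3 : FF N) : LaurentSeries Kb) = (hm2 Kb + 256) ^ 3 := by
    have : ((256 : FF N) : LaurentSeries Kb) = 256 :=
      map_ofNat (modularFunctionFieldBar N).toSubfield.subtype 256
    show (((s59lph3c_t N h2 : FF N) : LaurentSeries Kb) + ((256 : FF N) : LaurentSeries Kb)) ^ 3 = _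
    rw [this, s59lph3c_t_coe]
  rw [e1, e2, h]

/-- `t` is not a constant -/
theorem s59lph3c_t_ne_const (h2 : 2 ∣ N) (c : Kb) :
    s59lph3c_t N h2 ≠ algebraMap Kb (FF N) c := by
  intro h
  have hj := s59lph3c_t_j N h2
  have ht0 : s59lph3c_t N h2 ≠ 0 := by
    intro h0
    apply hm2_ne_zero
    have := congrArg (fun x : FF N => (x : LaurentSeries Kb)) h0
    simpa [s59lph3c_t_coe] using this
  have hc0 : c ≠ 0 := by
    rintro rfl
    rw [map_zero] at h
    exact ht0 h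
  -- `j = (c + 256)³ / c²` is a constant
  have hjc : jF N = algebraMap Kb (FF N) ((c + 256) ^ 3 / c ^ 2) := by
    rw [h] at hj
    have hc' : (algebraMap Kb (FF N) c) ^ 2 ≠ 0 :=
      pow_ne_zero 2 ((map_ne_zero (algebraMap Kb (FF N))).mpr hc0)
    rw [map_div₀, map_pow, map_pow, map_add, map_ofNat, eq_div_iff hc']
    exact hj
  exact (transcendental_jF N) (hjc ▸ isAlgebraic_algebraMap _)

/-- **HOL3 / C0**: the functions `Y₀ = t² Yt / ((t + 256)(t − 512))` and `Ỹ₂ = Y₀² / (t + 64)` of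
`F_N`, `2 ∣ N`, have poles only at the cusps. -/
theorem s59lph3c_main (h2 : 2 ∣ N) (Yt Y1 Y2 : FF N)
    (hY1 : PolesAtCusps N Y1) (hY2 : PolesAtCusps N Y2)
    (e2 : (Yt : LaurentSeries Kb) ^ 2 = (Y2 : LaurentSeries Kb) * (jBar - 1728))
    (e3 : (Yt : LaurentSeries Kb) ^ 3 = (Y1 : LaurentSeries Kb) * jBar * (jBar - 1728)) :
    ∃ Y0 Y2t : FF N, PolesAtCusps N Y0 ∧ PolesAtCusps N Y2t ∧
      (Y0 : LaurentSeries Kb) * ((hm2 Kb + 256) * (hm2 Kb - 512)) =
        hm2 Kb ^ 2 * (Yt : LaurentSeries Kb) ∧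
      (Y2t : LaurentSeries Kb) * (hm2 Kb + 64) = (Y0 : LaurentSeries Kb) ^ 2 := by
  set t : FF N := s59lph3c_t N h2 with ht
  set φ : FF N →+* LaurentSeries Kb :=
    (ModularCurve.modularFunctionFieldBar N).toSubfield.subtype with hφd
  have hφ : ∀ y : FF N, φ y = (y : LaurentSeries Kb) := fun _ => rfl
  have hinj : Function.Injective φ := Subtype.val_injective
  have hφj : φ (jF N) = jBar := rfl
  have hφt : φ t = hm2 Kb := rfl
  -- the relations in `F_N`
  have e2' : Yt ^ 2 = Y2 * (jF N - 1728) := by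
    apply hinj
    rw [map_pow, map_mul, map_sub, map_ofNat, hφ, hφ, hφj]
    exact e2
  have e3' : Yt ^ 3 = Y1 * jF N * (jF N - 1728) := by
    apply hinj
    rw [map_pow, map_mul, map_mul, map_sub, map_ofNat, hφ, hφ, hφj]
    exact e3
  have hA : t + 256 ≠ 0 := by
    intro h
    apply s59lph3c_t_ne_const N h2 (-256)
    rw [map_neg, map_ofNat]
    exact eq_neg_of_add_eq_zero_left h
  have hB : t - 512 ≠ 0 := by
    intro h
    apply s59lph3c_t_ne_const N h2 512
    rw [map_ofNat]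
    exact sub_eq_zero.mp h
  have hC : t + 64 ≠ 0 := by
    intro h
    apply s59lph3c_t_ne_const N h2 (-64)
    rw [map_neg, map_ofNat]
    exact eq_neg_of_add_eq_zero_left h
  have htj := s59lph3c_t_j N h2
  set Y0 : FF N := t ^ 2 * Yt / ((t + 256) * (t - 512)) with hY0
  set Y2t : FF N := Y0 ^ 2 / (t + 64) with hY2t
  have key : ∀ P : Place Kb (FF N), 0 ≤ P.ord (jF N) →
      Y0 ∈ P.toValuationSubring ∧ Y2t ∈ P.toValuationSubring := by
    intro P hP
    have hjm : jF N ∈ P.toValuationSubring := PlaceAux.mem_of_ord_nonneg P hP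
    have hY1m : Y1 ∈ P.toValuationSubring := PlaceAux.mem_of_ord_nonneg P (hY1 P hP)
    have hY2m : Y2 ∈ P.toValuationSubring := PlaceAux.mem_of_ord_nonneg P (hY2 P hP)
    have hc : ∀ n : ℕ, ((n : FF N)) ∈ P.toValuationSubring := fun n => by
      have := P.algebraMap_mem' (n : Kb)
      rwa [map_natCast] at this
    have h768 : ((768 : FF N))⁻¹ ∈ P.toValuationSubring := by
      have := P.algebraMap_mem' ((768 : Kb)⁻¹)
      rwa [map_inv₀, map_ofNat] at this
    have h192 : ((192 : FF N))⁻¹ ∈ P.toValuationSubring := by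
      have := P.algebraMap_mem' ((192 : Kb)⁻¹)
      rwa [map_inv₀, map_ofNat] at this
    exact s59lph3c_abs P.toValuationSubring hjm hY1m hY2m hc h768 h192
      (by norm_num) (by norm_num) hA hB hC htj e2' e3'
  have hord : ∀ (P : Place Kb (FF N)) (x : FF N), x ∈ P.toValuationSubring → 0 ≤ P.ord x := by
    intro P x hx
    rcases eq_or_ne x 0 with rfl | hx0
    · rw [Place.ord_zero]
    · exact (PlaceAux.ord_nonneg_iff P hx0).mpr hx
  refine ⟨Y0, Y2t, fun P hP => hord P _ (key P hP).1, fun P hP => hord P _ (key P hP).2, ?_, ?_⟩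
  · have h1 : Y0 * ((t + 256) * (t - 512)) = t ^ 2 * Yt := by
      rw [hY0, div_mul_cancel₀ _ (mul_ne_zero hA hB)]
    have h2' := congrArg φ h1
    rw [map_mul, map_mul, map_add, map_sub, map_ofNat, map_ofNat, map_mul, map_pow, hφt] at h2'
    exact h2'
  · have h1 : Y2t * (t + 64) = Y0 ^ 2 := by
      rw [hY2t, div_mul_cancel₀ _ hC]
    have h2' := congrArg φ h1
    rw [map_mul, map_add, map_ofNat, map_pow, hφt] at h2'
    exact h2'

end Modular

end Fermat.Agent.S59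

end
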