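/-
S59, wall M4 (LOWER-P), leaf HOL3, step (D) (helper30): `s59lptr_HolTrivAt M p` for every prime
`p` with `5 ≤ p ∨ (5 - p) ∣ M`  (at `p = 3`: EVEN level `M`).

Clone of `R38.r38holtriv_main` (R38/HolTriv.lean, helper52): the ONLY use of `5 ≤ p` there is the
reduction package `S15.s15red_exists_pkg M p hp hpM (Or.inl h5)`, which exists for
`5 ≤ p ∨ (5 - p) ∣ M` (`ES.I2aux.stmtI2AuxAll`).

* `s59lph3d_main`       : the clone, with `h : 5 ≤ p ∨ (5 - p) ∣ M`;
* `s59lph3d_holTrivAt`  : `s59lptr_HolTrivAt M p`;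
* `s59lph3d_holTrivThree` : `s59lptr_HolTrivAt M 3` for `2 ∣ M`, `3 ∤ M`  (leaf HOL3-D of
  `S59lpwLeaves3`).
-/
import Fermat.Agent.S59.LowP.Triv3
import Fermat.Agent.R38.HolTriv

set_option autoImplicit false
set_option linter.unusedSectionVars false
set_option linter.unusedVariables false
set_option linter.style.haveILetI false
set_option linter.style.longLine false
set_option synthInstance.maxHeartbeats 400000
set_option maxHeartbeats 1600000

open ModularCurve AlgebraicCurve Module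

noncomputable section

namespace Fermat.Agent.R38

open Fermat.Agent.W1 Fermat.Agent.S15 Fermat.Agent.S24 Fermat.Agent.ES.M Fermat.Agent.DEU
  Fermat.Agent.ES Fermat.Agent.ES.G2 Fermat.Agent.RIB Fermat.Agent.RIB.MP Fermat.Agent.STB

/-- **the last step (D) of HOL-dlog** for `5 ≤ p ∨ (5 - p) ∣ M`: `dlog` of the Gauss reduction
vanishes ⇒ `TrivInf`. -/
theorem s59lph3d_main {M p : ℕ} [NeZero M] [NeZero p] [NeZero (M * p)] (hp : p.Prime)
    (hpM : ¬ p ∣ M) (h5 : 5 ≤ p ∨ (5 - p) ∣ M) (A : ValuationSubring Qb)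
    (hA : A.LiesOverPrime p)
    {x : JZero (M * p)} {u : modularFunctionFieldBar (M * p)} (hxu : KummerRel p x u)
    {r : LaurentSeries (kA A)} (hrF : r ∈ modularFunctionFieldFullC (kA A) M)
    (hred : R38Red A (u : LaurentSeries Qb) r) (h0 : r38dlog r = 0) :
    RIB.MP.TrivInf A p x := by
  haveI : Fact p.Prime := ⟨hp⟩
  haveI : CharP (kA A) p := kron_charP_residueField hp hA
  haveI : IsAlgClosed (kA A) := Fermat.Agent.RED.isAlgClosed_residueField A
  haveI : PerfectRing (kA A) p := inferInstance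
  have hr0 : r ≠ 0 := hred.ne_zero_right
  -- (1) `r = gᵖ`
  obtain ⟨g, hgF, hgr⟩ := r38holtriv_pow (kA A) p M hrF hr0 h0
  have hg0 : g ≠ 0 := by
    rintro rfl
    rw [zero_pow hp.ne_zero] at hgr
    exact hr0 hgr.symm
  -- (2) the package and the lift of `g`
  obtain ⟨rr, sp, Pinf, Qinf, h⟩ := s15red_exists_pkg M p hp hpM h5 A hA
  obtain ⟨G, hG⟩ := h.modPR.isPR.red_surjective ⟨g, hgF⟩
  have hGred : GaussRed M A (G : FF M) g := by
    rw [deuValRed_iff M A (stmtRedF M A p hp hpM hA)]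
    exact ⟨G.2, congrArg Subtype.val hG⟩
  have hGR : R38Red A (((G : FF M) : modularFunctionFieldBar M) : LaurentSeries Qb) g :=
    tresgeo_red_of_gaussRed hGred hg0
  -- `v = Gᵖ` has Gauss reduction `gᵖ = r`
  have hvR : R38Red A ((((G : FF M) ^ p : modularFunctionFieldBar M)) : LaurentSeries Qb) r := by
    have := hGR.pow p
    rw [hgr] at this
    exact this
  -- (3) the bridge
  have hGC := tresbr_bridge (M := M) (q := p) hp hA hred hvR
  have hG0 : (G : FF M) ≠ 0 := by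
    intro hG0
    apply hGR.ne_zero_left
    rw [hG0]
    rfl
  have hαG0 : heckeAlphaBar Qb M p (G : FF M) ≠ 0 :=
    (map_ne_zero_iff _ (heckeAlphaBar Qb M p).injective).mpr hG0
  refine ⟨u / heckeAlphaBar Qb M p ((G : FF M) ^ p), ?_, hGC⟩
  have e : u / heckeAlphaBar Qb M p ((G : FF M) ^ p) =
      u * ((heckeAlphaBar Qb M p (G : FF M))⁻¹) ^ p := by
    rw [map_pow, inv_pow, div_eq_mul_inv]
  rw [e]
  haveI := Fermat.Agent.ES.H.hasPrincipalDivisors_FF (M * p)
  exact ribmp_rl_kummerRel_mul_pow hxu (inv_ne_zero hαG0)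

/-- **HOL-D at `(M, p)`**, `5 ≤ p ∨ (5 - p) ∣ M`. -/
theorem s59lph3d_holTrivAt {M p : ℕ} [NeZero M] [NeZero p] [NeZero (M * p)] (hp : p.Prime)
    (hpM : ¬ p ∣ M) (h5 : 5 ≤ p ∨ (5 - p) ∣ M) : s59lptr_HolTrivAt M p :=
  fun A hA _ _ hxu _ hrF hred h0 => s59lph3d_main hp hpM h5 A hA hxu hrF hred h0

/-- **leaf HOL3-D**: `s59lptr_HolTrivAt M 3` at every even level `M` prime to `3`. -/
theorem s59lph3d_holTrivThree (M : ℕ) [NeZero M] (h2 : 2 ∣ M) (h3 : ¬ 3 ∣ M) :
    s59lptr_HolTrivAt M 3 :=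
  s59lph3d_holTrivAt Nat.prime_three h3 (Or.inr h2)

end Fermat.Agent.R38

end
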