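/-
S59, wall M4 (LOWER-P), leaf HOL3 (helper30): THE PIECES OF ROW 38's HOL CHAIN THAT ARE FREE AT
`ℓ = 3`, EVEN LEVEL.

The residue theorem and the genus bound in characteristic `ℓ ∈ {2, 3}` at the levels divisible by
`5 - ℓ` are ON MAIN on the Hauptmodul line (`ES.I2aux.auxRes_main`, `ES.I2aux.stmtI2AuxAll`).  So,
for a prime `ℓ < 5`, `ℓ ∤ N`, `(5 - ℓ) ∣ N` (at `ℓ = 3`: `2 ∣ N`):

* `s59lph3l_i2`    : `ES.M.StmtI2 N A`;
* `s59lph3l_res`   : `ES.I2.StmtRes N A` (the residue theorem for the reduced cusp forms);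
* `s59lph3l_lift`  : `R38.StmtHolLift N A`   (B1-LIFT, `r38hlift_of_stmtI2`);
* `s59lph3l_b1`    : `R38.StmtHolB1 N A`     ((B1) on the `j`-line, `r38hb1a_at`);
* `s59lph3l_dual`  : (DUAL) `r38hold_dual` at `ℓ`;
* `s59lph3l_span_of_res` : (SPAN-asm) `R38.StmtHolRes N A ℓ → R38.StmtHolSpan N A ℓ`.

What is left for HOL3-SPAN is `R38.StmtHolRes N A 3` (the residue theorem for `dlog r`,
`S59/LowP/Hol3Res.lean`).
-/
import Fermat.Agent.ES.I2aux.Glue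
import Fermat.Agent.R38.HolAll
import Fermat.Agent.R38.HolLift
import Fermat.Agent.R38.HolB1Asm
import Fermat.Agent.R38.HolB1MF
import Fermat.Agent.R38.HolDual
import Fermat.Agent.R38.HolSpan

set_option autoImplicit false
set_option linter.unusedSectionVars false
set_option linter.unusedVariables false
set_option linter.style.haveILetI false
set_option linter.style.longLine false
set_option synthInstance.maxHeartbeats 400000
set_option maxHeartbeats 1600000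

noncomputable section

namespace Fermat.Agent.R38

open ModularCurve AlgebraicCurve HahnSeries Fermat.Agent.ES Fermat.Agent.S24 Fermat.Agent.ES.M
open Fermat.Agent.ES.I2 Fermat.Agent.S28.Deriv

variable (N : ℕ) [NeZero N] (ℓ : ℕ) (A : ValuationSubring Kb)

/-- `(I2)` in characteristic `ℓ < 5` at the levels divisible by `5 - ℓ`. -/
theorem s59lph3l_i2 (hℓ : ℓ.Prime) (hlt : ℓ < 5) (hℓN : ¬ ℓ ∣ N) (hdiv : (5 - ℓ) ∣ N)
    (hA : A.LiesOverPrime ℓ) : StmtI2 N A :=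
  Fermat.Agent.ES.I2aux.stmtI2AuxAll N ℓ hℓ hlt hℓN hdiv A hA

/-- the residue theorem for the reduced cusp forms in characteristic `ℓ < 5`. -/
theorem s59lph3l_res (hℓ : ℓ.Prime) (hlt : ℓ < 5) (hℓN : ¬ ℓ ∣ N) (hdiv : (5 - ℓ) ∣ N)
    (hA : A.LiesOverPrime ℓ) : Fermat.Agent.ES.I2.StmtRes N A :=
  Fermat.Agent.ES.I2aux.auxRes_main N ℓ hℓ hlt hℓN hdiv A hA

/-- **(B1-LIFT)** in characteristic `ℓ < 5`. -/
theorem s59lph3l_lift (hℓ : ℓ.Prime) (hlt : ℓ < 5) (hℓN : ¬ ℓ ∣ N) (hdiv : (5 - ℓ) ∣ N)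
    (hA : A.LiesOverPrime ℓ) : StmtHolLift N A :=
  fun c hc => r38hlift_of_stmtI2 N A ℓ hℓ hℓN hA (s59lph3l_i2 N ℓ A hℓ hlt hℓN hdiv hA) c
    hc.1 hc.2

/-- **(B1)** on the `j`-line in characteristic `ℓ < 5`. -/
theorem s59lph3l_b1 (hℓ : ℓ.Prime) (hlt : ℓ < 5) (hℓN : ¬ ℓ ∣ N) (hdiv : (5 - ℓ) ∣ N)
    (hA : A.LiesOverPrime ℓ) : StmtHolB1 N A :=
  r38hb1a_at N ℓ hℓ hℓN A hA (s59lph3l_lift N ℓ A hℓ hlt hℓN hdiv hA) (stmtHolMF N)

/-- **(DUAL)** in characteristic `ℓ < 5` (clone of `R38.r38hold_dual`). -/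
theorem s59lph3l_dual (hℓ : ℓ.Prime) (hlt : ℓ < 5) (hℓN : ¬ ℓ ∣ N) (hdiv : (5 - ℓ) ∣ N)
    (hA : A.LiesOverPrime ℓ)
    (b : LaurentSeries (kA A)) (hb0 : ∀ m : ℤ, m ≤ 0 → b.coeff m = 0)
    (hres : ∀ w : LaurentSeries (kA A), InW N A w → (w * b).coeff 0 = 0) :
    ∃ (f : Fin (gN N) → CuspForm (CongruenceSubgroup.Gamma0 N) 2) (z : Fin (gN N) → ℕ → ℤ),
      (∀ t n, ModularFormClass.qCoeff (f t) n = (z t n : ℂ)) ∧
      LinearIndependent (kA A) (fun t => coeffMap (Int.castRingHom (kA A)) (fqZ (z t))) ∧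
      b ∈ Submodule.span (kA A)
        (Set.range fun t => coeffMap (Int.castRingHom (kA A)) (fqZ (z t))) := by
  obtain ⟨f, z, hz, hli⟩ := stmtBAll N ℓ hℓ A hA
  have gr : GRApi N A := stmtGRApi N A
  refine ⟨f, z, hz, hli, ?_⟩
  exact r38hold_dual_of N A gr (stmtLWApi N A gr) (stmtRedFAll N ℓ hℓ hℓN A hA)
    (Fermat.Agent.ES.LR.stmtLRaAll N ℓ hℓ hℓN A hA) (stmtQ2All N ℓ hℓ hℓN A hA)
    (Fermat.Agent.ES.R.stmtRAll N) (stmtTauAll N ℓ hℓ hℓN A hA) (stmtMFkAll N ℓ hℓ hℓN A hA)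
    (stmtConstAll N ℓ hℓ hℓN A hA) (s59lph3l_res N ℓ A hℓ hlt hℓN hdiv hA) f z hz hli b hb0 hres

/-- **(SPAN-asm)** in characteristic `ℓ < 5` (clone of `R38.stmtHolSpanGlue`):
the residue theorem for `dlog r` gives `dlog r ∈ S̄`. -/
theorem s59lph3l_span_of_res (hℓ : ℓ.Prime) (hlt : ℓ < 5) (hℓN : ¬ ℓ ∣ N) (hdiv : (5 - ℓ) ∣ N)
    (hA : A.LiesOverPrime ℓ) (hRes : StmtHolRes N A ℓ) : StmtHolSpan N A ℓ := by
  intro r hr0 hdivr
  haveI : Fact ℓ.Prime := ⟨hℓ⟩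
  haveI : CharP (kA A) ℓ := kron_charP_residueField hℓ hA
  haveI : PerfectRing (kA A) ℓ := Fermat.Agent.INJ.nf_perfectRing_residueField A ℓ
  have hNk : ((N : ℕ) : kA A) ≠ 0 := redF_natCast_ne_zero N A ℓ hℓ hℓN hA
  obtain ⟨hr, hQ⟩ := hdivr
  -- the order at the cusp `∞`
  have hrne : (⟨r, hr⟩ : ↥(modularFunctionFieldFullC (kA A) N)) ≠ 0 := fun h =>
    hr0 (congrArg Subtype.val h)
  have h1 : (ℓ : ℤ) ∣ (iotaK (kA A) N ⟨r, hr⟩).order :=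
    stmtHolOrd (kA A) ℓ N hNk (iotaK (kA A) N) (iotaK_apply (kA A) N _) ⟨r, hr⟩ hrne hQ
  rw [iotaK_apply, Fermat.Agent.S28.order_qExpand] at h1
  have h2 : (ℓ : ℤ) ∣ r.order := by
    have hcop : IsCoprime (ℓ : ℤ) (N : ℤ) := by
      rw [Int.isCoprime_iff_gcd_eq_one]
      have : Nat.Coprime ℓ N := (Nat.Prime.coprime_iff_not_dvd hℓ).2 hℓN
      exact_mod_cast this
    exact hcop.dvd_of_dvd_mul_left h1
  have h3 : (r38dlog r).coeff 0 = 0 := by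
    rw [r38hol_dlog_coeff_zero r hr0]
    obtain ⟨c, hc⟩ := h2
    rw [hc, Int.cast_mul, Int.cast_natCast, CharP.cast_eq_zero, zero_mul]
  have hb0 : ∀ m : ℤ, m ≤ 0 → (r38dlog r).coeff m = 0 := by
    intro m hm
    rcases hm.lt_or_eq with h | h
    · exact r38hol_dlog_coeff_neg r m h
    · rw [h]; exact h3
  obtain ⟨f, z, hz, -, hmem⟩ := s59lph3l_dual N ℓ A hℓ hlt hℓN hdiv hA (r38dlog r) hb0
    (fun w hw => hRes r hr0 ⟨hr, hQ⟩ w hw)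
  refine Submodule.span_mono ?_ hmem
  rintro _ ⟨t, rfl⟩
  exact ⟨f t, z t, hz t, rfl⟩

end Fermat.Agent.R38

end
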