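/-
S59, wall M4 (LOWER-P) at `p = 3`, HOL3 leaf N_h (helper44; wanted by helper30, 04:36Z):
the `h`-line analogue of the ideal `𝔑` (`R38.StmtHolNIdeal`).

`k` a field, `F ⊂ k((q))` an intermediate field, `j h : k((q))`, `h ∈ F`, `h + 64 ≠ 0`.
    `N_h := {y | y ∈ F ∧ IntJ j y ∧ ∃ y', y' ∈ F ∧ IntJ j y' ∧ y² = (h + 64) · y'}`
is closed under `+` and under multiplication by `{c ∈ F, IntJ j c}`, hence under finite sums
`Σ cᵢ yᵢ`.  (For `a, b ∈ N_h` put `z := a b / (h + 64)`: `z² = a' b'` is integral, so `z` is, and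
`(a + b)² = (h + 64)(a' + b' + 2 z)`.)

* `s59lph3n_N F j h y`   : the predicate `y ∈ N_h`;
* `s59lph3n_intJ_of_pow` : `IntJ j (z ^ n) → IntJ j z` (`0 < n`);
* `s59lph3n_zero`, `s59lph3n_mul`, `s59lph3n_add`, `s59lph3n_neg`, `s59lph3n_sum`.
-/
import Fermat.Agent.ES.I2.Res

set_option autoImplicit false
set_option linter.unusedSectionVars false
set_option linter.unusedVariables false
set_option linter.style.haveILetI false

noncomputable section

namespace Fermat.Agent.S59

open ModularCurve HahnSeries Fermat.Agent.ES.I2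

variable {k : Type*} [Field k] (F : IntermediateField k (LaurentSeries k))
  (j h : LaurentSeries k)

/-- `y ∈ N_h` -/
def s59lph3n_N (y : LaurentSeries k) : Prop :=
  y ∈ F ∧ IntJ j y ∧ ∃ y' : LaurentSeries k, y' ∈ F ∧ IntJ j y' ∧ y ^ 2 = (h + 64) * y'

variable {F j h}

/-- a root of an integral element is integral -/
theorem s59lph3n_intJ_of_pow {z : LaurentSeries k} {n : ℕ} (hn : 0 < n)
    (hz : IntJ j (z ^ n)) : IntJ j z := by
  letI : Algebra (Polynomial k) (LaurentSeries k) := (Polynomial.aeval j).toRingHom.toAlgebra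
  exact IsIntegral.of_pow hn hz

theorem s59lph3n_intJ_zero : IntJ j (0 : LaurentSeries k) := by
  have := intJ_aeval j (0 : Polynomial k)
  rwa [map_zero] at this

theorem s59lph3n_intJ_neg {a : LaurentSeries k} (ha : IntJ j a) : IntJ j (-a) := by
  have := (s59lph3n_intJ_zero (j := j)).sub ha
  rwa [zero_sub] at this

theorem s59lph3n_zero : s59lph3n_N F j h 0 :=
  ⟨zero_mem _, s59lph3n_intJ_zero, 0, zero_mem _, s59lph3n_intJ_zero, by simp⟩

/-- `N_h` is stable under multiplication by integral elements of `F` -/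
theorem s59lph3n_mul {c y : LaurentSeries k} (hc : c ∈ F) (hci : IntJ j c)
    (hy : s59lph3n_N F j h y) : s59lph3n_N F j h (c * y) := by
  obtain ⟨hyF, hyi, y', hy'F, hy'i, e⟩ := hy
  refine ⟨mul_mem hc hyF, hci.mul hyi, c ^ 2 * y', mul_mem (pow_mem hc 2) hy'F,
    (hci.pow 2).mul hy'i, ?_⟩
  rw [mul_pow, e]
  ring

theorem s59lph3n_neg {y : LaurentSeries k} (hy : s59lph3n_N F j h y) :
    s59lph3n_N F j h (-y) := by
  obtain ⟨hyF, hyi, y', hy'F, hy'i, e⟩ := hy
  exact ⟨neg_mem hyF, s59lph3n_intJ_neg hyi, y', hy'F, hy'i, by rw [neg_sq, e]⟩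

/-- `N_h` is stable under addition -/
theorem s59lph3n_add (hh : h ∈ F) (h64 : h + 64 ≠ 0) {a b : LaurentSeries k}
    (ha : s59lph3n_N F j h a) (hb : s59lph3n_N F j h b) : s59lph3n_N F j h (a + b) := by
  obtain ⟨haF, hai, a', ha'F, ha'i, ea⟩ := ha
  obtain ⟨hbF, hbi, b', hb'F, hb'i, eb⟩ := hb
  have h64F : h + 64 ∈ F := by
    refine add_mem hh ?_
    have : (64 : LaurentSeries k) = algebraMap k (LaurentSeries k) 64 :=
      (map_ofNat (algebraMap k (LaurentSeries k)) 64).symm
    rw [this]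
    exact F.algebraMap_mem _
  set z : LaurentSeries k := a * b / (h + 64) with hz
  have hzF : z ∈ F := div_mem (mul_mem haF hbF) h64F
  have hz2 : z ^ 2 = a' * b' := by
    rw [hz, div_pow, mul_pow, ea, eb]
    field_simp
  have hzi : IntJ j z := by
    refine s59lph3n_intJ_of_pow (n := 2) (by norm_num) ?_
    rw [hz2]
    exact ha'i.mul hb'i
  have hzab : (h + 64) * z = a * b := by
    rw [hz, mul_div_cancel₀ _ h64]
  refine ⟨add_mem haF hbF, hai.add hbi, a' + b' + 2 * z, ?_, ?_, ?_⟩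
  · refine add_mem (add_mem ha'F hb'F) (mul_mem ?_ hzF)
    have : (2 : LaurentSeries k) = algebraMap k (LaurentSeries k) 2 :=
      (map_ofNat (algebraMap k (LaurentSeries k)) 2).symm
    rw [this]
    exact F.algebraMap_mem _
  · exact (ha'i.add hb'i).add ((intJ_ofNat j 2).mul hzi)
  · linear_combination ea + eb - 2 * hzab

/-- `N_h` is stable under finite sums `Σ cᵢ yᵢ` with `cᵢ ∈ F` integral -/
theorem s59lph3n_sum (hh : h ∈ F) (h64 : h + 64 ≠ 0) {ι : Type*} (s : Finset ι)
    (c y : ι → LaurentSeries k) (hc : ∀ i ∈ s, c i ∈ F ∧ IntJ j (c i))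
    (hy : ∀ i ∈ s, s59lph3n_N F j h (y i)) :
    s59lph3n_N F j h (∑ i ∈ s, c i * y i) := by
  classical
  induction s using Finset.induction_on with
  | empty =>
    rw [Finset.sum_empty]
    exact s59lph3n_zero
  | insert a s ha ih =>
    rw [Finset.sum_insert ha]
    refine s59lph3n_add hh h64 ?_ ?_
    · exact s59lph3n_mul (hc a (Finset.mem_insert_self a s)).1
        (hc a (Finset.mem_insert_self a s)).2 (hy a (Finset.mem_insert_self a s))
    · exact ih (fun i hi => hc i (Finset.mem_insert_of_mem hi))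
        (fun i hi => hy i (Finset.mem_insert_of_mem hi))

/-- the `Fin n` form -/
theorem s59lph3n_sum_fin (hh : h ∈ F) (h64 : h + 64 ≠ 0) {n : ℕ}
    (c y : Fin n → LaurentSeries k) (hc : ∀ i, c i ∈ F ∧ IntJ j (c i))
    (hy : ∀ i, s59lph3n_N F j h (y i)) :
    s59lph3n_N F j h (∑ i, c i * y i) :=
  s59lph3n_sum hh h64 Finset.univ c y (fun i _ => hc i) (fun i _ => hy i)

end Fermat.Agent.S59

end
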