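import Fermat.Agent.ES.I2.Res
import Fermat.Agent.ES.I2.TraceNorm

/-!
# S59, wall M4 (LOWER-P) at `ℓ = 3`, leaf HOL3 / RES (helper10): the residue theorem at `ℓ = 3`

Design: NOTES/S59-M4-HOL3.md (helper42).  `ES.I2.res_main` uses `1728 ≠ 0` only to factor the
trace polynomial `P = Tr_{F̄/k(j)}(w y)` as `X (X − 1728) P₁`.  In characteristic `3`
(`1728 = 0`) one needs `P ∈ X² k[X]`; this is **Lemma W** (`s59lph3res_StmtW`, helper42,
`S59/LowP/Hol3W.lean`) applied to `w y = s² u`, `u ^ M = s b`, `s³ = j (s − 1)`.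

* `s59lph3res_StmtW`       : the statement of Lemma W (abstract, Mathlib only);
* `s59lph3res_sum_eq_trace`: `Σ_i τ_i z = (Tr_{F̄/k(j̄)} z)(Q^N)` for a full family of embeddings;
* `s59lph3res_trace_sq`    : `Σ_i τ_i (w y) = J · (J − C 0) · P₁(J)` from Lemma W;
* `s59lph3res_main`        : **the residue theorem, generic form at `ℓ = 3`**: `a₀(w · fq) = 0`;
* `S59lph3resMFk3 N A`     : the interface with the leaf RD (twin of `ES.I2.StmtMFk`): for a cusp
  form `f` with integral `q`-expansion and `w ∈ W`: `y, s, u, b ∈ F̄` with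
  `y θ(j̄) = f̄ j̄ (j̄ − 1728)`, `s³ = j̄ (s − 1)`, `w y = s² u`, `u ^ 2 = s b`, `u, b` integral over
  `k[j̄]`, `Q`-order of `τ_i y` `> −N`;
* `s59lph3res_stmtRes`     : Lemma W + (TN) + (S2) + (Tau) + (MFk3) ⇒ `ES.I2.StmtRes N A`.
-/

set_option autoImplicit false
set_option linter.style.haveILetI false
set_option linter.unusedSectionVars false
set_option linter.unusedVariables false
set_option synthInstance.maxHeartbeats 400000
set_option maxHeartbeats 1600000

noncomputable section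

namespace Fermat.Agent.S59

open ModularCurve AlgebraicCurve HahnSeries IntermediateField Fermat.Agent.ES Fermat.Agent.S24
  Fermat.Agent.ES.M Fermat.Agent.ES.I2 Fermat.Agent.S28
open Polynomial Fermat.Agent.S28.Deriv

/-- **Lemma W** (statement): `k` of characteristic `3`, `R = k[X]`, `K = Frac R`, `L / K` finite
separable, `s ∈ L` with `s³ = X (s − 1)`, `u, b ∈ L` integral over `R`, `u ^ M = s b`, `0 < M`.
Then `Tr_{L/K}(s² u) ∈ X² R`. -/
def s59lph3res_StmtW : Prop :=
  ∀ (k : Type) [Field k] [CharP k 3] (K L : Type) [Field K] [Field L]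
    [Algebra k[X] K] [IsFractionRing k[X] K] [Algebra K L] [Algebra k[X] L]
    [IsScalarTower k[X] K L] [FiniteDimensional K L] [Algebra.IsSeparable K L]
    (s u b : L) (M : ℕ), 0 < M →
    s ^ 3 = algebraMap k[X] L X * (s - 1) →
    IsIntegral k[X] u → IsIntegral k[X] b → u ^ M = s * b →
    ∃ r : k[X], Algebra.trace K L (s ^ 2 * u) = algebraMap k[X] K (X ^ 2 * r)

section Concrete

variable (k : Type) [Field k] (N : ℕ) [NeZero N]

/-- `Σ_i τ_i z = (Tr_{F̄/k(j̄)} z)(Q^N)` for a full family of embeddings `τ_i` of `F̄_N` which send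
`j̄` to `J = j̄(Q^N)`. -/
theorem s59lph3res_sum_eq_trace (ℓ : ℕ) [Fact ℓ.Prime] [CharP k ℓ] [PerfectRing k ℓ]
    (hN : (N : k) ≠ 0)
    (τ : Fin (dedekindPsi N) → (↥(modularFunctionFieldFullC k N) →ₐ[k] LaurentSeries k))
    (hτ : Function.Injective τ)
    (hj : ∀ i, τ i ⟨jqModC k, jqModC_mem_full k N⟩ = qExpand k N (jqModC k))
    (z : ↥(modularFunctionFieldFullC k N)) :
    haveI := tn_finite k N
    ∑ i, τ i z = qExpand k N
      ((Algebra.trace ↥(k⟮jqModC k⟯) ↥(tnL k N) ⟨z.1, z.2⟩ : ↥(k⟮jqModC k⟯)) :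
        LaurentSeries k) := by
  haveI := tn_finite k N
  haveI := tn_separable k N ℓ
  have hcard : Fintype.card (Fin (dedekindPsi N)) = Module.finrank ↥(k⟮jqModC k⟯) ↥(tnL k N) := by
    rw [Fintype.card_fin, tn_finrank k N hN]
  let φ : ↥(k⟮jqModC k⟯) →+* LaurentSeries k :=
    (qExpand k N).comp (k⟮jqModC k⟯).val.toRingHom
  letI : Algebra ↥(k⟮jqModC k⟯) (LaurentSeries k) := φ.toAlgebra
  let τ' : Fin (dedekindPsi N) → (↥(tnL k N) →+* LaurentSeries k) :=
    fun i => (τ i).toRingHom.comp (tnToFull k N)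
  have hcomp : ∀ i (x : ↥(k⟮jqModC k⟯)), τ' i (algebraMap ↥(k⟮jqModC k⟯) ↥(tnL k N) x) = φ x :=
    fun i x => tn_comp k N (τ i) (hj i) x
  let σ : Fin (dedekindPsi N) → (↥(tnL k N) →ₐ[↥(k⟮jqModC k⟯)] LaurentSeries k) :=
    fun i => { τ' i with commutes' := fun x => hcomp i x }
  have hσ : Function.Injective σ := by
    intro i i' h
    apply hτ
    apply AlgHom.ext
    intro y
    have := congrArg (fun f : ↥(tnL k N) →ₐ[↥(k⟮jqModC k⟯)] LaurentSeries k => f ⟨y.1, y.2⟩) h
    exact this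
  have h1 := trace_eq_sum_of_embeddings hcard σ hσ (⟨z.1, z.2⟩ : ↥(tnL k N))
  exact h1.symm

end Concrete

section Main

variable (k : Type) [Field k] (N : ℕ) [NeZero N]

/-- **the trace of `w y = s² u` lies in `J² k[J]`** (Lemma W on `F̄_N / k(j̄)`) -/
theorem s59lph3res_trace_sq (hW : s59lph3res_StmtW) [Fact (Nat.Prime 3)] [CharP k 3]
    [PerfectRing k 3] (hN : (N : k) ≠ 0)
    (τ : Fin (dedekindPsi N) → (↥(modularFunctionFieldFullC k N) →ₐ[k] LaurentSeries k))
    (hτ : Function.Injective τ)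
    (hj : ∀ i, τ i ⟨jqModC k, jqModC_mem_full k N⟩ = qExpand k N (jqModC k))
    (s u b : ↥(modularFunctionFieldFullC k N)) (M : ℕ) (hM : 0 < M)
    (hs : (s : LaurentSeries k) ^ 3 = jqModC k * ((s : LaurentSeries k) - 1))
    (hu : IntJ (jqModC k) (u : LaurentSeries k)) (hb : IntJ (jqModC k) (b : LaurentSeries k))
    (hub : (u : LaurentSeries k) ^ M = (s : LaurentSeries k) * (b : LaurentSeries k)) :
    ∃ P₁ : k[X], ∑ i, τ i (s ^ 2 * u) =
      qExpand k N (jqModC k) * (qExpand k N (jqModC k) - HahnSeries.C (0 : k)) *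
        aeval (qExpand k N (jqModC k)) P₁ := by
  have htr : Transcendental k (jqModC k) := red_transcendental_jqModC k
  letI algRK : Algebra k[X] ↥(k⟮jqModC k⟯) := polyAlgebraAdjoin (K := k) (jqModC k)
  haveI : IsFractionRing k[X] ↥(k⟮jqModC k⟯) :=
    polyAlgebraAdjoin_isFractionRing (K := k) (jqModC k) htr
  letI algRL : Algebra k[X] ↥(tnL k N) :=
    ((algebraMap ↥(k⟮jqModC k⟯) ↥(tnL k N)).comp (algebraMap k[X] ↥(k⟮jqModC k⟯))).toAlgebra
  haveI : IsScalarTower k[X] ↥(k⟮jqModC k⟯) ↥(tnL k N) :=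
    IsScalarTower.of_algebraMap_eq (fun _ => rfl)
  haveI := tn_finite k N
  haveI := tn_separable k N 3
  have hcoe : ∀ p : k[X], ((algebraMap k[X] ↥(tnL k N) p : ↥(tnL k N)) : LaurentSeries k) =
      Polynomial.aeval (jqModC k) p := by
    intro p
    show ((Polynomial.aeval (AdjoinSimple.gen k (jqModC k)) p : ↥(k⟮jqModC k⟯)) :
      LaurentSeries k) = _
    rw [← IntermediateField.coe_val, ← Polynomial.aeval_algHom_apply]
    simp
  have hint : ∀ z : ↥(modularFunctionFieldFullC k N), IntJ (jqModC k) (z : LaurentSeries k) →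
      IsIntegral k[X] (⟨z.1, z.2⟩ : ↥(tnL k N)) := by
    intro z hz
    obtain ⟨p, hp, hpz⟩ := hz
    refine ⟨p, hp, ?_⟩
    apply Subtype.val_injective
    have h1 := Polynomial.hom_eval₂ p (algebraMap k[X] ↥(tnL k N))
      ((tnL k N).val.toRingHom) (⟨z.1, z.2⟩ : ↥(tnL k N))
    have h2 : ((tnL k N).val.toRingHom).comp (algebraMap k[X] ↥(tnL k N)) =
        (Polynomial.aeval (jqModC k)).toRingHom := RingHom.ext hcoe
    rw [h2] at h1
    exact h1.trans hpz
  have hs' : (⟨s.1, s.2⟩ : ↥(tnL k N)) ^ 3 =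
      algebraMap k[X] ↥(tnL k N) X * ((⟨s.1, s.2⟩ : ↥(tnL k N)) - 1) := by
    apply Subtype.val_injective
    show (s : LaurentSeries k) ^ 3 =
      ((algebraMap k[X] ↥(tnL k N) X : ↥(tnL k N)) : LaurentSeries k) *
        ((s : LaurentSeries k) - 1)
    rw [hcoe, aeval_X]
    exact hs
  have hub' : (⟨u.1, u.2⟩ : ↥(tnL k N)) ^ M =
      (⟨s.1, s.2⟩ : ↥(tnL k N)) * (⟨b.1, b.2⟩ : ↥(tnL k N)) := by
    apply Subtype.val_injective
    show (u : LaurentSeries k) ^ M = (s : LaurentSeries k) * (b : LaurentSeries k)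
    exact hub
  obtain ⟨r, hr⟩ := hW k ↥(k⟮jqModC k⟯) ↥(tnL k N) ⟨s.1, s.2⟩ ⟨u.1, u.2⟩ ⟨b.1, b.2⟩ M hM hs'
    (hint u hu) (hint b hb) hub'
  have hφ : ∀ p : k[X], qExpand k N
      ((algebraMap k[X] ↥(k⟮jqModC k⟯) p : ↥(k⟮jqModC k⟯)) : LaurentSeries k) =
      Polynomial.aeval (qExpand k N (jqModC k)) p := by
    intro p
    show qExpand k N ((Polynomial.aeval (AdjoinSimple.gen k (jqModC k)) p : ↥(k⟮jqModC k⟯)) :
      LaurentSeries k) = _
    rw [← IntermediateField.coe_val, ← Polynomial.aeval_algHom_apply]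
    have : Polynomial.aeval (qExpand k N (jqModC k)) p =
        qExpandAlgHomC k N (Polynomial.aeval (jqModC k) p) := by
      rw [← Polynomial.aeval_algHom_apply]
      rfl
    rw [this]
    simp
  refine ⟨r, ?_⟩
  have h1 := s59lph3res_sum_eq_trace k N 3 hN τ hτ hj (s ^ 2 * u)
  have e1 : (⟨(s ^ 2 * u : ↥(modularFunctionFieldFullC k N)).1,
      (s ^ 2 * u : ↥(modularFunctionFieldFullC k N)).2⟩ : ↥(tnL k N)) =
      (⟨s.1, s.2⟩ : ↥(tnL k N)) ^ 2 * (⟨u.1, u.2⟩ : ↥(tnL k N)) := rfl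
  rw [e1, hr, hφ] at h1
  rw [h1, map_mul, map_pow, aeval_X, map_zero, sub_zero]
  ring

/-- **the residue theorem, generic form at `ℓ = 3`** -/
theorem s59lph3res_main (hW : s59lph3res_StmtW) [Fact (Nat.Prime 3)] [CharP k 3]
    [PerfectRing k 3] (hNk : ((N : ℕ) : k) ≠ 0)
    (τ : Fin (dedekindPsi N) → (↥(modularFunctionFieldFullC k N) →ₐ[k] LaurentSeries k))
    (i₀ : Fin (dedekindPsi N)) (hinj : Function.Injective τ) (hinf : τ i₀ = iotaK k N)
    (hjmap : ∀ i, τ i ⟨jqModC k, jqModC_mem_full k N⟩ = qExpand k N (jqModC k))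
    (w : ↥(modularFunctionFieldFullC k N))
    (hwreg : ∀ i, i ≠ i₀ → ∀ m : ℤ, m < 0 → (τ i w).coeff m = 0)
    (fq : LaurentSeries k) (y : ↥(modularFunctionFieldFullC k N))
    (hrel : (y : LaurentSeries k) * thetaFun (jqModC k) = fq * jqModC k * (jqModC k - 1728))
    (hyord : ∀ i, ∀ m : ℤ, m ≤ -(N : ℤ) → (τ i y).coeff m = 0)
    (s u b : ↥(modularFunctionFieldFullC k N)) (M : ℕ) (hM : 0 < M)
    (hs : (s : LaurentSeries k) ^ 3 = jqModC k * ((s : LaurentSeries k) - 1))
    (hu : IntJ (jqModC k) (u : LaurentSeries k)) (hb : IntJ (jqModC k) (b : LaurentSeries k))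
    (hub : (u : LaurentSeries k) ^ M = (s : LaurentSeries k) * (b : LaurentSeries k))
    (hwy : (w : LaurentSeries k) * (y : LaurentSeries k) =
      (s : LaurentSeries k) ^ 2 * (u : LaurentSeries k)) :
    ((w : LaurentSeries k) * fq).coeff 0 = 0 := by
  classical
  have hJo : (qExpand k N (jqModC k)).order = -(N : ℤ) := res_order_J k N
  have hN0 : 0 < N := Nat.pos_of_ne_zero (NeZero.ne N)
  have h1728 : (1728 : k) = 0 := by
    have h1 : ((1728 : ℕ) : k) = 0 := by
      rw [CharP.cast_eq_zero_iff k 3]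
      norm_num
    exact_mod_cast h1
  have h1728' : (1728 : LaurentSeries k) = HahnSeries.C (0 : k) := by
    rw [map_zero]
    have : (1728 : LaurentSeries k) = HahnSeries.C (1728 : k) := (map_ofNat _ _).symm
    rw [this, h1728, map_zero]
  have hwy' : w * y = s ^ 2 * u := Subtype.ext hwy
  obtain ⟨P₁, hP₁⟩ := s59lph3res_trace_sq k N hW hNk τ hinj hjmap s u b M hM hs hu hb hub
  have key := res_core (k := k) hN0 hJo (0 : k) i₀ (fun i => τ i w) (fun i => τ i y)
    (fun i hi m hm => hwreg i hi m hm)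
    (fun i _ m hm => hyord i m (by omega)) P₁
    (by
      have : ∀ i, τ i w * τ i y = τ i (s ^ 2 * u) := fun i => by
        rw [← map_mul, hwy']
      simp only [this]
      exact hP₁)
    (HahnSeries.C ((N : ℕ) : k) * qExpand k N fq)
    (by
      have h4 : τ i₀ y = qExpand k N (y : LaurentSeries k) := by
        rw [hinf]
        rfl
      have h5 := congrArg (qExpand k N) hrel
      rw [h1728', map_mul, map_mul, map_mul, map_sub, qExpand_C] at h5
      rw [h4, thetaFun_qExpand]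
      calc qExpand k N (y : LaurentSeries k) *
            (HahnSeries.C ((N : ℕ) : k) * qExpand k N (thetaFun (jqModC k)))
          = HahnSeries.C ((N : ℕ) : k) *
            (qExpand k N (y : LaurentSeries k) * qExpand k N (thetaFun (jqModC k))) := by ring
        _ = _ := by
          rw [h5]
          ring)
  have h6 : τ i₀ w = qExpand k N (w : LaurentSeries k) := by
    rw [hinf]
    rfl
  simp only [h6] at key
  have h7 : qExpand k N (w : LaurentSeries k) * (HahnSeries.C ((N : ℕ) : k) * qExpand k N fq) =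
      HahnSeries.C ((N : ℕ) : k) * qExpand k N ((w : LaurentSeries k) * fq) := by
    rw [map_mul]
    ring
  rw [h7, Fermat.Agent.ES.I2aux.res_coeff_C_mul] at key
  have h8 := qExpand_coeff_mul (R := k) (N := N) ((w : LaurentSeries k) * fq) 0
  rw [mul_zero] at h8
  rw [h8] at key
  exact (mul_eq_zero.1 key).resolve_left hNk

end Main

section Glue

/-- **(MFk3)** the interface with the leaf RD: the functions of `ES.I2.StmtMFk` at `ℓ = 3` for an
even level, together with the wild cubic `s` and the factorisation `w y = s² u`, `u² = s b`. -/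
def S59lph3resMFk3 (N : ℕ) [NeZero N] (A : ValuationSubring Kb) : Prop :=
  ∀ (τ : Fin (dedekindPsi N) →
      (↥(modularFunctionFieldFullC (kA A) N) →ₐ[kA A] LaurentSeries (kA A)))
    (i₀ : Fin (dedekindPsi N)), IsTau N A τ i₀ →
    ∀ (w : LaurentSeries (kA A)) (hw : InW N A w)
      (f : CuspForm (CongruenceSubgroup.Gamma0 N) 2) (z : ℕ → ℤ),
      (∀ n, ModularFormClass.qCoeff f n = (z n : ℂ)) →
      ∃ y s u b : ↥(modularFunctionFieldFullC (kA A) N),
        (y : LaurentSeries (kA A)) * Fermat.Agent.S28.Deriv.thetaFun (jqModC (kA A)) =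
            coeffMap (Int.castRingHom (kA A)) (fqZ z) * jqModC (kA A) * (jqModC (kA A) - 1728) ∧
        (∀ i, ∀ m : ℤ, m ≤ -(N : ℤ) → (τ i y).coeff m = 0) ∧
        (s : LaurentSeries (kA A)) ^ 3 = jqModC (kA A) * ((s : LaurentSeries (kA A)) - 1) ∧
        IntJ (jqModC (kA A)) (u : LaurentSeries (kA A)) ∧
        IntJ (jqModC (kA A)) (b : LaurentSeries (kA A)) ∧
        (u : LaurentSeries (kA A)) ^ 2 = (s : LaurentSeries (kA A)) * (b : LaurentSeries (kA A)) ∧
        w * (y : LaurentSeries (kA A)) =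
          (s : LaurentSeries (kA A)) ^ 2 * (u : LaurentSeries (kA A))

/-- **`ES.I2.StmtRes N A` at `ℓ = 3`** from Lemma W, (TN), (S2), (Tau) and (MFk3). -/
theorem s59lph3res_stmtRes (hW : s59lph3res_StmtW) (N : ℕ) [NeZero N] (h3N : ¬ 3 ∣ N)
    (A : ValuationSubring Kb) (hA : A.LiesOverPrime 3)
    (hS2 : StmtS2 N A) (hTau : StmtTau N A) (hMFk3 : S59lph3resMFk3 N A) :
    StmtRes N A := by
  intro w hw f z hz
  have hℓ : Nat.Prime 3 := Nat.prime_three
  haveI : Fact (Nat.Prime 3) := ⟨hℓ⟩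
  haveI : CharP (kA A) 3 := kron_charP_residueField hℓ hA
  haveI : PerfectRing (kA A) 3 := Fermat.Agent.INJ.nf_perfectRing_residueField A 3
  have hNk : ((N : ℕ) : kA A) ≠ 0 := redF_natCast_ne_zero N A 3 hℓ h3N hA
  obtain ⟨τ, i₀, hτ⟩ := hTau
  obtain ⟨y, s, u, b, hrel, hyord, hs, hu, hb, hub, hwy⟩ := hMFk3 τ i₀ hτ w hw f z hz
  obtain ⟨hS2a, hS2b⟩ := hS2
  exact s59lph3res_main (kA A) N hW hNk τ i₀ hτ.inj hτ.infty hτ.jmap ⟨w, hw.1⟩
    (hS2b τ i₀ hτ w hw) _ y hrel hyord s u b 2 (by norm_num) hs hu hb hub hwy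

end Glue

end Fermat.Agent.S59

end
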