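/-
S59, wall M4 (LOWER-P), leaf HOL3 (helper30): THE RESIDUE THEOREM FOR `dlog r` AT `ℓ = 3`, EVEN
LEVEL, ON THE HAUPTMODUL LINE OF `X₀(2)` — and the leaf HOL3-SPAN.

`StmtHolRes N A 3` (`a₀ (w · dlog r) = 0` for `w ∈ W`) for `2 ∣ N`, `3 ∤ N`, `A` over `3`:
clone of `R38.stmtHolResGlue` ((DED) + (B1) give the `j`-line function `y` of `dlog r`) with the
ending of `ES.I2aux.auxRes_main` (the residue theorem on the `h`-line: `hres_main`, `stmtLink`,
`stmtSumAll`) in place of `ES.I2.res_main` (which needs `1728 ≠ 0`).  The `h`-line function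
`yh = Σ cᵢ Yh(dᵢ)` of `dlog r` comes from (B1)_h (`S59/LowP/Hol3B1h.lean`) and the ideal `𝔑_h`.

* `S59lph3hNh N e y` : `y ∈ 𝔑_h = {y ∈ B̄ : y² ∈ e B̄}`;  `s59lph3h_nh_add/_smul/_sum`: an ideal;
* `s59lph3h_res`      : **`StmtHolRes N A 3`**;
* `s59lph3h_span`     : **`StmtHolSpan N A 3`**  (with `s59lph3l_span_of_res`);
* `s59lph3h_spanThree`: the leaf HOL3-SPAN of `S59lpwLeaves3`.
-/
import Fermat.Agent.S59.LowP.Hol3Lift
import Fermat.Agent.S59.LowP.Hol3B1h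
import Fermat.Agent.ES.I2aux.Glue
import Fermat.Agent.R38.HolRes
import Fermat.Agent.R38.HolPieces
import Fermat.Agent.R38.HolDedMain

set_option autoImplicit false
set_option linter.unusedSectionVars false
set_option linter.unusedVariables false
set_option linter.style.haveILetI false
set_option linter.style.longLine false
set_option synthInstance.maxHeartbeats 400000
set_option maxHeartbeats 1600000

noncomputable section

namespace Fermat.Agent.R38

open ModularCurve AlgebraicCurve HahnSeries Fermat.Agent.ES Fermat.Agent.S24 Fermat.Agent.ES.M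
open Fermat.Agent.ES.I2 Fermat.Agent.INJ Fermat.Agent.S28.Deriv Fermat.Agent.ES.I2aux

/-! ### the ideal `𝔑_h` -/

section Nh

variable {k : Type} [Field k] (N : ℕ) [NeZero N]

/-- integrality of a square root -/
theorem s59lph3h_intJ_of_sq {x z : LaurentSeries k} (h : IntJ x (z ^ 2)) : IntJ x z := by
  let _ : Algebra (Polynomial k) (LaurentSeries k) :=
    (Polynomial.aeval x).toRingHom.toAlgebra
  exact IsIntegral.of_pow (n := 2) (by norm_num) h

omit [NeZero N] in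
theorem s59lph3h_holInt_add {a b : LaurentSeries k} (ha : HolInt k N a) (hb : HolInt k N b) :
    HolInt k N (a + b) :=
  ⟨add_mem ha.1 hb.1, ha.2.add hb.2⟩

omit [NeZero N] in
theorem s59lph3h_holInt_mul {a b : LaurentSeries k} (ha : HolInt k N a) (hb : HolInt k N b) :
    HolInt k N (a * b) :=
  ⟨mul_mem ha.1 hb.1, ha.2.mul hb.2⟩

/-- `y ∈ 𝔑_h`: `y ∈ B̄` and `y² ∈ e B̄`. -/
def S59lph3hNh (e y : LaurentSeries k) : Prop :=
  HolInt k N y ∧ ∃ y', HolInt k N y' ∧ y ^ 2 = e * y'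

omit [NeZero N] in
theorem s59lph3h_nh_zero (e : LaurentSeries k) : S59lph3hNh N e 0 :=
  ⟨r38hres_holInt_zero, 0, r38hres_holInt_zero, by ring⟩

omit [NeZero N] in
theorem s59lph3h_nh_add {e : LaurentSeries k} (he : e ∈ modularFunctionFieldFullC k N)
    (he0 : e ≠ 0) {a b : LaurentSeries k} (ha : S59lph3hNh N e a) (hb : S59lph3hNh N e b) :
    S59lph3hNh N e (a + b) := by
  obtain ⟨haI, a', ha', ea⟩ := ha
  obtain ⟨hbI, b', hb', eb⟩ := hb
  have hzF : a * b * e⁻¹ ∈ modularFunctionFieldFullC k N :=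
    mul_mem (mul_mem haI.1 hbI.1) (inv_mem he)
  have hz2 : (a * b * e⁻¹) ^ 2 = a' * b' := by
    have h1 : (a * b * e⁻¹) ^ 2 = a ^ 2 * b ^ 2 * (e⁻¹) ^ 2 := by ring
    rw [h1, ea, eb]
    field_simp
  have hzI : IntJ (jqModC k) (a * b * e⁻¹) :=
    s59lph3h_intJ_of_sq (by rw [hz2]; exact ha'.2.mul hb'.2)
  have hab : a * b = e * (a * b * e⁻¹) := by field_simp
  have hz : HolInt k N (a * b * e⁻¹) := ⟨hzF, hzI⟩
  refine ⟨s59lph3h_holInt_add N haI hbI, a' + b' + (a * b * e⁻¹ + a * b * e⁻¹),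
    s59lph3h_holInt_add N (s59lph3h_holInt_add N ha' hb') (s59lph3h_holInt_add N hz hz), ?_⟩
  have h1 : (a + b) ^ 2 = a ^ 2 + b ^ 2 + (a * b + a * b) := by ring
  rw [h1, ea, eb]
  nth_rewrite 1 [hab]
  nth_rewrite 2 [hab]
  ring

omit [NeZero N] in
theorem s59lph3h_nh_smul {e c y : LaurentSeries k} (hc : HolInt k N c)
    (hy : S59lph3hNh N e y) : S59lph3hNh N e (c * y) := by
  obtain ⟨hyI, y', hy', ey⟩ := hy
  exact ⟨s59lph3h_holInt_mul N hc hyI, c ^ 2 * y',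
    s59lph3h_holInt_mul N (by rw [pow_two]; exact s59lph3h_holInt_mul N hc hc) hy',
    by rw [mul_pow, ey]; ring⟩

omit [NeZero N] in
/-- finite `B̄`-linear combinations of elements of `𝔑_h` lie in `𝔑_h` -/
theorem s59lph3h_nh_sum {e : LaurentSeries k} (he : e ∈ modularFunctionFieldFullC k N)
    (he0 : e ≠ 0) {ι : Type*} (s : Finset ι) (c y : ι → LaurentSeries k)
    (hc : ∀ i ∈ s, HolInt k N (c i)) (hy : ∀ i ∈ s, S59lph3hNh N e (y i)) :
    S59lph3hNh N e (∑ i ∈ s, c i * y i) := by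
  classical
  induction s using Finset.induction_on with
  | empty =>
    rw [Finset.sum_empty]
    exact s59lph3h_nh_zero N e
  | insert a s ha ih =>
    rw [Finset.sum_insert ha]
    exact s59lph3h_nh_add N he he0
      (s59lph3h_nh_smul N (hc a (Finset.mem_insert_self a s))
        (hy a (Finset.mem_insert_self a s)))
      (ih (fun i hi => hc i (Finset.mem_insert_of_mem hi))
        (fun i hi => hy i (Finset.mem_insert_of_mem hi)))

end Nh

/-! ### the residue theorem for `dlog r` -/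

theorem s59lph3h_sub (k : Type) [Field k] :
    auxHK k 2 - HahnSeries.C (((auxC 2 : ℤ)) : k) = hm2 k + 64 := by
  rw [auxHK_two, auxC_two]
  push_cast
  rw [map_neg, map_ofNat, sub_neg_eq_add]

/-- **(RES) for `dlog r` at `ℓ = 3`, even level.** -/
theorem s59lph3h_res (N : ℕ) [NeZero N] (h2 : 2 ∣ N) (h3 : ¬ 3 ∣ N)
    (A : ValuationSubring Kb) (hA : A.LiesOverPrime 3) : StmtHolRes N A 3 := by
  intro r hr0 hdiv w hw
  classical
  have hℓ : Nat.Prime 3 := Nat.prime_three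
  have hlt : 3 < 5 := by norm_num
  have hdiv2 : (5 - 3) ∣ N := h2
  haveI : Fact (Nat.Prime 3) := ⟨hℓ⟩
  haveI : CharP (kA A) 3 := kron_charP_residueField hℓ hA
  haveI : PerfectRing (kA A) 3 := Fermat.Agent.INJ.nf_perfectRing_residueField A 3
  have hNk : ((N : ℕ) : kA A) ≠ 0 := redF_natCast_ne_zero N A 3 hℓ h3 hA
  obtain ⟨hr, hdivQ⟩ := hdiv
  have hR0 : (⟨r, hr⟩ : ↥(modularFunctionFieldFullC (kA A) N)) ≠ 0 := fun h =>
    hr0 (congrArg Subtype.val h)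
  -- (DED)
  obtain ⟨n, c, d, hc, hd, hθ⟩ :=
    r38hded_stmtHolDed (kA A) 3 N hNk ⟨r, hr⟩ hR0 (fun Q _ => hdivQ Q)
  have hdlog : r38dlog r = ∑ i, c i * thetaFun (d i) := by
    have h1 : (r : LaurentSeries (kA A)) * ∑ i, c i * thetaFun (d i) = thetaFun r := hθ.symm
    rw [r38dlog, ← h1, mul_comm r, mul_assoc, mul_inv_cancel₀ hr0, mul_one]
  -- the `j`-line: (B1)
  have hLift := s59lph3l_lift N 3 A hℓ hlt h3 hdiv2 hA
  have hB1 := s59lph3l_b1 N 3 A hℓ hlt h3 hdiv2 hA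
  choose yy hyN hyrel using fun i => hB1 (d i) (hd i)
  have hyF : (∑ i, c i * yy i) ∈ modularFunctionFieldFullC (kA A) N :=
    sum_mem (fun i _ => mul_mem (hc i).1 (hyN i).1.1)
  have hrel : (∑ i, c i * yy i) * thetaFun (jqModC (kA A)) =
      r38dlog r * jqModC (kA A) * (jqModC (kA A) - 1728) := by
    rw [hdlog, Finset.sum_mul, Finset.sum_mul, Finset.sum_mul]
    refine Finset.sum_congr rfl fun i _ => ?_
    rw [mul_assoc, hyrel i]
    ring
  obtain ⟨τ, i₀, hτ⟩ := stmtTauAll N 3 hℓ h3 A hA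
  have hyord : ∀ i, ∀ m : ℤ, m ≤ -(N : ℤ) →
      (τ i (⟨∑ i, c i * yy i, hyF⟩ : ↥(modularFunctionFieldFullC (kA A) N))).coeff m = 0 := by
    intro i m hm
    have hjτ : τ i (holJ (kA A) N) = qExpand (kA A) N (jqModC (kA A)) := hτ.jmap i
    have hord : ((3 : ℕ) : ℤ) ∣ (τ i ⟨r, hr⟩).order :=
      stmtHolOrd (kA A) 3 N hNk (τ i) hjτ ⟨r, hr⟩ hR0 hdivQ
    refine stmtHolCusp (kA A) 3 N hNk (τ i) hjτ ⟨r, hr⟩ ⟨_, hyF⟩ hR0 hord ?_ m hm
    show (∑ i, c i * yy i) * thetaFun (jqModC (kA A)) * r =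
      thetaFun r * jqModC (kA A) * (jqModC (kA A) - 1728)
    rw [hrel, r38dlog]
    have : thetaFun r * r⁻¹ * jqModC (kA A) * (jqModC (kA A) - 1728) * r =
        thetaFun r * jqModC (kA A) * (jqModC (kA A) - 1728) * (r⁻¹ * r) := by ring
    rw [this, inv_mul_cancel₀ hr0, mul_one]
  -- the `h`-line: (B1)_h
  have hh : IsAuxLine (kA A) N (auxHK (kA A) 2) := stmtAuxLine (kA A) 3 N hNk hlt hdiv2
  have hsub := s59lph3h_sub (kA A)
  have he : hm2 (kA A) + 64 ∈ modularFunctionFieldFullC (kA A) N := by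
    rw [← hsub]
    exact sub_mem hh.mem (hahnC_mem_intermediateField _ _)
  have hNh : ∀ i, S59lph3hNh N (hm2 (kA A) + 64) (s59lph3bYh (d i)) := fun i =>
    ⟨(s59lph3b_b1h N h2 3 hℓ h3 A hA hLift (d i) (hd i)).1, s59lph3bYh' (d i),
      (s59lph3b_b1h N h2 3 hℓ h3 A hA hLift (d i) (hd i)).2, (s59lph3b_rel (d i)).2.1⟩
  obtain ⟨⟨hyhF, hyhI⟩, yh', ⟨hyh'F, hyh'I⟩, hpow⟩ :=
    s59lph3h_nh_sum N he s59lph3b_h64_ne_zero Finset.univ c (fun i => s59lph3bYh (d i))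
      (fun i _ => hc i) (fun i _ => hNh i)
  have hhrel : (∑ i, c i * s59lph3bYh (d i)) * thetaFun (auxHK (kA A) 2) =
      r38dlog r * (auxHK (kA A) 2 - HahnSeries.C (((auxC 2 : ℤ)) : kA A)) := by
    rw [hsub, auxHK_two, hdlog, Finset.sum_mul, Finset.sum_mul]
    refine Finset.sum_congr rfl fun i _ => ?_
    rw [mul_assoc, (s59lph3b_rel (d i)).1]
    ring
  have hpow' : (∑ i, c i * s59lph3bYh (d i)) ^ 2 =
      (auxHK (kA A) 2 - HahnSeries.C (((auxC 2 : ℤ)) : kA A)) * yh' := by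
    rw [hsub]
    exact hpow
  -- the residue theorem on the `h`-line
  obtain ⟨hS2a, -⟩ := stmtS2All N 3 hℓ h3 A hA
  have hwI : IntJ (jqModC (kA A)) w := hS2a w hw
  let wF : ↥(modularFunctionFieldFullC (kA A) N) := ⟨w, hw.1⟩
  let y : ↥(modularFunctionFieldFullC (kA A) N) := ⟨∑ i, c i * yy i, hyF⟩
  let yh : ↥(modularFunctionFieldFullC (kA A) N) := ⟨∑ i, c i * s59lph3bYh (d i), hyhF⟩
  let yhp : ↥(modularFunctionFieldFullC (kA A) N) := ⟨yh', hyh'F⟩
  have key := hres_main (kA A) 3 N hNk stmtPT stmtScale stmtTN τ hτ.inj hτ.jmap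
    (auxHK (kA A) 2) hh (((auxC 2 : ℤ)) : kA A) 2 (by norm_num) (wF * yh)
    (wF ^ 2 * yhp) (hwI.mul hyhI) ((hwI.pow _).mul hyh'I) (by
      show (w * (∑ i, c i * s59lph3bYh (d i))) ^ 2 = _ * (w ^ 2 * yh')
      rw [mul_pow, hpow']
      ring)
  have hsummand : ∀ i, τ i (wF * yh) / (τ i ⟨auxHK (kA A) 2, hh.mem⟩ -
      HahnSeries.C (((auxC 2 : ℤ)) : kA A)) *
        thetaFun (τ i ⟨auxHK (kA A) 2, hh.mem⟩) =
      τ i wF * τ i y * (thetaFun (qExpand (kA A) N (jqModC (kA A))) /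
        (qExpand (kA A) N (jqModC (kA A)) * (qExpand (kA A) N (jqModC (kA A)) - 1728))) := by
    intro i
    have h1 := stmtLink (kA A) N (τ i) (hτ.jmap i) (auxHK (kA A) 2) hh
      (((auxC 2 : ℤ)) : kA A) (r38dlog r) y yh hrel hhrel
    rw [map_mul, mul_div_assoc, mul_assoc, h1, mul_assoc]
  rw [Finset.sum_congr rfl (fun i _ => hsummand i), HahnSeries.coeff_sum] at key
  obtain ⟨hs1, hs2⟩ := stmtSumAll N 3 hℓ h3 A hA τ i₀ hτ w hw (r38dlog r) y hrel hyord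
  rw [Finset.sum_eq_single i₀ (fun i _ hi => hs1 i hi)
    (fun h => absurd (Finset.mem_univ i₀) h), hs2] at key
  exact (mul_eq_zero.1 key).resolve_left hNk

/-- **(HOL-SPAN) at `ℓ = 3`, even level.** -/
theorem s59lph3h_span (N : ℕ) [NeZero N] (h2 : 2 ∣ N) (h3 : ¬ 3 ∣ N)
    (A : ValuationSubring Kb) (hA : A.LiesOverPrime 3) : StmtHolSpan N A 3 :=
  s59lph3l_span_of_res N 3 A Nat.prime_three (by norm_num) h3 h2 hA (s59lph3h_res N h2 h3 A hA)

/-- **leaf HOL3-SPAN** of `S59lpwLeaves3`. -/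
theorem s59lph3h_spanThree (M : ℕ) [NeZero M] (h2 : 2 ∣ M) (h3 : ¬ 3 ∣ M) :
    ∀ A : ValuationSubring Kb, A.LiesOverPrime 3 → StmtHolSpan M A 3 :=
  fun A hA => s59lph3h_span M h2 h3 A hA

end Fermat.Agent.R38

end
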