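/-
S59, wall M4 (LOWER-P), leaf HOL3, piece W (helper42): the WILD TRACE lemma in characteristic 3.

Design: NOTES/S59-M4-HOL3.md.  Mathlib only.

`k` a field with `3 = 0`, `R = k[X]`, `K = Frac R`, `j = X`, `L / K` finite separable, `s ∈ L` with
`s ^ 3 = j (s - 1)` (in the application `s = (t + 1) / t`, `t` the Hauptmodul of level `2`, so that
`K(s) / K` is the totally wildly ramified cubic over `j = 0`), `u, b ∈ L` integral over `R` with
`u ^ M = s b`.  Then `Tr_{L/K} (s ^ 2 u) ∈ j ^ 2 R`.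
-/
import Mathlib

set_option autoImplicit false
set_option linter.unusedSectionVars false
set_option linter.unusedVariables false
set_option linter.style.longLine false

noncomputable section

namespace Fermat.Agent.S59

open Polynomial

/-- **radical trace**: if `z ^ M = c b` with `c` in the base field and `z, b, c` integral over `A`,
then a power of `Tr z` is `c d` with `d` integral over `A`. -/
theorem s59lph3w_nt {A F E : Type*} [CommRing A] [Field F] [Field E] [Algebra A F] [Algebra F E]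
    [Algebra A E] [IsScalarTower A F E] [FiniteDimensional F E] [Algebra.IsSeparable F E]
    (c : F) (hc : IsIntegral A c) (z b : E) (hz : IsIntegral A z) (hb : IsIntegral A b)
    (M : ℕ) (hzb : z ^ M = algebraMap F E c * b) :
    ∃ (m : ℕ) (d : F), 0 < m ∧ IsIntegral A d ∧ Algebra.trace F E z ^ m = c * d := by
  classical
  by_cases hc0 : c = 0
  · have hz0 : z = 0 := by
      rw [hc0, map_zero, zero_mul] at hzb
      exact eq_zero_of_pow_eq_zero hzb
    exact ⟨1, 0, one_pos, isIntegral_zero, by rw [hz0, map_zero, hc0, pow_one, zero_mul]⟩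
  let Ω := AlgebraicClosure E
  have htr : algebraMap F Ω (Algebra.trace F E z) = ∑ σ : E →ₐ[F] Ω, σ z :=
    trace_eq_sum_embeddings Ω
  let B := integralClosure A Ω
  have hσz : ∀ σ : E →ₐ[F] Ω, σ z ∈ B := fun σ => hz.map (σ.restrictScalars A)
  have hσb : ∀ σ : E →ₐ[F] Ω, σ b ∈ B := fun σ => hb.map (σ.restrictScalars A)
  have hcB : algebraMap F Ω c ∈ B := hc.map (IsScalarTower.toAlgHom A F Ω)
  let I : Ideal B := Ideal.span {(⟨algebraMap F Ω c, hcB⟩ : B)}
  have hrad : ∀ σ : E →ₐ[F] Ω, (⟨σ z, hσz σ⟩ : B) ∈ I.radical := by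
    intro σ
    refine ⟨M, ?_⟩
    rw [Ideal.mem_span_singleton']
    refine ⟨⟨σ b, hσb σ⟩, ?_⟩
    apply Subtype.ext
    show σ b * algebraMap F Ω c = (σ z) ^ M
    rw [← map_pow, hzb, map_mul, AlgHom.commutes, mul_comm]
  have hsum : (∑ σ : E →ₐ[F] Ω, (⟨σ z, hσz σ⟩ : B)) ∈ I.radical :=
    Ideal.sum_mem _ fun σ _ => hrad σ
  obtain ⟨n, hn⟩ := hsum
  rw [Ideal.mem_span_singleton'] at hn
  obtain ⟨d', hd'⟩ := hn
  have hval : ((∑ σ : E →ₐ[F] Ω, (⟨σ z, hσz σ⟩ : B) : B) : Ω) = ∑ σ : E →ₐ[F] Ω, σ z := by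
    rw [← Subalgebra.coe_val, map_sum]
    rfl
  have hd'' : (d' : Ω) * algebraMap F Ω c = (algebraMap F Ω (Algebra.trace F E z)) ^ n := by
    have := congrArg (fun x : B => (x : Ω)) hd'
    simp only [Subalgebra.coe_mul, Subalgebra.coe_pow] at this
    rw [this, hval, htr]
  refine ⟨n + 1, Algebra.trace F E z ^ (n + 1) / c, Nat.succ_pos _, ?_, ?_⟩
  · rw [← isIntegral_algebraMap_iff (algebraMap F Ω).injective (R := A)]
    have h1 : algebraMap F Ω (Algebra.trace F E z ^ (n + 1) / c) =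
        (d' : Ω) * algebraMap F Ω (Algebra.trace F E z) := by
      rw [map_div₀, map_pow, pow_succ, ← hd'']
      have hc' : algebraMap F Ω c ≠ 0 := (_root_.map_ne_zero _).2 hc0
      rw [div_eq_iff hc']
      ring
    rw [h1]
    exact IsIntegral.mul d'.2 ((Algebra.isIntegral_trace (R := A) (L := F) hz).map
      (IsScalarTower.toAlgHom A F Ω))
  · field_simp

/-! ### The Eisenstein cubic `X ^ 3 - j X + j` over `R = k[X]`, `j = X` -/

section Poly

variable (k : Type*) [Field k]

/-- the cubic `T ^ 3 - j T + j` over `k[j]` -/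
def s59lph3wPoly : (k[X])[X] := X ^ 3 + (C (X : k[X]) - C (X : k[X]) * X)

theorem s59lph3wPoly_deg_lt : (C (X : k[X]) - C (X : k[X]) * X : (k[X])[X]).degree < (3 : ℕ) := by
  refine lt_of_le_of_lt (degree_sub_le _ _) ?_
  refine max_lt (lt_of_le_of_lt degree_C_le (by norm_num)) ?_
  refine lt_of_le_of_lt (degree_C_mul_X_le _) (by norm_num)

theorem s59lph3wPoly_monic : (s59lph3wPoly k).Monic :=
  monic_X_pow_add (s59lph3wPoly_deg_lt k)

theorem s59lph3wPoly_natDegree : (s59lph3wPoly k).natDegree = 3 := by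
  unfold s59lph3wPoly
  rw [natDegree_add_eq_left_of_degree_lt, natDegree_X_pow]
  rw [degree_X_pow]
  exact s59lph3wPoly_deg_lt k

theorem s59lph3wPoly_coeff_zero : (s59lph3wPoly k).coeff 0 = (X : k[X]) := by
  simp [s59lph3wPoly, coeff_X_pow, coeff_C]

theorem s59lph3wPoly_coeff_one : (s59lph3wPoly k).coeff 1 = -(X : k[X]) := by
  simp [s59lph3wPoly, coeff_X_pow, coeff_C]

theorem s59lph3wPoly_coeff_two : (s59lph3wPoly k).coeff 2 = 0 := by
  simp [s59lph3wPoly, coeff_X_pow]

theorem s59lph3wPoly_eisenstein :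
    (s59lph3wPoly k).IsEisensteinAt (Submodule.span k[X] {(X : k[X])}) := by
  refine ⟨?_, ?_, ?_⟩
  · rw [(s59lph3wPoly_monic k).leadingCoeff]
    intro h
    have h1 : (X : k[X]) ∣ 1 := Ideal.mem_span_singleton.1 h
    exact Polynomial.not_isUnit_X (isUnit_of_dvd_one h1)
  · intro n hn
    rw [s59lph3wPoly_natDegree] at hn
    have hcases : n = 0 ∨ n = 1 ∨ n = 2 := by omega
    rcases hcases with rfl | rfl | rfl
    · rw [s59lph3wPoly_coeff_zero]
      exact Ideal.subset_span rfl
    · rw [s59lph3wPoly_coeff_one]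
      exact neg_mem (Ideal.subset_span rfl)
    · rw [s59lph3wPoly_coeff_two]
      exact zero_mem _
  · rw [s59lph3wPoly_coeff_zero]
    intro h
    have h2 : (Ideal.span {(X : k[X])} : Ideal k[X]) ^ 2 = Ideal.span {(X : k[X]) ^ 2} :=
      Ideal.span_singleton_pow _ _
    have h3 : (X : k[X]) ∈ Ideal.span {(X : k[X]) ^ 2} := h2 ▸ h
    rw [Ideal.mem_span_singleton] at h3
    obtain ⟨c, hc⟩ := h3
    have h4 := congrArg Polynomial.natDegree hc
    by_cases hc0 : c = 0
    · rw [hc0, mul_zero] at hc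
      exact X_ne_zero hc
    · rw [natDegree_X, natDegree_mul (pow_ne_zero 2 X_ne_zero) hc0, natDegree_X_pow] at h4
      omega

theorem s59lph3wPoly_irreducible : Irreducible (s59lph3wPoly k) :=
  (s59lph3wPoly_eisenstein k).irreducible
    ((Ideal.span_singleton_prime X_ne_zero).2 Polynomial.prime_X)
    (s59lph3wPoly_monic k).isPrimitive (by rw [s59lph3wPoly_natDegree]; norm_num)

theorem s59lph3wPoly_aeval {S : Type*} [CommRing S] [Algebra k[X] S] (g : S) :
    aeval g (s59lph3wPoly k) = g ^ 3 - algebraMap k[X] S X * (g - 1) := by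
  simp only [s59lph3wPoly, map_add, map_sub, map_mul, map_pow, aeval_X, aeval_C]
  ring

theorem s59lph3wPoly_derivative (h3 : (3 : k) = 0) :
    derivative (s59lph3wPoly k) = -C (X : k[X]) := by
  have h3a : (3 : k[X]) = 0 := by
    rw [← map_ofNat (C : k →+* k[X]) 3, h3, map_zero]
  simp only [s59lph3wPoly, derivative_add, derivative_sub, derivative_mul, derivative_C,
    derivative_X_pow, derivative_X, zero_mul, mul_one, zero_add, zero_sub]
  have : (C ((3 : ℕ) : k[X]) : (k[X])[X]) = 0 := by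
    have h : ((3 : ℕ) : k[X]) = 0 := by exact_mod_cast h3a
    rw [h, map_zero]
  rw [this, zero_mul, zero_add]

end Poly

/-! ### The cubic extension `K₁ = K(g)`, `g ^ 3 = j (g - 1)` -/

section Cubic

variable {k : Type*} [Field k] {K K₁ : Type*} [Field K] [Field K₁]
  [Algebra k[X] K] [IsFractionRing k[X] K] [Algebra K K₁] [Algebra k[X] K₁]
  [IsScalarTower k[X] K K₁] [FiniteDimensional K K₁] [Algebra.IsSeparable K K₁]

theorem s59lph3w_gen_isIntegral (g : K₁) (hg : g ^ 3 = algebraMap k[X] K₁ X * (g - 1)) :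
    IsIntegral k[X] g :=
  ⟨s59lph3wPoly k, s59lph3wPoly_monic k, by
    show aeval g (s59lph3wPoly k) = 0
    rw [s59lph3wPoly_aeval, hg, sub_self]⟩

omit [FiniteDimensional K K₁] [Algebra.IsSeparable K K₁] in
theorem s59lph3w_minpoly (K : Type*) [Field K] [Algebra k[X] K] [IsFractionRing k[X] K]
    [Algebra K K₁] [IsScalarTower k[X] K K₁]
    (g : K₁) (hg : g ^ 3 = algebraMap k[X] K₁ X * (g - 1)) :
    minpoly k[X] g = s59lph3wPoly k := by
  have hgi := s59lph3w_gen_isIntegral g hg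
  have h1 : minpoly K g = (minpoly k[X] g).map (algebraMap k[X] K) :=
    minpoly.isIntegrallyClosed_eq_field_fractions' K hgi
  have hirr : Irreducible ((s59lph3wPoly k).map (algebraMap k[X] K)) :=
    ((s59lph3wPoly_monic k).irreducible_iff_irreducible_map_fraction_map (K := K)).1
      (s59lph3wPoly_irreducible k)
  have h2 : (s59lph3wPoly k).map (algebraMap k[X] K) = minpoly K g := by
    refine minpoly.eq_of_irreducible_of_monic hirr ?_ ((s59lph3wPoly_monic k).map _)
    rw [aeval_map_algebraMap, s59lph3wPoly_aeval, hg, sub_self]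
  rw [h1] at h2
  exact (Polynomial.map_injective _ (IsFractionRing.injective k[X] K) h2).symm

theorem s59lph3w_three_K (K : Type*) [Field K] [Algebra k[X] K] (h3 : (3 : k) = 0) :
    (3 : K) = 0 := by
  have h3a : (3 : k[X]) = 0 := by
    rw [← map_ofNat (C : k →+* k[X]) 3, h3, map_zero]
  rw [← map_ofNat (algebraMap k[X] K) 3, h3a, map_zero]

variable (pb : PowerBasis K K₁)

theorem s59lph3w_finrank (hg : pb.gen ^ 3 = algebraMap k[X] K₁ X * (pb.gen - 1)) :
    Module.finrank K K₁ = 3 := by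
  have hgi := s59lph3w_gen_isIntegral pb.gen hg
  rw [pb.finrank, ← pb.natDegree_minpoly,
    minpoly.isIntegrallyClosed_eq_field_fractions' K hgi, s59lph3w_minpoly K pb.gen hg,
    (s59lph3wPoly_monic k).natDegree_map, s59lph3wPoly_natDegree]

/-- **monogenic**: the integral closure of `k[j]` in `K₁` is `k[j][g]` -/
theorem s59lph3w_mem_adjoin (h3 : (3 : k) = 0)
    (hg : pb.gen ^ 3 = algebraMap k[X] K₁ X * (pb.gen - 1)) (x : K₁) (hx : IsIntegral k[X] x) :
    x ∈ Algebra.adjoin k[X] ({pb.gen} : Set K₁) := by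
  have hgi := s59lph3w_gen_isIntegral pb.gen hg
  have hmin := s59lph3w_minpoly K pb.gen hg
  have hfr := s59lph3w_finrank pb hg
  have hd := Algebra.discr_mul_isIntegral_mem_adjoin (K := K) hgi hx
  have hder : aeval pb.gen (derivative (minpoly K pb.gen)) =
      algebraMap K K₁ (-(algebraMap k[X] K X)) := by
    rw [minpoly.isIntegrallyClosed_eq_field_fractions' K hgi, hmin, derivative_map,
      s59lph3wPoly_derivative k h3, Polynomial.map_neg, map_C, map_neg, aeval_C, map_neg]
  have hdisc : Algebra.discr K pb.basis =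
      (-1) ^ (Module.finrank K K₁ * (Module.finrank K K₁ - 1) / 2) *
        (-(algebraMap k[X] K X)) ^ 3 := by
    rw [Algebra.discr_powerBasis_eq_norm, hder, Algebra.norm_algebraMap, hfr]
  rw [hfr] at hdisc
  have hdisc' : Algebra.discr K pb.basis = algebraMap k[X] K (X ^ 3) := by
    rw [hdisc, map_pow]
    norm_num
    ring
  rw [hdisc', algebraMap_smul] at hd
  refine mem_adjoin_of_smul_prime_pow_smul_of_minpoly_isEisensteinAt (K := K)
    (p := (X : k[X])) (n := 3) Polynomial.prime_X hgi hx hd ?_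
  rw [hmin]
  exact s59lph3wPoly_eisenstein k

end Cubic

/-! ### The core computation -/

section Core

theorem s59lph3w_isIntegral_aeval {R S : Type*} [CommRing R] [CommRing S] [Algebra R S] {g : S}
    (hg : IsIntegral R g) (p : R[X]) : IsIntegral R (aeval g p) := by
  rw [aeval_eq_sum_range]
  exact IsIntegral.sum _ fun i _ => (hg.pow i).smul _

variable {k : Type*} [Field k] {K K₁ : Type*} [Field K] [Field K₁]
  [Algebra k[X] K] [IsFractionRing k[X] K] [Algebra K K₁] [Algebra k[X] K₁]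
  [IsScalarTower k[X] K K₁] [FiniteDimensional K K₁] [Algebra.IsSeparable K K₁]
  (pb : PowerBasis K K₁)

/-- **wildness**: the trace of every element of `k[j][g]` lies in `j k[j]`. -/
theorem s59lph3w_trace_adjoin (h3 : (3 : k) = 0)
    (hg : pb.gen ^ 3 = algebraMap k[X] K₁ X * (pb.gen - 1)) (P : (k[X])[X]) :
    ∃ r : k[X], Algebra.trace K K₁ (aeval pb.gen P) = algebraMap k[X] K (X * r) := by
  have hgi := s59lph3w_gen_isIntegral pb.gen hg
  have hP : aeval pb.gen P =
      pb.gen * aeval pb.gen (divX P) + algebraMap k[X] K₁ (P.coeff 0) := by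
    conv_lhs => rw [← X_mul_divX_add P]
    rw [map_add, map_mul, aeval_X, aeval_C]
  have hwi : IsIntegral k[X] (aeval pb.gen (divX P)) := s59lph3w_isIntegral_aeval hgi _
  have hzi : IsIntegral k[X] (pb.gen * aeval pb.gen (divX P)) := hgi.mul hwi
  have hconst : Algebra.trace K K₁ (algebraMap k[X] K₁ (P.coeff 0)) = 0 := by
    rw [IsScalarTower.algebraMap_apply k[X] K K₁, Algebra.trace_algebraMap,
      s59lph3w_finrank pb hg, nsmul_eq_mul]
    push_cast
    rw [s59lph3w_three_K K h3, zero_mul]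
  obtain ⟨m, d, hm, hd, hmd⟩ := s59lph3w_nt (A := k[X]) (F := K) (E := K₁)
    (algebraMap k[X] K X) isIntegral_algebraMap (pb.gen * aeval pb.gen (divX P))
    ((pb.gen - 1) * aeval pb.gen (divX P) ^ 3) hzi
    (((hgi.sub isIntegral_one).mul (hwi.pow 3))) 3 (by
      rw [mul_pow, hg, ← IsScalarTower.algebraMap_apply]
      ring)
  obtain ⟨dR, hdR⟩ := IsIntegrallyClosed.isIntegral_iff.1 hd
  obtain ⟨tR, htR⟩ := IsIntegrallyClosed.isIntegral_iff.1
    (Algebra.isIntegral_trace (R := k[X]) (L := K) hzi)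
  have hpow : tR ^ m = X * dR := by
    apply IsFractionRing.injective k[X] K
    rw [map_pow, htR, hmd, map_mul, hdR]
  have hdvd : (X : k[X]) ∣ tR := Polynomial.prime_X.dvd_of_dvd_pow ⟨dR, hpow⟩
  obtain ⟨r, hr⟩ := hdvd
  refine ⟨r, ?_⟩
  rw [hP, map_add, hconst, add_zero, ← htR, hr]

/-- **the core**: `Tr_{K₁/K} (g ^ 2 Tr_{L/K₁} u) ∈ j ^ 2 k[j]` if `u ^ M = g b`. -/
theorem s59lph3w_core (h3 : (3 : k) = 0) {L : Type*} [Field L] [Algebra K₁ L]
    [Algebra k[X] L] [IsScalarTower k[X] K₁ L] [FiniteDimensional K₁ L]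
    [Algebra.IsSeparable K₁ L]
    (hg : pb.gen ^ 3 = algebraMap k[X] K₁ X * (pb.gen - 1))
    (u b : L) (hu : IsIntegral k[X] u) (hb : IsIntegral k[X] b) (M : ℕ)
    (hub : u ^ M = algebraMap K₁ L pb.gen * b) :
    ∃ r : k[X], Algebra.trace K K₁ (pb.gen ^ 2 * Algebra.trace K₁ L u) =
      algebraMap k[X] K (X ^ 2 * r) := by
  have hgi := s59lph3w_gen_isIntegral pb.gen hg
  have hxi : IsIntegral k[X] (Algebra.trace K₁ L u) :=
    Algebra.isIntegral_trace (R := k[X]) (L := K₁) hu
  obtain ⟨m, d, hm, hd, hmd⟩ := s59lph3w_nt (A := k[X]) (F := K₁) (E := L) pb.gen hgi u b hu hb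
    M hub
  have hxa := s59lph3w_mem_adjoin pb h3 hg _ hxi
  have hda := s59lph3w_mem_adjoin pb h3 hg d hd
  rw [Algebra.adjoin_singleton_eq_range_aeval] at hxa hda
  obtain ⟨p, hp⟩ := hxa
  obtain ⟨q, hq⟩ := hda
  have hp' : aeval pb.gen p = Algebra.trace K₁ L u := hp
  have hq' : aeval pb.gen q = d := hq
  have h0 : aeval pb.gen (p ^ m - X * q) = 0 := by
    rw [map_sub, map_pow, map_mul, aeval_X, hp', hq', hmd, sub_self]
  have : Module.IsTorsionFree k[X] K₁ := by
    rw [Module.isTorsionFree_iff_algebraMap_injective]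
    rw [IsScalarTower.algebraMap_eq k[X] K K₁]
    exact (algebraMap K K₁).injective.comp (IsFractionRing.injective k[X] K)
  have hdvd := minpoly.isIntegrallyClosed_dvd hgi h0
  rw [s59lph3w_minpoly K pb.gen hg] at hdvd
  obtain ⟨G, hG⟩ := hdvd
  have hc0 : (p.coeff 0) ^ m = X * G.coeff 0 := by
    have h1 := congrArg (fun P : (k[X])[X] => P.coeff 0) hG
    simp only [coeff_sub, mul_coeff_zero, coeff_X_zero, zero_mul, sub_zero,
      s59lph3wPoly_coeff_zero] at h1
    rw [← h1, coeff_zero_eq_eval_zero (p ^ m), eval_pow, ← coeff_zero_eq_eval_zero]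
  have hXp : (X : k[X]) ∣ p.coeff 0 := Polynomial.prime_X.dvd_of_dvd_pow ⟨_, hc0⟩
  obtain ⟨a, ha⟩ := hXp
  have hxdec : Algebra.trace K₁ L u =
      algebraMap k[X] K₁ X * algebraMap k[X] K₁ a + pb.gen * aeval pb.gen (divX p) := by
    rw [← hp']
    conv_lhs => rw [← X_mul_divX_add p]
    rw [map_add, map_mul, aeval_X, aeval_C, ha, map_mul]
    ring
  have hkey : pb.gen ^ 2 * Algebra.trace K₁ L u =
      algebraMap k[X] K X • aeval pb.gen (C a * X ^ 2 + (X - 1) * divX p) := by
    rw [hxdec, Algebra.smul_def, ← IsScalarTower.algebraMap_apply]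
    simp only [map_add, map_mul, map_sub, map_pow, aeval_X, aeval_C, map_one]
    have h1 : pb.gen ^ 2 * (pb.gen * aeval pb.gen (divX p)) =
        algebraMap k[X] K₁ X * ((pb.gen - 1) * aeval pb.gen (divX p)) := by
      rw [← mul_assoc, ← pow_succ, hg]
      ring
    rw [mul_add, h1]
    ring
  obtain ⟨r, hr⟩ := s59lph3w_trace_adjoin pb h3 hg (C a * X ^ 2 + (X - 1) * divX p)
  refine ⟨r, ?_⟩
  rw [hkey, map_smul, hr, smul_eq_mul, ← map_mul]
  congr 1
  ring

end Core

/-! ### Lemma W -/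

section Main

open IntermediateField

/-- **LEMMA W** (wild trace in characteristic `3`).  `R = k[X]`, `K = Frac R`, `j = X`,
`L / K` finite separable, `s ^ 3 = j (s - 1)`, `u ^ M = s b` with `u, b` integral over `R`:
then `Tr_{L/K} (s ^ 2 u) ∈ j ^ 2 R`. -/
theorem s59lph3w_main {k : Type*} [Field k] (h3 : (3 : k) = 0)
    {K L : Type*} [Field K] [Field L] [Algebra k[X] K] [IsFractionRing k[X] K]
    [Algebra K L] [Algebra k[X] L] [IsScalarTower k[X] K L]
    [FiniteDimensional K L] [Algebra.IsSeparable K L]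
    (s u b : L) (hs : s ^ 3 = algebraMap k[X] L X * (s - 1))
    (hu : IsIntegral k[X] u) (hb : IsIntegral k[X] b) (M : ℕ)
    (hub : u ^ M = s * b) :
    ∃ r : k[X], Algebra.trace K L (s ^ 2 * u) = algebraMap k[X] K (X ^ 2 * r) := by
  have hsK : IsIntegral K s := IsIntegral.of_finite K s
  have : IsScalarTower k[X] K⟮s⟯ L := IsScalarTower.of_algebraMap_eq (fun x => rfl)
  have : IsScalarTower k[X] K K⟮s⟯ := IsScalarTower.of_algebraMap_eq (fun x => by
    apply Subtype.ext
    exact IsScalarTower.algebraMap_apply k[X] K L x)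
  let pb : PowerBasis K K⟮s⟯ := IntermediateField.adjoin.powerBasis hsK
  have hgen : ((pb.gen : K⟮s⟯) : L) = s := IntermediateField.AdjoinSimple.coe_gen K s
  have hg : pb.gen ^ 3 = algebraMap k[X] K⟮s⟯ X * (pb.gen - 1) := by
    apply Subtype.ext
    have h1 : ((algebraMap k[X] K⟮s⟯ X : K⟮s⟯) : L) = algebraMap k[X] L X := rfl
    push_cast
    rw [hgen, h1]
    exact hs
  obtain ⟨r, hr⟩ := s59lph3w_core pb h3 hg u b hu hb M (by
    have : algebraMap K⟮s⟯ L pb.gen = s := hgen
    rw [this]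
    exact hub)
  refine ⟨r, ?_⟩
  rw [← hr, ← Algebra.trace_trace (S := K⟮s⟯)]
  congr 1
  have h2 : s ^ 2 * u = (pb.gen ^ 2 : K⟮s⟯) • u := by
    rw [Algebra.smul_def, map_pow]
    have : algebraMap K⟮s⟯ L pb.gen = s := hgen
    rw [this]
  rw [h2, map_smul, smul_eq_mul]

end Main

end Fermat.Agent.S59

end
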