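import Fermat.Agent.S59.LowP.Hol3Res
import Fermat.Agent.S59.LowP.Hol3W

/-!
# S59, wall M4 (LOWER-P) at `ℓ = 3`, leaf HOL3 / RES, bridge to Lemma W (helper10)

* `s59lph3res_stmtW`     : `s59lph3res_StmtW` (from helper42's `s59lph3w_main`);
* `s59lph3res_stmtRes_of`: (S2) + (Tau) + (MFk3) ⇒ `ES.I2.StmtRes N A` at `ℓ = 3`
  (Lemma W and (TN) plugged in).
-/

set_option autoImplicit false
set_option linter.style.haveILetI false
set_option linter.unusedSectionVars false
set_option linter.unusedVariables false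
set_option synthInstance.maxHeartbeats 400000
set_option maxHeartbeats 1600000

noncomputable section

namespace Fermat.Agent.S59

open ModularCurve AlgebraicCurve Fermat.Agent.ES Fermat.Agent.S24 Fermat.Agent.ES.M
  Fermat.Agent.ES.I2 Polynomial

/-- **Lemma W** in the shape consumed by `s59lph3res_main` -/
theorem s59lph3res_stmtW : s59lph3res_StmtW := by
  intro k _ _ K L _ _ _ _ _ _ _ _ _ s u b M _ hs hu hb hub
  have h3 : (3 : k) = 0 := by
    have h1 : ((3 : ℕ) : k) = 0 := (CharP.cast_eq_zero_iff k 3 3).2 dvd_rfl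
    exact_mod_cast h1
  exact s59lph3w_main h3 s u b hs hu hb M hub

/-- **`ES.I2.StmtRes N A` at `ℓ = 3`** from (S2), (Tau) and (MFk3) -/
theorem s59lph3res_stmtRes_of (N : ℕ) [NeZero N] (h3N : ¬ 3 ∣ N)
    (A : ValuationSubring Kb) (hA : A.LiesOverPrime 3)
    (hS2 : StmtS2 N A) (hTau : StmtTau N A) (hMFk3 : S59lph3resMFk3 N A) :
    StmtRes N A :=
  s59lph3res_stmtRes s59lph3res_stmtW N h3N A hA hS2 hTau hMFk3

end Fermat.Agent.S59

end
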