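/-
S59, wall M4 (LOWER-P), CASE-P: **LEMMA R** of NOTES/S59-MINLEV.md (helper73).  Pure algebra.

`W` a local ring, `π, m ∈ 𝔪_W`, `p` a prime, `π ^ (p - 1) = p * m` (absolute ramification `e < p - 1`),
`H` a commutative `W`-algebra, integral over `W`, `p * π` regular on `H`, `y ∈ H` with
`(1 + π y) ^ p = 1`.  Then `y = 0`.

Application (NOTES/S59-MINLEV.md, (D3)): `H` = the convolution ring of the dual of a finite free
cocommutative Hopf order, `y = (x - ε) / π` for a `W`-point `x ≡ ε mod π`: the reduction map is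
injective on the `W`-rational `p`-torsion points.

* `s59lp_binom`        : `(1 + X) ^ p = 1 + X ^ p + p * X * (1 + X * r)` in `ℤ[X]`;
* `s59lp_binom_eval`   : the same in every commutative ring;
* `s59lp_mem_jacobson` : `H` integral over the local ring `W` ⇒ `𝔪_W H ⊆ Jac(H)`;
* `s59lp_lemmaR`       : LEMMA R.
-/
import Mathlib

set_option autoImplicit false

namespace Fermat.Agent.S59

open Polynomial

/-- `(1 + X) ^ p = 1 + X ^ p + p * X * (1 + X * r)` in `ℤ[X]`, `p` prime. -/
theorem s59lp_binom (p : ℕ) (hp : p.Prime) :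
    ∃ r : ℤ[X], (1 + X : ℤ[X]) ^ p = 1 + X ^ p + (p : ℤ[X]) * X * (1 + X * r) := by
  obtain ⟨s, hs⟩ := exists_add_pow_prime_eq hp (1 : ℤ[X]) X
  rw [one_pow, mul_one] at hs
  -- the constant coefficient of `s` is `1`
  have h1 : s.coeff 0 = 1 := by
    have hc : ((1 + X : ℤ[X]) ^ p).coeff 1 =
        ((1 : ℤ[X]) + X ^ p + (p : ℤ[X]) * X * s).coeff 1 := by rw [hs]
    have hl : ((1 + X : ℤ[X]) ^ p).coeff 1 = p := by
      rw [add_comm, coeff_X_add_one_pow]
      simp
    have hr : ((1 : ℤ[X]) + X ^ p + (p : ℤ[X]) * X * s).coeff 1 = p * s.coeff 0 := by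
      have hp2 : (1 : ℕ) ≠ p := fun h => hp.one_lt.ne h
      have e : (p : ℤ[X]) * X * s = C (p : ℤ) * (s * X) := by
        rw [show (p : ℤ[X]) = C (p : ℤ) by simp]; ring
      rw [coeff_add, coeff_add, coeff_one, coeff_X_pow, e, coeff_C_mul, coeff_mul_X]
      simp [hp2]
    rw [hl, hr] at hc
    have hp0 : (p : ℤ) ≠ 0 := by exact_mod_cast hp.ne_zero
    have : (p : ℤ) * 1 = p * s.coeff 0 := by rw [mul_one]; exact hc
    exact (mul_left_cancel₀ hp0 this).symm
  obtain ⟨r, hr⟩ : X ∣ s - C (s.coeff 0) := X_dvd_sub_C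
  refine ⟨r, ?_⟩
  have hs' : s = 1 + X * r := by
    rw [h1, map_one] at hr
    rw [← hr]; ring
  rw [hs, hs']

/-- `(1 + x) ^ p = 1 + x ^ p + p * x * (1 + x * r)` in every commutative ring. -/
theorem s59lp_binom_eval {H : Type*} [CommRing H] (p : ℕ) (hp : p.Prime) (x : H) :
    ∃ r : H, (1 + x) ^ p = 1 + x ^ p + (p : H) * x * (1 + x * r) := by
  obtain ⟨r, hr⟩ := s59lp_binom p hp
  refine ⟨aeval x r, ?_⟩
  have h := congrArg (aeval x) hr
  simpa using h

variable {W H : Type*} [CommRing W] [IsLocalRing W] [CommRing H] [Algebra W H]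
  [Algebra.IsIntegral W H]

/-- `H` integral over the local ring `W`: the image of `𝔪_W` lies in the Jacobson radical. -/
theorem s59lp_mem_jacobson {a : W} (ha : a ∈ IsLocalRing.maximalIdeal W) :
    algebraMap W H a ∈ Ideal.jacobson (⊥ : Ideal H) := by
  rw [Ideal.jacobson, Ideal.mem_sInf]
  rintro M ⟨-, hM⟩
  have := hM
  have hmax : (M.comap (algebraMap W H)).IsMaximal :=
    Ideal.isMaximal_comap_of_isIntegral_of_isMaximal M
  have heq : M.comap (algebraMap W H) = IsLocalRing.maximalIdeal W :=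
    IsLocalRing.eq_maximalIdeal hmax
  have : a ∈ M.comap (algebraMap W H) := by rw [heq]; exact ha
  exact this

/-- **LEMMA R.** -/
theorem s59lp_lemmaR (p : ℕ) (hp : p.Prime) (π m : W)
    (hπ : π ∈ IsLocalRing.maximalIdeal W) (hm : m ∈ IsLocalRing.maximalIdeal W)
    (hrel : π ^ (p - 1) = (p : W) * m)
    (hreg : ∀ z : H, algebraMap W H ((p : W) * π) * z = 0 → z = 0)
    (y : H) (hy : (1 + algebraMap W H π * y) ^ p = 1) : y = 0 := by
  set π' : H := algebraMap W H π with hπ'
  set m' : H := algebraMap W H m with hm'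
  obtain ⟨r, hr⟩ := s59lp_binom_eval p hp (π' * y)
  -- `π' ^ p = p * π' * m'`
  have hpow : π' ^ p = (p : H) * π' * m' := by
    have h1 : π ^ p = (p : W) * π * m := by
      have : p = (p - 1) + 1 := (Nat.succ_pred_eq_of_pos hp.pos).symm
      conv_lhs => rw [this, pow_succ, hrel]
      ring
    have := congrArg (algebraMap W H) h1
    simpa [hπ', hm'] using this
  -- the factorisation
  have hfac : algebraMap W H ((p : W) * π) *
      (y * (1 + (π' * (y * r) + m' * y ^ (p - 1)))) = 0 := by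
    have hyp : y ^ p = y * y ^ (p - 1) := by
      conv_lhs => rw [(Nat.succ_pred_eq_of_pos hp.pos).symm, pow_succ']
      rfl
    have e : algebraMap W H ((p : W) * π) = (p : H) * π' := by
      simp [hπ']
    have h2 : (1 + π' * y) ^ p - 1 = 0 := by rw [hy, sub_self]
    rw [hr, mul_pow, hpow, hyp] at h2
    rw [e]
    linear_combination h2
  have hz := hreg _ hfac
  -- `1 + t` is a unit
  have ht : π' * (y * r) + m' * y ^ (p - 1) ∈ Ideal.jacobson (⊥ : Ideal H) :=
    Ideal.add_mem _ (Ideal.mul_mem_right _ _ (s59lp_mem_jacobson hπ))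
      (Ideal.mul_mem_right _ _ (s59lp_mem_jacobson hm))
  have hu : IsUnit (1 + (π' * (y * r) + m' * y ^ (p - 1))) := by
    have := Ideal.mem_jacobson_bot.1 ht 1
    rwa [mul_one, add_comm] at this
  exact (hu.mul_left_eq_zero).1 hz

end Fermat.Agent.S59
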