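/-
S59, wall M4 (LOWER-P at `p = 3`), leaf MONOFIX3 (helper52).

Twin of `R38/TresMonoFix.lean` (helper47: ASM-NOCOVER, the case "the inertia group FIXES `x`" of
`StmtFacMono`) for EVERY odd prime `p` (`5 ≤ p`, or `p = 3` and `M` even), with the Ogg unit as a
PARAMETER.  In the landed file `5 ≤ p` is consumed in exactly three places:

 (a) `¬ p ∣ 12`, the exponent `e = 12` of the Ogg unit `S36.s36tuV = Δ(Q)/Δ(Q^p)`;
 (b) FAC-RIG `tresrig_up_mul_four` (steps of degree `≤ 3 < p`) — at `p = 3`, `M` even: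
     `S59.s59lprig_up_mul_four` (`S59/LowP/RigEven.lean`);
 (c) `s15red_exists_pkg … (Or.inl h5)` at the level `4 M` — at `p = 3`: `Or.inr`, `2 ∣ 4 M`.

The abstract chart theorem `R38.tresmf_chart` is already generic in the unit `g`: it needs only
`g ≠ 0`, the cuspidal divisor clause, `v_∞(g) = 1` and `v_0(g) = v_0(π) ^ e`.  No node formula and
no thin chain of `g` is used in the FIX case.  So OGG3 has to deliver (`S59lpmfOgg`), at the rigid
level `N = 4 M`, `K = beta0Field A`: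

  `g ∈ F_{N p}(K)`, `g ≠ 0`, `ord_P g = 0` at the places with `0 ≤ ord_P j`, `v_∞(g) = 1`,
  `v_0(g) = v_0(p) ^ e` with `p ∤ e`, `ρ g = ḡ` with `ḡ ∈ F̄_M` (hence `∈ F̄_N`), `ḡ ≠ 0`, and the
  Hecke clause `T_ℓ ḡ = c ḡ ^ (ℓ + 1)`.

* `s59lpmf_not_dvd_mul_four` : an odd prime `p ∤ M` does not divide `4 M`;
* `s59lpmf_rigid` : twin of `tresmf_rigid` (any odd `p`, any unit `g`);
* `S59lpmfOgg`    : the OGG interface (a `Prop`), `s59lpmf_ogg_five` : it holds for `p ≥ 5`;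
* `S59lpmfConcl`  : `FacMonoConcl` with the Hecke clause restricted to `ℓ ∤ M` (what the consumer
  `R38.stmtFacEis_of` uses; the clause at `ℓ = 2` is FALSE for the reduction of a level-4 unit);
* `s59lpmf_fix`   : twin of `tresmf_fix`: `S59lpmfConcl M p A x` from the OGG interface and
  `TresRigDescent M (M * 4) p A`;
* `s59lpmf_rigDescent` : `TresRigDescent M (M * 4) p A` for `p ≠ 2`, `5 ≤ p ∨ 2 ∣ M`;
* `S59lpmfStmt`, `s59lpmf_stmt_of` : `StmtMonoFix` for `p` odd with `5 ≤ p ∨ 2 ∣ M`, from OGG.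
-/
import Fermat.Agent.R38.TresMonoFix
import Fermat.Agent.S59.LowP.RigEven

set_option autoImplicit false
set_option linter.unusedSectionVars false
set_option linter.unusedVariables false
set_option linter.style.haveILetI false
set_option linter.style.longLine false
set_option synthInstance.maxHeartbeats 400000
set_option maxHeartbeats 1600000

noncomputable section

namespace Fermat.Agent.S59

open ModularCurve AlgebraicCurve IntermediateField Fermat.Agent.ES Fermat.Agent.ES.G2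
  Fermat.Agent.INJ Fermat.Agent.UNIP Fermat.Agent.STB Fermat.Agent.ES.M Fermat.Agent.DEU
  Fermat.Agent.S36 Fermat.Agent.S33 Fermat.Agent.S28 Fermat.Agent.S24 Fermat.Agent.S15
  Fermat.Agent.RIB.MP Fermat.Agent.RT.K6 Fermat.Agent.AL Fermat.Agent.W1 Fermat.Agent.RIB
  Fermat.Agent.R38 ExtCitation

/-- an odd prime `p ∤ M` does not divide `4 M` -/
theorem s59lpmf_not_dvd_mul_four {p M : ℕ} (hp : p.Prime) (hp2 : p ≠ 2) (hpM : ¬ p ∣ M) :
    ¬ p ∣ M * 4 := by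
  intro h
  rcases (Nat.Prime.dvd_mul hp).1 h with h1 | h1
  · exact hpM h1
  · have h4 : (4 : ℕ) = 2 ^ 2 := by norm_num
    rw [h4] at h1
    exact hp2 ((Nat.prime_dvd_prime_iff_eq hp Nat.prime_two).1 (hp.dvd_of_dvd_pow h1))

section Rigid

variable {A : ValuationSubring Fermat.Agent.R38.Qb} {p M : ℕ} [NeZero p] [NeZero M]
  [NeZero (M * p)]
  [IsDiscreteValuationRing ↥(beta0Ring A (beta0Field A))]
  {π : ↥(beta0Ring A (beta0Field A))} (hπ : Irreducible π) (ιC : ↥(beta0Field A) →+* ℂ)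
  (hp : p.Prime) (hpM : ¬ p ∣ M)

include hπ ιC hp hpM in
/-- **ASM-NOCOVER on `X₀(M p)` over `K = ℚ̄^I`, rigid level** (`4 ∣ M`, `p` odd), for an
arbitrary unit `g` with cuspidal divisor: twin of `R38.tresmf_rigid`. -/
theorem s59lpmf_rigid (hA : A.LiesOverPrime p) (hp2 : p ≠ 2) (h4 : 4 ∣ M)
    (hRedF : StmtRedF M A)
    (hfin : ∀ Q : Place (kA A) ↥(modularFunctionFieldFullC (kA A) M),
      ∀ x ∈ Q.toValuationSubring, x ∉ Q.toValuationSubring.nonunits →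
        ∃ n : ℕ, 0 < n ∧ x ^ n - 1 ∈ Q.toValuationSubring.nonunits)
    {y : ↥(modularFunctionFieldFullC ↥(beta0Field A) (M * p))} (hy0 : y ≠ 0)
    (hhor : ∀ P : Place ↥(beta0Field A) ↥(modularFunctionFieldFullC ↥(beta0Field A) (M * p)),
      (p : ℤ) ∣ P.ord y)
    (hy₁ : (mgvV hπ ιC hp hpM true).valuation y = 1) (a b : ℤ)
    (hy₂ : (mgvV hπ ιC hp hpM false).valuation y =
      (mgvV hπ ιC hp hpM false).valuation
        (algebraMap ↥(beta0Ring A (beta0Field A))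
          ↥(modularFunctionFieldFullC ↥(beta0Field A) (M * p)) π) ^ b)
    {g : ↥(modularFunctionFieldFullC ↥(beta0Field A) (M * p))} (hg0 : g ≠ 0)
    (hgord : ∀ P : Place ↥(beta0Field A) ↥(modularFunctionFieldFullC ↥(beta0Field A) (M * p)),
      0 ≤ P.ord (bgJ ↥(beta0Field A) (M * p)) → P.ord g = 0)
    (hg₁ : (mgvV hπ ιC hp hpM true).valuation g = 1)
    (hg₂ : (mgvV hπ ιC hp hpM false).valuation g =
      (mgvV hπ ιC hp hpM false).valuation
        (algebraMap ↥(beta0Ring A (beta0Field A))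
          ↥(modularFunctionFieldFullC ↥(beta0Field A) (M * p)) π) ^ a)
    (Q : Place (kA A) ↥(modularFunctionFieldFullC (kA A) M)) :
    (ribmpRedF hp hpM hA hπ ιC hRedF
        ⟨bgJ ↥(beta0Field A) (M * p), tresdn_mem _ (mgv_T_valuation hπ ιC hp hpM true)⟩ ∈
          Q.toValuationSubring →
      (p : ℤ) ∣ a * Q.ord (ribmpRedF hp hpM hA hπ ιC hRedF ⟨y, tresdn_mem _ hy₁⟩) -
        b * Q.ord (ribmpRedF hp hpM hA hπ ιC hRedF ⟨g, tresdn_mem _ hg₁⟩)) ∧
    (ribmpRedF hp hpM hA hπ ιC hRedF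
        ⟨bgJ ↥(beta0Field A) (M * p), tresdn_mem _ (mgv_T_valuation hπ ιC hp hpM true)⟩ ∉
          Q.toValuationSubring →
      (p : ℤ) ∣ Q.ord (ribmpRedF hp hpM hA hπ ιC hRedF ⟨y, tresdn_mem _ hy₁⟩)) := by
  haveI := ribmp_fc_fin (K₀ := beta0Field A) (M * p)
  haveI := ribmp_fc_fin_inv (K₀ := beta0Field A) (M * p)
  haveI := rtk6lfb_noeth_J (A := A) (K₀ := beta0Field A) (M := M) (q := p)
  haveI := ribmp_fcu_noeth (A := A) (K₀ := beta0Field A) (M := M) (q := p)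
  have h2 : p = 2 → 3 ∣ M := fun h => absurd h hp2
  have h3 : p = 3 → 2 ∣ M := fun _ => Dvd.dvd.trans (by norm_num) h4
  have rigid : (p ≠ 2 → 4 ∣ M) ∧ (p = 2 → 9 ∣ M) := ⟨fun _ => h4, fun h => absurd h hp2⟩
  have hSS1 := ribmp_fc_hSS1 hπ ιC hp hpM hA le_rfl h2 h3
  have hSS1' := ribmp_fc_hSS1_inv hπ ιC hp hpM hA le_rfl h2 h3
  have harch' : ∀ c, StbArch (mgvV hπ ιC hp hpM c) := fun c x a ha => by
    obtain ⟨N, hN⟩ := mgv_harch hπ ιC hp hpM c a x ha
    exact ⟨N, by rw [mul_comm x (a ^ N)]; exact hN⟩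
  have hnle : ∀ c c' : Bool, c ≠ c' → ¬ mgvV hπ ιC hp hpM c ≤ mgvV hπ ιC hp hpM c' :=
    fun c c' hcc' => stb_not_le_of_ne (harch' c) (ribmp_fc_hπ0 hπ) (mgv_hπV hπ ιC hp hpM c')
      (rtk6lfb_hne hπ ιC hp hpM hA c c' hcc')
  obtain ⟨φ, hφF⟩ := Fermat.Agent.Common.exists_isFrobeniusAt_of_liesOverPrime p hp A hA
  have hφ : ∀ x ∈ beta0Field A, φ x ∈ beta0Field A :=
    fun x hx => beta0_decomp_apply_mem hφF.mem_decompositionSubgroup hx
  have hAV : ∀ a : ↥(beta0Ring A (beta0Field A)),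
      algebraMap ↥(beta0Ring A (beta0Field A))
        ↥(modularFunctionFieldFullC ↥(beta0Field A) (M * p)) a ∈ mgvV hπ ιC hp hpM true :=
    fun a => vtFam_const_mem (vtBase_residue hπ) ιC hp hpM true a
  have hker : ∀ x : ↥(mgvV hπ ιC hp hpM true),
      (x : ↥(modularFunctionFieldFullC ↥(beta0Field A) (M * p))) ∈
        (mgvV hπ ιC hp hpM true).nonunits → ribmpRedF hp hpM hA hπ ιC hRedF x = 0 :=
    fun x hx => Subtype.ext (ribmpRedK_eq_zero_of_mem_nonunits hπ (M * p) x hx)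
  have hπ0 : ribmpRedF hp hpM hA hπ ιC hRedF ⟨_, hAV π⟩ = 0 :=
    hker _ (mgv_hπV hπ ιC hp hpM true)
  have hAQ : ∀ a : ↥(beta0Ring A (beta0Field A)),
      ribmpRedF hp hpM hA hπ ιC hRedF ⟨_, hAV a⟩ ∈ Q.toValuationSubring := by
    intro a
    have h1 : ribmpRedF hp hpM hA hπ ιC hRedF ⟨_, hAV a⟩ =
        algebraMap (kA A) ↥(modularFunctionFieldFullC (kA A) M)
          (IsLocalRing.residue A ⟨algebraMap ↥(beta0Field A) Fermat.Agent.R38.Qb
            (algebraMap ↥(beta0Ring A (beta0Field A)) ↥(beta0Field A) a),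
            stb_mgt_c1 A (beta0Field A) a⟩) := by
      apply Subtype.ext
      rw [ribmpRedF_coe]
      exact (ribmpRedK_const hπ (M * p) a (hAV a)).trans
        (Fermat.Agent.ES.M.algebraMap_eq_hahnC _).symm
    rw [h1]
    exact Q.algebraMap_mem' _
  exact tresmf_chart (E := ↥(beta0Field A)) hπ (t := bgJ ↥(beta0Field A) (M * p))
    (mgvV hπ ιC hp hpM) true false mgv_hκ
    (mgv_hBV₁ hπ ιC hp hpM) (mgv_hBV₂ hπ ιC hp hpM) (mgv_hπV hπ ιC hp hpM) hSS1 hSS1'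
    (ribmp_fc_hU hπ ιC hp hpM)
    (mgv_hVloc₁ hπ ιC hp hpM hA hSS1) (mgv_hVloc₂ hπ ιC hp hpM hA hSS1) hnle
    (fun 𝔫 => rtk6lfb0_thinAt_J hπ ιC hp hpM hA rigid 𝔫)
    (fun 𝔫 hcu => ribmp_fcu_smooth hπ hp hpM hA le_rfl hφF hφ h2 h3 𝔫
      (hcu (ribmpFglGen (A₀ := ↥(beta0Ring A (beta0Field A)))
        (bgJ ↥(beta0Field A) (M * p))⁻¹) rfl))
    (ribmpRedF hp hpM hA hπ ιC hRedF) hker hAV hπ0 (mgv_T_valuation hπ ιC hp hpM true) Q hAQ
    (hfin Q) hp.pos hy0 hg0 hhor hgord hy₁ hg₁ a b hy₂ hg₂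

end Rigid

section Fix

/-- the conclusion of `StmtFacMono` for the class `x`, with the Hecke clause restricted to the
primes `ℓ ∤ M` (the only ones the consumer `R38.stmtFacEis_of` uses).  For `p = 3` the reduction
of the unit has level `2` or `4`, and the clause at `ℓ = 2` is false. -/
def S59lpmfConcl (M p : ℕ) [NeZero M] [NeZero p] [NeZero (M * p)]
    (A : ValuationSubring Fermat.Agent.R38.Qb) (x : JZero (M * p)) : Prop :=
  ∃ (u : modularFunctionFieldBar (M * p)) (r h : LaurentSeries (kA A))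
    (hr : r ∈ modularFunctionFieldFullC (kA A) M)
    (hh : h ∈ modularFunctionFieldFullC (kA A) M) (a b : ℤ),
    KummerRel p x u ∧ R38Red A (u : LaurentSeries Fermat.Agent.R38.Qb) r ∧ h ≠ 0 ∧
    ¬ (p : ℤ) ∣ a ∧
    (∀ Q : Place (kA A) ↥(modularFunctionFieldFullC (kA A) M),
      0 ≤ Q.ord (⟨jqModC (kA A), jqModC_mem_full (kA A) M⟩ :
          ↥(modularFunctionFieldFullC (kA A) M)) →
        (p : ℤ) ∣ a * Q.ord (⟨r, hr⟩ : ↥(modularFunctionFieldFullC (kA A) M)) -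
          b * Q.ord (⟨h, hh⟩ : ↥(modularFunctionFieldFullC (kA A) M))) ∧
    (∀ Q : Place (kA A) ↥(modularFunctionFieldFullC (kA A) M),
      Q.ord (⟨jqModC (kA A), jqModC_mem_full (kA A) M⟩ :
          ↥(modularFunctionFieldFullC (kA A) M)) < 0 →
        (p : ℤ) ∣ Q.ord (⟨r, hr⟩ : ↥(modularFunctionFieldFullC (kA A) M))) ∧
    (∀ (ℓ : ℕ) [NeZero ℓ], ℓ.Prime → ¬ ℓ ∣ M → ℓ ≠ p → ∀ ζ : (kA A)ˣ, IsPrimitiveRoot ζ ℓ →
      ∃ c : kA A, c ≠ 0 ∧ kronHecke ℓ ζ h = HahnSeries.C c * h ^ (ℓ + 1))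

/-- the landed conclusion implies the weakened one -/
theorem s59lpmf_concl_of_facMonoConcl {M p : ℕ} [NeZero M] [NeZero p] [NeZero (M * p)]
    {A : ValuationSubring Fermat.Agent.R38.Qb} {x : JZero (M * p)}
    (h : FacMonoConcl M p A x) : S59lpmfConcl M p A x := by
  obtain ⟨u, r, hb, hr, hh, a, b, hK, hred, hh0, ha, h1, h2, hhecke⟩ := h
  exact ⟨u, r, hb, hr, hh, a, b, hK, hred, hh0, ha, h1, h2,
    fun ℓ _ hℓ _ hℓp ζ hζ => hhecke ℓ hℓ hℓp ζ hζ⟩

/-- **The OGG interface** at the rigid level `M * 4`, residue characteristic `p`, for the FIX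
case: a modular unit `g` of `F_{4 M p}(K)`, `K = beta0Field A`, with cuspidal divisor, a unit
along `V_∞`, of `V_0`-valuation `v_0(p) ^ e` with `p ∤ e`, whose reduction `ḡ` along `V_∞` lies
in `F̄_M` and satisfies the Hecke clause. -/
def S59lpmfOgg (M p : ℕ) [NeZero M] [NeZero p] [NeZero (M * 4)] [NeZero (M * 4 * p)]
    (A : ValuationSubring Fermat.Agent.R38.Qb) : Prop :=
  ∀ (hp : p.Prime) (hpM4 : ¬ p ∣ M * 4) (hA : A.LiesOverPrime p)
    [IsDiscreteValuationRing ↥(beta0Ring A (beta0Field A))]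
    (hπ : Irreducible ((p : ℕ) : ↥(beta0Ring A (beta0Field A))))
    (hRedF' : StmtRedF (M * 4) A),
    ∃ (g : ↥(modularFunctionFieldFullC ↥(beta0Field A) (M * 4 * p))) (e : ℤ)
      (gbar : LaurentSeries (kA A))
      (hg₁ : (mgvV hπ (mgdIota (beta0Field A)) hp hpM4 true).valuation g = 1)
      (hmem : gbar ∈ modularFunctionFieldFullC (kA A) M)
      (hmem' : gbar ∈ modularFunctionFieldFullC (kA A) (M * 4)),
      g ≠ 0 ∧ ¬ (p : ℤ) ∣ e ∧
      (∀ P : Place ↥(beta0Field A)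
          ↥(modularFunctionFieldFullC ↥(beta0Field A) (M * 4 * p)),
        0 ≤ P.ord (bgJ ↥(beta0Field A) (M * 4 * p)) → P.ord g = 0) ∧
      (mgvV hπ (mgdIota (beta0Field A)) hp hpM4 false).valuation g =
        (mgvV hπ (mgdIota (beta0Field A)) hp hpM4 false).valuation
          (algebraMap ↥(beta0Ring A (beta0Field A))
            ↥(modularFunctionFieldFullC ↥(beta0Field A) (M * 4 * p))
              ((p : ℕ) : ↥(beta0Ring A (beta0Field A)))) ^ e ∧
      ribmpRedF hp hpM4 hA hπ (mgdIota (beta0Field A)) hRedF' ⟨g, tresdn_mem _ hg₁⟩ =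
        ⟨gbar, hmem'⟩ ∧
      gbar ≠ 0 ∧
      (∀ (ℓ : ℕ) [NeZero ℓ], ℓ.Prime → ¬ ℓ ∣ M → ℓ ≠ p → ∀ ζ : (kA A)ˣ, IsPrimitiveRoot ζ ℓ →
        ∃ c : kA A, c ≠ 0 ∧ kronHecke ℓ ζ gbar = HahnSeries.C c * gbar ^ (ℓ + 1))

/-- the OGG interface holds for `p ≥ 5` (the Ogg unit `Δ(Q)/Δ(Q^p)`, `e = 12`) -/
theorem s59lpmf_ogg_five (M p : ℕ) [NeZero M] [NeZero p] [NeZero (M * 4)] [NeZero (M * 4 * p)]
    (h5 : 5 ≤ p) (A : ValuationSubring Fermat.Agent.R38.Qb) : S59lpmfOgg M p A := by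
  intro hp hpM4 hA _ hπ hRedF'
  have hh : deltaS (kA A) * deltaInvS (kA A) ^ p ∈ modularFunctionFieldFullC (kA A) M :=
    tresmonog_hb_mem hp hA M
  have hh' : deltaS (kA A) * deltaInvS (kA A) ^ p ∈ modularFunctionFieldFullC (kA A) (M * 4) :=
    tresmonog_hb_mem hp hA (M * 4)
  refine ⟨s36tuV ↥(beta0Field A) (mgdIota (beta0Field A)), 12,
    deltaS (kA A) * deltaInvS (kA A) ^ p,
    tres5o_val_true hπ (mgdIota (beta0Field A)) hp hpM4 hA, hh, hh',
    s36tuV_ne_zero ↥(beta0Field A) (mgdIota (beta0Field A)), tresmf_not_dvd_twelve hp h5,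
    fun P hP => tres5o_ord_eq_zero (beta0Field A) (mgdIota (beta0Field A)) hp P hP, ?_,
    tresmonog_red hp hpM4 hA hπ (mgdIota (beta0Field A)) hRedF' hh',
    tresmonog_hb_ne_zero (kA A) p, fun ℓ _ hℓ _ hℓp => tresmonog_hecke_kA hp hA ℓ hℓ hℓp⟩
  rw [tres5o_val_false hπ (mgdIota (beta0Field A)) hp hpM4 hA]
  norm_cast

/-- **ASM-NOCOVER for one class** at every odd `p` (`M` even if `p = 3`), from the OGG interface
and the `k`-side descent `4 M → M`: twin of `R38.tresmf_fix`. -/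
theorem s59lpmf_fix (M p : ℕ) [NeZero M] [NeZero p] [NeZero (M * p)] [NeZero (M * 4)]
    [NeZero (M * 4 * p)] (hp : p.Prime) (hpM : ¬ p ∣ M) (hp2 : p ≠ 2) (h5 : 5 ≤ p ∨ 2 ∣ M)
    (A : ValuationSubring Fermat.Agent.R38.Qb) (hA : A.LiesOverPrime p)
    (hogg : S59lpmfOgg M p A)
    (hrig : TresRigDescent M (M * 4) p A)
    (x : JZero (M * p)) (hx : p • x = 0) (hI : InertiaFixed A x) :
    S59lpmfConcl M p A x := by
  haveI : IsDiscreteValuationRing ↥(beta0Ring A (beta0Field A)) := beta0Ring_isDVR_base hp hA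
  haveI : Fact p.Prime := ⟨hp⟩
  haveI : CharP (kA A) p := Fermat.Agent.RED.charP_residueField A hp hA
  have hπ := beta0Ring_irreducible_q (A := A) hp hA
  set ιC : ↥(beta0Field A) →+* ℂ := mgdIota (beta0Field A) with hιC
  have hpM4 : ¬ p ∣ M * 4 := s59lpmf_not_dvd_mul_four hp hp2 hpM
  -- the reduction packages at the levels `M` and `4 M`
  have hRedF : StmtRedF M A := stmtRedF M A p hp hpM hA
  have hpkgH : 5 ≤ p ∨ (5 - p) ∣ M * 4 := by
    rcases Nat.lt_or_ge p 5 with hlt | hge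
    · right
      have h3 : 3 ≤ p := lt_of_le_of_ne hp.two_le (Ne.symm hp2)
      have hp4 : p ≠ 4 := fun h => by rw [h] at hp; exact absurd hp (by norm_num)
      have hp3 : p = 3 := by omega
      rw [hp3]
      exact Dvd.dvd.mul_left (by norm_num) M
    · exact Or.inl hge
  obtain ⟨rr, sp, Pinf, Qinf, hpkg⟩ := s15red_exists_pkg (M * 4) p hp hpM4 hpkgH A hA
  have hRedF' : StmtRedF (M * 4) A := stmtRedF (M * 4) A p hp hpM4 hA
  -- the unit
  obtain ⟨g, e, gbar, hg₁, hh, hh', hg0, he, hgord, hg₂, hρg, hgbar0, hhecke⟩ :=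
    hogg hp hpM4 hA hπ hRedF'
  -- 1. descent of a Kummer function to the inertia field
  obtain ⟨u₀, hu₀, hxu⟩ := ribmp_desc hp hA hp.ne_zero hx hI
  -- 2. normalisation at `V_∞`
  obtain ⟨y₀, c, hc, hy₀0, hy₀1, hcy, hord⟩ := tresmfn_normalise hp hpM hπ ιC u₀ hu₀
  -- 3. the rigid level
  set y : ↥(modularFunctionFieldFullC ↥(beta0Field A) (M * 4 * p)) :=
    ribmpFlUp ↥(beta0Field A) M 4 p y₀ with hydef
  have hy0 : y ≠ 0 := fun h0 => hy₀0
    ((ribmpFlUp ↥(beta0Field A) M 4 p).toRingHom.injective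
      (by rw [AlgHom.toRingHom_eq_coe, RingHom.coe_coe, ← hydef, h0, map_zero]))
  have hy1 : (mgvV hπ ιC hp hpM4 true).valuation y = 1 :=
    (ribmp_fl_valuation hπ ιC hp hpM hpM4 true y₀).2 hy₀1
  have hhorBar : ∀ P : Place NfQb (modularFunctionFieldBar (M * p)),
      (p : ℤ) ∣ P.ord (nfEmb (beta0Field A) (M * p) y₀) := fun P => by
    rw [hord P]
    exact ribmp_rf_dvd_ord hxu P
  have hhor : ∀ P : Place ↥(beta0Field A)
      ↥(modularFunctionFieldFullC ↥(beta0Field A) (M * 4 * p)), (p : ℤ) ∣ P.ord y :=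
    fun P => ribmp_fc_hhor (M * 4 * p) p y
      (ribmp_fhor (beta0Field A) M 4 p (ribmp_fl_le ↥(beta0Field A) M 4 p) p y₀ hhorBar) P
  obtain ⟨b, hb⟩ := rtk6lfb_val_zpow_J hπ ιC hp hpM4 false hy0
  -- 5. the reductions
  set r : LaurentSeries (kA A) :=
    ((ribmpRedF hp hpM hA hπ ιC hRedF ⟨y₀, tresdn_mem _ hy₀1⟩ :
      ↥(modularFunctionFieldFullC (kA A) M)) : LaurentSeries (kA A)) with hrdef
  have hr : r ∈ modularFunctionFieldFullC (kA A) M :=
    (ribmpRedF hp hpM hA hπ ιC hRedF ⟨y₀, tresdn_mem _ hy₀1⟩).2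
  have hrup : ((ribmpRedF hp hpM4 hA hπ ιC hRedF' ⟨y, tresdn_mem _ hy1⟩ :
      ↥(modularFunctionFieldFullC (kA A) (M * 4))) : LaurentSeries (kA A)) = r :=
    tresmfr_up hp hpM hA hπ ιC hRedF hpM4 hRedF' y₀ hy₀1 hy1
  have hr' : r ∈ modularFunctionFieldFullC (kA A) (M * 4) := by
    rw [← hrup]
    exact (ribmpRedF hp hpM4 hA hπ ιC hRedF' ⟨y, tresdn_mem _ hy1⟩).2
  have hρy : ribmpRedF hp hpM4 hA hπ ιC hRedF' ⟨y, tresdn_mem _ hy1⟩ = ⟨r, hr'⟩ :=
    Subtype.ext hrup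
  have hρj : ribmpRedF hp hpM4 hA hπ ιC hRedF'
      ⟨bgJ ↥(beta0Field A) (M * 4 * p),
        tresdn_mem _ (mgv_T_valuation hπ ιC hp hpM4 true)⟩ =
        ⟨jqModC (kA A), jqModC_mem_full (kA A) (M * 4)⟩ :=
    tresmonoc_red_j hp hpM4 hA hπ ιC hRedF'
  have hj0 : (⟨jqModC (kA A), jqModC_mem_full (kA A) (M * 4)⟩ :
      ↥(modularFunctionFieldFullC (kA A) (M * 4))) ≠ 0 := by
    rw [← hρj]
    exact tresdn_map_ne_zero _ _ (mgv_T_valuation hπ ιC hp hpM4 true)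
  -- 4. the clauses at the rigid level
  have hord' : FacMonoOrdAt (M * 4) p A r gbar hr' hh' e b := by
    constructor
    · intro Q hQ
      have hmain := (s59lpmf_rigid hπ ιC hp hpM4 hA hp2 (Dvd.intro_left M rfl) hRedF'
        (fun Q => ribmp_rf_hfin hpkg Q) hy0 hhor hy1 e b hb hg0 hgord hg₁ hg₂ Q).1
      rw [hρj, hρy, hρg] at hmain
      exact hmain ((PlaceAux.ord_nonneg_iff Q hj0).1 hQ)
    · intro Q hQ
      have hmain := (s59lpmf_rigid hπ ιC hp hpM4 hA hp2 (Dvd.intro_left M rfl) hRedF'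
        (fun Q => ribmp_rf_hfin hpkg Q) hy0 hhor hy1 e b hb hg0 hgord hg₁ hg₂ Q).2
      rw [hρj, hρy] at hmain
      refine hmain (fun hmem => ?_)
      have := (PlaceAux.ord_nonneg_iff Q hj0).2 hmem
      omega
  -- 6. the descent to the level `M`, 7. the Hecke clause
  have hred : R38Red A
      ((nfEmb (beta0Field A) (M * p) u₀ : modularFunctionFieldBar (M * p)) :
        LaurentSeries Fermat.Agent.R38.Qb) r := by
    rw [hcy]
    have h1 := (R38Red.const (A := A) hc).mul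
      (tresmfr_r38Red hp hpM hA hπ ιC hRedF y₀ hy₀1)
    rwa [one_mul] at h1
  have hordM := hrig r gbar hr hh hr' hh' e b hord'
  exact ⟨nfEmb (beta0Field A) (M * p) u₀, r, gbar, hr, hh, e, b, hxu, hred, hgbar0, he,
    hordM.1, hordM.2, hhecke⟩

/-- FAC-RIG at `M' = 4 M` for every odd `p` (`M` even if `p = 3`), as the frame predicate. -/
theorem s59lpmf_rigDescent (M p : ℕ) [NeZero M] [NeZero (M * 4)] (hp : p.Prime) (hp2 : p ≠ 2)
    (h5 : 5 ≤ p ∨ 2 ∣ M) (A : ValuationSubring Fermat.Agent.R38.Qb) (hA : A.LiesOverPrime p) :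
    TresRigDescent M (M * 4) p A := by
  haveI : CharP (kA A) p := Fermat.Agent.RED.charP_residueField A hp hA
  exact tresmf_rigDescent_of_up M (M * 4) p A hp (Dvd.intro 4 rfl)
    (s59lprig_up_mul_four (kA A) hp hp2 h5 (NeZero.ne M))

/-- **`StmtMonoFix` for the odd primes** (`M` even if `p = 3`): the statement. -/
def S59lpmfStmt : Prop :=
  ∀ (M p : ℕ) [NeZero M] [NeZero p] [NeZero (M * p)] (_ : p.Prime) (_ : ¬ p ∣ M), p ≠ 2 →
    (5 ≤ p ∨ 2 ∣ M) →
    ∀ A : ValuationSubring Fermat.Agent.R38.Qb, A.LiesOverPrime p →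
    ∀ x : JZero (M * p), p • x = 0 → stbPushAlpha M p x = 0 → stbPushBeta M p x = 0 →
      (∀ σ ∈ A.inertiaSubgroupIn ℚ, σ • x = x) → S59lpmfConcl M p A x

/-- **MONOFIX3**: `StmtMonoFix` for the odd primes from the OGG interface at `p = 3`. -/
theorem s59lpmf_stmt_of
    (hogg : ∀ (M : ℕ) [NeZero M] [NeZero (M * 4)] [NeZero (M * 4 * 3)], 2 ∣ M → ¬ 3 ∣ M →
      ∀ A : ValuationSubring Fermat.Agent.R38.Qb, A.LiesOverPrime 3 → S59lpmfOgg M 3 A) :
    S59lpmfStmt := by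
  intro M p _ _ _ hp hpM hp2 h5 A hA x hx _ _ hI
  haveI : NeZero (M * 4) := ⟨Nat.mul_ne_zero (NeZero.ne M) (by norm_num)⟩
  haveI : NeZero (M * 4 * p) := ⟨Nat.mul_ne_zero (NeZero.ne (M * 4)) (NeZero.ne p)⟩
  have hO : S59lpmfOgg M p A := by
    rcases Nat.lt_or_ge p 5 with hlt | hge
    · have h3 : 3 ≤ p := lt_of_le_of_ne hp.two_le (Ne.symm hp2)
      have hp4 : p ≠ 4 := fun h => by rw [h] at hp; exact absurd hp (by norm_num)
      have hp3 : p = 3 := by omega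
      subst hp3
      have h2M : 2 ∣ M := h5.resolve_left (by omega)
      exact hogg M h2M hpM A hA
    · exact s59lpmf_ogg_five M p hge A
  exact s59lpmf_fix M p hp hpM hp2 h5 A hA hO (s59lpmf_rigDescent M p hp hp2 h5 A hA) x hx hI

end Fix

end Fermat.Agent.S59

end
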