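/-
S59, wall M4 (LOWER-P), leaf COVER3, LOCAL layer (helper92): the hypotheses (I3) `hfin` and
(I4) `hcusp` of `tresmonof_frame` over an ABSTRACT Ogg datum `(g, e)`.

Twins of `R38/TresNodePtConc.lean` (`tres5npj_hfin_node`) and `R38/TresMonoTop.lean`
(`tresmt_loc`), where the Ogg unit `s36tuV` and the exponent `12` are hard-coded.  Here the unit
`g ∈ F = F_{M q}(K)` and the exponent `e` are PARAMETERS; the only facts consumed are

* `hgS` : `g` is a unit of `(B_j)_𝔫` at the smooth points on `V_∞`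
          (LITERAL conclusion of `tres5o_smooth_unit`, with `g` for `s36tuV`);
* `hgN` : the node formula `g = ε · Y ^ e` at the thin nodes (`X ∈ 𝔪(V_∞)`, `Y ∈ 𝔪(V_0)`)
          (LITERAL conclusion of `tres5o_cross_fac`, with `g` for `s36tuV` and `e` for `12 * 1`).

Nothing here uses `5 ≤ p`: only `q.Prime`, `¬ q ∣ M` and the rigid level
`(q ≠ 2 → 4 ∣ M) ∧ (q = 2 → 9 ∣ M)` (at `q = 3`: `4 ∣ M`).

* `s59lpnp_hfin_node_z` : (I3), exponent `e : ℤ`, node formula with `zpow`;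
* `s59lpnp_hfin_node`   : (I3), exponent `e : ℕ`, node formula with `pow` (conclusion at `(e : ℤ)`);
* `s59lpnp_loc`         : twin of `tresmt_loc`: MONO-0 + (I3) + (I4) on a sheet of the cover.
-/
import Fermat.Agent.R38.TresMonoTop

set_option autoImplicit false
set_option linter.unusedSectionVars false
set_option linter.unusedVariables false
set_option linter.style.haveILetI false
set_option linter.style.longLine false
set_option synthInstance.maxHeartbeats 400000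
set_option maxHeartbeats 1600000

noncomputable section

namespace Fermat.Agent.S59

open ModularCurve AlgebraicCurve IntermediateField Polynomial Fermat.Agent.INJ Fermat.Agent.UNIP
  Fermat.Agent.STB Fermat.Agent.S36 Fermat.Agent.RIB.MP Fermat.Agent.RT.K6 Fermat.Agent.AL
  Fermat.Agent.ES Fermat.Agent.ES.G2 Fermat.Agent.R38

section Base

variable {A : ValuationSubring Qb} {q M : ℕ} [NeZero q] [NeZero M] [NeZero (M * q)]
  [IsDiscreteValuationRing ↥(beta0Ring A (beta0Field A))]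
  {π : ↥(beta0Ring A (beta0Field A))} (hπ : Irreducible π)
  (ιC : ↥(beta0Field A) →+* ℂ) (hq : q.Prime) (hqM : ¬ q ∣ M)

include hπ ιC hq hqM in
/-- **(I3) of `tresmonof_frame` on the chart `j` of `X₀(M q)` over `ℚ̄^I`** (rigid level), for an
ABSTRACT Ogg datum `(g, e)`, `e : ℤ`. -/
theorem s59lpnp_hfin_node_z (hA : A.LiesOverPrime q)
    (rigid : (q ≠ 2 → 4 ∣ M) ∧ (q = 2 → 9 ∣ M))
    {L : Type*} [Field L] [Algebra ↥(modularFunctionFieldFullC ↥(beta0Field A) (M * q)) L]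
    [Algebra ↥(beta0Field A) L]
    [IsScalarTower ↥(beta0Field A) ↥(modularFunctionFieldFullC ↥(beta0Field A) (M * q)) L]
    (W : ValuationSubring L)
    (hWV : W.comap (algebraMap ↥(modularFunctionFieldFullC ↥(beta0Field A) (M * q)) L) =
      mgvV hπ ιC hq hqM true)
    -- the abstract Ogg datum
    (g : ↥(modularFunctionFieldFullC ↥(beta0Field A) (M * q))) (e : ℤ)
    (hgS : ∀ (𝔫 : AtPt (F := ↥(modularFunctionFieldFullC ↥(beta0Field A) (M * q))) π
        (bgJ ↥(beta0Field A) (M * q))),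
      atThrough 𝔫 (mgvV hπ ιC hq hqM true) →
      (∀ c', atThrough 𝔫 (mgvV hπ ιC hq hqM c') → c' = true) →
      ∀ s : ↥(zchClosure (A₀ := ↥(beta0Ring A (beta0Field A)))
        ({bgJ ↥(beta0Field A) (M * q)} :
          Set ↥(modularFunctionFieldFullC ↥(beta0Field A) (M * q)))), s ∈ 𝔫.1 →
      NodesLocGen 𝔫.1 {algebraMap ↥(beta0Ring A (beta0Field A))
        ↥(zchClosure (A₀ := ↥(beta0Ring A (beta0Field A)))
          ({bgJ ↥(beta0Field A) (M * q)} :
            Set ↥(modularFunctionFieldFullC ↥(beta0Field A) (M * q)))) π, s} →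
      ∃ ε : ↥(atLoc 𝔫), IsUnit ε ∧
        g = (ε : ↥(modularFunctionFieldFullC ↥(beta0Field A) (M * q))))
    (hgN : ∀ (𝔫 : AtPt (F := ↥(modularFunctionFieldFullC ↥(beta0Field A) (M * q))) π
        (bgJ ↥(beta0Field A) (M * q)))
      (X Y : ↥(zchClosure (A₀ := ↥(beta0Ring A (beta0Field A)))
        ({bgJ ↥(beta0Field A) (M * q)} :
          Set ↥(modularFunctionFieldFullC ↥(beta0Field A) (M * q))))),
      Rtk6lfCrossAt (mgvV hπ ιC hq hqM true) (mgvV hπ ιC hq hqM false) 𝔫 X Y →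
      ∃ ε : ↥(atLoc 𝔫), IsUnit ε ∧
        g = (ε : ↥(modularFunctionFieldFullC ↥(beta0Field A) (M * q))) *
          (Y : ↥(modularFunctionFieldFullC ↥(beta0Field A) (M * q))) ^ e)
    {ι : Type*} [Fintype ι]
    (hsplit : ∀ 𝔫 : AtPt (F := ↥(modularFunctionFieldFullC ↥(beta0Field A) (M * q))) π
        (bgJ ↥(beta0Field A) (M * q)),
      atThrough 𝔫 (mgvV hπ ιC hq hqM true) → ∀ [IsLocalRing ↥(atLoc 𝔫)],
        ∃ (z : L) (P : (↥(atLoc 𝔫))[X]) (c : ι → ↥(atLoc 𝔫)),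
          Tres5eSplit ↥(modularFunctionFieldFullC ↥(beta0Field A) (M * q)) z P c)
    {p : ℕ} {u : L} (hu0 : u ≠ 0)
    (hhor : ∀ Pl : Place ↥(beta0Field A) L, (p : ℤ) ∣ Pl.ord u)
    (m₀ : ℤ)
    (hm₀ : ∀ (𝔫 : AtPt (F := ↥(modularFunctionFieldFullC ↥(beta0Field A) (M * q))) π
        (bgJ ↥(beta0Field A) (M * q)))
      (X Y : ↥(zchClosure (A₀ := ↥(beta0Ring A (beta0Field A)))
        ({bgJ ↥(beta0Field A) (M * q)} :
          Set ↥(modularFunctionFieldFullC ↥(beta0Field A) (M * q))))),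
      Rtk6lfCrossAt (mgvV hπ ιC hq hqM true) (mgvV hπ ιC hq hqM false) 𝔫 X Y →
      ∀ W' : ValuationSubring L,
      W'.comap (algebraMap ↥(modularFunctionFieldFullC ↥(beta0Field A) (M * q)) L) =
        mgvV hπ ιC hq hqM false →
      (p : ℤ) ∣ tres5Ord W' (algebraMap ↥(modularFunctionFieldFullC ↥(beta0Field A) (M * q)) L
        (algebraMap ↥(beta0Ring A (beta0Field A))
          ↥(modularFunctionFieldFullC ↥(beta0Field A) (M * q)) π)) u - m₀)
    (m : ℤ)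
    (hm : W.valuation (u / algebraMap ↥(modularFunctionFieldFullC ↥(beta0Field A) (M * q)) L
      (algebraMap ↥(beta0Ring A (beta0Field A))
        ↥(modularFunctionFieldFullC ↥(beta0Field A) (M * q)) π) ^ m) = 1) :
    ∀ 𝔫 : AtPt (F := ↥(modularFunctionFieldFullC ↥(beta0Field A) (M * q))) π
        (bgJ ↥(beta0Field A) (M * q)),
      ∀ T : ValuationSubring L,
      (∀ x ∈ atLoc 𝔫,
        algebraMap ↥(modularFunctionFieldFullC ↥(beta0Field A) (M * q)) L x ∈ T) →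
      (∀ x ∈ T, x ∈ W) →
      ∃ O' : Subring L, (∀ x ∈ O', x ∈ T) ∧
        TresMonoPt W O' p (m₀ - m) e
          (u / algebraMap ↥(modularFunctionFieldFullC ↥(beta0Field A) (M * q)) L
            (algebraMap ↥(beta0Ring A (beta0Field A))
              ↥(modularFunctionFieldFullC ↥(beta0Field A) (M * q)) π) ^ m)
          (algebraMap ↥(modularFunctionFieldFullC ↥(beta0Field A) (M * q)) L g) := by
  intro 𝔫 T hRT hTW
  haveI := 𝔫.2.1.isPrime
  haveI := rtk6lfb_noeth_J (A := A) (K₀ := beta0Field A) (M := M) (q := q)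
  haveI := ribmp_fc_fin (K₀ := beta0Field A) (M * q)
  haveI : IsLocalRing ↥(atLoc 𝔫) :=
    ls_localSubring_isLocalRing (F := ↥(modularFunctionFieldFullC ↥(beta0Field A) (M * q)))
      Subtype.val_injective 𝔫.1
  have h2 := rtk6lfb_rigid_h2 rigid
  have h3 := rtk6lfb_rigid_h3 rigid
  have hSS1 := ribmp_fc_hSS1 hπ ιC hq hqM hA (le_refl (beta0Field A)) h2 h3
  have hthr : atThrough 𝔫 (mgvV hπ ιC hq hqM true) :=
    tres5npj_through 𝔫 W T _ hWV hRT hTW
  obtain ⟨z, P, c, H⟩ := hsplit 𝔫 hthr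
  rcases rtk6lfb0_thinAt_J hπ ιC hq hqM hA rigid 𝔫 with ⟨s, hs, hgen⟩ | ⟨X, Y, hcross⟩
  · -- smooth point
    have harch' : ∀ c, StbArch (mgvV hπ ιC hq hqM c) := fun c x a ha => by
      obtain ⟨N, hN⟩ := mgv_harch hπ ιC hq hqM c a x ha
      exact ⟨N, by rw [mul_comm x (a ^ N)]; exact hN⟩
    obtain ⟨c₀, hc₀, hone⟩ := stb_sx_exists_unique (mgvV hπ ιC hq hqM) (mgv_hBV₁ hπ ιC hq hqM)
      (mgv_hπV hπ ιC hq hqM) hSS1 (mgv_hVloc₁ hπ ιC hq hqM hA hSS1)
      (fun c c' hcc' => stb_not_le_of_ne (harch' c) (ribmp_fc_hπ0 hπ) (mgv_hπV hπ ιC hq hqM c')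
        (rtk6lfb_hne hπ ιC hq hqM hA c c' hcc')) 𝔫 s hs hgen
    have hc₀t : c₀ = true := (hone true hthr).symm
    subst hc₀t
    obtain ⟨ε', hε', hh⟩ := hgS 𝔫 hthr hone s hs hgen
    exact tres5np_smooth (E := ↥(beta0Field A)) hπ (mgvV hπ ιC hq hqM)
      (mgv_hBV₁ hπ ιC hq hqM) (mgv_hπV hπ ιC hq hqM) hSS1 (ribmp_fc_hU hπ ιC hq hqM) 𝔫 true
      hthr hone hs hgen H W hWV hu0 (fun Pl _ => hhor Pl) ε' hε' (by rw [hh]) (m₀ - m) e m hm
      T hRT hTW
  · -- thin node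
    obtain ⟨ε', hε', hh⟩ := hgN 𝔫 X Y hcross
    exact tres5np_node (E := ↥(beta0Field A)) hπ (mgvV hπ ιC hq hqM) true false mgv_hκ
      (mgv_hBV₁ hπ ιC hq hqM) (mgv_hπV hπ ιC hq hqM) hSS1 (ribmp_fc_hU hπ ιC hq hqM) 𝔫
      hcross H W hWV hu0 (fun Pl _ => hhor Pl) ε' hε' e
      (by rw [hh]) m₀ (hm₀ 𝔫 X Y hcross) m hm T hRT hTW

include hπ ιC hq hqM in
/-- **(I3) of `tresmonof_frame`**, ABSTRACT Ogg datum `(g, e)` with `e : ℕ` (the shape of
`tres5o_cross_fac`: `g = ε · Y ^ e`, natural power); conclusion at the exponent `(e : ℤ)`. -/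
theorem s59lpnp_hfin_node (hA : A.LiesOverPrime q)
    (rigid : (q ≠ 2 → 4 ∣ M) ∧ (q = 2 → 9 ∣ M))
    {L : Type*} [Field L] [Algebra ↥(modularFunctionFieldFullC ↥(beta0Field A) (M * q)) L]
    [Algebra ↥(beta0Field A) L]
    [IsScalarTower ↥(beta0Field A) ↥(modularFunctionFieldFullC ↥(beta0Field A) (M * q)) L]
    (W : ValuationSubring L)
    (hWV : W.comap (algebraMap ↥(modularFunctionFieldFullC ↥(beta0Field A) (M * q)) L) =
      mgvV hπ ιC hq hqM true)
    -- the abstract Ogg datum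
    (g : ↥(modularFunctionFieldFullC ↥(beta0Field A) (M * q))) (e : ℕ)
    (hgS : ∀ (𝔫 : AtPt (F := ↥(modularFunctionFieldFullC ↥(beta0Field A) (M * q))) π
        (bgJ ↥(beta0Field A) (M * q))),
      atThrough 𝔫 (mgvV hπ ιC hq hqM true) →
      (∀ c', atThrough 𝔫 (mgvV hπ ιC hq hqM c') → c' = true) →
      ∀ s : ↥(zchClosure (A₀ := ↥(beta0Ring A (beta0Field A)))
        ({bgJ ↥(beta0Field A) (M * q)} :
          Set ↥(modularFunctionFieldFullC ↥(beta0Field A) (M * q)))), s ∈ 𝔫.1 →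
      NodesLocGen 𝔫.1 {algebraMap ↥(beta0Ring A (beta0Field A))
        ↥(zchClosure (A₀ := ↥(beta0Ring A (beta0Field A)))
          ({bgJ ↥(beta0Field A) (M * q)} :
            Set ↥(modularFunctionFieldFullC ↥(beta0Field A) (M * q)))) π, s} →
      ∃ ε : ↥(atLoc 𝔫), IsUnit ε ∧
        g = (ε : ↥(modularFunctionFieldFullC ↥(beta0Field A) (M * q))))
    (hgN : ∀ (𝔫 : AtPt (F := ↥(modularFunctionFieldFullC ↥(beta0Field A) (M * q))) π
        (bgJ ↥(beta0Field A) (M * q)))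
      (X Y : ↥(zchClosure (A₀ := ↥(beta0Ring A (beta0Field A)))
        ({bgJ ↥(beta0Field A) (M * q)} :
          Set ↥(modularFunctionFieldFullC ↥(beta0Field A) (M * q))))),
      Rtk6lfCrossAt (mgvV hπ ιC hq hqM true) (mgvV hπ ιC hq hqM false) 𝔫 X Y →
      ∃ ε : ↥(atLoc 𝔫), IsUnit ε ∧
        g = (ε : ↥(modularFunctionFieldFullC ↥(beta0Field A) (M * q))) *
          (Y : ↥(modularFunctionFieldFullC ↥(beta0Field A) (M * q))) ^ e)
    {ι : Type*} [Fintype ι]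
    (hsplit : ∀ 𝔫 : AtPt (F := ↥(modularFunctionFieldFullC ↥(beta0Field A) (M * q))) π
        (bgJ ↥(beta0Field A) (M * q)),
      atThrough 𝔫 (mgvV hπ ιC hq hqM true) → ∀ [IsLocalRing ↥(atLoc 𝔫)],
        ∃ (z : L) (P : (↥(atLoc 𝔫))[X]) (c : ι → ↥(atLoc 𝔫)),
          Tres5eSplit ↥(modularFunctionFieldFullC ↥(beta0Field A) (M * q)) z P c)
    {p : ℕ} {u : L} (hu0 : u ≠ 0)
    (hhor : ∀ Pl : Place ↥(beta0Field A) L, (p : ℤ) ∣ Pl.ord u)
    (m₀ : ℤ)
    (hm₀ : ∀ (𝔫 : AtPt (F := ↥(modularFunctionFieldFullC ↥(beta0Field A) (M * q))) π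
        (bgJ ↥(beta0Field A) (M * q)))
      (X Y : ↥(zchClosure (A₀ := ↥(beta0Ring A (beta0Field A)))
        ({bgJ ↥(beta0Field A) (M * q)} :
          Set ↥(modularFunctionFieldFullC ↥(beta0Field A) (M * q))))),
      Rtk6lfCrossAt (mgvV hπ ιC hq hqM true) (mgvV hπ ιC hq hqM false) 𝔫 X Y →
      ∀ W' : ValuationSubring L,
      W'.comap (algebraMap ↥(modularFunctionFieldFullC ↥(beta0Field A) (M * q)) L) =
        mgvV hπ ιC hq hqM false →
      (p : ℤ) ∣ tres5Ord W' (algebraMap ↥(modularFunctionFieldFullC ↥(beta0Field A) (M * q)) L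
        (algebraMap ↥(beta0Ring A (beta0Field A))
          ↥(modularFunctionFieldFullC ↥(beta0Field A) (M * q)) π)) u - m₀)
    (m : ℤ)
    (hm : W.valuation (u / algebraMap ↥(modularFunctionFieldFullC ↥(beta0Field A) (M * q)) L
      (algebraMap ↥(beta0Ring A (beta0Field A))
        ↥(modularFunctionFieldFullC ↥(beta0Field A) (M * q)) π) ^ m) = 1) :
    ∀ 𝔫 : AtPt (F := ↥(modularFunctionFieldFullC ↥(beta0Field A) (M * q))) π
        (bgJ ↥(beta0Field A) (M * q)),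
      ∀ T : ValuationSubring L,
      (∀ x ∈ atLoc 𝔫,
        algebraMap ↥(modularFunctionFieldFullC ↥(beta0Field A) (M * q)) L x ∈ T) →
      (∀ x ∈ T, x ∈ W) →
      ∃ O' : Subring L, (∀ x ∈ O', x ∈ T) ∧
        TresMonoPt W O' p (m₀ - m) (e : ℤ)
          (u / algebraMap ↥(modularFunctionFieldFullC ↥(beta0Field A) (M * q)) L
            (algebraMap ↥(beta0Ring A (beta0Field A))
              ↥(modularFunctionFieldFullC ↥(beta0Field A) (M * q)) π) ^ m)
          (algebraMap ↥(modularFunctionFieldFullC ↥(beta0Field A) (M * q)) L g) :=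
  s59lpnp_hfin_node_z hπ ιC hq hqM hA rigid W hWV g (e : ℤ) hgS
    (fun 𝔫 X Y hcross => by
      obtain ⟨ε, hε, hh⟩ := hgN 𝔫 X Y hcross
      exact ⟨ε, hε, by rw [hh, zpow_natCast]⟩)
    hsplit hu0 hhor m₀ hm₀ m hm

end Base

section Loc

variable {A : ValuationSubring Qb} {q M : ℕ} [NeZero q] [NeZero M] [NeZero (M * q)]
  [IsDiscreteValuationRing ↥(beta0Ring A (beta0Field A))]
  {π : ↥(beta0Ring A (beta0Field A))} (hπ : Irreducible π)
  (ιC : ↥(beta0Field A) →+* ℂ) (hq : q.Prime) (hqM : ¬ q ∣ M)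

include hπ ιC hq hqM in
/-- **The (LOC) half of the cover block over an ABSTRACT Ogg datum `(g, e)`**: twin of
`tresmt_loc` (`R38/TresMonoTop.lean`). -/
theorem s59lpnp_loc (hA : A.LiesOverPrime q)
    (rigid : (q ≠ 2 → 4 ∣ M) ∧ (q = 2 → 9 ∣ M))
    {L : Type*} [Field L] [Algebra ↥(modularFunctionFieldFullC ↥(beta0Field A) (M * q)) L]
    [Algebra ↥(beta0Field A) L]
    [IsScalarTower ↥(beta0Field A) ↥(modularFunctionFieldFullC ↥(beta0Field A) (M * q)) L]
    (T : Tres5Gen ↥(modularFunctionFieldFullC ↥(beta0Field A) (M * q)) L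
      (mgvV hπ ιC hq hqM true) q)
    {k₀ : ℕ} (hk₀ : k₀ < q)
    -- the abstract Ogg datum
    (g : ↥(modularFunctionFieldFullC ↥(beta0Field A) (M * q))) (e : ℕ)
    (hgS : ∀ (𝔫 : AtPt (F := ↥(modularFunctionFieldFullC ↥(beta0Field A) (M * q))) π
        (bgJ ↥(beta0Field A) (M * q))),
      atThrough 𝔫 (mgvV hπ ιC hq hqM true) →
      (∀ c', atThrough 𝔫 (mgvV hπ ιC hq hqM c') → c' = true) →
      ∀ s : ↥(zchClosure (A₀ := ↥(beta0Ring A (beta0Field A)))
        ({bgJ ↥(beta0Field A) (M * q)} :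
          Set ↥(modularFunctionFieldFullC ↥(beta0Field A) (M * q)))), s ∈ 𝔫.1 →
      NodesLocGen 𝔫.1 {algebraMap ↥(beta0Ring A (beta0Field A))
        ↥(zchClosure (A₀ := ↥(beta0Ring A (beta0Field A)))
          ({bgJ ↥(beta0Field A) (M * q)} :
            Set ↥(modularFunctionFieldFullC ↥(beta0Field A) (M * q)))) π, s} →
      ∃ ε : ↥(atLoc 𝔫), IsUnit ε ∧
        g = (ε : ↥(modularFunctionFieldFullC ↥(beta0Field A) (M * q))))
    (hgN : ∀ (𝔫 : AtPt (F := ↥(modularFunctionFieldFullC ↥(beta0Field A) (M * q))) π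
        (bgJ ↥(beta0Field A) (M * q)))
      (X Y : ↥(zchClosure (A₀ := ↥(beta0Ring A (beta0Field A)))
        ({bgJ ↥(beta0Field A) (M * q)} :
          Set ↥(modularFunctionFieldFullC ↥(beta0Field A) (M * q))))),
      Rtk6lfCrossAt (mgvV hπ ιC hq hqM true) (mgvV hπ ιC hq hqM false) 𝔫 X Y →
      ∃ ε : ↥(atLoc 𝔫), IsUnit ε ∧
        g = (ε : ↥(modularFunctionFieldFullC ↥(beta0Field A) (M * q))) *
          (Y : ↥(modularFunctionFieldFullC ↥(beta0Field A) (M * q))) ^ e)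
    (ρK : L →ₐ[↥(modularFunctionFieldFullC ↥(beta0Field A) (M * q))] L)
    {w h : L} {a : ↥(modularFunctionFieldFullC ↥(beta0Field A) (M * q))}
    (hw0 : w ≠ 0) (ha0 : a ≠ 0) (hh0 : h ≠ 0)
    (hρu : ρK w =
      algebraMap ↥(modularFunctionFieldFullC ↥(beta0Field A) (M * q)) L a * w * h ^ q)
    (hpa : (q : ℤ) ∣ tres5Ord (mgvV hπ ιC hq hqM false)
      (algebraMap ↥(beta0Ring A (beta0Field A))
        ↥(modularFunctionFieldFullC ↥(beta0Field A) (M * q)) π) a)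
    (hhor : ∀ Pl : Place ↥(beta0Field A) L, (q : ℤ) ∣ Pl.ord w)
    (hsplitJ : ∀ 𝔫 : AtPt (F := ↥(modularFunctionFieldFullC ↥(beta0Field A) (M * q))) π
        (bgJ ↥(beta0Field A) (M * q)),
      atThrough 𝔫 (mgvV hπ ιC hq hqM true) → ∀ [IsLocalRing ↥(atLoc 𝔫)],
        ∃ (z : L) (P : (↥(atLoc 𝔫))[X]) (c : ZMod q → ↥(atLoc 𝔫)),
          Tres5eSplit ↥(modularFunctionFieldFullC ↥(beta0Field A) (M * q)) z P c ∧
          ∀ i : ZMod q, ∃ b ∈ tres5eMax ↥(atLoc 𝔫) z (c i),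
            ρK z = algebraMap ↥(atLoc 𝔫) L (c (i + 1)) + (b : L))
    (hsplitC : ∀ 𝔫 : AtPt (F := ↥(modularFunctionFieldFullC ↥(beta0Field A) (M * q))) π
        (bgJ ↥(beta0Field A) (M * q))⁻¹,
      atThrough 𝔫 (mgvV hπ ιC hq hqM true) →
      (∀ b : ↥(zchClosure (A₀ := ↥(beta0Ring A (beta0Field A)))
          ({(bgJ ↥(beta0Field A) (M * q))⁻¹} :
            Set ↥(modularFunctionFieldFullC ↥(beta0Field A) (M * q)))),
        (b : ↥(modularFunctionFieldFullC ↥(beta0Field A) (M * q))) =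
          (bgJ ↥(beta0Field A) (M * q))⁻¹ → b ∈ 𝔫.1) →
      ∀ [IsLocalRing ↥(atLoc 𝔫)],
        ∃ (z : L) (P : (↥(atLoc 𝔫))[X]) (c : ZMod q → ↥(atLoc 𝔫)),
          Tres5eSplit ↥(modularFunctionFieldFullC ↥(beta0Field A) (M * q)) z P c)
    (m : ℤ)
    (hm : (T.W k₀).valuation
      (w / algebraMap ↥(modularFunctionFieldFullC ↥(beta0Field A) (M * q)) L
        (algebraMap ↥(beta0Ring A (beta0Field A))
          ↥(modularFunctionFieldFullC ↥(beta0Field A) (M * q)) π) ^ m) = 1) :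
    ∃ m₀ : ℤ,
      (∀ 𝔫 : AtPt (F := ↥(modularFunctionFieldFullC ↥(beta0Field A) (M * q))) π
          (bgJ ↥(beta0Field A) (M * q)),
        ∀ T' : ValuationSubring L,
        (∀ x ∈ atLoc 𝔫,
          algebraMap ↥(modularFunctionFieldFullC ↥(beta0Field A) (M * q)) L x ∈ T') →
        (∀ x ∈ T', x ∈ T.W k₀) →
        ∃ O' : Subring L, (∀ x ∈ O', x ∈ T') ∧
          TresMonoPt (T.W k₀) O' q (m₀ - m) (e : ℤ)
            (w / algebraMap ↥(modularFunctionFieldFullC ↥(beta0Field A) (M * q)) L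
              (algebraMap ↥(beta0Ring A (beta0Field A))
                ↥(modularFunctionFieldFullC ↥(beta0Field A) (M * q)) π) ^ m)
            (algebraMap ↥(modularFunctionFieldFullC ↥(beta0Field A) (M * q)) L g)) ∧
      (∀ 𝔫 : AtPt (F := ↥(modularFunctionFieldFullC ↥(beta0Field A) (M * q))) π
          (bgJ ↥(beta0Field A) (M * q))⁻¹,
        ∀ T' : ValuationSubring L,
        (∀ x ∈ atLoc 𝔫,
          algebraMap ↥(modularFunctionFieldFullC ↥(beta0Field A) (M * q)) L x ∈ T') →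
        (∀ x ∈ T', x ∈ T.W k₀) →
        (∀ b : ↥(zchClosure (A₀ := ↥(beta0Ring A (beta0Field A)))
            ({(bgJ ↥(beta0Field A) (M * q))⁻¹} :
              Set ↥(modularFunctionFieldFullC ↥(beta0Field A) (M * q)))),
          (b : ↥(modularFunctionFieldFullC ↥(beta0Field A) (M * q))) =
            (bgJ ↥(beta0Field A) (M * q))⁻¹ → b ∈ 𝔫.1) →
        ∃ O' : Subring L, (∀ x ∈ O', x ∈ T') ∧
          StbFacAt O' q
            (w / algebraMap ↥(modularFunctionFieldFullC ↥(beta0Field A) (M * q)) L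
              (algebraMap ↥(beta0Ring A (beta0Field A))
                ↥(modularFunctionFieldFullC ↥(beta0Field A) (M * q)) π) ^ m)) := by
  haveI : Fact q.Prime := ⟨hq⟩
  have hWV := T.W_comap hk₀
  -- the deck transformation is bijective
  haveI : FiniteDimensional ↥(modularFunctionFieldFullC ↥(beta0Field A) (M * q)) L :=
    Module.finite_of_finrank_pos (by rw [T.hfin]; exact hq.pos)
  have hbij : Function.Bijective ρK := Algebra.IsAlgebraic.algHom_bijective ρK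
  -- MONO-0
  obtain ⟨m₀, hm₀⟩ := tresmzi_main_zmod hπ ιC hq hqM hA rigid (p := q) q hw0 ha0 hh0 ρK hbij hρu
    hpa (fun 𝔫 X Y hcross _ => hsplitJ 𝔫 hcross.1)
  refine ⟨m₀, ?_, ?_⟩
  · exact s59lpnp_hfin_node hπ ιC hq hqM hA rigid (T.W k₀) hWV g e hgS hgN
      (fun 𝔫 hthr _ => by
        obtain ⟨z, P, c, H, -⟩ := hsplitJ 𝔫 hthr
        exact ⟨z, P, c, H⟩) hw0 hhor m₀ hm₀ m hm
  · exact tres5npc_hcusp_rigid hπ ιC hq hqM hA rigid (T.W k₀) hWV hsplitC hw0 hhor m hm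

end Loc

/-- FIT-TEST: the landed Ogg unit `s36tuV` with `e = 12` is an instance of the abstract datum:
`hgS` = `tres5o_smooth_unit`, `hgN` = `tres5o_cross_fac` at `q ∼ π ^ 1`. -/
theorem s59lpnp_fit_ogg {A : ValuationSubring Qb} {q M : ℕ} [NeZero q] [NeZero M]
    [NeZero (M * q)] [IsDiscreteValuationRing ↥(beta0Ring A (beta0Field A))]
    {π : ↥(beta0Ring A (beta0Field A))} (hπ : Irreducible π)
    (ιC : ↥(beta0Field A) →+* ℂ) (hq : q.Prime) (hqM : ¬ q ∣ M) (hA : A.LiesOverPrime q)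
    (rigid : (q ≠ 2 → 4 ∣ M) ∧ (q = 2 → 9 ∣ M)) :
    (∀ (𝔫 : AtPt (F := ↥(modularFunctionFieldFullC ↥(beta0Field A) (M * q))) π
        (bgJ ↥(beta0Field A) (M * q))),
      atThrough 𝔫 (mgvV hπ ιC hq hqM true) →
      (∀ c', atThrough 𝔫 (mgvV hπ ιC hq hqM c') → c' = true) →
      ∀ s : ↥(zchClosure (A₀ := ↥(beta0Ring A (beta0Field A)))
        ({bgJ ↥(beta0Field A) (M * q)} :
          Set ↥(modularFunctionFieldFullC ↥(beta0Field A) (M * q)))), s ∈ 𝔫.1 →
      NodesLocGen 𝔫.1 {algebraMap ↥(beta0Ring A (beta0Field A))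
        ↥(zchClosure (A₀ := ↥(beta0Ring A (beta0Field A)))
          ({bgJ ↥(beta0Field A) (M * q)} :
            Set ↥(modularFunctionFieldFullC ↥(beta0Field A) (M * q)))) π, s} →
      ∃ ε : ↥(atLoc 𝔫), IsUnit ε ∧
        s36tuV ↥(beta0Field A) ιC (q := q) (M := M) =
          (ε : ↥(modularFunctionFieldFullC ↥(beta0Field A) (M * q)))) ∧
    (∀ (𝔫 : AtPt (F := ↥(modularFunctionFieldFullC ↥(beta0Field A) (M * q))) π
        (bgJ ↥(beta0Field A) (M * q)))
      (X Y : ↥(zchClosure (A₀ := ↥(beta0Ring A (beta0Field A)))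
        ({bgJ ↥(beta0Field A) (M * q)} :
          Set ↥(modularFunctionFieldFullC ↥(beta0Field A) (M * q))))),
      Rtk6lfCrossAt (mgvV hπ ιC hq hqM true) (mgvV hπ ιC hq hqM false) 𝔫 X Y →
      ∃ ε : ↥(atLoc 𝔫), IsUnit ε ∧
        s36tuV ↥(beta0Field A) ιC (q := q) (M := M) =
          (ε : ↥(modularFunctionFieldFullC ↥(beta0Field A) (M * q))) *
            (Y : ↥(modularFunctionFieldFullC ↥(beta0Field A) (M * q))) ^ 12) := by
  haveI := rtk6lfb_noeth_J (A := A) (K₀ := beta0Field A) (M := M) (q := q)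
  have h2 := rtk6lfb_rigid_h2 rigid
  have h3 := rtk6lfb_rigid_h3 rigid
  refine ⟨fun 𝔫 hthr hone s hs hgen =>
    tres5o_smooth_unit hπ ιC hq hqM hA (le_refl (beta0Field A)) h2 h3 𝔫 hthr hone hs hgen,
    fun 𝔫 X Y hcross => ?_⟩
  obtain ⟨ε, hε, hh⟩ := tres5o_cross_fac hπ ιC hq hqM hA (le_refl (beta0Field A)) h2 h3
    (tres5o_assoc_q hπ hq hA) 𝔫 hcross
  exact ⟨ε, hε, by rw [hh]⟩

end Fermat.Agent.S59

end
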