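/-
S59, wall M4 (LOWER-P) at `p = 3`, leaf OGG3 / L1 SER (helper87; split of helper10).

The formal `q`-expansions of the level-6 unit and of its Atkin–Lehner companion
    `h6 = η(z)⁵ η(3z) / (η(2z) η(6z)⁵) = q⁻¹ ∏ (1 - qⁿ)⁵ (1 - q³ⁿ) (1 - q²ⁿ)⁻¹ (1 - q⁶ⁿ)⁻⁵`,
    `g6 = η(3z)⁵ η(z) / (η(6z) η(2z)⁵) =     ∏ (1 - q³ⁿ)⁵ (1 - qⁿ) (1 - q⁶ⁿ)⁻¹ (1 - q²ⁿ)⁻⁵`
over every commutative ring `R`, from the Euler product `ModularCurve.etaProd` of the prelude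
(which is behind `S28.deltaS`, `S28.deltaInvS`).

* `s59lposer_phiS R`, `s59lposer_phiInvS R` : `φ = ∏ (1 - qⁿ)` and `φ⁻¹` in `R((q))`;
* `s59lposer_h6S R`, `s59lposer_h6InvS R`, `s59lposer_g6S R`, `s59lposer_g6InvS R`;
* `s59lposer_h6S_mul_inv`, `s59lposer_g6S_mul_inv`, `s59lposer_isUnit_h6S`, `s59lposer_isUnit_g6S`;
* `s59lposer_deltaS_eq : Δ = q φ²⁴`, `s59lposer_deltaInvS_eq : Δ⁻¹ = q⁻¹ (φ⁻¹)²⁴`;
* `s59lposer_h6S_pow : h6 ^ 24 = Δ⁵ · Δ(q³) · Δ⁻¹(q²) · (Δ⁻¹(q⁶))⁵`;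
* `s59lposer_g6S_pow : g6 ^ 24 = Δ(q³)⁵ · Δ · Δ⁻¹(q⁶) · (Δ⁻¹(q²))⁵`;
* `s59lposer_coeffMap_h6S`, `s59lposer_coeffMap_g6S`, … : compatibility with `coeffMap`;
* `s59lposer_h6S_eq`, `s59lposer_g6S_eq` : the product formulas over `R`.
-/
import Fermat.Agent.S28.Transfer

set_option autoImplicit false
set_option linter.unusedSectionVars false
set_option linter.unusedVariables false

noncomputable section

namespace Fermat.Agent.S59

open HahnSeries ModularCurve Fermat.Agent.S28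

/-! ### The Euler product over `ℤ` -/

/-- `φ = ∏ (1 - qⁿ)` over `ℤ` -/
def s59lposer_phiZ : LaurentSeries ℤ := HahnSeries.ofPowerSeries ℤ ℤ etaProd

/-- `φ⁻¹` over `ℤ` -/
def s59lposer_phiInvZ : LaurentSeries ℤ :=
  HahnSeries.ofPowerSeries ℤ ℤ (etaProd.invOfUnit 1)

theorem s59lposer_phiZ_mul_inv : s59lposer_phiZ * s59lposer_phiInvZ = 1 := by
  rw [s59lposer_phiZ, s59lposer_phiInvZ, ← map_mul,
    PowerSeries.mul_invOfUnit _ _ (by rw [constantCoeff_etaProd]; rfl), map_one]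

theorem s59lposer_single_mul_single_neg :
    (HahnSeries.single (1 : ℤ) (1 : ℤ) : LaurentSeries ℤ) * HahnSeries.single (-1 : ℤ) (1 : ℤ)
      = 1 := by
  rw [HahnSeries.single_mul_single, add_neg_cancel, mul_one]
  rfl

theorem s59lposer_deltaZ_eq :
    deltaZ = HahnSeries.single (1 : ℤ) (1 : ℤ) * s59lposer_phiZ ^ 24 := by
  rw [deltaZ, dedekindEtaUnit, map_pow, s59lposer_phiZ]

theorem s59lposer_deltaInvZ_eq :
    deltaInvZ = HahnSeries.single (-1 : ℤ) (1 : ℤ) * s59lposer_phiInvZ ^ 24 := by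
  have h1 : deltaZ * deltaInvZ = 1 := deltaZ_mul_deltaInvZ
  have h2 : deltaZ * (HahnSeries.single (-1 : ℤ) (1 : ℤ) * s59lposer_phiInvZ ^ 24) = 1 := by
    rw [s59lposer_deltaZ_eq, mul_mul_mul_comm, s59lposer_single_mul_single_neg, ← mul_pow,
      s59lposer_phiZ_mul_inv, one_pow, mul_one]
  calc deltaInvZ
      = deltaInvZ * (deltaZ * (HahnSeries.single (-1 : ℤ) (1 : ℤ) * s59lposer_phiInvZ ^ 24)) := by
        rw [h2, mul_one]
    _ = (deltaZ * deltaInvZ) * (HahnSeries.single (-1 : ℤ) (1 : ℤ) * s59lposer_phiInvZ ^ 24) := by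
        ring
    _ = HahnSeries.single (-1 : ℤ) (1 : ℤ) * s59lposer_phiInvZ ^ 24 := by rw [h1, one_mul]

/-! ### The units over `ℤ` -/

/-- `h6 = q⁻¹ φ⁵ φ(q³) φ⁻¹(q²) (φ⁻¹(q⁶))⁵` over `ℤ` -/
def s59lposer_h6Z : LaurentSeries ℤ :=
  HahnSeries.single (-1 : ℤ) (1 : ℤ) * s59lposer_phiZ ^ 5 * qExpand ℤ 3 s59lposer_phiZ *
    qExpand ℤ 2 s59lposer_phiInvZ * qExpand ℤ 6 s59lposer_phiInvZ ^ 5

/-- `h6⁻¹ = q (φ⁻¹)⁵ φ⁻¹(q³) φ(q²) φ(q⁶)⁵` over `ℤ` -/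
def s59lposer_h6InvZ : LaurentSeries ℤ :=
  HahnSeries.single (1 : ℤ) (1 : ℤ) * s59lposer_phiInvZ ^ 5 * qExpand ℤ 3 s59lposer_phiInvZ *
    qExpand ℤ 2 s59lposer_phiZ * qExpand ℤ 6 s59lposer_phiZ ^ 5

/-- `g6 = φ(q³)⁵ φ φ⁻¹(q⁶) (φ⁻¹(q²))⁵` over `ℤ` -/
def s59lposer_g6Z : LaurentSeries ℤ :=
  qExpand ℤ 3 s59lposer_phiZ ^ 5 * s59lposer_phiZ * qExpand ℤ 6 s59lposer_phiInvZ *
    qExpand ℤ 2 s59lposer_phiInvZ ^ 5

/-- `g6⁻¹` over `ℤ` -/
def s59lposer_g6InvZ : LaurentSeries ℤ :=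
  qExpand ℤ 3 s59lposer_phiInvZ ^ 5 * s59lposer_phiInvZ * qExpand ℤ 6 s59lposer_phiZ *
    qExpand ℤ 2 s59lposer_phiZ ^ 5

theorem s59lposer_qExpand_phiZ_mul_inv (d : ℕ) [NeZero d] :
    qExpand ℤ d s59lposer_phiZ * qExpand ℤ d s59lposer_phiInvZ = 1 := by
  rw [← map_mul, s59lposer_phiZ_mul_inv, map_one]

theorem s59lposer_h6Z_mul_inv : s59lposer_h6Z * s59lposer_h6InvZ = 1 := by
  have hq := s59lposer_single_mul_single_neg
  have h1 := s59lposer_phiZ_mul_inv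
  have h3 := s59lposer_qExpand_phiZ_mul_inv 3
  have h2 := s59lposer_qExpand_phiZ_mul_inv 2
  have h6 := s59lposer_qExpand_phiZ_mul_inv 6
  rw [s59lposer_h6Z, s59lposer_h6InvZ]
  calc HahnSeries.single (-1 : ℤ) (1 : ℤ) * s59lposer_phiZ ^ 5 * qExpand ℤ 3 s59lposer_phiZ *
        qExpand ℤ 2 s59lposer_phiInvZ * qExpand ℤ 6 s59lposer_phiInvZ ^ 5 *
      (HahnSeries.single (1 : ℤ) (1 : ℤ) * s59lposer_phiInvZ ^ 5 *
        qExpand ℤ 3 s59lposer_phiInvZ * qExpand ℤ 2 s59lposer_phiZ *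
        qExpand ℤ 6 s59lposer_phiZ ^ 5)
      = (HahnSeries.single (1 : ℤ) (1 : ℤ) * HahnSeries.single (-1 : ℤ) (1 : ℤ)) *
          (s59lposer_phiZ * s59lposer_phiInvZ) ^ 5 *
          (qExpand ℤ 3 s59lposer_phiZ * qExpand ℤ 3 s59lposer_phiInvZ) *
          (qExpand ℤ 2 s59lposer_phiZ * qExpand ℤ 2 s59lposer_phiInvZ) *
          (qExpand ℤ 6 s59lposer_phiZ * qExpand ℤ 6 s59lposer_phiInvZ) ^ 5 := by ring
    _ = 1 := by rw [hq, h1, h3, h2, h6]; simp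

theorem s59lposer_g6Z_mul_inv : s59lposer_g6Z * s59lposer_g6InvZ = 1 := by
  have h1 := s59lposer_phiZ_mul_inv
  have h3 := s59lposer_qExpand_phiZ_mul_inv 3
  have h2 := s59lposer_qExpand_phiZ_mul_inv 2
  have h6 := s59lposer_qExpand_phiZ_mul_inv 6
  rw [s59lposer_g6Z, s59lposer_g6InvZ]
  calc qExpand ℤ 3 s59lposer_phiZ ^ 5 * s59lposer_phiZ * qExpand ℤ 6 s59lposer_phiInvZ *
        qExpand ℤ 2 s59lposer_phiInvZ ^ 5 *
      (qExpand ℤ 3 s59lposer_phiInvZ ^ 5 * s59lposer_phiInvZ * qExpand ℤ 6 s59lposer_phiZ *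
        qExpand ℤ 2 s59lposer_phiZ ^ 5)
      = (qExpand ℤ 3 s59lposer_phiZ * qExpand ℤ 3 s59lposer_phiInvZ) ^ 5 *
          (s59lposer_phiZ * s59lposer_phiInvZ) *
          (qExpand ℤ 6 s59lposer_phiZ * qExpand ℤ 6 s59lposer_phiInvZ) *
          (qExpand ℤ 2 s59lposer_phiZ * qExpand ℤ 2 s59lposer_phiInvZ) ^ 5 := by ring
    _ = 1 := by rw [h1, h3, h2, h6]; simp

/-- the monomials: `q⁵ · q³ · q⁻² · (q⁻⁶)⁵ = (q⁻¹)²⁴` -/
theorem s59lposer_single_h6 :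
    (HahnSeries.single (1 : ℤ) (1 : ℤ) : LaurentSeries ℤ) ^ 5 *
        qExpand ℤ 3 (HahnSeries.single (1 : ℤ) (1 : ℤ)) *
        qExpand ℤ 2 (HahnSeries.single (-1 : ℤ) (1 : ℤ)) *
        qExpand ℤ 6 (HahnSeries.single (-1 : ℤ) (1 : ℤ)) ^ 5 =
      (HahnSeries.single (-1 : ℤ) (1 : ℤ)) ^ 24 := by
  simp only [qExpand_single, HahnSeries.single_pow, HahnSeries.single_mul_single]
  norm_num

/-- the monomials: `(q³)⁵ · q · q⁻⁶ · (q⁻²)⁵ = 1` -/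
theorem s59lposer_single_g6 :
    qExpand ℤ 3 (HahnSeries.single (1 : ℤ) (1 : ℤ)) ^ 5 *
        (HahnSeries.single (1 : ℤ) (1 : ℤ) : LaurentSeries ℤ) *
        qExpand ℤ 6 (HahnSeries.single (-1 : ℤ) (1 : ℤ)) *
        qExpand ℤ 2 (HahnSeries.single (-1 : ℤ) (1 : ℤ)) ^ 5 = 1 := by
  simp only [qExpand_single, HahnSeries.single_pow, HahnSeries.single_mul_single]
  norm_num

/-- **`h6 ^ 24 = Δ⁵ Δ(q³) Δ⁻¹(q²) (Δ⁻¹(q⁶))⁵`** over `ℤ` -/
theorem s59lposer_h6Z_pow :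
    s59lposer_h6Z ^ 24 =
      deltaZ ^ 5 * qExpand ℤ 3 deltaZ * qExpand ℤ 2 deltaInvZ * qExpand ℤ 6 deltaInvZ ^ 5 := by
  rw [s59lposer_deltaZ_eq, s59lposer_deltaInvZ_eq, s59lposer_h6Z]
  simp only [map_mul, map_pow, mul_pow]
  rw [← s59lposer_single_h6]
  ring

/-- **`g6 ^ 24 = Δ(q³)⁵ Δ Δ⁻¹(q⁶) (Δ⁻¹(q²))⁵`** over `ℤ` -/
theorem s59lposer_g6Z_pow :
    s59lposer_g6Z ^ 24 =
      qExpand ℤ 3 deltaZ ^ 5 * deltaZ * qExpand ℤ 6 deltaInvZ * qExpand ℤ 2 deltaInvZ ^ 5 := by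
  have hs := s59lposer_single_g6
  rw [s59lposer_deltaZ_eq, s59lposer_deltaInvZ_eq, s59lposer_g6Z]
  simp only [map_mul, map_pow, mul_pow]
  calc (qExpand ℤ 3 s59lposer_phiZ ^ 5) ^ 24 * s59lposer_phiZ ^ 24 *
        qExpand ℤ 6 s59lposer_phiInvZ ^ 24 * (qExpand ℤ 2 s59lposer_phiInvZ ^ 5) ^ 24
      = 1 * ((qExpand ℤ 3 s59lposer_phiZ ^ 5) ^ 24 * s59lposer_phiZ ^ 24 *
        qExpand ℤ 6 s59lposer_phiInvZ ^ 24 * (qExpand ℤ 2 s59lposer_phiInvZ ^ 5) ^ 24) := by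
        rw [one_mul]
    _ = _ := by
        rw [← hs]
        ring

/-! ### The units over a commutative ring `R` -/

section Ring

variable (R : Type*) [CommRing R]

/-- `φ = ∏ (1 - qⁿ)` over `R` -/
def s59lposer_phiS : LaurentSeries R := coeffMap (Int.castRingHom R) s59lposer_phiZ

/-- `φ⁻¹` over `R` -/
def s59lposer_phiInvS : LaurentSeries R := coeffMap (Int.castRingHom R) s59lposer_phiInvZ

/-- the formal `q`-expansion of the level-6 unit `h6` over `R` -/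
def s59lposer_h6S : LaurentSeries R := coeffMap (Int.castRingHom R) s59lposer_h6Z

/-- the formal `q`-expansion of `h6⁻¹` over `R` -/
def s59lposer_h6InvS : LaurentSeries R := coeffMap (Int.castRingHom R) s59lposer_h6InvZ

/-- the formal `q`-expansion of the companion `g6` over `R` -/
def s59lposer_g6S : LaurentSeries R := coeffMap (Int.castRingHom R) s59lposer_g6Z

/-- the formal `q`-expansion of `g6⁻¹` over `R` -/
def s59lposer_g6InvS : LaurentSeries R := coeffMap (Int.castRingHom R) s59lposer_g6InvZ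

theorem s59lposer_phiS_eq :
    s59lposer_phiS R = HahnSeries.ofPowerSeries ℤ R (etaProd.map (Int.castRingHom R)) := by
  rw [s59lposer_phiS, s59lposer_phiZ, coeffMap_ofPowerSeries]

theorem s59lposer_phiS_mul_inv : s59lposer_phiS R * s59lposer_phiInvS R = 1 := by
  rw [s59lposer_phiS, s59lposer_phiInvS, ← map_mul, s59lposer_phiZ_mul_inv, map_one]

theorem s59lposer_h6S_mul_inv : s59lposer_h6S R * s59lposer_h6InvS R = 1 := by
  rw [s59lposer_h6S, s59lposer_h6InvS, ← map_mul, s59lposer_h6Z_mul_inv, map_one]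

theorem s59lposer_g6S_mul_inv : s59lposer_g6S R * s59lposer_g6InvS R = 1 := by
  rw [s59lposer_g6S, s59lposer_g6InvS, ← map_mul, s59lposer_g6Z_mul_inv, map_one]

theorem s59lposer_isUnit_h6S : IsUnit (s59lposer_h6S R) :=
  IsUnit.of_mul_eq_one _ (s59lposer_h6S_mul_inv R)

theorem s59lposer_isUnit_g6S : IsUnit (s59lposer_g6S R) :=
  IsUnit.of_mul_eq_one _ (s59lposer_g6S_mul_inv R)

/-- `Δ = q φ²⁴` over `R` -/
theorem s59lposer_deltaS_eq :
    deltaS R = HahnSeries.single (1 : ℤ) (1 : R) * s59lposer_phiS R ^ 24 := by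
  rw [deltaS, s59lposer_deltaZ_eq, map_mul, map_pow, coeffMap_single, map_one]
  rfl

/-- `Δ⁻¹ = q⁻¹ (φ⁻¹)²⁴` over `R` -/
theorem s59lposer_deltaInvS_eq :
    deltaInvS R = HahnSeries.single (-1 : ℤ) (1 : R) * s59lposer_phiInvS R ^ 24 := by
  rw [deltaInvS, s59lposer_deltaInvZ_eq, map_mul, map_pow, coeffMap_single, map_one]
  rfl

/-- the product formula of `h6` over `R` -/
theorem s59lposer_h6S_eq :
    s59lposer_h6S R =
      HahnSeries.single (-1 : ℤ) (1 : R) * s59lposer_phiS R ^ 5 *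
        qExpand R 3 (s59lposer_phiS R) * qExpand R 2 (s59lposer_phiInvS R) *
        qExpand R 6 (s59lposer_phiInvS R) ^ 5 := by
  rw [s59lposer_h6S, s59lposer_h6Z]
  simp only [map_mul, map_pow, coeffMap_qExpand, coeffMap_single, map_one]
  rfl

/-- the product formula of `g6` over `R` -/
theorem s59lposer_g6S_eq :
    s59lposer_g6S R =
      qExpand R 3 (s59lposer_phiS R) ^ 5 * s59lposer_phiS R *
        qExpand R 6 (s59lposer_phiInvS R) * qExpand R 2 (s59lposer_phiInvS R) ^ 5 := by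
  rw [s59lposer_g6S, s59lposer_g6Z]
  simp only [map_mul, map_pow, coeffMap_qExpand]
  rfl

/-- **`h6 ^ 24 = Δ⁵ Δ(q³) Δ⁻¹(q²) (Δ⁻¹(q⁶))⁵`** over `R` -/
theorem s59lposer_h6S_pow :
    s59lposer_h6S R ^ 24 =
      deltaS R ^ 5 * qExpand R 3 (deltaS R) * qExpand R 2 (deltaInvS R) *
        qExpand R 6 (deltaInvS R) ^ 5 := by
  rw [s59lposer_h6S, ← map_pow, s59lposer_h6Z_pow]
  simp only [map_mul, map_pow, coeffMap_qExpand]
  rfl

/-- **`g6 ^ 24 = Δ(q³)⁵ Δ Δ⁻¹(q⁶) (Δ⁻¹(q²))⁵`** over `R` -/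
theorem s59lposer_g6S_pow :
    s59lposer_g6S R ^ 24 =
      qExpand R 3 (deltaS R) ^ 5 * deltaS R * qExpand R 6 (deltaInvS R) *
        qExpand R 2 (deltaInvS R) ^ 5 := by
  rw [s59lposer_g6S, ← map_pow, s59lposer_g6Z_pow]
  simp only [map_mul, map_pow, coeffMap_qExpand]
  rfl

variable {R}

theorem s59lposer_coeffMap_phiS {S : Type*} [CommRing S] (g : R →+* S) :
    coeffMap g (s59lposer_phiS R) = s59lposer_phiS S := by
  rw [s59lposer_phiS, s59lposer_phiS, coeffMap_coeffMap]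
  exact coeffMap_congr (RingHom.ext_int _ _) _

theorem s59lposer_coeffMap_phiInvS {S : Type*} [CommRing S] (g : R →+* S) :
    coeffMap g (s59lposer_phiInvS R) = s59lposer_phiInvS S := by
  rw [s59lposer_phiInvS, s59lposer_phiInvS, coeffMap_coeffMap]
  exact coeffMap_congr (RingHom.ext_int _ _) _

theorem s59lposer_coeffMap_h6S {S : Type*} [CommRing S] (g : R →+* S) :
    coeffMap g (s59lposer_h6S R) = s59lposer_h6S S := by
  rw [s59lposer_h6S, s59lposer_h6S, coeffMap_coeffMap]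
  exact coeffMap_congr (RingHom.ext_int _ _) _

theorem s59lposer_coeffMap_h6InvS {S : Type*} [CommRing S] (g : R →+* S) :
    coeffMap g (s59lposer_h6InvS R) = s59lposer_h6InvS S := by
  rw [s59lposer_h6InvS, s59lposer_h6InvS, coeffMap_coeffMap]
  exact coeffMap_congr (RingHom.ext_int _ _) _

theorem s59lposer_coeffMap_g6S {S : Type*} [CommRing S] (g : R →+* S) :
    coeffMap g (s59lposer_g6S R) = s59lposer_g6S S := by
  rw [s59lposer_g6S, s59lposer_g6S, coeffMap_coeffMap]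
  exact coeffMap_congr (RingHom.ext_int _ _) _

theorem s59lposer_coeffMap_g6InvS {S : Type*} [CommRing S] (g : R →+* S) :
    coeffMap g (s59lposer_g6InvS R) = s59lposer_g6InvS S := by
  rw [s59lposer_g6InvS, s59lposer_g6InvS, coeffMap_coeffMap]
  exact coeffMap_congr (RingHom.ext_int _ _) _

end Ring

/-! ### Fields -/

section Field

variable (k : Type*) [Field k]

theorem s59lposer_h6S_ne_zero : s59lposer_h6S k ≠ 0 := (s59lposer_isUnit_h6S k).ne_zero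

theorem s59lposer_g6S_ne_zero : s59lposer_g6S k ≠ 0 := (s59lposer_isUnit_g6S k).ne_zero

theorem s59lposer_h6InvS_eq_inv : s59lposer_h6InvS k = (s59lposer_h6S k)⁻¹ :=
  eq_inv_of_mul_eq_one_right (s59lposer_h6S_mul_inv k)

theorem s59lposer_g6InvS_eq_inv : s59lposer_g6InvS k = (s59lposer_g6S k)⁻¹ :=
  eq_inv_of_mul_eq_one_right (s59lposer_g6S_mul_inv k)

theorem s59lposer_phiInvS_eq_inv : s59lposer_phiInvS k = (s59lposer_phiS k)⁻¹ :=
  eq_inv_of_mul_eq_one_right (s59lposer_phiS_mul_inv k)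

end Field

end Fermat.Agent.S59

end
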