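/-
S59, wall M4 (LOWER-P) at `p = 3`, leaf OGG3 / L2 AN (helper87; split of helper10).

The level-6 eta quotient `h6 = η(z)⁵ η(3z) / (η(2z) η(6z)⁵)` on the upper half plane, from
Mathlib's `ModularForm.eta`:

* `s59lpoan_h6 : ℍ → ℂ`, `s59lpoan_h6_eq` (the literal formula in `η`);
* `s59lpoan_h6_ne_zero`;
* `s59lpoan_h6_pow : h6 ^ 24 = Δ(z)⁵ Δ(3z) / (Δ(2z) Δ(6z)⁵)` (`= s59lpomem_D` of `Ogg3Mem.lean`);
* `s59lpoan_h6_factor : h6 = q⁻¹ · F⁵ · F(3z) · G(2z) · G(6z)⁵`, `F = ∏ (1 - qⁿ)`, `G = 1 / F`;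
* `s59lpoan_mdiff_h6 : MDiff h6`, `s59lpoan_isMerInf_h6`;
* `s59lpoan_laurentOf_h6 : laurentOf h6 = s59lposer_h6S ℂ` (the series of `Ogg3Ser.lean`);
* `s59lpoan_coeffMap_h6S : coeffMap ι (s59lposer_h6S K) = laurentOf h6` for `ι : K →+* ℂ`
  (the hypothesis `hx` of `s59lpomem_mem`).
-/
import Fermat.Agent.S59.LowP.Ogg3Ser
import Fermat.Agent.S28.ModUnit
import Fermat.Agent.S24.EtaExp

set_option autoImplicit false
set_option linter.unusedSectionVars false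
set_option linter.unusedVariables false

noncomputable section

namespace Fermat.Agent.S59

open UpperHalfPlane ModularForm Complex Function ModularCurve
open Fermat.Agent.S23 Fermat.Agent.S24 Fermat.Agent.S28
open scoped MatrixGroups Manifold

local notation "Δ" => ModularForm.discriminant
local notation "𝕢" => Function.Periodic.qParam

/-! ### The function -/

/-- the level-6 eta quotient `h6 = η(z)⁵ η(3z) / (η(2z) η(6z)⁵)` -/
def s59lpoan_h6 (z : ℍ) : ℂ :=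
  ModularForm.eta (z : ℂ) ^ 5 * ModularForm.eta ((scaleN 3 z : ℍ) : ℂ) /
    (ModularForm.eta ((scaleN 2 z : ℍ) : ℂ) * ModularForm.eta ((scaleN 6 z : ℍ) : ℂ) ^ 5)

theorem s59lpoan_h6_eq (z : ℍ) :
    s59lpoan_h6 z =
      ModularForm.eta (z : ℂ) ^ 5 * ModularForm.eta (3 * (z : ℂ)) /
        (ModularForm.eta (2 * (z : ℂ)) * ModularForm.eta (6 * (z : ℂ)) ^ 5) := by
  simp only [s59lpoan_h6, coe_scaleN, Nat.cast_ofNat]

theorem s59lpoan_eta_ne_zero (w : ℍ) : ModularForm.eta (w : ℂ) ≠ 0 :=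
  ModularForm.eta_ne_zero w.2

theorem s59lpoan_h6_ne_zero (z : ℍ) : s59lpoan_h6 z ≠ 0 := by
  unfold s59lpoan_h6
  exact div_ne_zero
    (mul_ne_zero (pow_ne_zero _ (s59lpoan_eta_ne_zero z)) (s59lpoan_eta_ne_zero _))
    (mul_ne_zero (s59lpoan_eta_ne_zero _) (pow_ne_zero _ (s59lpoan_eta_ne_zero _)))

theorem s59lpoan_discriminant_eq (w : ℍ) : Δ w = ModularForm.eta (w : ℂ) ^ 24 := rfl

/-- **`h6 ^ 24 = Δ(z)⁵ Δ(3z) / (Δ(2z) Δ(6z)⁵)`** -/
theorem s59lpoan_h6_pow (z : ℍ) :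
    s59lpoan_h6 z ^ 24 =
      Δ z ^ 5 * Δ (scaleN 3 z) / (Δ (scaleN 2 z) * Δ (scaleN 6 z) ^ 5) := by
  rw [s59lpoan_discriminant_eq, s59lpoan_discriminant_eq, s59lpoan_discriminant_eq,
    s59lpoan_discriminant_eq, s59lpoan_h6]
  ring

/-! ### The factorisation through the unit disc -/

/-- `F = ∏ (1 - qⁿ)` as a function on `ℍ` -/
def s59lpoan_F : ℍ → ℂ := ofDisc etaDisc

/-- `G = 1 / ∏ (1 - qⁿ)` as a function on `ℍ` -/
def s59lpoan_G : ℍ → ℂ := ofDisc (fun q => (etaDisc q)⁻¹)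

/-- `q⁻¹` as a function on `ℍ` -/
def s59lpoan_Qinv : ℍ → ℂ := fun z => (𝕢 1 (z : ℂ))⁻¹

theorem s59lpoan_eta_eq (w : ℍ) :
    ModularForm.eta (w : ℂ) = 𝕢 24 (w : ℂ) * s59lpoan_F w := rfl

theorem s59lpoan_F_ne_zero (w : ℍ) : s59lpoan_F w ≠ 0 :=
  etaDisc_ne_zero (norm_qParam_lt_one' w)

theorem s59lpoan_F_mul_G (w : ℍ) : s59lpoan_F w * s59lpoan_G w = 1 :=
  mul_inv_cancel₀ (s59lpoan_F_ne_zero w)

theorem s59lpoan_G_eq (w : ℍ) : s59lpoan_G w = (s59lpoan_F w)⁻¹ := rfl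

theorem s59lpoan_qParam_scaleN (d : ℕ) [NeZero d] (z : ℍ) :
    𝕢 24 ((scaleN d z : ℍ) : ℂ) = 𝕢 24 (z : ℂ) ^ d := by
  rw [coe_scaleN, Function.Periodic.qParam, Function.Periodic.qParam, ← Complex.exp_nat_mul]
  congr 1
  push_cast
  ring

theorem s59lpoan_qParam_one (z : ℍ) : 𝕢 1 (z : ℂ) = 𝕢 24 (z : ℂ) ^ 24 := by
  rw [Function.Periodic.qParam, Function.Periodic.qParam, ← Complex.exp_nat_mul]
  congr 1
  push_cast
  ring

/-- **the factorisation** `h6 = q⁻¹ · F⁵ · F(3z) · G(2z) · G(6z)⁵` -/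
theorem s59lpoan_h6_factor (z : ℍ) :
    s59lpoan_h6 z =
      s59lpoan_Qinv z * s59lpoan_F z ^ 5 * s59lpoan_F (scaleN 3 z) * s59lpoan_G (scaleN 2 z) *
        s59lpoan_G (scaleN 6 z) ^ 5 := by
  have he : 𝕢 24 (z : ℂ) ≠ 0 := Function.Periodic.qParam_ne_zero _
  have h1 := s59lpoan_F_ne_zero z
  have h2 := s59lpoan_F_ne_zero (scaleN 2 z)
  have h3 := s59lpoan_F_ne_zero (scaleN 3 z)
  have h6 := s59lpoan_F_ne_zero (scaleN 6 z)
  rw [s59lpoan_h6, s59lpoan_eta_eq, s59lpoan_eta_eq, s59lpoan_eta_eq, s59lpoan_eta_eq,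
    s59lpoan_qParam_scaleN, s59lpoan_qParam_scaleN, s59lpoan_qParam_scaleN, s59lpoan_Qinv,
    s59lpoan_qParam_one, s59lpoan_G_eq, s59lpoan_G_eq]
  field_simp

/-! ### Holomorphy and the expansion at `i∞` -/

theorem s59lpoan_differentiableOn_inv :
    DifferentiableOn ℂ (fun q => (etaDisc q)⁻¹) (Metric.ball 0 1) :=
  differentiableOn_etaDisc.inv fun q hq => etaDisc_ne_zero (by simpa using hq)

/-- `ofDisc g` is holomorphic, periodic and bounded for `g` holomorphic on the unit disc -/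
theorem s59lpoan_isHPB_ofDisc {g : ℂ → ℂ} (hg : DifferentiableOn ℂ g (Metric.ball 0 1)) :
    IsHPB (ofDisc g) :=
  ⟨ofDisc_mdifferentiable hg, by simpa using ofDisc_periodic g,
    ofDisc_isBoundedAtImInfty (continuousAt_zero_of_differentiableOn hg)⟩

theorem s59lpoan_isHPB_F : IsHPB s59lpoan_F :=
  s59lpoan_isHPB_ofDisc differentiableOn_etaDisc

theorem s59lpoan_isHPB_G : IsHPB s59lpoan_G :=
  s59lpoan_isHPB_ofDisc s59lpoan_differentiableOn_inv

theorem s59lpoan_isMerInf_F : IsMerInf s59lpoan_F := IsHPB.isMerInf s59lpoan_isHPB_F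

theorem s59lpoan_isMerInf_G : IsMerInf s59lpoan_G := IsHPB.isMerInf s59lpoan_isHPB_G

theorem s59lpoan_isMerInf_pow {f : ℍ → ℂ} (hf : IsMerInf f) (n : ℕ) : IsMerInf (f ^ n) :=
  mem_merInf.1 (merInf.pow_mem (mem_merInf.2 hf) n)

/-- `q⁻¹ · Δ = F ^ 24` -/
theorem s59lpoan_Qinv_mul (z : ℍ) : s59lpoan_Qinv z * Δ z ^ 1 = s59lpoan_F z ^ 24 := by
  have hq : 𝕢 1 (z : ℂ) ≠ 0 := Function.Periodic.qParam_ne_zero _
  rw [pow_one, discriminant_eq_qParam_mul_etaDisc, s59lpoan_Qinv, ← mul_assoc,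
    inv_mul_cancel₀ hq, one_mul]
  rfl

theorem s59lpoan_isMerInf_Qinv : IsMerInf s59lpoan_Qinv := by
  refine ⟨1, ?_⟩
  have h := bridge_isHPB_pow s59lpoan_isHPB_F 24
  convert h using 1
  funext z
  exact s59lpoan_Qinv_mul z

theorem s59lpoan_laurentOf_F : laurentOf s59lpoan_F = s59lposer_phiS ℂ := by
  rw [laurentOf_of_isHPB s59lpoan_isHPB_F, s59lposer_phiS_eq]
  congr 1
  exact qExpansion_etaDisc

theorem s59lpoan_phiS_ne_zero : s59lposer_phiS ℂ ≠ 0 := by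
  intro h
  have := s59lposer_phiS_mul_inv ℂ
  rw [h, zero_mul] at this
  exact zero_ne_one this

theorem s59lpoan_laurentOf_G : laurentOf s59lpoan_G = s59lposer_phiInvS ℂ := by
  have h1 : laurentOf (s59lpoan_F * s59lpoan_G) = laurentOf s59lpoan_F * laurentOf s59lpoan_G :=
    laurentOf_mul s59lpoan_isMerInf_F s59lpoan_isMerInf_G
  have h2 : s59lpoan_F * s59lpoan_G = 1 := funext fun z => s59lpoan_F_mul_G z
  rw [h2, laurentOf_one, s59lpoan_laurentOf_F] at h1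
  have h3 := s59lposer_phiS_mul_inv ℂ
  exact mul_left_cancel₀ s59lpoan_phiS_ne_zero (h1.symm.trans h3.symm)

theorem s59lpoan_laurentOf_Qinv :
    laurentOf s59lpoan_Qinv = HahnSeries.single (-1 : ℤ) (1 : ℂ) := by
  have h24 : IsHPB (fun z => s59lpoan_Qinv z * Δ z ^ 1) := by
    have h := bridge_isHPB_pow s59lpoan_isHPB_F 24
    convert h using 1
    funext z
    exact s59lpoan_Qinv_mul z
  have h1 := laurentOf_mul_deltaL_pow h24
  have e : (fun z => s59lpoan_Qinv z * Δ z ^ 1) = s59lpoan_F ^ 24 :=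
    funext fun z => s59lpoan_Qinv_mul z
  have h2 : HahnSeries.ofPowerSeries ℤ ℂ (qExpansion 1 (fun z => s59lpoan_Qinv z * Δ z ^ 1)) =
      s59lposer_phiS ℂ ^ 24 := by
    have hp : IsHPB (s59lpoan_F ^ 24) := bridge_isHPB_pow s59lpoan_isHPB_F 24
    rw [e, ← laurentOf_of_isHPB hp, laurentOf_pow s59lpoan_isMerInf_F, s59lpoan_laurentOf_F]
  rw [h2, pow_one, ← deltaS_complex, s59lposer_deltaS_eq] at h1
  have h0 : s59lposer_phiS ℂ ^ 24 ≠ 0 := pow_ne_zero _ s59lpoan_phiS_ne_zero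
  have hs : (HahnSeries.single (-1 : ℤ) (1 : ℂ) : LaurentSeries ℂ) *
      HahnSeries.single (1 : ℤ) (1 : ℂ) = 1 := by
    rw [HahnSeries.single_mul_single, neg_add_cancel, mul_one]
    rfl
  have h3 : laurentOf s59lpoan_Qinv * HahnSeries.single (1 : ℤ) (1 : ℂ) = 1 := by
    apply mul_right_cancel₀ h0
    rw [mul_assoc, h1, one_mul]
  calc laurentOf s59lpoan_Qinv
      = laurentOf s59lpoan_Qinv * (HahnSeries.single (1 : ℤ) (1 : ℂ) *
          HahnSeries.single (-1 : ℤ) (1 : ℂ)) := by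
        rw [mul_comm (HahnSeries.single (1 : ℤ) (1 : ℂ)), hs, mul_one]
    _ = HahnSeries.single (-1 : ℤ) (1 : ℂ) := by rw [← mul_assoc, h3, one_mul]

/-- `h6` as a product of functions -/
theorem s59lpoan_h6_eq_prod :
    s59lpoan_h6 =
      s59lpoan_Qinv * s59lpoan_F ^ 5 * (fun z => s59lpoan_F (scaleN 3 z)) *
        (fun z => s59lpoan_G (scaleN 2 z)) * (fun z => s59lpoan_G (scaleN 6 z)) ^ 5 :=
  funext fun z => s59lpoan_h6_factor z

theorem s59lpoan_isMerInf_h6 : IsMerInf s59lpoan_h6 := by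
  rw [s59lpoan_h6_eq_prod]
  have hF := s59lpoan_isMerInf_F
  have hG := s59lpoan_isMerInf_G
  have hG6 := isMerInf_comp_scaleN 6 hG
  exact ((((s59lpoan_isMerInf_Qinv.mul (s59lpoan_isMerInf_pow hF 5)).mul
    (isMerInf_comp_scaleN 3 hF)).mul (isMerInf_comp_scaleN 2 hG)).mul
    (s59lpoan_isMerInf_pow hG6 5))

/-- **the expansion at `i∞`**: `laurentOf h6 = h6S ℂ` -/
theorem s59lpoan_laurentOf_h6 : laurentOf s59lpoan_h6 = s59lposer_h6S ℂ := by
  have hF := s59lpoan_isMerInf_F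
  have hG := s59lpoan_isMerInf_G
  have hF3 := isMerInf_comp_scaleN 3 hF
  have hG2 := isMerInf_comp_scaleN 2 hG
  have hG6 := isMerInf_comp_scaleN 6 hG
  have hF5 : IsMerInf (s59lpoan_F ^ 5) := s59lpoan_isMerInf_pow hF 5
  have hG65 : IsMerInf ((fun z => s59lpoan_G (scaleN 6 z)) ^ 5) :=
    s59lpoan_isMerInf_pow hG6 5
  have hQ := s59lpoan_isMerInf_Qinv
  rw [s59lpoan_h6_eq_prod, s59lposer_h6S_eq,
    laurentOf_mul (((hQ.mul hF5).mul hF3).mul hG2) hG65,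
    laurentOf_mul ((hQ.mul hF5).mul hF3) hG2, laurentOf_mul (hQ.mul hF5) hF3,
    laurentOf_mul hQ hF5, laurentOf_pow hF, laurentOf_pow hG6,
    laurentOf_comp_scaleN 3 hF, laurentOf_comp_scaleN 2 hG, laurentOf_comp_scaleN 6 hG,
    s59lpoan_laurentOf_F, s59lpoan_laurentOf_G, s59lpoan_laurentOf_Qinv]

/-- holomorphy of `h6` -/
theorem s59lpoan_mdiff_Qinv : MDiff s59lpoan_Qinv := by
  rw [UpperHalfPlane.mdifferentiable_iff]
  intro z hz
  have hz' : 0 < z.im := hz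
  have h1 : DifferentiableAt ℂ (fun w : ℂ => (𝕢 1 w)⁻¹) z :=
    (Function.Periodic.differentiable_qParam z).inv (Function.Periodic.qParam_ne_zero _)
  refine (h1.differentiableWithinAt).congr_of_eventuallyEq ?_ ?_
  · filter_upwards [self_mem_nhdsWithin] with w hw
    have hw' : 0 < w.im := hw
    simp [s59lpoan_Qinv, Function.comp_apply, ofComplex_apply_of_im_pos hw']
  · simp [s59lpoan_Qinv, Function.comp_apply, ofComplex_apply_of_im_pos hz']

theorem s59lpoan_mdiff_h6 : MDiff s59lpoan_h6 := by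
  rw [s59lpoan_h6_eq_prod]
  have hF := s59lpoan_isHPB_F
  have hG := s59lpoan_isHPB_G
  have hF3 := (bridge_isHPB_comp_scaleN 3 hF).1
  have hG2 := (bridge_isHPB_comp_scaleN 2 hG).1
  have hG6 := (bridge_isHPB_comp_scaleN 6 hG).1
  have hF5 : MDiff (s59lpoan_F ^ 5) := by
    have h := (bridge_isHPB_pow hF 5).1
    exact h
  have hG65 : MDiff ((fun z => s59lpoan_G (scaleN 6 z)) ^ 5) := by
    have h := (bridge_isHPB_pow (bridge_isHPB_comp_scaleN 6 hG) 5).1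
    exact h
  exact (((s59lpoan_mdiff_Qinv.mul hF5).mul hF3).mul hG2).mul hG65

/-! ### Over a field of characteristic `0` -/

/-- the hypothesis `hx` of `s59lpomem_mem` (`Ogg3Mem.lean`) for `x = h6S K` -/
theorem s59lpoan_coeffMap_h6S {K : Type*} [CommRing K] (ι : K →+* ℂ) :
    coeffMap ι (s59lposer_h6S K) = laurentOf s59lpoan_h6 := by
  rw [s59lposer_coeffMap_h6S, s59lpoan_laurentOf_h6]

end Fermat.Agent.S59

end
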