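/-
S59, wall M4 (LOWER-P at `p = 3`), OGG3 leaf L4 GEN (helper52): generators of `Γ₀(6)`.

`Γ₀(6)` is generated by `-1` and the three parabolic elements

  `T = !![1, 1; 0, 1]` (cusp `∞`),  `L = !![1, 0; -6, 1] = W₆ T W₆⁻¹` (cusp `0`),
  `B = !![-5, 3; -12, 7] = W₃ T W₃⁻¹` (cusp `1/2`),

(`A = !![-5, 2; -18, 7] = W₂ T W₂⁻¹`, cusp `1/3`, is not needed).  Euclid-type descent on the
bottom row `(c, d)`, `6 ∣ c`: after a translation `d ↦ d + n c` one of `L^{±1}`, `B^{±1}`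
makes `|c|` strictly smaller, because `-d / c` is never `0, 1/3, 1/2, 2/3` (`gcd (c, d) = 1`).

* `s59lpogenL`, `s59lpogenB`, `s59lpogenA` : the matrices, as elements of `SL(2, ℤ)`;
* `s59lpogen_le` : a subgroup of `SL(2, ℤ)` containing `-1, T, L, B` contains `Γ₀(6)`;
* `s59lpogen_closure` : `Subgroup.closure {-1, T, L, B} = Γ₀(6)`;
* `s59lpogen_char` : a homomorphism `Γ₀(6) → G` which is trivial on `-1, T, L, B` is trivial;
* `s59lpogen_induction` : the induction principle;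
* `s59lpogen_invariant`, `s59lpogen_invariant_of_T_L_B` : a function on `ℍ` invariant under
  `T`, `L`, `B` is invariant under `Γ₀(6)` (the hypothesis `hinv` of leaf L5 MEM);
* `s59lpogen_L_smul`, `s59lpogen_B_smul` : the Möbius formulas of `L` and `B`.
Mathlib only.
-/
import Mathlib

set_option autoImplicit false

namespace Fermat.Agent.S59

open Matrix MatrixGroups CongruenceSubgroup ModularGroup

/-- `L = !![1, 0; -6, 1]`, a generator of the stabiliser of the cusp `0` in `Γ₀(6)` -/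
def s59lpogenL : SL(2, ℤ) := ⟨!![1, 0; -6, 1], by simp [Matrix.det_fin_two]⟩

/-- `B = !![-5, 3; -12, 7]`, a generator of the stabiliser of the cusp `1/2` in `Γ₀(6)` -/
def s59lpogenB : SL(2, ℤ) := ⟨!![-5, 3; -12, 7], by simp [Matrix.det_fin_two]⟩

/-- `A = !![-5, 2; -18, 7]`, a generator of the stabiliser of the cusp `1/3` in `Γ₀(6)` -/
def s59lpogenA : SL(2, ℤ) := ⟨!![-5, 2; -18, 7], by simp [Matrix.det_fin_two]⟩

theorem s59lpogen_mem_iff (γ : SL(2, ℤ)) : γ ∈ Gamma0 6 ↔ (6 : ℤ) ∣ γ 1 0 := by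
  rw [Gamma0_mem]
  exact (ZMod.intCast_zmod_eq_zero_iff_dvd (γ 1 0) 6)

theorem s59lpogen_T_mem : (T : SL(2, ℤ)) ∈ Gamma0 6 := by
  rw [s59lpogen_mem_iff]
  simp [ModularGroup.T]

theorem s59lpogen_L_mem : s59lpogenL ∈ Gamma0 6 := by
  rw [s59lpogen_mem_iff]
  simp [s59lpogenL]

theorem s59lpogen_B_mem : s59lpogenB ∈ Gamma0 6 := by
  rw [s59lpogen_mem_iff]
  simp [s59lpogenB]

theorem s59lpogen_A_mem : s59lpogenA ∈ Gamma0 6 := by
  rw [s59lpogen_mem_iff]
  simp [s59lpogenA]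

theorem s59lpogen_neg_one_mem : (-1 : SL(2, ℤ)) ∈ Gamma0 6 := by
  rw [s59lpogen_mem_iff]
  simp

/-! ### The bottom rows -/

theorem s59lpogen_coe_L : (s59lpogenL : Matrix (Fin 2) (Fin 2) ℤ) = !![1, 0; -6, 1] := rfl

theorem s59lpogen_coe_B : (s59lpogenB : Matrix (Fin 2) (Fin 2) ℤ) = !![-5, 3; -12, 7] := rfl

theorem s59lpogen_coe_L_inv :
    ((s59lpogenL⁻¹ : SL(2, ℤ)) : Matrix (Fin 2) (Fin 2) ℤ) = !![1, 0; 6, 1] := by
  rw [Matrix.SpecialLinearGroup.coe_inv, s59lpogen_coe_L, Matrix.adjugate_fin_two_of]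
  simp

theorem s59lpogen_coe_B_inv :
    ((s59lpogenB⁻¹ : SL(2, ℤ)) : Matrix (Fin 2) (Fin 2) ℤ) = !![7, -3; 12, -5] := by
  rw [Matrix.SpecialLinearGroup.coe_inv, s59lpogen_coe_B, Matrix.adjugate_fin_two_of]
  simp

theorem s59lpogen_mul_T_zpow (γ : SL(2, ℤ)) (n : ℤ) :
    (γ * T ^ n) 1 0 = γ 1 0 ∧ (γ * T ^ n) 1 1 = n * γ 1 0 + γ 1 1 := by
  have h := ModularGroup.coe_T_zpow n
  constructor
  · rw [Matrix.SpecialLinearGroup.coe_mul, h]
    simp [Matrix.mul_apply, Fin.sum_univ_two]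
  · rw [Matrix.SpecialLinearGroup.coe_mul, h]
    simp [Matrix.mul_apply, Fin.sum_univ_two]
    ring

theorem s59lpogen_mul_L (γ : SL(2, ℤ)) :
    (γ * s59lpogenL) 1 0 = γ 1 0 - 6 * γ 1 1 ∧ (γ * s59lpogenL) 1 1 = γ 1 1 := by
  constructor
  · rw [Matrix.SpecialLinearGroup.coe_mul, s59lpogen_coe_L]
    simp [Matrix.mul_apply, Fin.sum_univ_two]
    ring
  · rw [Matrix.SpecialLinearGroup.coe_mul, s59lpogen_coe_L]
    simp [Matrix.mul_apply, Fin.sum_univ_two]

theorem s59lpogen_mul_L_inv (γ : SL(2, ℤ)) :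
    (γ * s59lpogenL⁻¹) 1 0 = γ 1 0 + 6 * γ 1 1 ∧ (γ * s59lpogenL⁻¹) 1 1 = γ 1 1 := by
  constructor
  · rw [Matrix.SpecialLinearGroup.coe_mul, s59lpogen_coe_L_inv]
    simp [Matrix.mul_apply, Fin.sum_univ_two]
    ring
  · rw [Matrix.SpecialLinearGroup.coe_mul, s59lpogen_coe_L_inv]
    simp [Matrix.mul_apply, Fin.sum_univ_two]

theorem s59lpogen_mul_B (γ : SL(2, ℤ)) :
    (γ * s59lpogenB) 1 0 = -5 * γ 1 0 - 12 * γ 1 1 ∧
      (γ * s59lpogenB) 1 1 = 3 * γ 1 0 + 7 * γ 1 1 := by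
  constructor
  · rw [Matrix.SpecialLinearGroup.coe_mul, s59lpogen_coe_B]
    simp [Matrix.mul_apply, Fin.sum_univ_two]
    ring
  · rw [Matrix.SpecialLinearGroup.coe_mul, s59lpogen_coe_B]
    simp [Matrix.mul_apply, Fin.sum_univ_two]
    ring

theorem s59lpogen_mul_B_inv (γ : SL(2, ℤ)) :
    (γ * s59lpogenB⁻¹) 1 0 = 7 * γ 1 0 + 12 * γ 1 1 ∧
      (γ * s59lpogenB⁻¹) 1 1 = -3 * γ 1 0 - 5 * γ 1 1 := by
  constructor
  · rw [Matrix.SpecialLinearGroup.coe_mul, s59lpogen_coe_B_inv]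
    simp [Matrix.mul_apply, Fin.sum_univ_two]
    ring
  · rw [Matrix.SpecialLinearGroup.coe_mul, s59lpogen_coe_B_inv]
    simp [Matrix.mul_apply, Fin.sum_univ_two]
    ring

/-- the determinant relation -/
theorem s59lpogen_det (γ : SL(2, ℤ)) : γ 0 0 * γ 1 1 - γ 0 1 * γ 1 0 = 1 := by
  have h := γ.det_coe
  rw [Matrix.det_fin_two] at h
  exact h

/-! ### The case `c = 0` -/

theorem s59lpogen_of_c_eq_zero (H : Subgroup SL(2, ℤ)) (hneg : (-1 : SL(2, ℤ)) ∈ H)
    (hT : (T : SL(2, ℤ)) ∈ H) (γ : SL(2, ℤ)) (hc : γ 1 0 = 0) : γ ∈ H := by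
  have hdet := s59lpogen_det γ
  rw [hc, mul_zero, sub_zero] at hdet
  -- `a d = 1`
  rcases Int.eq_one_or_neg_one_of_mul_eq_one' hdet with ⟨ha, hd⟩ | ⟨ha, hd⟩
  · -- `γ = T ^ b`
    have e : γ = T ^ (γ 0 1) := by
      ext i j
      rw [ModularGroup.coe_T_zpow]
      fin_cases i <;> fin_cases j <;> simp [ha, hd, hc]
    rw [e]
    exact H.zpow_mem hT _
  · -- `γ = - T ^ (-b)`
    have e : γ = -1 * T ^ (-(γ 0 1)) := by
      ext i j
      rw [Matrix.SpecialLinearGroup.coe_mul, ModularGroup.coe_T_zpow]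
      fin_cases i <;> fin_cases j <;>
        simp [ha, hd, hc, Matrix.mul_apply, Fin.sum_univ_two]
    rw [e]
    exact H.mul_mem hneg (H.zpow_mem hT _)

/-! ### The descent step -/

/-- the arithmetic of the descent: for `6 ∣ c`, `c ≠ 0`, `gcd (c, d) = 1` there are `n` and one
of the four moves which make `|c|` smaller. -/
theorem s59lpogen_arith (c d : ℤ) (h6 : (6 : ℤ) ∣ c) (hc : c ≠ 0) (hcop : IsCoprime c d) :
    ∃ n : ℤ,
      |c - 6 * (n * c + d)| < |c| ∨ |c + 6 * (n * c + d)| < |c| ∨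
      |-5 * c - 12 * (n * c + d)| < |c| ∨ |7 * c + 12 * (n * c + d)| < |c| := by
  obtain ⟨k, rfl⟩ := h6
  have hk : k ≠ 0 := fun h => hc (by rw [h, mul_zero])
  -- `r = d mod c`, `0 ≤ r < |c|`
  set m : ℤ := 6 * k with hm
  have hmpos : 0 < |m| := abs_pos.mpr hc
  set r : ℤ := d % m with hr
  have hr0 : 0 ≤ r := Int.emod_nonneg d hc
  have hr1 : r < |m| := Int.emod_lt_abs d hc
  have hdr : d = m * (d / m) + r := (Int.mul_ediv_add_emod d m).symm
  -- coprimality of `m` and `r`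
  have hcop' : IsCoprime m r := by
    have : IsCoprime m (r + m * (d / m)) := by
      rw [add_comm, ← hdr]; exact hcop
    exact (IsCoprime.add_mul_left_right_iff).1 this
  -- `r` is prime to `6`
  have h2 : ¬ (2 : ℤ) ∣ r := by
    intro h
    have h2m : (2 : ℤ) ∣ m := ⟨3 * k, by rw [hm]; ring⟩
    have := hcop'.isUnit_of_dvd' h2m h
    exact absurd (Int.isUnit_iff.1 this) (by norm_num)
  have h3 : ¬ (3 : ℤ) ∣ r := by
    intro h
    have h3m : (3 : ℤ) ∣ m := ⟨2 * k, by rw [hm]; ring⟩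
    have := hcop'.isUnit_of_dvd' h3m h
    exact absurd (Int.isUnit_iff.1 this) (by norm_num)
  have hrne : r ≠ 0 := fun h => h2 (by rw [h]; exact dvd_zero _)
  -- the two signs of `m`
  rcases lt_or_gt_of_ne hc with hneg | hpos
  · -- `m < 0`: `|m| = -m`, `0 < r < -m`; `d' = r` has the sign opposite to `m`
    have habs : |m| = -m := abs_of_neg hneg
    rw [habs] at hr1
    -- `ρ = r / (-m) ∈ (0, 1)`
    have e1 : ∀ n : ℤ, n * m + d = (n + d / m) * m + r := fun n => by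
      calc n * m + d = n * m + (m * (d / m) + r) := by rw [← hdr]
        _ = (n + d / m) * m + r := by ring
    by_cases c1 : 3 * r < -m
    · -- `ρ < 1/3`: `L⁻¹`
      refine ⟨-(d / m), Or.inr (Or.inl ?_)⟩
      have : -(d / m) * m + d = r := by rw [e1]; ring
      rw [this, habs, abs_lt]
      constructor <;> omega
    · by_cases c2 : 2 * r < -m
      · -- `1/3 < ρ < 1/2`: `B`
        refine ⟨-(d / m), Or.inr (Or.inr (Or.inl ?_))⟩
        have : -(d / m) * m + d = r := by rw [e1]; ring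
        rw [this, habs, abs_lt]
        have h3' : 3 * r ≠ -m := fun h => h2 ⟨-(k), by omega⟩
        constructor <;> omega
      · by_cases c3 : 3 * r < -(2 * m)
        · -- `1/2 < ρ < 2/3`: `B⁻¹`
          refine ⟨-(d / m), Or.inr (Or.inr (Or.inr ?_))⟩
          have : -(d / m) * m + d = r := by rw [e1]; ring
          rw [this, habs, abs_lt]
          have h2' : 2 * r ≠ -m := fun h => h3 ⟨-(k), by omega⟩
          constructor <;> omega
        · -- `2/3 < ρ < 1`: translate, then `L`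
          refine ⟨-(d / m) + 1, Or.inl ?_⟩
          have : (-(d / m) + 1) * m + d = r + m := by rw [e1]; ring
          rw [this, habs, abs_lt]
          have h3' : 3 * r ≠ -(2 * m) := fun h => h3 ⟨-(4 * k), by omega⟩
          constructor <;> omega
  · -- `m > 0`: `|m| = m`, `0 < r < m`; use `d' = r - m < 0`
    have habs : |m| = m := abs_of_pos hpos
    rw [habs] at hr1
    have e1 : ∀ n : ℤ, n * m + d = (n + d / m) * m + r := fun n => by
      calc n * m + d = n * m + (m * (d / m) + r) := by rw [← hdr]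
        _ = (n + d / m) * m + r := by ring
    -- `ρ = (m - r) / m ∈ (0, 1)`
    by_cases c1 : 3 * (m - r) < m
    · -- `ρ < 1/3`: `L⁻¹` on `d' = r - m`
      refine ⟨-(d / m) - 1, Or.inr (Or.inl ?_)⟩
      have : (-(d / m) - 1) * m + d = r - m := by rw [e1]; ring
      rw [this, habs, abs_lt]
      constructor <;> omega
    · by_cases c2 : 2 * (m - r) < m
      · -- `1/3 < ρ < 1/2`: `B`
        refine ⟨-(d / m) - 1, Or.inr (Or.inr (Or.inl ?_))⟩
        have : (-(d / m) - 1) * m + d = r - m := by rw [e1]; ring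
        rw [this, habs, abs_lt]
        have h3' : 3 * (m - r) ≠ m := fun h => h3 ⟨4 * k, by omega⟩
        constructor <;> omega
      · by_cases c3 : 3 * (m - r) < 2 * m
        · -- `1/2 < ρ < 2/3`: `B⁻¹`
          refine ⟨-(d / m) - 1, Or.inr (Or.inr (Or.inr ?_))⟩
          have : (-(d / m) - 1) * m + d = r - m := by rw [e1]; ring
          rw [this, habs, abs_lt]
          have h2' : 2 * (m - r) ≠ m := fun h => h3 ⟨k, by omega⟩
          constructor <;> omega
        · -- `2/3 < ρ < 1`: `d' = r`, `L`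
          refine ⟨-(d / m), Or.inl ?_⟩
          have : -(d / m) * m + d = r := by rw [e1]; ring
          rw [this, habs, abs_lt]
          have h3' : 3 * (m - r) ≠ 2 * m := fun h => h2 ⟨k, by omega⟩
          constructor <;> omega

/-- **Generators of `Γ₀(6)`**: a subgroup of `SL(2, ℤ)` which contains `-1`, `T`, `L` and `B`
contains `Γ₀(6)`. -/
theorem s59lpogen_le (H : Subgroup SL(2, ℤ)) (hneg : (-1 : SL(2, ℤ)) ∈ H)
    (hT : (T : SL(2, ℤ)) ∈ H) (hL : s59lpogenL ∈ H) (hB : s59lpogenB ∈ H) :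
    Gamma0 6 ≤ H := by
  have key : ∀ N : ℕ, ∀ γ : SL(2, ℤ), γ ∈ Gamma0 6 → (γ 1 0).natAbs = N → γ ∈ H := by
    intro N
    induction N using Nat.strong_induction_on with
    | _ N ih =>
      intro γ hγ hN
      by_cases hc : γ 1 0 = 0
      · exact s59lpogen_of_c_eq_zero H hneg hT γ hc
      · have h6 : (6 : ℤ) ∣ γ 1 0 := (s59lpogen_mem_iff γ).1 hγ
        have hcop : IsCoprime (γ 1 0) (γ 1 1) := by
          refine ⟨-(γ 0 1), γ 0 0, ?_⟩
          have := s59lpogen_det γ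
          linarith
        obtain ⟨n, hn⟩ := s59lpogen_arith (γ 1 0) (γ 1 1) h6 hc hcop
        -- the translated element
        set γ' : SL(2, ℤ) := γ * T ^ n with hγ'
        have hγ'mem : γ' ∈ Gamma0 6 :=
          (Gamma0 6).mul_mem hγ ((Gamma0 6).zpow_mem s59lpogen_T_mem n)
        obtain ⟨hc', hd'⟩ := s59lpogen_mul_T_zpow γ n
        have hback : ∀ δ : SL(2, ℤ), δ ∈ H → γ' * δ ∈ Gamma0 6 →
            ((γ' * δ) 1 0).natAbs < N → γ ∈ H := by
          intro δ hδ hmem hlt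
          have h1 : γ' * δ ∈ H := ih _ hlt (γ' * δ) hmem rfl
          have h2 : γ' ∈ H := by
            have := H.mul_mem h1 (H.inv_mem hδ)
            rwa [mul_inv_cancel_right] at this
          have h3 : γ = γ' * (T ^ n)⁻¹ := by rw [hγ', mul_inv_cancel_right]
          rw [h3]
          exact H.mul_mem h2 (H.inv_mem (H.zpow_mem hT n))
        have hNabs : (N : ℤ) = |γ 1 0| := by rw [← hN, Int.natCast_natAbs]
        have hlt_of : ∀ z : ℤ, |z| < |γ 1 0| → z.natAbs < N := by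
          intro z hz
          have : ((z.natAbs : ℕ) : ℤ) < (N : ℤ) := by rw [Int.natCast_natAbs, hNabs]; exact hz
          exact_mod_cast this
        rcases hn with h | h | h | h
        · refine hback s59lpogenL hL ((Gamma0 6).mul_mem hγ'mem s59lpogen_L_mem) ?_
          rw [(s59lpogen_mul_L γ').1, hc', hd']
          exact hlt_of _ h
        · refine hback s59lpogenL⁻¹ (H.inv_mem hL)
            ((Gamma0 6).mul_mem hγ'mem ((Gamma0 6).inv_mem s59lpogen_L_mem)) ?_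
          rw [(s59lpogen_mul_L_inv γ').1, hc', hd']
          exact hlt_of _ h
        · refine hback s59lpogenB hB ((Gamma0 6).mul_mem hγ'mem s59lpogen_B_mem) ?_
          rw [(s59lpogen_mul_B γ').1, hc', hd']
          exact hlt_of _ h
        · refine hback s59lpogenB⁻¹ (H.inv_mem hB)
            ((Gamma0 6).mul_mem hγ'mem ((Gamma0 6).inv_mem s59lpogen_B_mem)) ?_
          rw [(s59lpogen_mul_B_inv γ').1, hc', hd']
          exact hlt_of _ h
  intro γ hγ
  exact key _ γ hγ rfl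

/-- **`Γ₀(6) = ⟨-1, T, L, B⟩`.** -/
theorem s59lpogen_closure :
    Subgroup.closure ({-1, T, s59lpogenL, s59lpogenB} : Set SL(2, ℤ)) = Gamma0 6 := by
  apply le_antisymm
  · rw [Subgroup.closure_le]
    intro x hx
    simp only [Set.mem_insert_iff, Set.mem_singleton_iff] at hx
    rcases hx with rfl | rfl | rfl | rfl
    · exact s59lpogen_neg_one_mem
    · exact s59lpogen_T_mem
    · exact s59lpogen_L_mem
    · exact s59lpogen_B_mem
  · exact s59lpogen_le _
      (Subgroup.subset_closure (by simp))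
      (Subgroup.subset_closure (by simp))
      (Subgroup.subset_closure (by simp))
      (Subgroup.subset_closure (by simp))

/-- **Induction principle for `Γ₀(6)`**: a property of elements of `SL(2, ℤ)` which holds for
`1`, is stable under products and inverses and holds for `-1`, `T`, `L`, `B`, holds on `Γ₀(6)`. -/
theorem s59lpogen_induction (P : SL(2, ℤ) → Prop) (h1 : P 1)
    (hmul : ∀ x y, P x → P y → P (x * y)) (hinv : ∀ x, P x → P x⁻¹)
    (hneg : P (-1)) (hT : P T) (hL : P s59lpogenL) (hB : P s59lpogenB) :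
    ∀ γ ∈ Gamma0 6, P γ := by
  let H : Subgroup SL(2, ℤ) :=
    { carrier := {x | P x}
      one_mem' := h1
      mul_mem' := fun {x y} hx hy => hmul x y hx hy
      inv_mem' := fun {x} hx => hinv x hx }
  exact fun γ hγ => s59lpogen_le H hneg hT hL hB hγ

/-- a homomorphism from `Γ₀(6)` which is trivial on the generators is trivial -/
theorem s59lpogen_char {G : Type*} [Group G] (χ : ↥(Gamma0 6) →* G)
    (hneg : χ ⟨-1, s59lpogen_neg_one_mem⟩ = 1) (hT : χ ⟨T, s59lpogen_T_mem⟩ = 1)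
    (hL : χ ⟨s59lpogenL, s59lpogen_L_mem⟩ = 1) (hB : χ ⟨s59lpogenB, s59lpogen_B_mem⟩ = 1) :
    ∀ γ : ↥(Gamma0 6), χ γ = 1 := by
  have hle : Gamma0 6 ≤ (χ.ker).map (Gamma0 6).subtype := by
    apply s59lpogen_le
    · exact ⟨⟨-1, s59lpogen_neg_one_mem⟩, hneg, rfl⟩
    · exact ⟨⟨T, s59lpogen_T_mem⟩, hT, rfl⟩
    · exact ⟨⟨s59lpogenL, s59lpogen_L_mem⟩, hL, rfl⟩
    · exact ⟨⟨s59lpogenB, s59lpogen_B_mem⟩, hB, rfl⟩
  intro γ
  obtain ⟨δ, hδ, hδγ⟩ := hle γ.2
  have : δ = γ := Subtype.ext hδγ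
  rw [← this]
  exact hδ

/-- **Invariance under `Γ₀(6)`** (the hypothesis `hinv` of leaf L5 MEM): a function on the upper
half plane which is invariant under `T`, `L` and `B` is invariant under `Γ₀(6)`. -/
theorem s59lpogen_invariant {α : Type*} (a : UpperHalfPlane → α)
    (hT : ∀ τ : UpperHalfPlane, a (T • τ) = a τ)
    (hL : ∀ τ : UpperHalfPlane, a (s59lpogenL • τ) = a τ)
    (hB : ∀ τ : UpperHalfPlane, a (s59lpogenB • τ) = a τ) :
    ∀ γ ∈ Gamma0 6, ∀ τ : UpperHalfPlane, a (γ • τ) = a τ := by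
  refine s59lpogen_induction (fun γ => ∀ τ : UpperHalfPlane, a (γ • τ) = a τ) ?_ ?_ ?_ ?_ hT hL hB
  · intro τ
    rw [one_smul]
  · intro x y hx hy τ
    rw [mul_smul, hx, hy]
  · intro x hx τ
    have := hx (x⁻¹ • τ)
    rw [smul_inv_smul] at this
    exact this.symm
  · intro τ
    rw [ModularGroup.SL_neg_smul, one_smul]

/-- the same with `1`-periodicity `a (1 +ᵥ τ) = a τ` in place of `T`-invariance -/
theorem s59lpogen_invariant_of_T_L_B {α : Type*} (a : UpperHalfPlane → α)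
    (hT : ∀ τ : UpperHalfPlane, a ((1 : ℝ) +ᵥ τ) = a τ)
    (hL : ∀ τ : UpperHalfPlane, a (s59lpogenL • τ) = a τ)
    (hB : ∀ τ : UpperHalfPlane, a (s59lpogenB • τ) = a τ) :
    ∀ γ ∈ Gamma0 6, ∀ τ : UpperHalfPlane, a (γ • τ) = a τ := by
  refine s59lpogen_invariant a (fun τ => ?_) hL hB
  rw [UpperHalfPlane.modular_T_smul]
  exact hT τ

/-- the Möbius action of `L`: `L • τ = τ / (1 - 6 τ)` -/
theorem s59lpogen_L_smul (τ : UpperHalfPlane) :
    ((s59lpogenL • τ : UpperHalfPlane) : ℂ) = (τ : ℂ) / (-6 * (τ : ℂ) + 1) := by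
  rw [UpperHalfPlane.specialLinearGroup_apply]
  simp [s59lpogenL]

/-- the Möbius action of `B`: `B • τ = (-5 τ + 3) / (-12 τ + 7)` -/
theorem s59lpogen_B_smul (τ : UpperHalfPlane) :
    ((s59lpogenB • τ : UpperHalfPlane) : ℂ) = (-5 * (τ : ℂ) + 3) / (-12 * (τ : ℂ) + 7) := by
  rw [UpperHalfPlane.specialLinearGroup_apply]
  simp [s59lpogenB]


end Fermat.Agent.S59
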