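import Fermat.Agent.S23.Theta
import Fermat.Agent.S59.LowP.Ogg3Gen

/-!
# S59 / M4 / OGG3, leaf L3 CHAR: the level-6 eta quotient is invariant under the parabolic
generators of `Γ₀(6)`

`h6 z = η(z)⁵ η(3z) / (η(2z) η(6z)⁵)` (`s59lpochar_h6`, built on Mathlib's `ModularForm.eta`).

* `s59lpochar_h6_pow` : `h6 ^ 24 = Δ(z)⁵ Δ(3z) / (Δ(2z) Δ(6z)⁵)`;
* `s59lpochar_h6_T` : `h6 (T • z) = h6 z`;
* `s59lpochar_h6_two / _three / _six` : for `γ₁ = [[a, b], [M c, Q d]] ∈ SL₂(ℤ)` (`Q M = 6`,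
  `Q ∈ {2, 3, 6}`) and every `B` with `B γ₁ = γ₁ T^Q`, `h6 (B • z) = h6 z`;
* explicit parabolic generators: `[[1, 0], [-6, 1]]`, `[[-5, 3], [-12, 7]]`, `[[-5, 2], [-18, 7]]`;
* `s59lpochar_stab` : the stabiliser of `h6` as a subgroup of `SL₂(ℤ)`, containing all of these
  and `-1`; `s59lpochar_hinv_of_le` : if `Γ₀(6) ≤ closure` of these generators then `h6` is
  `Γ₀(6)`-invariant.

Method: the 24-th power is a `Δ`-quotient, whose behaviour under the Atkin–Lehner substitutions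
`W τ = γ₁ • (Q τ)` is explicit from `Δ(γ z) = (c z + d)¹² Δ(z)`; a continuous function on the
connected space `ℍ` with constant 24-th power is constant; the image eta quotients are `1`-periodic.
-/

set_option autoImplicit false
set_option linter.unusedSectionVars false
set_option linter.style.haveILetI false

noncomputable section

namespace Fermat.Agent.S59

open ModularForm Complex
open UpperHalfPlane hiding I
open Fermat.Agent.S23
open scoped MatrixGroups Real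

local notation "Δ" => ModularForm.discriminant

/-- `η (w + 1) = e^{2πi/24} η(w)`. -/
theorem s59lpochar_eta_add_one (w : ℂ) :
    η (w + 1) = cexp (2 * π * I / 24) * η w := by
  unfold ModularForm.eta
  have h1 : ∀ n : ℕ, eta_q n (w + 1) = eta_q n w := by
    intro n
    rw [eta_q_eq_cexp, eta_q_eq_cexp]
    have : 2 * ↑π * I * (↑n + 1) * (w + 1) = 2 * ↑π * I * (↑n + 1) * w + ((n + 1 : ℕ) : ℂ) * (2 * π * I) := by
      push_cast; ring
    rw [this, Complex.exp_add, Complex.exp_nat_mul_two_pi_mul_I, mul_one]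
  simp only [h1]
  have h2 : Function.Periodic.qParam 24 (w + 1) = cexp (2 * π * I / 24) * Function.Periodic.qParam 24 w := by
    simp only [Function.Periodic.qParam]
    rw [← Complex.exp_add]
    congr 1
    push_cast
    ring
  rw [h2, mul_assoc]

theorem s59lpochar_eta_add_nat (w : ℂ) (n : ℕ) :
    η (w + n) = cexp (2 * π * I / 24) ^ n * η w := by
  induction n with
  | zero => simp
  | succ n ih =>
    have : w + ((n + 1 : ℕ) : ℂ) = (w + n) + 1 := by push_cast; ring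
    rw [this, s59lpochar_eta_add_one, ih, pow_succ]
    ring

theorem s59lpochar_zeta_pow : cexp (2 * π * I / 24) ^ 24 = 1 := by
  rw [← Complex.exp_nat_mul]
  have : ((24 : ℕ) : ℂ) * (2 * π * I / 24) = 2 * π * I := by push_cast; ring
  rw [this, Complex.exp_two_pi_mul_I]

/-- `z ↦ η (n z)` on `ℍ`. -/
def s59lpochar_E (n : ℕ) (z : ℍ) : ℂ := η ((n : ℂ) * (z : ℂ))

theorem s59lpochar_E_pow (n : ℕ) [NeZero n] (z : ℍ) :
    s59lpochar_E n z ^ 24 = Δ (scaleN n z) := rfl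

theorem s59lpochar_E_ne_zero (n : ℕ) [NeZero n] (z : ℍ) : s59lpochar_E n z ≠ 0 :=
  eta_ne_zero (scaleN n z).2

theorem s59lpochar_E_continuous (n : ℕ) [NeZero n] : Continuous (s59lpochar_E n) := by
  rw [continuous_iff_continuousAt]
  intro z
  have h1 : ContinuousAt η ((n : ℂ) * (z : ℂ)) :=
    (differentiableAt_eta_of_mem_upperHalfPlaneSet (scaleN n z).2).continuousAt
  have h2 : Continuous (fun z : ℍ => (n : ℂ) * (z : ℂ)) :=
    continuous_const.mul UpperHalfPlane.continuous_coe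
  exact ContinuousAt.comp (f := fun z : ℍ => (n : ℂ) * (z : ℂ)) h1 h2.continuousAt

/-- A continuous function on `ℍ` whose 24-th power is a constant multiple of the 24-th power of a
nowhere vanishing continuous function is a constant multiple of that function. -/
theorem s59lpochar_const_of_pow {f g : ℍ → ℂ} (hf : Continuous f) (hg : Continuous g)
    (hg0 : ∀ z, g z ≠ 0) (c : ℂ) (h : ∀ z, f z ^ 24 = c * g z ^ 24) :
    ∃ c' : ℂ, ∀ z, f z = c' * g z := by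
  set u : ℍ → ℂ := fun z => f z / g z with hu
  have hucont : Continuous u := hf.div hg hg0
  have hu24 : ∀ z, u z ^ 24 = c := by
    intro z
    simp only [hu, div_pow]
    rw [h z]
    rw [mul_div_assoc, div_self (pow_ne_zero 24 (hg0 z)), mul_one]
  have hfin : Set.Finite {w : ℂ | w ^ 24 = c} := by
    have hp : (Polynomial.X ^ 24 - Polynomial.C c : Polynomial ℂ) ≠ 0 :=
      Polynomial.X_pow_sub_C_ne_zero (by norm_num) c
    refine Set.Finite.subset ((Polynomial.X ^ 24 - Polynomial.C c : Polynomial ℂ).roots.toFinset.finite_toSet) ?_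
    intro w hw
    have hw' : w ^ 24 = c := hw
    simp only [Finset.mem_coe, Multiset.mem_toFinset]
    rw [Polynomial.mem_roots hp]
    simp [hw']
  have hconst : ∀ z w, u z = u w := by
    intro z w
    exact isPreconnected_univ.constant_of_mapsTo (T := {w : ℂ | w ^ 24 = c}) hfin.isDiscrete
      hucont.continuousOn
      (fun z _ => hu24 z) (Set.mem_univ z) (Set.mem_univ w)
  refine ⟨u UpperHalfPlane.I, fun z => ?_⟩
  rw [← hconst z UpperHalfPlane.I]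
  simp only [hu]
  field_simp [hg0 z]

/-- General substitution `m · (γ • (n τ)) = γ' • (m' τ)`. -/
theorem s59lpochar_scale_smul (γ γ' : SL(2, ℤ)) (m n m' : ℕ) [NeZero m] [NeZero n] [NeZero m']
    (g : ℤ) (hg : g ≠ 0)
    (h00 : g * γ' 0 0 * m' = m * γ 0 0 * n) (h01 : g * γ' 0 1 = m * γ 0 1)
    (h10 : g * γ' 1 0 * m' = γ 1 0 * n) (h11 : g * γ' 1 1 = γ 1 1) (τ : ℍ) :
    scaleN m (γ • scaleN n τ) = γ' • scaleN m' τ := by
  ext1
  rw [coe_scaleN, P8_coe_smul, P8_coe_smul, coe_scaleN, coe_scaleN]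
  have hd1 := P8_denom_ne_zero γ (scaleN n τ)
  have hd2 := P8_denom_ne_zero γ' (scaleN m' τ)
  rw [coe_scaleN] at hd1 hd2
  have hgC : (g : ℂ) ≠ 0 := by exact_mod_cast hg
  have e00 : (g : ℂ) * (γ' 0 0 : ℂ) * m' = m * (γ 0 0 : ℂ) * n := by exact_mod_cast h00
  have e01 : (g : ℂ) * (γ' 0 1 : ℂ) = m * (γ 0 1 : ℂ) := by exact_mod_cast h01
  have e10 : (g : ℂ) * (γ' 1 0 : ℂ) * m' = (γ 1 0 : ℂ) * n := by exact_mod_cast h10
  have e11 : (g : ℂ) * (γ' 1 1 : ℂ) = (γ 1 1 : ℂ) := by exact_mod_cast h11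
  rw [mul_div_assoc', div_eq_div_iff hd1 hd2]
  apply mul_left_cancel₀ hgC
  linear_combination ((m : ℂ) * ((γ 0 0 : ℂ) * ((n : ℂ) * (τ : ℂ)) + (γ 0 1 : ℂ)) * (τ : ℂ)) * e10
    + ((m : ℂ) * ((γ 0 0 : ℂ) * ((n : ℂ) * (τ : ℂ)) + (γ 0 1 : ℂ))) * e11
    - ((τ : ℂ) * ((γ 1 0 : ℂ) * ((n : ℂ) * (τ : ℂ)) + (γ 1 1 : ℂ))) * e00
    - ((γ 1 0 : ℂ) * ((n : ℂ) * (τ : ℂ)) + (γ 1 1 : ℂ)) * e01

/-- `g¹² Δ(m · γ(nτ)) = (c n τ + d)¹² Δ(m' τ)`. -/
theorem s59lpochar_delta_scale_smul (γ γ' : SL(2, ℤ)) (m n m' : ℕ) [NeZero m] [NeZero n]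
    [NeZero m'] (g : ℤ) (hg : g ≠ 0)
    (h00 : g * γ' 0 0 * m' = m * γ 0 0 * n) (h01 : g * γ' 0 1 = m * γ 0 1)
    (h10 : g * γ' 1 0 * m' = γ 1 0 * n) (h11 : g * γ' 1 1 = γ 1 1) (τ : ℍ) :
    (g : ℂ) ^ 12 * Δ (scaleN m (γ • scaleN n τ)) =
      ((γ 1 0 : ℂ) * ((n : ℂ) * (τ : ℂ)) + (γ 1 1 : ℂ)) ^ 12 * Δ (scaleN m' τ) := by
  have e10 : (g : ℂ) * (γ' 1 0 : ℂ) * m' = (γ 1 0 : ℂ) * n := by exact_mod_cast h10
  have e11 : (g : ℂ) * (γ' 1 1 : ℂ) = (γ 1 1 : ℂ) := by exact_mod_cast h11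
  rw [s59lpochar_scale_smul γ γ' m n m' g hg h00 h01 h10 h11, P8_discriminant_smul, coe_scaleN,
    ← mul_assoc, ← mul_pow]
  congr 2
  linear_combination (τ : ℂ) * e10 + e11


/-! ### The eta quotients -/

/-- The eta quotient `η(a z)⁵ η(b z) / (η(c z) η(d z)⁵)`. -/
def s59lpochar_Q (a b c d : ℕ) (z : ℍ) : ℂ :=
  s59lpochar_E a z ^ 5 * s59lpochar_E b z / (s59lpochar_E c z * s59lpochar_E d z ^ 5)

/-- The Delta quotient `Δ(a z)⁵ Δ(b z) / (Δ(c z) Δ(d z)⁵)`. -/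
def s59lpochar_D (a b c d : ℕ) [NeZero a] [NeZero b] [NeZero c] [NeZero d] (z : ℍ) : ℂ :=
  Δ (scaleN a z) ^ 5 * Δ (scaleN b z) / (Δ (scaleN c z) * Δ (scaleN d z) ^ 5)

section Quot

variable (a b c d : ℕ) [NeZero a] [NeZero b] [NeZero c] [NeZero d]

theorem s59lpochar_Q_pow (z : ℍ) :
    s59lpochar_Q a b c d z ^ 24 = s59lpochar_D a b c d z := by
  simp only [s59lpochar_Q, s59lpochar_D, div_pow, mul_pow, ← s59lpochar_E_pow]
  ring

theorem s59lpochar_Q_ne_zero (z : ℍ) : s59lpochar_Q a b c d z ≠ 0 := by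
  unfold s59lpochar_Q
  have ha := s59lpochar_E_ne_zero a z
  have hb := s59lpochar_E_ne_zero b z
  have hc := s59lpochar_E_ne_zero c z
  have hd := s59lpochar_E_ne_zero d z
  exact div_ne_zero (mul_ne_zero (pow_ne_zero 5 ha) hb) (mul_ne_zero hc (pow_ne_zero 5 hd))

theorem s59lpochar_Q_continuous : Continuous (s59lpochar_Q a b c d) := by
  unfold s59lpochar_Q
  refine Continuous.div (((s59lpochar_E_continuous a).pow 5).mul (s59lpochar_E_continuous b))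
    ((s59lpochar_E_continuous c).mul ((s59lpochar_E_continuous d).pow 5)) ?_
  intro z
  exact mul_ne_zero (s59lpochar_E_ne_zero c z) (pow_ne_zero 5 (s59lpochar_E_ne_zero d z))

theorem s59lpochar_E_vadd (n : ℕ) (z : ℍ) :
    s59lpochar_E n ((1 : ℝ) +ᵥ z) = cexp (2 * π * I / 24) ^ n * s59lpochar_E n z := by
  unfold s59lpochar_E
  have : (n : ℂ) * (((1 : ℝ) +ᵥ z : ℍ) : ℂ) = (n : ℂ) * (z : ℂ) + n := by
    rw [UpperHalfPlane.coe_vadd]
    push_cast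
    ring
  rw [this, s59lpochar_eta_add_nat]

/-- `1`-periodicity of the eta quotient when `5 a + b ≡ c + 5 d mod 24`. -/
theorem s59lpochar_Q_vadd (k : ℕ) (h : 5 * a + b = c + 5 * d + 24 * k ∨ 5 * a + b + 24 * k = c + 5 * d)
    (z : ℍ) : s59lpochar_Q a b c d ((1 : ℝ) +ᵥ z) = s59lpochar_Q a b c d z := by
  unfold s59lpochar_Q
  rw [s59lpochar_E_vadd, s59lpochar_E_vadd, s59lpochar_E_vadd, s59lpochar_E_vadd]
  set ζ := cexp (2 * π * I / 24) with hζ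
  have hζ24 : ζ ^ 24 = 1 := s59lpochar_zeta_pow
  have hζ0 : ζ ≠ 0 := Complex.exp_ne_zero _
  have hc0 := s59lpochar_E_ne_zero c z
  have hd0 := s59lpochar_E_ne_zero d z
  have key : ζ ^ (5 * a + b) = ζ ^ (c + 5 * d) := by
    have h24 : ∀ n : ℕ, ζ ^ (n + 24 * k) = ζ ^ n := fun n => by
      rw [pow_add, pow_mul, hζ24, one_pow, mul_one]
    rcases h with h | h
    · rw [h, h24]
    · rw [← h, h24]
  have e1 : (ζ ^ a * s59lpochar_E a z) ^ 5 * (ζ ^ b * s59lpochar_E b z) =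
      ζ ^ (5 * a + b) * (s59lpochar_E a z ^ 5 * s59lpochar_E b z) := by
    rw [pow_add, pow_mul']; ring
  have e2 : ζ ^ c * s59lpochar_E c z * (ζ ^ d * s59lpochar_E d z) ^ 5 =
      ζ ^ (c + 5 * d) * (s59lpochar_E c z * s59lpochar_E d z ^ 5) := by
    rw [pow_add, pow_mul']; ring
  rw [e1, e2, key]
  exact mul_div_mul_left _ _ (pow_ne_zero _ hζ0)

end Quot

/-- The level-6 eta quotient `h6 = η(z)⁵ η(3z) / (η(2z) η(6z)⁵)`. -/
def s59lpochar_h6 : ℍ → ℂ := s59lpochar_Q 1 3 2 6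

theorem s59lpochar_h6_apply (z : ℍ) :
    s59lpochar_h6 z = η (z : ℂ) ^ 5 * η (3 * (z : ℂ)) / (η (2 * (z : ℂ)) * η (6 * (z : ℂ)) ^ 5) := by
  simp [s59lpochar_h6, s59lpochar_Q, s59lpochar_E]

theorem s59lpochar_h6_pow (z : ℍ) :
    s59lpochar_h6 z ^ 24 =
      Δ z ^ 5 * Δ (scaleN 3 z) / (Δ (scaleN 2 z) * Δ (scaleN 6 z) ^ 5) := by
  rw [s59lpochar_h6, s59lpochar_Q_pow, s59lpochar_D]
  have : scaleN 1 z = z := by ext1; simp
  rw [this]

theorem s59lpochar_h6_ne_zero (z : ℍ) : s59lpochar_h6 z ≠ 0 := s59lpochar_Q_ne_zero 1 3 2 6 z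

theorem s59lpochar_h6_continuous : Continuous s59lpochar_h6 := s59lpochar_Q_continuous 1 3 2 6

/-- `h6 (z + 1) = h6 z`. -/
theorem s59lpochar_h6_vadd (z : ℍ) : s59lpochar_h6 ((1 : ℝ) +ᵥ z) = s59lpochar_h6 z :=
  s59lpochar_Q_vadd 1 3 2 6 1 (Or.inr (by norm_num)) z

/-! ### Transformation under a substitution -/

/-- If the four `Δ`-factors transform with the same automorphy factor `J` under `w : ℍ → ℍ`,
the eta quotient transforms into a constant multiple of another eta quotient. -/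
theorem s59lpochar_Q_subst (a b c d a' b' c' d' : ℕ) [NeZero a] [NeZero b] [NeZero c] [NeZero d]
    [NeZero a'] [NeZero b'] [NeZero c'] [NeZero d'] (w : ℍ → ℍ) (hw : Continuous w)
    (J : ℍ → ℂ) (hJ : ∀ τ, J τ ≠ 0) (g₁ g₂ g₃ g₄ : ℂ) (hg₁ : g₁ ≠ 0) (hg₂ : g₂ ≠ 0)
    (hg₃ : g₃ ≠ 0) (hg₄ : g₄ ≠ 0)
    (h₁ : ∀ τ, g₁ * Δ (scaleN a (w τ)) = J τ * Δ (scaleN a' τ))
    (h₂ : ∀ τ, g₂ * Δ (scaleN b (w τ)) = J τ * Δ (scaleN b' τ))
    (h₃ : ∀ τ, g₃ * Δ (scaleN c (w τ)) = J τ * Δ (scaleN c' τ))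
    (h₄ : ∀ τ, g₄ * Δ (scaleN d (w τ)) = J τ * Δ (scaleN d' τ)) :
    ∃ C : ℂ, ∀ τ, s59lpochar_Q a b c d (w τ) = C * s59lpochar_Q a' b' c' d' τ := by
  refine s59lpochar_const_of_pow ((s59lpochar_Q_continuous a b c d).comp hw)
    (s59lpochar_Q_continuous a' b' c' d') (s59lpochar_Q_ne_zero a' b' c' d')
    (g₃ * g₄ ^ 5 / (g₁ ^ 5 * g₂)) ?_
  intro τ
  rw [s59lpochar_Q_pow, s59lpochar_Q_pow, s59lpochar_D, s59lpochar_D]
  have e₁ : Δ (scaleN a (w τ)) = J τ * Δ (scaleN a' τ) / g₁ := by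
    rw [← h₁ τ]; field_simp
  have e₂ : Δ (scaleN b (w τ)) = J τ * Δ (scaleN b' τ) / g₂ := by
    rw [← h₂ τ]; field_simp
  have e₃ : Δ (scaleN c (w τ)) = J τ * Δ (scaleN c' τ) / g₃ := by
    rw [← h₃ τ]; field_simp
  have e₄ : Δ (scaleN d (w τ)) = J τ * Δ (scaleN d' τ) / g₄ := by
    rw [← h₄ τ]; field_simp
  rw [e₁, e₂, e₃, e₄]
  have hJ' := hJ τ
  have n₁ : Δ (scaleN c' τ) ≠ 0 := discriminant_ne_zero _
  have n₂ : Δ (scaleN d' τ) ≠ 0 := discriminant_ne_zero _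
  field_simp

/-! ### The Atkin–Lehner substitutions `W τ = γ • (Q τ)` -/

/-- The matrix `[[x, y], [z, w]]` of determinant one. -/
def s59lpochar_mk (x y z w : ℤ) (h : x * w - y * z = 1) : SL(2, ℤ) :=
  ⟨!![x, y; z, w], by rw [Matrix.det_fin_two_of]; exact h⟩

@[simp] theorem s59lpochar_mk_00 (x y z w : ℤ) (h : x * w - y * z = 1) :
    (s59lpochar_mk x y z w h) 0 0 = x := rfl

@[simp] theorem s59lpochar_mk_01 (x y z w : ℤ) (h : x * w - y * z = 1) :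
    (s59lpochar_mk x y z w h) 0 1 = y := rfl

@[simp] theorem s59lpochar_mk_10 (x y z w : ℤ) (h : x * w - y * z = 1) :
    (s59lpochar_mk x y z w h) 1 0 = z := rfl

@[simp] theorem s59lpochar_mk_11 (x y z w : ℤ) (h : x * w - y * z = 1) :
    (s59lpochar_mk x y z w h) 1 1 = w := rfl

/-- `z ↦ z / n` on `ℍ`. -/
def s59lpochar_div (n : ℕ) [NeZero n] (z : ℍ) : ℍ :=
  ⟨(z : ℂ) / (n : ℂ), by
    have hN : (0 : ℝ) < (n : ℝ) := Nat.cast_pos.mpr (Nat.pos_of_ne_zero (NeZero.ne n))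
    have : ((z : ℂ) / (n : ℂ)).im = z.im / (n : ℝ) := by
      rw [show ((n : ℂ)) = (((n : ℝ)) : ℂ) by push_cast; rfl, Complex.div_ofReal_im]
      rfl
    rw [this]
    exact div_pos z.im_pos hN⟩

theorem s59lpochar_scale_div (n : ℕ) [NeZero n] (z : ℍ) : scaleN n (s59lpochar_div n z) = z := by
  ext1
  rw [coe_scaleN]
  show (n : ℂ) * ((z : ℂ) / (n : ℂ)) = (z : ℂ)
  have hn : (n : ℂ) ≠ 0 := Nat.cast_ne_zero.mpr (NeZero.ne n)
  field_simp

/-- The substitution `W τ = γ • (Q τ)`. -/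
def s59lpochar_W (γ : SL(2, ℤ)) (Q : ℕ) [NeZero Q] (τ : ℍ) : ℍ := γ • scaleN Q τ

theorem s59lpochar_W_continuous (γ : SL(2, ℤ)) (Q : ℕ) [NeZero Q] :
    Continuous (s59lpochar_W γ Q) := by
  rw [UpperHalfPlane.isEmbedding_coe.continuous_iff]
  have hc : Continuous (fun τ : ℍ => (Q : ℂ) * (τ : ℂ)) :=
    continuous_const.mul UpperHalfPlane.continuous_coe
  have h : (UpperHalfPlane.coe ∘ s59lpochar_W γ Q) = fun τ : ℍ =>
      ((γ 0 0 : ℂ) * ((Q : ℂ) * (τ : ℂ)) + (γ 0 1 : ℂ)) /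
        ((γ 1 0 : ℂ) * ((Q : ℂ) * (τ : ℂ)) + (γ 1 1 : ℂ)) := by
    funext τ
    simp only [Function.comp_apply, s59lpochar_W]
    rw [P8_coe_smul, coe_scaleN]
  rw [h]
  refine Continuous.div ((continuous_const.mul hc).add continuous_const)
    ((continuous_const.mul hc).add continuous_const) ?_
  intro τ
  have := P8_denom_ne_zero γ (scaleN Q τ)
  rwa [coe_scaleN] at this

theorem s59lpochar_W_surj (γ : SL(2, ℤ)) (Q : ℕ) [NeZero Q] (z : ℍ) :
    ∃ τ, s59lpochar_W γ Q τ = z :=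
  ⟨s59lpochar_div Q (γ⁻¹ • z), by
    rw [s59lpochar_W, s59lpochar_scale_div, smul_inv_smul]⟩

theorem s59lpochar_W_vadd (γ B : SL(2, ℤ)) (Q : ℕ) [NeZero Q]
    (hB : B * γ = γ * ModularGroup.T ^ (Q : ℤ)) (τ : ℍ) :
    s59lpochar_W γ Q ((1 : ℝ) +ᵥ τ) = B • s59lpochar_W γ Q τ := by
  unfold s59lpochar_W
  rw [← mul_smul, hB, mul_smul, UpperHalfPlane.modular_T_zpow_smul]
  congr 1
  ext1
  rw [coe_scaleN, UpperHalfPlane.coe_vadd, UpperHalfPlane.coe_vadd, coe_scaleN]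
  push_cast
  ring

/-- Invariance under `B` with `B γ = γ T^Q` from the substitution formula and `1`-periodicity. -/
theorem s59lpochar_inv_of_subst (a b c d a' b' c' d' : ℕ) [NeZero a] [NeZero b] [NeZero c]
    [NeZero d] [NeZero a'] [NeZero b'] [NeZero c'] [NeZero d'] (γ B : SL(2, ℤ)) (Q : ℕ) [NeZero Q]
    (hB : B * γ = γ * ModularGroup.T ^ (Q : ℤ)) (k : ℕ)
    (hper : 5 * a' + b' = c' + 5 * d' + 24 * k ∨ 5 * a' + b' + 24 * k = c' + 5 * d')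
    (hsub : ∃ C : ℂ, ∀ τ, s59lpochar_Q a b c d (s59lpochar_W γ Q τ) =
      C * s59lpochar_Q a' b' c' d' τ) (z : ℍ) :
    s59lpochar_Q a b c d (B • z) = s59lpochar_Q a b c d z := by
  obtain ⟨C, hC⟩ := hsub
  obtain ⟨τ, rfl⟩ := s59lpochar_W_surj γ Q z
  rw [← s59lpochar_W_vadd γ B Q hB, hC, hC, s59lpochar_Q_vadd a' b' c' d' k hper]

/-- The automorphy factor of `W`. -/
def s59lpochar_J (γ : SL(2, ℤ)) (Q : ℕ) (τ : ℍ) : ℂ :=
  ((γ 1 0 : ℂ) * ((Q : ℂ) * (τ : ℂ)) + (γ 1 1 : ℂ)) ^ 12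

theorem s59lpochar_J_ne_zero (γ : SL(2, ℤ)) (Q : ℕ) [NeZero Q] (τ : ℍ) :
    s59lpochar_J γ Q τ ≠ 0 := by
  have := P8_denom_ne_zero γ (scaleN Q τ)
  rw [coe_scaleN] at this
  exact pow_ne_zero 12 this

theorem s59lpochar_gpow_ne_zero {g : ℤ} (hg : g ≠ 0) : ((g : ℂ)) ^ 12 ≠ 0 :=
  pow_ne_zero 12 (by exact_mod_cast hg)

/-- `Q = 2`: `h6 ∘ W₂ = C · η(2z)⁵ η(6z) / (η(z) η(3z)⁵)`. -/
theorem s59lpochar_subst_two (a b c d : ℤ) (h : a * (2 * d) - b * (3 * c) = 1) :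
    ∃ C : ℂ, ∀ τ, s59lpochar_Q 1 3 2 6 (s59lpochar_W (s59lpochar_mk a b (3 * c) (2 * d) h) 2 τ) =
      C * s59lpochar_Q 2 6 1 3 τ := by
  refine s59lpochar_Q_subst 1 3 2 6 2 6 1 3 _ (s59lpochar_W_continuous _ 2)
    (s59lpochar_J (s59lpochar_mk a b (3 * c) (2 * d) h) 2) (s59lpochar_J_ne_zero _ 2)
    (((1 : ℤ) : ℂ) ^ 12) (((1 : ℤ) : ℂ) ^ 12) (((2 : ℤ) : ℂ) ^ 12) (((2 : ℤ) : ℂ) ^ 12)
    (s59lpochar_gpow_ne_zero one_ne_zero) (s59lpochar_gpow_ne_zero one_ne_zero)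
    (s59lpochar_gpow_ne_zero two_ne_zero) (s59lpochar_gpow_ne_zero two_ne_zero)
    (fun τ => s59lpochar_delta_scale_smul _ (s59lpochar_mk a b (3 * c) (2 * d) h) 1 2 2 1
      one_ne_zero ?_ ?_ ?_ ?_ τ)
    (fun τ => s59lpochar_delta_scale_smul _ (s59lpochar_mk a (3 * b) c (2 * d)
      (by linear_combination h)) 3 2 6 1 one_ne_zero ?_ ?_ ?_ ?_ τ)
    (fun τ => s59lpochar_delta_scale_smul _ (s59lpochar_mk (2 * a) b (3 * c) d
      (by linear_combination h)) 2 2 1 2 two_ne_zero ?_ ?_ ?_ ?_ τ)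
    (fun τ => s59lpochar_delta_scale_smul _ (s59lpochar_mk (2 * a) (3 * b) c d
      (by linear_combination h)) 6 2 3 2 two_ne_zero ?_ ?_ ?_ ?_ τ)
  all_goals simp only [s59lpochar_mk_00, s59lpochar_mk_01, s59lpochar_mk_10, s59lpochar_mk_11]
  all_goals push_cast
  all_goals ring

/-- `Q = 3`: `h6 ∘ W₃ = C · η(3z)⁵ η(z) / (η(6z) η(2z)⁵)`. -/
theorem s59lpochar_subst_three (a b c d : ℤ) (h : a * (3 * d) - b * (2 * c) = 1) :
    ∃ C : ℂ, ∀ τ, s59lpochar_Q 1 3 2 6 (s59lpochar_W (s59lpochar_mk a b (2 * c) (3 * d) h) 3 τ) =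
      C * s59lpochar_Q 3 1 6 2 τ := by
  refine s59lpochar_Q_subst 1 3 2 6 3 1 6 2 _ (s59lpochar_W_continuous _ 3)
    (s59lpochar_J (s59lpochar_mk a b (2 * c) (3 * d) h) 3) (s59lpochar_J_ne_zero _ 3)
    (((1 : ℤ) : ℂ) ^ 12) (((3 : ℤ) : ℂ) ^ 12) (((1 : ℤ) : ℂ) ^ 12) (((3 : ℤ) : ℂ) ^ 12)
    (s59lpochar_gpow_ne_zero one_ne_zero) (s59lpochar_gpow_ne_zero three_ne_zero)
    (s59lpochar_gpow_ne_zero one_ne_zero) (s59lpochar_gpow_ne_zero three_ne_zero)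
    (fun τ => s59lpochar_delta_scale_smul _ (s59lpochar_mk a b (2 * c) (3 * d) h) 1 3 3 1
      one_ne_zero ?_ ?_ ?_ ?_ τ)
    (fun τ => s59lpochar_delta_scale_smul _ (s59lpochar_mk (3 * a) b (2 * c) d
      (by linear_combination h)) 3 3 1 3 three_ne_zero ?_ ?_ ?_ ?_ τ)
    (fun τ => s59lpochar_delta_scale_smul _ (s59lpochar_mk a (2 * b) c (3 * d)
      (by linear_combination h)) 2 3 6 1 one_ne_zero ?_ ?_ ?_ ?_ τ)
    (fun τ => s59lpochar_delta_scale_smul _ (s59lpochar_mk (3 * a) (2 * b) c d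
      (by linear_combination h)) 6 3 2 3 three_ne_zero ?_ ?_ ?_ ?_ τ)
  all_goals simp only [s59lpochar_mk_00, s59lpochar_mk_01, s59lpochar_mk_10, s59lpochar_mk_11]
  all_goals push_cast
  all_goals ring

/-- `Q = 6`: `h6 ∘ W₆ = C · η(6z)⁵ η(2z) / (η(3z) η(z)⁵)`. -/
theorem s59lpochar_subst_six (a b c d : ℤ) (h : a * (6 * d) - b * c = 1) :
    ∃ C : ℂ, ∀ τ, s59lpochar_Q 1 3 2 6 (s59lpochar_W (s59lpochar_mk a b c (6 * d) h) 6 τ) =
      C * s59lpochar_Q 6 2 3 1 τ := by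
  refine s59lpochar_Q_subst 1 3 2 6 6 2 3 1 _ (s59lpochar_W_continuous _ 6)
    (s59lpochar_J (s59lpochar_mk a b c (6 * d) h) 6) (s59lpochar_J_ne_zero _ 6)
    (((1 : ℤ) : ℂ) ^ 12) (((3 : ℤ) : ℂ) ^ 12) (((2 : ℤ) : ℂ) ^ 12) (((6 : ℤ) : ℂ) ^ 12)
    (s59lpochar_gpow_ne_zero one_ne_zero) (s59lpochar_gpow_ne_zero three_ne_zero)
    (s59lpochar_gpow_ne_zero two_ne_zero) (s59lpochar_gpow_ne_zero (by norm_num))
    (fun τ => s59lpochar_delta_scale_smul _ (s59lpochar_mk a b c (6 * d) h) 1 6 6 1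
      one_ne_zero ?_ ?_ ?_ ?_ τ)
    (fun τ => s59lpochar_delta_scale_smul _ (s59lpochar_mk (3 * a) b c (2 * d)
      (by linear_combination h)) 3 6 2 3 three_ne_zero ?_ ?_ ?_ ?_ τ)
    (fun τ => s59lpochar_delta_scale_smul _ (s59lpochar_mk (2 * a) b c (3 * d)
      (by linear_combination h)) 2 6 3 2 two_ne_zero ?_ ?_ ?_ ?_ τ)
    (fun τ => s59lpochar_delta_scale_smul _ (s59lpochar_mk (6 * a) b c d
      (by linear_combination h)) 6 6 1 6 (by norm_num) ?_ ?_ ?_ ?_ τ)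
  all_goals simp only [s59lpochar_mk_00, s59lpochar_mk_01, s59lpochar_mk_10, s59lpochar_mk_11]
  all_goals push_cast
  all_goals ring

/-! ### Invariance of `h6` under the parabolic elements -/

/-- `h6 (T • z) = h6 z`. -/
theorem s59lpochar_h6_T (z : ℍ) : s59lpochar_h6 (ModularGroup.T • z) = s59lpochar_h6 z := by
  rw [UpperHalfPlane.modular_T_smul]
  exact s59lpochar_h6_vadd z

/-- `h6 (-1 • z) = h6 z`. -/
theorem s59lpochar_h6_neg_one (z : ℍ) : s59lpochar_h6 ((-1 : SL(2, ℤ)) • z) = s59lpochar_h6 z := by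
  rw [ModularGroup.SL_neg_smul, one_smul]

/-- Cusps with denominator `3` (width `2`): invariance under `B = γ₁ T² γ₁⁻¹`,
`γ₁ = [[a, b], [3c, 2d]]`. -/
theorem s59lpochar_h6_two (a b c d : ℤ) (h : a * (2 * d) - b * (3 * c) = 1) (B : SL(2, ℤ))
    (hB : B * s59lpochar_mk a b (3 * c) (2 * d) h =
      s59lpochar_mk a b (3 * c) (2 * d) h * ModularGroup.T ^ ((2 : ℕ) : ℤ)) (z : ℍ) :
    s59lpochar_h6 (B • z) = s59lpochar_h6 z :=
  s59lpochar_inv_of_subst 1 3 2 6 2 6 1 3 _ B 2 hB 0 (Or.inl (by norm_num))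
    (s59lpochar_subst_two a b c d h) z

/-- Cusps with denominator `2` (width `3`): invariance under `B = γ₁ T³ γ₁⁻¹`,
`γ₁ = [[a, b], [2c, 3d]]`. -/
theorem s59lpochar_h6_three (a b c d : ℤ) (h : a * (3 * d) - b * (2 * c) = 1) (B : SL(2, ℤ))
    (hB : B * s59lpochar_mk a b (2 * c) (3 * d) h =
      s59lpochar_mk a b (2 * c) (3 * d) h * ModularGroup.T ^ ((3 : ℕ) : ℤ)) (z : ℍ) :
    s59lpochar_h6 (B • z) = s59lpochar_h6 z :=
  s59lpochar_inv_of_subst 1 3 2 6 3 1 6 2 _ B 3 hB 0 (Or.inl (by norm_num))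
    (s59lpochar_subst_three a b c d h) z

/-- Cusps with denominator `1` (width `6`): invariance under `B = γ₁ T⁶ γ₁⁻¹`,
`γ₁ = [[a, b], [c, 6d]]`. -/
theorem s59lpochar_h6_six (a b c d : ℤ) (h : a * (6 * d) - b * c = 1) (B : SL(2, ℤ))
    (hB : B * s59lpochar_mk a b c (6 * d) h =
      s59lpochar_mk a b c (6 * d) h * ModularGroup.T ^ ((6 : ℕ) : ℤ)) (z : ℍ) :
    s59lpochar_h6 (B • z) = s59lpochar_h6 z :=
  s59lpochar_inv_of_subst 1 3 2 6 6 2 3 1 _ B 6 hB 1 (Or.inl (by norm_num))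
    (s59lpochar_subst_six a b c d h) z

/-- The stabiliser of `h6` in `SL₂(ℤ)`. -/
def s59lpochar_stab : Subgroup SL(2, ℤ) where
  carrier := {γ | ∀ z : ℍ, s59lpochar_h6 (γ • z) = s59lpochar_h6 z}
  one_mem' := fun z => by rw [one_smul]
  mul_mem' := fun {γ₁ γ₂} h₁ h₂ z => by rw [mul_smul, h₁, h₂]
  inv_mem' := fun {γ} h z => by
    have := h (γ⁻¹ • z)
    rw [smul_inv_smul] at this
    exact this.symm

theorem s59lpochar_mem_stab {γ : SL(2, ℤ)} :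
    γ ∈ s59lpochar_stab ↔ ∀ z : ℍ, s59lpochar_h6 (γ • z) = s59lpochar_h6 z := Iff.rfl

theorem s59lpochar_T_mem : ModularGroup.T ∈ s59lpochar_stab := s59lpochar_h6_T

theorem s59lpochar_neg_one_mem : (-1 : SL(2, ℤ)) ∈ s59lpochar_stab := s59lpochar_h6_neg_one

/-- Matrix identity `B γ = γ Tⁿ` from the four entries. -/
theorem s59lpochar_conj_eq (x y z w x' y' z' w' : ℤ) (h : x * w - y * z = 1)
    (h' : x' * w' - y' * z' = 1) (n : ℕ)
    (e00 : x' * x + y' * z = x) (e01 : x' * y + y' * w = x * n + y)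
    (e10 : z' * x + w' * z = z) (e11 : z' * y + w' * w = z * n + w) :
    s59lpochar_mk x' y' z' w' h' * s59lpochar_mk x y z w h =
      s59lpochar_mk x y z w h * ModularGroup.T ^ ((n : ℕ) : ℤ) := by
  apply Subtype.ext
  rw [Matrix.SpecialLinearGroup.coe_mul, Matrix.SpecialLinearGroup.coe_mul,
    ModularGroup.coe_T_zpow]
  show !![x', y'; z', w'] * !![x, y; z, w] = !![x, y; z, w] * !![1, (n : ℤ); 0, 1]
  rw [Matrix.mul_fin_two, Matrix.mul_fin_two]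
  simp only [mul_one, mul_zero, add_zero]
  rw [e00, e01, e10, e11]

/-- The parabolic generator `[[1 - 6ac, 2a²], [-18c², 1 + 6ac]]` at the cusp `a / (3c)`. -/
theorem s59lpochar_two_mem (a b c d : ℤ) (h : a * (2 * d) - b * (3 * c) = 1) :
    s59lpochar_mk (1 - 6 * a * c) (2 * a ^ 2) (-18 * c ^ 2) (1 + 6 * a * c) (by ring) ∈
      s59lpochar_stab := by
  refine s59lpochar_h6_two a b c d h _ ?_
  refine s59lpochar_conj_eq _ _ _ _ _ _ _ _ h _ 2 ?_ ?_ ?_ ?_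
  · ring
  · push_cast; linear_combination (2 * a) * h
  · ring
  · push_cast; linear_combination (6 * c) * h

/-- The parabolic generator `[[1 - 6ac, 3a²], [-12c², 1 + 6ac]]` at the cusp `a / (2c)`. -/
theorem s59lpochar_three_mem (a b c d : ℤ) (h : a * (3 * d) - b * (2 * c) = 1) :
    s59lpochar_mk (1 - 6 * a * c) (3 * a ^ 2) (-12 * c ^ 2) (1 + 6 * a * c) (by ring) ∈
      s59lpochar_stab := by
  refine s59lpochar_h6_three a b c d h _ ?_
  refine s59lpochar_conj_eq _ _ _ _ _ _ _ _ h _ 3 ?_ ?_ ?_ ?_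
  · ring
  · push_cast; linear_combination (3 * a) * h
  · ring
  · push_cast; linear_combination (6 * c) * h

/-- The parabolic generator `[[1 - 6ac, 6a²], [-6c², 1 + 6ac]]` at the cusp `a / c`. -/
theorem s59lpochar_six_mem (a b c d : ℤ) (h : a * (6 * d) - b * c = 1) :
    s59lpochar_mk (1 - 6 * a * c) (6 * a ^ 2) (-6 * c ^ 2) (1 + 6 * a * c) (by ring) ∈
      s59lpochar_stab := by
  refine s59lpochar_h6_six a b c d h _ ?_
  refine s59lpochar_conj_eq _ _ _ _ _ _ _ _ h _ 6 ?_ ?_ ?_ ?_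
  · ring
  · push_cast; linear_combination (6 * a) * h
  · ring
  · push_cast; linear_combination (6 * c) * h

/-- `[[1, 0], [-6, 1]]` (cusp `0`). -/
theorem s59lpochar_gen_zero_mem :
    s59lpochar_mk 1 0 (-6) 1 (by norm_num) ∈ s59lpochar_stab := by
  have := s59lpochar_six_mem 0 (-1) 1 0 (by norm_num)
  convert this using 2 <;> norm_num

/-- `[[-5, 3], [-12, 7]]` (cusp `1/2`). -/
theorem s59lpochar_gen_half_mem :
    s59lpochar_mk (-5) 3 (-12) 7 (by norm_num) ∈ s59lpochar_stab := by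
  have := s59lpochar_three_mem 1 1 1 1 (by norm_num)
  convert this using 2 <;> norm_num

/-- `[[-5, 2], [-18, 7]]` (cusp `1/3`). -/
theorem s59lpochar_gen_third_mem :
    s59lpochar_mk (-5) 2 (-18) 7 (by norm_num) ∈ s59lpochar_stab := by
  have := s59lpochar_two_mem 1 1 1 2 (by norm_num)
  convert this using 2 <;> norm_num

/-- If `Γ₀(6)` is generated by elements of the stabiliser, `h6` is `Γ₀(6)`-invariant. -/
theorem s59lpochar_hinv_of_closure (S : Set SL(2, ℤ)) (hS : ∀ s ∈ S, s ∈ s59lpochar_stab)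
    (hgen : CongruenceSubgroup.Gamma0 6 ≤ Subgroup.closure S) :
    ∀ γ ∈ CongruenceSubgroup.Gamma0 6, ∀ τ : ℍ, s59lpochar_h6 (γ • τ) = s59lpochar_h6 τ := by
  intro γ hγ
  have h1 : Subgroup.closure S ≤ s59lpochar_stab := (Subgroup.closure_le _).mpr hS
  exact h1 (hgen hγ)

/-- The five standard generators lie in the stabiliser. -/
theorem s59lpochar_gens_mem :
    ∀ s ∈ ({-1, ModularGroup.T, s59lpochar_mk 1 0 (-6) 1 (by norm_num),
      s59lpochar_mk (-5) 3 (-12) 7 (by norm_num),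
      s59lpochar_mk (-5) 2 (-18) 7 (by norm_num)} : Set SL(2, ℤ)), s ∈ s59lpochar_stab := by
  intro s hs
  simp only [Set.mem_insert_iff, Set.mem_singleton_iff] at hs
  rcases hs with rfl | rfl | rfl | rfl | rfl
  · exact s59lpochar_neg_one_mem
  · exact s59lpochar_T_mem
  · exact s59lpochar_gen_zero_mem
  · exact s59lpochar_gen_half_mem
  · exact s59lpochar_gen_third_mem

/-! ### `Γ₀(6)`-invariance (with leaf L4 GEN, `s59lpogen_invariant`) -/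

theorem s59lpochar_L_mem : s59lpogenL ∈ s59lpochar_stab := s59lpochar_gen_zero_mem

theorem s59lpochar_B_mem : s59lpogenB ∈ s59lpochar_stab := s59lpochar_gen_half_mem

theorem s59lpochar_A_mem : s59lpogenA ∈ s59lpochar_stab := s59lpochar_gen_third_mem

/-- **L3 + L4**: `h6` is invariant under `Γ₀(6)` (the hypothesis `hinv` of leaf L5 MEM). -/
theorem s59lpochar_hinv :
    ∀ γ ∈ CongruenceSubgroup.Gamma0 6, ∀ τ : ℍ, s59lpochar_h6 (γ • τ) = s59lpochar_h6 τ :=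
  s59lpogen_invariant s59lpochar_h6 s59lpochar_h6_T s59lpochar_L_mem s59lpochar_B_mem

theorem s59lpochar_gamma0_le_stab : CongruenceSubgroup.Gamma0 6 ≤ s59lpochar_stab :=
  fun γ hγ => s59lpochar_hinv γ hγ

/-- The same for any function given by the eta formula. -/
theorem s59lpochar_hinv_of_eq (f : ℍ → ℂ)
    (hf : ∀ z : ℍ, f z =
      η (z : ℂ) ^ 5 * η (3 * (z : ℂ)) / (η (2 * (z : ℂ)) * η (6 * (z : ℂ)) ^ 5)) :
    ∀ γ ∈ CongruenceSubgroup.Gamma0 6, ∀ τ : ℍ, f (γ • τ) = f τ := by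
  have h : f = s59lpochar_h6 := funext fun z => by rw [hf, s59lpochar_h6_apply]
  rw [h]
  exact s59lpochar_hinv

/-- The 24-th power, for any function given by the eta formula (the hypothesis `hpow` of L5). -/
theorem s59lpochar_hpow_of_eq (f : ℍ → ℂ)
    (hf : ∀ z : ℍ, f z =
      η (z : ℂ) ^ 5 * η (3 * (z : ℂ)) / (η (2 * (z : ℂ)) * η (6 * (z : ℂ)) ^ 5)) (z : ℍ) :
    f z ^ 24 = Δ z ^ 5 * Δ (scaleN 3 z) / (Δ (scaleN 2 z) * Δ (scaleN 6 z) ^ 5) := by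
  have h : f = s59lpochar_h6 := funext fun z => by rw [hf, s59lpochar_h6_apply]
  rw [h]
  exact s59lpochar_h6_pow z

/-- The character form: for `γ ∈ Γ₀(6)` the quotient `h6 ∘ γ / h6` is the constant `1`. -/
theorem s59lpochar_char (γ : SL(2, ℤ)) (hγ : γ ∈ CongruenceSubgroup.Gamma0 6) :
    ∃ χ : ℂ, χ = 1 ∧ ∀ τ : ℍ, s59lpochar_h6 (γ • τ) = χ * s59lpochar_h6 τ :=
  ⟨1, rfl, fun τ => by rw [one_mul, s59lpochar_hinv γ hγ]⟩

end Fermat.Agent.S59
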