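/-
S59, wall M4 (LOWER-P) at `p = 3`, leaf OGG3 / L9a RED (helper44; split of helper10).

ABSTRACT twin of `R38/TresOggRed.lean` + `R38/TresMonoI7.lean` (which are about the Ogg unit
`S36.s36tuV`): here `g ∈ F_{M₁ q}(K₀)` is ANY element with an `A`-integral model
`x : LaurentSeries ↥A` (the `q`-expansion of `nfEmb g` is `kronIncl A x`) whose reduction
`kronRed A x` is not zero.  Frame = `RIB/MP/RedA.lean`, section Main: `W = V_∞ = mgvV … true`,
`ρ = ribmpRedF`.

* `s59lpored_gaussRed` : `GaussRed (M₁ q) A (nfEmb g) (kronRed A x)`;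
* `s59lpored_r38Red`   : `R38Red A (nfEmb g) (kronRed A x)`;
* `s59lpored_mem`      : `kronRed A x ∈ F̄_{M₁}` (generic (I5), `tresmi5_redF`);
* `s59lpored_mem_of`   : `kronRed A x ∈ F̄_M` for every level `M` with `q ∤ M` and
                         `kronIncl A x ∈ F_{M q}(ℚ̄)`;
* `s59lpored_coe`      : `(ρ ⟨g, _⟩ : k((q))) = kronRed A x` (any membership proof);
* `s59lpored_hρh`      : `ρ ⟨g, tresdn_mem W hh⟩ = ⟨kronRed A x, _⟩` (the hypothesis `hρh` of
                         `tresmono_frame`).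
-/
import Fermat.Agent.RIB.MP.RedA
import Fermat.Agent.R38.TresDictNode
import Fermat.Agent.R38.TresMonoI5
import Fermat.Agent.R38.TresRed
import Fermat.Agent.ES.M.Plan
import Fermat.Agent.INJ.NFEmb

set_option autoImplicit false
set_option linter.unusedSectionVars false
set_option linter.unusedVariables false
set_option linter.style.haveILetI false
set_option linter.style.longLine false
set_option synthInstance.maxHeartbeats 400000
set_option maxHeartbeats 1600000

noncomputable section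

namespace Fermat.Agent.S59

open ModularCurve AlgebraicCurve Fermat.Agent.ES Fermat.Agent.ES.G2 Fermat.Agent.INJ
  Fermat.Agent.UNIP Fermat.Agent.STB Fermat.Agent.ES.M Fermat.Agent.DEU
  Fermat.Agent.S24 Fermat.Agent.RIB.MP Fermat.Agent.S28 Fermat.Agent.R38

section Red

variable {M₁ q : ℕ} [NeZero M₁] [NeZero q] [NeZero (M₁ * q)]
  {A : ValuationSubring R38.Qb} {K₀ : IntermediateField ℚ R38.Qb}
  {g : ↥(modularFunctionFieldFullC ↥K₀ (M₁ * q))} {x : LaurentSeries ↥A}

/-- **Gauss reduction** of an element with an integral model (fraction form). -/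
theorem s59lpored_gaussRed
    (hgx : ((nfEmb K₀ (M₁ * q) g : modularFunctionFieldBar (M₁ * q)) : LaurentSeries R38.Qb) =
      kronIncl A x) :
    GaussRed (M₁ * q) A (nfEmb K₀ (M₁ * q) g) (kronRed A x) := by
  refine ⟨x, 1, ?_, ?_, ?_, ?_, ?_⟩
  · rw [← hgx]
    exact (nfEmb K₀ (M₁ * q) g).2
  · rw [map_one]
    exact one_mem _
  · rw [map_one]
    exact one_ne_zero
  · rw [map_one, mul_one, hgx]
  · rw [map_one, mul_one]

/-- **Gauss reduction** of an element with an integral model (`R38Red` form). -/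
theorem s59lpored_r38Red
    (hgx : ((nfEmb K₀ (M₁ * q) g : modularFunctionFieldBar (M₁ * q)) : LaurentSeries R38.Qb) =
      kronIncl A x) (hx0 : kronRed A x ≠ 0) :
    R38Red A ((nfEmb K₀ (M₁ * q) g : modularFunctionFieldBar (M₁ * q)) : LaurentSeries R38.Qb)
      (kronRed A x) := by
  refine ⟨1, x, 1, one_ne_zero, hx0, ?_, ?_, ?_⟩
  · rw [map_one]
    exact one_ne_zero
  · rw [map_one, mul_one, map_one, one_mul, hgx]
  · rw [map_one, mul_one]

/-- the reduction lies in `F̄_M` for every level `M` prime to `q` at which the model lives. -/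
theorem s59lpored_mem_of {M : ℕ} [NeZero M] [NeZero (M * q)] (hq : q.Prime) (hqM : ¬ q ∣ M)
    (hA : A.LiesOverPrime q) (hY : kronIncl A x ∈ modularFunctionFieldBar (M * q)) :
    kronRed A x ∈ modularFunctionFieldFullC (kA A) M :=
  tresmi5_redF hq hqM hA x hY

/-- the reduction lies in `F̄_{M₁}`. -/
theorem s59lpored_mem (hq : q.Prime) (hqM : ¬ q ∣ M₁) (hA : A.LiesOverPrime q)
    (hgx : ((nfEmb K₀ (M₁ * q) g : modularFunctionFieldBar (M₁ * q)) : LaurentSeries R38.Qb) =
      kronIncl A x) :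
    kronRed A x ∈ modularFunctionFieldFullC (kA A) M₁ := by
  refine s59lpored_mem_of hq hqM hA ?_
  rw [← hgx]
  exact (nfEmb K₀ (M₁ * q) g).2

variable (hq : q.Prime) (hqM : ¬ q ∣ M₁) (hA : A.LiesOverPrime q)
  [IsDiscreteValuationRing ↥(beta0Ring A K₀)]
  {π : ↥(beta0Ring A K₀)} (hπ : Irreducible π) (ιC : ↥K₀ →+* ℂ)

include hA in
/-- **`ρ(g) = x̄`** as a Laurent series, for any proof of `g ∈ V_∞`. -/
theorem s59lpored_coe (hRedF : StmtRedF M₁ A)
    (hgx : ((nfEmb K₀ (M₁ * q) g : modularFunctionFieldBar (M₁ * q)) : LaurentSeries R38.Qb) =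
      kronIncl A x)
    (hV : g ∈ mgvV hπ ιC hq hqM true) :
    ((ribmpRedF hq hqM hA hπ ιC hRedF ⟨g, hV⟩ :
      ↥(modularFunctionFieldFullC (kA A) M₁)) : LaurentSeries (kA A)) = kronRed A x := by
  rw [ribmpRedF_coe]
  exact ribmpRedK_eq hπ (M₁ * q) (s59lpored_gaussRed hgx)

include hA in
/-- **`hρh`** of `tresmono_frame` (no-cover case `F' = F`, `W = V_∞`, `ρ = ribmpRedF`). -/
theorem s59lpored_hρh (hRedF : StmtRedF M₁ A)
    (hgx : ((nfEmb K₀ (M₁ * q) g : modularFunctionFieldBar (M₁ * q)) : LaurentSeries R38.Qb) =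
      kronIncl A x)
    (hh : (mgvV hπ ιC hq hqM true).valuation g = 1) :
    ribmpRedF hq hqM hA hπ ιC hRedF ⟨g, tresdn_mem (mgvV hπ ιC hq hqM true) hh⟩ =
      ⟨kronRed A x, s59lpored_mem hq hqM hA hgx⟩ :=
  Subtype.ext (s59lpored_coe hq hqM hA hπ ιC hRedF hgx _)

end Red

end Fermat.Agent.S59

end
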