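/-
S59, wall M4 (LOWER-P at `p = 3`), leaf OGG3, L7 WUN6 (helper16): THE OGG DATUM OF THE LEVEL-6 UNIT
FROM ITS 24-TH POWER — no Atkin–Lehner computation for the root is needed.

Frame of `S59/LowP/OggAbs.lean`: `q` the residue characteristic (`q = 3`), `ℓ ≠ q` a prime with
`ℓ ∣ M` (`ℓ = 2`), `F = F_{Mq}(K₀)`, `V_∞`, `V_0 = V_∞ ∘ w_q`.

* `s59lpow_val_low`, `s59lpow_val_high` : a function of `F_M` (resp. its pull-back `f(Q^q)`) whose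
  `Q`-expansion is integral and primitive has `v_∞ = v_0 = 1` (`w_q` swaps `f` and `f(Q^q)`);
* `v_ℓ = Δ(Q)/Δ(Q^ℓ) = uInvS K₀ ℓ ∈ F_M ⊆ F` and `B_q v_ℓ = v_ℓ(Q^q)`: both are Ogg data with
  exponent `n = 0` (`s59lpow_low`, `s59lpow_high`): cuspidal divisor from
  `(ℓ¹² u_ℓ) · v_ℓ = ℓ¹²`, all four functions integral over `A′[j]`;
* `s59lpow_root` : **the root**: `x ∈ F` with
      `x ^ N = h ^ a · v_ℓ ^ b · (B_q v_ℓ) ^ c`,   `h = Δ(Q)/Δ(Q^q)` THE Ogg unit, `N n = 12 e a`,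
  is an Ogg datum with exponent `n`;
* `s59lpow_six_pair` : the ROOT INTERFACE (C3) of `x` with companion `U_x = q² / x`
  (`x, U_x ∈ B_j`, `U_x x = q²`, `v_∞(x) = 1`, `v_0(U_x) = 1`);
* `s59lpow_six` : the case `x ^ 24 = h⁴ · v_ℓ · (B_q v_ℓ)⁵`  (for `q = 3`, `ℓ = 2` this is
  `Δ(z)⁵ Δ(3z) Δ(2z)⁻¹ Δ(6z)⁻⁵`, `x = η(z)⁵ η(3z) / (η(2z) η(6z)⁵)`): exponent `n = 2 e`
  (`q ∼ π ^ e`; `e = 1` over `ℚ̄^I`), and `3 ∤ 2`.
-/
import Fermat.Agent.S59.LowP.OggAbs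

set_option autoImplicit false
set_option linter.unusedSectionVars false
set_option linter.unusedVariables false
set_option linter.style.haveILetI false
set_option linter.style.longLine false

noncomputable section

namespace Fermat.Agent.S59

open ModularCurve AlgebraicCurve IntermediateField Fermat.Agent.INJ Fermat.Agent.UNIP
  Fermat.Agent.STB Fermat.Agent.S36 Fermat.Agent.S33 Fermat.Agent.S28 Fermat.Agent.RIB.MP
  Fermat.Agent.RT.K6 Fermat.Agent.AL Fermat.Agent.ES Fermat.Agent.ES.G2 Fermat.Agent.S24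
  Fermat.Agent.R38

section Int

variable {A' E : Type*} [CommRing A'] [Field E] {N : ℕ}
  [Algebra A' (modularFunctionFieldFullC E N)]

/-- integrality in `F_N(E)` from a monic two-variable relation between the `Q`-expansions -/
theorem s59lpow_isIntegral_of_series {Φ : Polynomial (Polynomial ℤ)} (hΦ : Φ.Monic)
    {x y : modularFunctionFieldFullC E N}
    (h : Φ.eval₂ (evalInt (x : LaurentSeries E)) (y : LaurentSeries E) = 0) :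
    IsIntegral (Algebra.adjoin A' {x}) y := by
  apply nodesSwap_isIntegral_of_evalInt (A := A') (S := modularFunctionFieldFullC E N) hΦ
  apply (modularFunctionFieldFullC E N).val.toRingHom.injective
  rw [map_eval₂_evalInt, map_zero]
  exact h

end Int

section Mgv

variable {A : ValuationSubring Fermat.Agent.ES.G2.Qb} {K₀ : IntermediateField ℚ Fermat.Agent.ES.G2.Qb}
  [IsDiscreteValuationRing ↥(beta0Ring A K₀)] {π : ↥(beta0Ring A K₀)} (hπ : Irreducible π)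
  (ιC : ↥K₀ →+* ℂ) {q M : ℕ} [NeZero q] [NeZero M] [NeZero (M * q)]
  (hq : q.Prime) (hqM : ¬ q ∣ M)

/-- a prime `ℓ ≠ q` is a unit of `A′` -/
theorem s59lpow_isUnit_natCast (hq : q.Prime) (hA : A.LiesOverPrime q) {ℓ : ℕ} (hℓ : ℓ.Prime)
    (hℓq : ℓ ≠ q) : IsUnit ((ℓ : ℕ) : ↥(beta0Ring A K₀)) := by
  haveI : CharP (IsLocalRing.ResidueField ↥(beta0Ring A K₀)) q := mgvl_charP hq hA
  by_contra hu
  have h1 : IsLocalRing.residue ↥(beta0Ring A K₀) ((ℓ : ℕ) : ↥(beta0Ring A K₀)) = 0 :=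
    (IsLocalRing.residue_eq_zero_iff _).2 ((IsLocalRing.mem_maximalIdeal _).2 hu)
  rw [map_natCast] at h1
  have h2 := (CharP.cast_eq_zero_iff (IsLocalRing.ResidueField ↥(beta0Ring A K₀)) q ℓ).1 h1
  exact hℓq ((Nat.prime_dvd_prime_iff_eq hq hℓ).1 h2).symm

/-- **`v_∞ = v_0 = 1` on `F_M`**: a function of `F_M ⊆ F_{Mq}` whose `Q`-expansion is integral
with nonzero reduction is a unit of both vertical valuation rings. -/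
theorem s59lpow_val_low (T : LaurentSeries ↥(beta0Ring A K₀))
    (hT : coeffMap (IsLocalRing.residue ↥(beta0Ring A K₀)) T ≠ 0)
    (hmem : coeffMap (algebraMap ↥(beta0Ring A K₀) ↥K₀) T ∈ modularFunctionFieldFullC ↥K₀ M)
    (c : Bool) :
    (mgvV hπ ιC hq hqM c).valuation
      (⟨coeffMap (algebraMap ↥(beta0Ring A K₀) ↥K₀) T, al_mem_of_mem_low ↥K₀ hmem⟩ :
        ↥(modularFunctionFieldFullC ↥K₀ (M * q))) = 1 := by
  rw [mgvV, vtFam_valuation_eq_one_iff]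
  cases c
  · have h1 : vtEmbFam ιC hq hqM false
        (⟨coeffMap (algebraMap ↥(beta0Ring A K₀) ↥K₀) T, al_mem_of_mem_low ↥K₀ hmem⟩ :
          ↥(modularFunctionFieldFullC ↥K₀ (M * q))) =
        qExpand ↥K₀ q (coeffMap (algebraMap ↥(beta0Ring A K₀) ↥K₀) T) :=
      atkinLehner_of_mem_low ↥K₀ ιC hq hqM hmem
    rw [h1, ← ModularCurve.coeffMap_qExpand]
    refine vtUnit_coeffMap ?_
    rw [ModularCurve.coeffMap_qExpand]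
    exact fun h0 => hT (ModularCurve.qExpand_injective (N := q) (by rw [h0, map_zero]))
  · exact vtUnit_coeffMap hT

/-- **`v_∞ = v_0 = 1` for the pull-backs `f(Q^q)`, `f ∈ F_M`.** -/
theorem s59lpow_val_high (T : LaurentSeries ↥(beta0Ring A K₀))
    (hT : coeffMap (IsLocalRing.residue ↥(beta0Ring A K₀)) T ≠ 0)
    (hmem : coeffMap (algebraMap ↥(beta0Ring A K₀) ↥K₀) T ∈ modularFunctionFieldFullC ↥K₀ M)
    (c : Bool) :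
    (mgvV hπ ιC hq hqM c).valuation
      (⟨qExpand ↥K₀ q (coeffMap (algebraMap ↥(beta0Ring A K₀) ↥K₀) T), al_qExpand_mem ↥K₀ hmem⟩ :
        ↥(modularFunctionFieldFullC ↥K₀ (M * q))) = 1 := by
  rw [mgvV, vtFam_valuation_eq_one_iff]
  cases c
  · have h1 : vtEmbFam ιC hq hqM false
        (⟨qExpand ↥K₀ q (coeffMap (algebraMap ↥(beta0Ring A K₀) ↥K₀) T),
          al_qExpand_mem ↥K₀ hmem⟩ : ↥(modularFunctionFieldFullC ↥K₀ (M * q))) =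
        coeffMap (algebraMap ↥(beta0Ring A K₀) ↥K₀) T :=
      atkinLehner_qExpand ↥K₀ ιC hq hqM hmem
    rw [h1]
    exact vtUnit_coeffMap hT
  · show VtUnit _ _ (qExpand ↥K₀ q (coeffMap (algebraMap ↥(beta0Ring A K₀) ↥K₀) T))
    rw [← ModularCurve.coeffMap_qExpand]
    refine vtUnit_coeffMap ?_
    rw [ModularCurve.coeffMap_qExpand]
    exact fun h0 => hT (ModularCurve.qExpand_injective (N := q) (by rw [h0, map_zero]))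


/-- the same, for an element given with its `Q`-expansion -/
theorem s59lpow_val_low' {x : ↥(modularFunctionFieldFullC ↥K₀ (M * q))}
    (T : LaurentSeries ↥(beta0Ring A K₀))
    (hT : coeffMap (IsLocalRing.residue ↥(beta0Ring A K₀)) T ≠ 0)
    (hx : (x : LaurentSeries ↥K₀) = coeffMap (algebraMap ↥(beta0Ring A K₀) ↥K₀) T)
    (hmem : (x : LaurentSeries ↥K₀) ∈ modularFunctionFieldFullC ↥K₀ M) (c : Bool) :
    (mgvV hπ ιC hq hqM c).valuation x = 1 := by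
  have hmem' : coeffMap (algebraMap ↥(beta0Ring A K₀) ↥K₀) T ∈ modularFunctionFieldFullC ↥K₀ M :=
    hx ▸ hmem
  have e : x = (⟨coeffMap (algebraMap ↥(beta0Ring A K₀) ↥K₀) T, al_mem_of_mem_low ↥K₀ hmem'⟩ :
      ↥(modularFunctionFieldFullC ↥K₀ (M * q))) := Subtype.ext hx
  rw [e]
  exact s59lpow_val_low hπ ιC hq hqM T hT hmem' c

/-- the same, for an element given with its `Q`-expansion -/
theorem s59lpow_val_high' {x : ↥(modularFunctionFieldFullC ↥K₀ (M * q))}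
    (T : LaurentSeries ↥(beta0Ring A K₀))
    (hT : coeffMap (IsLocalRing.residue ↥(beta0Ring A K₀)) T ≠ 0)
    (hx : (x : LaurentSeries ↥K₀) =
      qExpand ↥K₀ q (coeffMap (algebraMap ↥(beta0Ring A K₀) ↥K₀) T))
    (hmem : coeffMap (algebraMap ↥(beta0Ring A K₀) ↥K₀) T ∈ modularFunctionFieldFullC ↥K₀ M)
    (c : Bool) :
    (mgvV hπ ιC hq hqM c).valuation x = 1 := by
  have e : x = (⟨qExpand ↥K₀ q (coeffMap (algebraMap ↥(beta0Ring A K₀) ↥K₀) T),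
      al_qExpand_mem ↥K₀ hmem⟩ : ↥(modularFunctionFieldFullC ↥K₀ (M * q))) := Subtype.ext hx
  rw [e]
  exact s59lpow_val_high hπ ιC hq hqM T hT hmem c

/-! ### the units of level `ℓ ∣ M` -/

section Ell

variable {ℓ : ℕ} [NeZero ℓ]

/-- `u_ℓ = Δ(Q^ℓ)/Δ(Q) ∈ F_M` for `ℓ ∣ M` -/
theorem s59lpow_uS_mem (ιC : ↥K₀ →+* ℂ) (hℓM : ℓ ∣ M) :
    uS ↥K₀ ℓ ∈ modularFunctionFieldFullC ↥K₀ M :=
  full_degeneracyC_le ↥K₀ hℓM (s36tu_uS_mem_prime ↥K₀ ιC ℓ)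

/-- `v_ℓ = Δ(Q)/Δ(Q^ℓ) ∈ F_M` for `ℓ ∣ M` -/
theorem s59lpow_uInvS_mem (ιC : ↥K₀ →+* ℂ) (hℓM : ℓ ∣ M) :
    uInvS ↥K₀ ℓ ∈ modularFunctionFieldFullC ↥K₀ M := by
  rw [uInvS_eq_inv]
  exact inv_mem (s59lpow_uS_mem ιC hℓM)

/-- `u_ℓ` as an element of `F_{Mq}` -/
def s59lpowUL (ιC : ↥K₀ →+* ℂ) (q : ℕ) [NeZero q] [NeZero (M * q)] (hℓM : ℓ ∣ M) :
    ↥(modularFunctionFieldFullC ↥K₀ (M * q)) :=
  ⟨uS ↥K₀ ℓ, al_mem_of_mem_low ↥K₀ (s59lpow_uS_mem ιC hℓM)⟩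

/-- `v_ℓ` as an element of `F_{Mq}` -/
def s59lpowVL (ιC : ↥K₀ →+* ℂ) (q : ℕ) [NeZero q] [NeZero (M * q)] (hℓM : ℓ ∣ M) :
    ↥(modularFunctionFieldFullC ↥K₀ (M * q)) :=
  ⟨uInvS ↥K₀ ℓ, al_mem_of_mem_low ↥K₀ (s59lpow_uInvS_mem ιC hℓM)⟩

/-- `u_ℓ(Q^q)` as an element of `F_{Mq}` -/
def s59lpowUH (ιC : ↥K₀ →+* ℂ) (q : ℕ) [NeZero q] [NeZero (M * q)] (hℓM : ℓ ∣ M) :
    ↥(modularFunctionFieldFullC ↥K₀ (M * q)) :=
  ⟨qExpand ↥K₀ q (uS ↥K₀ ℓ), al_qExpand_mem ↥K₀ (s59lpow_uS_mem ιC hℓM)⟩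

/-- `v_ℓ(Q^q)` as an element of `F_{Mq}` -/
def s59lpowVH (ιC : ↥K₀ →+* ℂ) (q : ℕ) [NeZero q] [NeZero (M * q)] (hℓM : ℓ ∣ M) :
    ↥(modularFunctionFieldFullC ↥K₀ (M * q)) :=
  ⟨qExpand ↥K₀ q (uInvS ↥K₀ ℓ), al_qExpand_mem ↥K₀ (s59lpow_uInvS_mem ιC hℓM)⟩

theorem s59lpowUL_coe (hℓM : ℓ ∣ M) :
    ((s59lpowUL ιC q hℓM : ↥(modularFunctionFieldFullC ↥K₀ (M * q))) : LaurentSeries ↥K₀) =
      uS ↥K₀ ℓ := rfl

theorem s59lpowVL_coe (hℓM : ℓ ∣ M) :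
    ((s59lpowVL ιC q hℓM : ↥(modularFunctionFieldFullC ↥K₀ (M * q))) : LaurentSeries ↥K₀) =
      uInvS ↥K₀ ℓ := rfl

theorem s59lpowUH_coe (hℓM : ℓ ∣ M) :
    ((s59lpowUH ιC q hℓM : ↥(modularFunctionFieldFullC ↥K₀ (M * q))) : LaurentSeries ↥K₀) =
      qExpand ↥K₀ q (uS ↥K₀ ℓ) := rfl

theorem s59lpowVH_coe (hℓM : ℓ ∣ M) :
    ((s59lpowVH ιC q hℓM : ↥(modularFunctionFieldFullC ↥K₀ (M * q))) : LaurentSeries ↥K₀) =
      qExpand ↥K₀ q (uInvS ↥K₀ ℓ) := rfl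

theorem s59lpow_UL_mul_VL (hℓM : ℓ ∣ M) :
    s59lpowUL (K₀ := K₀) (M := M) ιC q hℓM * s59lpowVL ιC q hℓM = 1 :=
  Subtype.ext (uS_mul_uInvS ↥K₀ ℓ)

theorem s59lpow_UH_mul_VH (hℓM : ℓ ∣ M) :
    s59lpowUH (K₀ := K₀) (M := M) ιC q hℓM * s59lpowVH ιC q hℓM = 1 := by
  apply Subtype.ext
  show qExpand ↥K₀ q (uS ↥K₀ ℓ) * qExpand ↥K₀ q (uInvS ↥K₀ ℓ) = 1
  rw [← map_mul, uS_mul_uInvS, map_one]

/-- the four units have `v_∞ = v_0 = 1` -/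
theorem s59lpow_val_UL (hℓM : ℓ ∣ M) (c : Bool) :
    (mgvV hπ ιC hq hqM c).valuation (s59lpowUL ιC q hℓM) = 1 := by
  refine s59lpow_val_low' hπ ιC hq hqM (uS ↥(beta0Ring A K₀) ℓ) ?_ ?_
    (s59lpow_uS_mem ιC hℓM) c
  · rw [coeffMap_uS]
    exact uS_ne_zero ℓ _
  · rw [coeffMap_uS]
    rfl

theorem s59lpow_val_VL (hℓM : ℓ ∣ M) (c : Bool) :
    (mgvV hπ ιC hq hqM c).valuation (s59lpowVL ιC q hℓM) = 1 := by
  refine s59lpow_val_low' hπ ιC hq hqM (uInvS ↥(beta0Ring A K₀) ℓ) ?_ ?_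
    (s59lpow_uInvS_mem ιC hℓM) c
  · rw [coeffMap_uInvS]
    exact uInvS_ne_zero ℓ _
  · rw [coeffMap_uInvS]
    rfl

theorem s59lpow_val_UH (hℓM : ℓ ∣ M) (c : Bool) :
    (mgvV hπ ιC hq hqM c).valuation (s59lpowUH ιC q hℓM) = 1 := by
  refine s59lpow_val_high' hπ ιC hq hqM (uS ↥(beta0Ring A K₀) ℓ) ?_ ?_ ?_ c
  · rw [coeffMap_uS]
    exact uS_ne_zero ℓ _
  · rw [coeffMap_uS]
    rfl
  · rw [coeffMap_uS]
    exact s59lpow_uS_mem ιC hℓM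

theorem s59lpow_val_VH (hℓM : ℓ ∣ M) (c : Bool) :
    (mgvV hπ ιC hq hqM c).valuation (s59lpowVH ιC q hℓM) = 1 := by
  refine s59lpow_val_high' hπ ιC hq hqM (uInvS ↥(beta0Ring A K₀) ℓ) ?_ ?_ ?_ c
  · rw [coeffMap_uInvS]
    exact uInvS_ne_zero ℓ _
  · rw [coeffMap_uInvS]
    rfl
  · rw [coeffMap_uInvS]
    exact s59lpow_uInvS_mem ιC hℓM

/-! ### integrality over `A′[j]` -/

/-- `j(Q^ℓ) ∈ F_{Mq}` -/
def s59lpowJL (q : ℕ) [NeZero q] [NeZero (M * q)] (hℓM : ℓ ∣ M) :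
    ↥(modularFunctionFieldFullC ↥K₀ (M * q)) :=
  ⟨qExpand ↥K₀ ℓ (jqModC ↥K₀), al_mem_of_mem_low ↥K₀ (jqModCd_mem_full ↥K₀ M hℓM)⟩

/-- `j(Q^q) ∈ F_{Mq}` -/
def s59lpowJQ (K₀ : IntermediateField ℚ Fermat.Agent.ES.G2.Qb) (M q : ℕ) [NeZero M] [NeZero q]
    [NeZero (M * q)] : ↥(modularFunctionFieldFullC ↥K₀ (M * q)) :=
  ⟨qExpand ↥K₀ q (jqModC ↥K₀), al_qExpand_mem ↥K₀ (jqModC_mem_full ↥K₀ M)⟩

/-- `j(Q^{ℓ q}) ∈ F_{Mq}` -/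
def s59lpowJLQ (q : ℕ) [NeZero q] [NeZero (M * q)] (hℓM : ℓ ∣ M) :
    ↥(modularFunctionFieldFullC ↥K₀ (M * q)) :=
  ⟨qExpand ↥K₀ q (qExpand ↥K₀ ℓ (jqModC ↥K₀)),
    al_qExpand_mem ↥K₀ (jqModCd_mem_full ↥K₀ M hℓM)⟩

/-- `j(Q^ℓ)` is integral over `A′[j]` -/
theorem s59lpow_int_JL (hℓ : ℓ.Prime) (hℓM : ℓ ∣ M) :
    IsIntegral (Algebra.adjoin ↥(beta0Ring A K₀) {bgJ ↥K₀ (M * q)})
      (s59lpowJL (K₀ := K₀) (M := M) q hℓM) :=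
  s59lpow_isIntegral_of_series (nodesSwapPhi_monic ℓ hℓ) (nodesSwapPhi_series ℓ hℓ ↥K₀)

/-- `j(Q^q)` is integral over `A′[j]` -/
theorem s59lpow_int_JQ (hq : q.Prime) :
    IsIntegral (Algebra.adjoin ↥(beta0Ring A K₀) {bgJ ↥K₀ (M * q)})
      (s59lpowJQ K₀ M q) :=
  s59lpow_isIntegral_of_series (nodesSwapPhi_monic q hq) (nodesSwapPhi_series q hq ↥K₀)

/-- `j(Q^{ℓ q})` is integral over `A′[j]` -/
theorem s59lpow_int_JLQ (hq : q.Prime) (hℓ : ℓ.Prime) (hℓM : ℓ ∣ M) :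
    IsIntegral (Algebra.adjoin ↥(beta0Ring A K₀) {bgJ ↥K₀ (M * q)})
      (s59lpowJLQ (K₀ := K₀) (M := M) q hℓM) := by
  refine cusp_isIntegral_adjoin_trans (s59lpow_int_JQ (A := A) hq) ?_
  refine s59lpow_isIntegral_of_series (nodesSwapPhi_monic ℓ hℓ) ?_
  have h := congrArg (qExpand ↥K₀ q) (nodesSwapPhi_series ℓ hℓ ↥K₀)
  rw [map_eval₂_evalInt, map_zero] at h
  exact h

/-- `ℓ¹² u_ℓ` is integral over `A′[j]` -/
theorem s59lpow_int_UL (ιC : ↥K₀ →+* ℂ) (hℓ : ℓ.Prime) (hℓM : ℓ ∣ M) :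
    IsIntegral (Algebra.adjoin ↥(beta0Ring A K₀) {bgJ ↥K₀ (M * q)})
      (algebraMap ↥(beta0Ring A K₀) ↥(modularFunctionFieldFullC ↥K₀ (M * q))
        (((ℓ : ℕ) : ↥(beta0Ring A K₀)) ^ 12) * s59lpowUL ιC q hℓM) := by
  refine s59lpow_isIntegral_of_series (s36tuW_monic ℓ hℓ) ?_
  have h := s36tuW_series ℓ hℓ ↥K₀
  have e : ((algebraMap ↥(beta0Ring A K₀) ↥(modularFunctionFieldFullC ↥K₀ (M * q))
      (((ℓ : ℕ) : ↥(beta0Ring A K₀)) ^ 12) * s59lpowUL ιC q hℓM :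
      ↥(modularFunctionFieldFullC ↥K₀ (M * q))) : LaurentSeries ↥K₀) =
      HahnSeries.C ((ℓ : ↥K₀) ^ 12) * uS ↥K₀ ℓ := by
    show ((algebraMap ↥(beta0Ring A K₀) ↥(modularFunctionFieldFullC ↥K₀ (M * q))
      (((ℓ : ℕ) : ↥(beta0Ring A K₀)) ^ 12) : ↥(modularFunctionFieldFullC ↥K₀ (M * q))) :
        LaurentSeries ↥K₀) * uS ↥K₀ ℓ = _
    rw [s36tu_coe_algebraMap, map_pow, map_natCast]
  rw [e]
  exact h

/-- `v_ℓ` is integral over `A′[j]` -/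
theorem s59lpow_int_VL (ιC : ↥K₀ →+* ℂ) (hℓ : ℓ.Prime) (hℓM : ℓ ∣ M) :
    IsIntegral (Algebra.adjoin ↥(beta0Ring A K₀) {bgJ ↥K₀ (M * q)})
      (s59lpowVL (K₀ := K₀) (M := M) ιC q hℓM) := by
  refine cusp_isIntegral_adjoin_trans (s59lpow_int_JL (A := A) (q := q) hℓ hℓM) ?_
  exact s59lpow_isIntegral_of_series (s36tuW_monic ℓ hℓ) (s36tuW_series' ℓ hℓ ↥K₀)

/-- `ℓ¹² u_ℓ(Q^q)` is integral over `A′[j]` -/
theorem s59lpow_int_UH (ιC : ↥K₀ →+* ℂ) (hq : q.Prime) (hℓ : ℓ.Prime) (hℓM : ℓ ∣ M) :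
    IsIntegral (Algebra.adjoin ↥(beta0Ring A K₀) {bgJ ↥K₀ (M * q)})
      (algebraMap ↥(beta0Ring A K₀) ↥(modularFunctionFieldFullC ↥K₀ (M * q))
        (((ℓ : ℕ) : ↥(beta0Ring A K₀)) ^ 12) * s59lpowUH ιC q hℓM) := by
  refine cusp_isIntegral_adjoin_trans (s59lpow_int_JQ (A := A) hq) ?_
  refine s59lpow_isIntegral_of_series (s36tuW_monic ℓ hℓ) ?_
  have h := congrArg (qExpand ↥K₀ q) (s36tuW_series ℓ hℓ ↥K₀)
  rw [map_eval₂_evalInt, map_zero, map_mul, qExpand_C] at h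
  have e : ((algebraMap ↥(beta0Ring A K₀) ↥(modularFunctionFieldFullC ↥K₀ (M * q))
      (((ℓ : ℕ) : ↥(beta0Ring A K₀)) ^ 12) * s59lpowUH ιC q hℓM :
      ↥(modularFunctionFieldFullC ↥K₀ (M * q))) : LaurentSeries ↥K₀) =
      HahnSeries.C ((ℓ : ↥K₀) ^ 12) * qExpand ↥K₀ q (uS ↥K₀ ℓ) := by
    show ((algebraMap ↥(beta0Ring A K₀) ↥(modularFunctionFieldFullC ↥K₀ (M * q))
      (((ℓ : ℕ) : ↥(beta0Ring A K₀)) ^ 12) : ↥(modularFunctionFieldFullC ↥K₀ (M * q))) :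
        LaurentSeries ↥K₀) * qExpand ↥K₀ q (uS ↥K₀ ℓ) = _
    rw [s36tu_coe_algebraMap, map_pow, map_natCast]
  rw [e]
  exact h

/-- `v_ℓ(Q^q)` is integral over `A′[j]` -/
theorem s59lpow_int_VH (ιC : ↥K₀ →+* ℂ) (hq : q.Prime) (hℓ : ℓ.Prime) (hℓM : ℓ ∣ M) :
    IsIntegral (Algebra.adjoin ↥(beta0Ring A K₀) {bgJ ↥K₀ (M * q)})
      (s59lpowVH (K₀ := K₀) (M := M) ιC q hℓM) := by
  refine cusp_isIntegral_adjoin_trans (s59lpow_int_JLQ (A := A) hq hℓ hℓM) ?_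
  refine s59lpow_isIntegral_of_series (s36tuW_monic ℓ hℓ) ?_
  have h := congrArg (qExpand ↥K₀ q) (s36tuW_series' ℓ hℓ ↥K₀)
  rw [map_eval₂_evalInt, map_zero] at h
  exact h

/-! ### the two Ogg data with exponent `0` -/

/-- **`v_ℓ = Δ(Q)/Δ(Q^ℓ)` is an Ogg datum with exponent `0`** (`ℓ ∣ M`, `ℓ ≠ q`). -/
theorem s59lpow_low (hA : A.LiesOverPrime q) (hℓ : ℓ.Prime) (hℓM : ℓ ∣ M) (hℓq : ℓ ≠ q) :
    S59lpOgg hπ ιC hq hqM (s59lpowVL ιC q hℓM) 0 := by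
  have hu : IsUnit (((ℓ : ℕ) : ↥(beta0Ring A K₀)) ^ 12) :=
    (s59lpow_isUnit_natCast hq hA hℓ hℓq).pow 12
  have hcπ : Associated (((ℓ : ℕ) : ↥(beta0Ring A K₀)) ^ 12) (π ^ 0) := by
    rw [pow_zero]
    exact associated_one_iff_isUnit.2 hu
  have h := s59lpog_of_pair (hπ := hπ) (ιC := ιC) (hq := hq) (hqM := hqM) hcπ
    (mem_zchClosure.2 (s59lpow_int_UL (A := A) ιC hℓ hℓM))
    (mem_zchClosure.2 (s59lpow_int_VL (A := A) ιC hℓ hℓM))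
    (by rw [mul_assoc, s59lpow_UL_mul_VL, mul_one])
    (s59lpow_val_VL hπ ιC hq hqM hℓM true)
    (by rw [map_mul, tres5o_val_const_unit hπ ιC hq hqM false hu,
      s59lpow_val_UL hπ ιC hq hqM hℓM false, one_mul])
  simpa using h

/-- **`v_ℓ(Q^q) = Δ(Q^q)/Δ(Q^{ℓ q})` is an Ogg datum with exponent `0`** (`ℓ ∣ M`, `ℓ ≠ q`). -/
theorem s59lpow_high (hA : A.LiesOverPrime q) (hℓ : ℓ.Prime) (hℓM : ℓ ∣ M) (hℓq : ℓ ≠ q) :
    S59lpOgg hπ ιC hq hqM (s59lpowVH ιC q hℓM) 0 := by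
  have hu : IsUnit (((ℓ : ℕ) : ↥(beta0Ring A K₀)) ^ 12) :=
    (s59lpow_isUnit_natCast hq hA hℓ hℓq).pow 12
  have hcπ : Associated (((ℓ : ℕ) : ↥(beta0Ring A K₀)) ^ 12) (π ^ 0) := by
    rw [pow_zero]
    exact associated_one_iff_isUnit.2 hu
  have h := s59lpog_of_pair (hπ := hπ) (ιC := ιC) (hq := hq) (hqM := hqM) hcπ
    (mem_zchClosure.2 (s59lpow_int_UH (A := A) ιC hq hℓ hℓM))
    (mem_zchClosure.2 (s59lpow_int_VH (A := A) ιC hq hℓ hℓM))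
    (by rw [mul_assoc, s59lpow_UH_mul_VH, mul_one])
    (s59lpow_val_VH hπ ιC hq hqM hℓM true)
    (by rw [map_mul, tres5o_val_const_unit hπ ιC hq hqM false hu,
      s59lpow_val_UH hπ ιC hq hqM hℓM false, one_mul])
  simpa using h

/-! ### the root -/

/-- **THE ROOT**: `x ∈ F_{Mq}` with `x ^ N = h ^ a · v_ℓ ^ b · (B_q v_ℓ) ^ c` (`h = Δ(Q)/Δ(Q^q)` the
Ogg unit, `v_ℓ = Δ(Q)/Δ(Q^ℓ)`, `ℓ ∣ M`, `ℓ ≠ q`), `N ≠ 0`, `N n = 12 e a`, `q ∼ π ^ e`, is an Ogg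
datum with exponent `n`. -/
theorem s59lpow_root (hA : A.LiesOverPrime q) {e : ℕ}
    (hqπ : Associated ((q : ℕ) : ↥(beta0Ring A K₀)) (π ^ e))
    (hℓ : ℓ.Prime) (hℓM : ℓ ∣ M) (hℓq : ℓ ≠ q)
    {x : ↥(modularFunctionFieldFullC ↥K₀ (M * q))} {N a b c : ℕ} {n : ℤ} (hN : N ≠ 0)
    (hn : (N : ℤ) * n = 12 * e * a)
    (hx : x ^ N = s36tuV ↥K₀ ιC (q := q) (M := M) ^ a * s59lpowVL ιC q hℓM ^ b *
      s59lpowVH ιC q hℓM ^ c) :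
    S59lpOgg hπ ιC hq hqM x n := by
  have h1 := s59lpog_pow (s59lpog_h (hπ := hπ) (ιC := ιC) (hq := hq) (hqM := hqM) hA hqπ) a
  have h2 := s59lpog_pow (s59lpow_low hπ ιC hq hqM hA hℓ hℓM hℓq) b
  have h3 := s59lpog_pow (s59lpow_high hπ ιC hq hqM hA hℓ hℓM hℓq) c
  have h4 := s59lpog_mul (s59lpog_mul h1 h2) h3
  rw [← hx] at h4
  have e1 : (a : ℤ) * ((12 * e : ℕ) : ℤ) + (b : ℤ) * 0 + (c : ℤ) * 0 = (N : ℤ) * n := by
    rw [hn]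
    push_cast
    ring
  rw [e1] at h4
  exact s59lpog_root hN h4

/-- the same with the hypothesis on the `Q`-expansions -/
theorem s59lpow_root_series (hA : A.LiesOverPrime q) {e : ℕ}
    (hqπ : Associated ((q : ℕ) : ↥(beta0Ring A K₀)) (π ^ e))
    (hℓ : ℓ.Prime) (hℓM : ℓ ∣ M) (hℓq : ℓ ≠ q)
    {x : ↥(modularFunctionFieldFullC ↥K₀ (M * q))} {N a b c : ℕ} {n : ℤ} (hN : N ≠ 0)
    (hn : (N : ℤ) * n = 12 * e * a)
    (hx : (x : LaurentSeries ↥K₀) ^ N = uInvS ↥K₀ q ^ a * uInvS ↥K₀ ℓ ^ b *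
      qExpand ↥K₀ q (uInvS ↥K₀ ℓ) ^ c) :
    S59lpOgg hπ ιC hq hqM x n := by
  refine s59lpow_root hπ ιC hq hqM hA hqπ hℓ hℓM hℓq hN hn (a := a) (b := b) (c := c) ?_
  apply Subtype.ext
  show (x : LaurentSeries ↥K₀) ^ N =
    ((s36tuV ↥K₀ ιC (q := q) (M := M) : ↥(modularFunctionFieldFullC ↥K₀ (M * q))) :
      LaurentSeries ↥K₀) ^ a * uInvS ↥K₀ ℓ ^ b * qExpand ↥K₀ q (uInvS ↥K₀ ℓ) ^ c
  rw [s36tuV_coe, hx]

/-- **THE LEVEL-`ℓ q` UNIT** (`q = 3`, `ℓ = 2`: `x = η(z)⁵ η(3z) / (η(2z) η(6z)⁵)`):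
`x ^ 24 = h⁴ · v_ℓ · (B_q v_ℓ)⁵` gives an Ogg datum with exponent `2 e`, `q ∼ π ^ e`. -/
theorem s59lpow_six (hA : A.LiesOverPrime q) {e : ℕ}
    (hqπ : Associated ((q : ℕ) : ↥(beta0Ring A K₀)) (π ^ e))
    (hℓ : ℓ.Prime) (hℓM : ℓ ∣ M) (hℓq : ℓ ≠ q)
    {x : ↥(modularFunctionFieldFullC ↥K₀ (M * q))}
    (hx : (x : LaurentSeries ↥K₀) ^ 24 = uInvS ↥K₀ q ^ 4 * uInvS ↥K₀ ℓ ^ 1 *
      qExpand ↥K₀ q (uInvS ↥K₀ ℓ) ^ 5) :
    S59lpOgg hπ ιC hq hqM x ((2 * e : ℕ) : ℤ) :=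
  s59lpow_root_series hπ ιC hq hqM hA hqπ hℓ hℓM hℓq (by norm_num)
    (by push_cast; ring) hx

/-! ### the ROOT INTERFACE of the level-`ℓ q` unit (twin of `S33/WildUnit.lean` `wun_mgv_*`) -/

/-- `u_ℓ` itself is integral over `A′[j]` (`ℓ` is a unit of `A′`) -/
theorem s59lpow_int_UL' (ιC : ↥K₀ →+* ℂ) (hq : q.Prime) (hA : A.LiesOverPrime q) (hℓ : ℓ.Prime)
    (hℓM : ℓ ∣ M) (hℓq : ℓ ≠ q) :
    IsIntegral (Algebra.adjoin ↥(beta0Ring A K₀) {bgJ ↥K₀ (M * q)})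
      (s59lpowUL (K₀ := K₀) (M := M) ιC q hℓM) := by
  obtain ⟨u, hu⟩ := (s59lpow_isUnit_natCast (K₀ := K₀) hq hA hℓ hℓq).pow 12
  have h1 := s59lpow_int_UL (A := A) (q := q) ιC hℓ hℓM
  rw [← hu] at h1
  have h2 : IsIntegral (Algebra.adjoin ↥(beta0Ring A K₀) {bgJ ↥K₀ (M * q)})
      (algebraMap ↥(beta0Ring A K₀) ↥(modularFunctionFieldFullC ↥K₀ (M * q))
        ((u⁻¹ : (↥(beta0Ring A K₀))ˣ) : ↥(beta0Ring A K₀))) := by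
    rw [IsScalarTower.algebraMap_apply ↥(beta0Ring A K₀)
      ↥(Algebra.adjoin ↥(beta0Ring A K₀)
        ({bgJ ↥K₀ (M * q)} : Set ↥(modularFunctionFieldFullC ↥K₀ (M * q))))
      ↥(modularFunctionFieldFullC ↥K₀ (M * q))]
    exact isIntegral_algebraMap
  have h3 := h2.mul h1
  rwa [← mul_assoc, ← map_mul, Units.inv_mul, map_one, one_mul] at h3

/-- `u_ℓ(Q^q)` itself is integral over `A′[j]` -/
theorem s59lpow_int_UH' (ιC : ↥K₀ →+* ℂ) (hq : q.Prime) (hA : A.LiesOverPrime q) (hℓ : ℓ.Prime)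
    (hℓM : ℓ ∣ M) (hℓq : ℓ ≠ q) :
    IsIntegral (Algebra.adjoin ↥(beta0Ring A K₀) {bgJ ↥K₀ (M * q)})
      (s59lpowUH (K₀ := K₀) (M := M) ιC q hℓM) := by
  obtain ⟨u, hu⟩ := (s59lpow_isUnit_natCast (K₀ := K₀) hq hA hℓ hℓq).pow 12
  have h1 := s59lpow_int_UH (A := A) (q := q) ιC hq hℓ hℓM
  rw [← hu] at h1
  have h2 : IsIntegral (Algebra.adjoin ↥(beta0Ring A K₀) {bgJ ↥K₀ (M * q)})
      (algebraMap ↥(beta0Ring A K₀) ↥(modularFunctionFieldFullC ↥K₀ (M * q))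
        ((u⁻¹ : (↥(beta0Ring A K₀))ˣ) : ↥(beta0Ring A K₀))) := by
    rw [IsScalarTower.algebraMap_apply ↥(beta0Ring A K₀)
      ↥(Algebra.adjoin ↥(beta0Ring A K₀)
        ({bgJ ↥K₀ (M * q)} : Set ↥(modularFunctionFieldFullC ↥K₀ (M * q))))
      ↥(modularFunctionFieldFullC ↥K₀ (M * q))]
    exact isIntegral_algebraMap
  have h3 := h2.mul h1
  rwa [← mul_assoc, ← map_mul, Units.inv_mul, map_one, one_mul] at h3

/-- **THE ROOT INTERFACE (C3) of the level-`ℓ q` unit** `x`, `x ^ 24 = h⁴ · v_ℓ · (B_q v_ℓ)⁵`, with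
companion `U_x = q² / x`: `x, U_x ∈ B_j`, `U_x · x = q²`, `v_∞(x) = 1`, `v_0(U_x) = 1`, and
`v_0(x) = v_0(π) ^ (2 e)`. -/
theorem s59lpow_six_pair (hA : A.LiesOverPrime q) {e : ℕ}
    (hqπ : Associated ((q : ℕ) : ↥(beta0Ring A K₀)) (π ^ e))
    (hℓ : ℓ.Prime) (hℓM : ℓ ∣ M) (hℓq : ℓ ≠ q)
    {x : ↥(modularFunctionFieldFullC ↥K₀ (M * q))}
    (hx : (x : LaurentSeries ↥K₀) ^ 24 = uInvS ↥K₀ q ^ 4 * uInvS ↥K₀ ℓ ^ 1 *
      qExpand ↥K₀ q (uInvS ↥K₀ ℓ) ^ 5) :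
    x ∈ zchClosure (A₀ := ↥(beta0Ring A K₀))
      ({bgJ ↥K₀ (M * q)} : Set ↥(modularFunctionFieldFullC ↥K₀ (M * q))) ∧
    algebraMap ↥(beta0Ring A K₀) ↥(modularFunctionFieldFullC ↥K₀ (M * q))
      (((q : ℕ) : ↥(beta0Ring A K₀)) ^ 2) * x⁻¹ ∈ zchClosure (A₀ := ↥(beta0Ring A K₀))
      ({bgJ ↥K₀ (M * q)} : Set ↥(modularFunctionFieldFullC ↥K₀ (M * q))) ∧
    algebraMap ↥(beta0Ring A K₀) ↥(modularFunctionFieldFullC ↥K₀ (M * q))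
      (((q : ℕ) : ↥(beta0Ring A K₀)) ^ 2) * x⁻¹ * x =
      algebraMap ↥(beta0Ring A K₀) ↥(modularFunctionFieldFullC ↥K₀ (M * q))
        (((q : ℕ) : ↥(beta0Ring A K₀)) ^ 2) ∧
    (mgvV hπ ιC hq hqM true).valuation x = 1 ∧
    (mgvV hπ ιC hq hqM false).valuation
      (algebraMap ↥(beta0Ring A K₀) ↥(modularFunctionFieldFullC ↥K₀ (M * q))
        (((q : ℕ) : ↥(beta0Ring A K₀)) ^ 2) * x⁻¹) = 1 := by
  have hd := s59lpow_six hπ ιC hq hqM hA hqπ hℓ hℓM hℓq hx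
  have hx0 : x ≠ 0 := hd.ne_zero
  -- the identity in `F`
  have hxF : x ^ 24 = s36tuV ↥K₀ ιC (q := q) (M := M) ^ 4 * s59lpowVL ιC q hℓM ^ 1 *
      s59lpowVH ιC q hℓM ^ 5 := by
    apply Subtype.ext
    show (x : LaurentSeries ↥K₀) ^ 24 =
      ((s36tuV ↥K₀ ιC (q := q) (M := M) : ↥(modularFunctionFieldFullC ↥K₀ (M * q))) :
        LaurentSeries ↥K₀) ^ 4 * uInvS ↥K₀ ℓ ^ 1 * qExpand ↥K₀ q (uInvS ↥K₀ ℓ) ^ 5
    rw [s36tuV_coe, hx]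
  have hV : IsIntegral (Algebra.adjoin ↥(beta0Ring A K₀) {bgJ ↥K₀ (M * q)})
      (s36tuV ↥K₀ ιC (q := q) (M := M)) := wun_mgv_isIntegral_V (A := A) ιC hq
  have hU : IsIntegral (Algebra.adjoin ↥(beta0Ring A K₀) {bgJ ↥K₀ (M * q)})
      (s36tuU ↥K₀ ιC (q := q) (M := M)) := wun_mgv_isIntegral_U (A := A) ιC hq
  have hUV := wun_mgv_U_mul_V (A := A) (K₀ := K₀) (M := M) (q := q) ιC
  have hV0 : s36tuV ↥K₀ ιC (q := q) (M := M) ≠ 0 := s36tuV_ne_zero ↥K₀ ιC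
  have hVL0 : s59lpowVL (K₀ := K₀) (M := M) ιC q hℓM ≠ 0 :=
    right_ne_zero_of_mul_eq_one (s59lpow_UL_mul_VL ιC hℓM)
  have hVH0 : s59lpowVH (K₀ := K₀) (M := M) ιC q hℓM ≠ 0 :=
    right_ne_zero_of_mul_eq_one (s59lpow_UH_mul_VH ιC hℓM)
  have hx1 : IsIntegral (Algebra.adjoin ↥(beta0Ring A K₀) {bgJ ↥K₀ (M * q)}) x := by
    refine IsIntegral.of_pow (n := 24) (by norm_num) ?_
    rw [hxF]
    exact ((hV.pow 4).mul ((s59lpow_int_VL (A := A) (q := q) ιC hℓ hℓM).pow 1)).mul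
      ((s59lpow_int_VH (A := A) ιC hq hℓ hℓM).pow 5)
  have hx2 : IsIntegral (Algebra.adjoin ↥(beta0Ring A K₀) {bgJ ↥K₀ (M * q)})
      (algebraMap ↥(beta0Ring A K₀) ↥(modularFunctionFieldFullC ↥K₀ (M * q))
        (((q : ℕ) : ↥(beta0Ring A K₀)) ^ 2) * x⁻¹) := by
    refine IsIntegral.of_pow (n := 24) (by norm_num) ?_
    have e1 : (algebraMap ↥(beta0Ring A K₀) ↥(modularFunctionFieldFullC ↥K₀ (M * q))
        (((q : ℕ) : ↥(beta0Ring A K₀)) ^ 2) * x⁻¹) ^ 24 =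
        s36tuU ↥K₀ ιC (q := q) (M := M) ^ 4 * s59lpowUL ιC q hℓM ^ 1 *
          s59lpowUH ιC q hℓM ^ 5 := by
      have hUL := s59lpow_UL_mul_VL (K₀ := K₀) (M := M) (q := q) ιC hℓM
      have hUH := s59lpow_UH_mul_VH (K₀ := K₀) (M := M) (q := q) ιC hℓM
      have e2 : s36tuU ↥K₀ ιC (q := q) (M := M) =
          algebraMap ↥(beta0Ring A K₀) ↥(modularFunctionFieldFullC ↥K₀ (M * q))
            ((q : ℕ) : ↥(beta0Ring A K₀)) ^ 12 * (s36tuV ↥K₀ ιC (q := q) (M := M))⁻¹ := by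
        rw [← hUV, mul_assoc, mul_inv_cancel₀ hV0, mul_one]
      have e3 : s59lpowUL (K₀ := K₀) (M := M) ιC q hℓM = (s59lpowVL ιC q hℓM)⁻¹ :=
        eq_inv_of_mul_eq_one_left hUL
      have e4 : s59lpowUH (K₀ := K₀) (M := M) ιC q hℓM = (s59lpowVH ιC q hℓM)⁻¹ :=
        eq_inv_of_mul_eq_one_left hUH
      rw [mul_pow, inv_pow, hxF, e2, e3, e4, map_pow]
      field_simp
    rw [e1]
    exact ((hU.pow 4).mul ((s59lpow_int_UL' (A := A) ιC hq hA hℓ hℓM hℓq).pow 1)).mul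
      ((s59lpow_int_UH' (A := A) ιC hq hA hℓ hℓM hℓq).pow 5)
  refine ⟨mem_zchClosure.2 hx1, mem_zchClosure.2 hx2, ?_, hd.val_true, ?_⟩
  · rw [mul_assoc, inv_mul_cancel₀ hx0, mul_one]
  · have hπ0 : algebraMap ↥(beta0Ring A K₀) ↥(modularFunctionFieldFullC ↥K₀ (M * q)) π ≠ 0 :=
      ei_algebraMap_ne_zero (E := ↥K₀) hπ
    have hv0 : (mgvV hπ ιC hq hqM false).valuation
        (algebraMap ↥(beta0Ring A K₀) ↥(modularFunctionFieldFullC ↥K₀ (M * q)) π) ≠ 0 :=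
      (Valuation.ne_zero_iff _).2 hπ0
    obtain ⟨u, hu⟩ := hqπ
    have h1 : (mgvV hπ ιC hq hqM false).valuation
        (algebraMap ↥(beta0Ring A K₀) ↥(modularFunctionFieldFullC ↥K₀ (M * q))
          ((q : ℕ) : ↥(beta0Ring A K₀))) =
        (mgvV hπ ιC hq hqM false).valuation
          (algebraMap ↥(beta0Ring A K₀) ↥(modularFunctionFieldFullC ↥K₀ (M * q)) π) ^ e := by
      have h2 := congrArg (fun a => (mgvV hπ ιC hq hqM false).valuation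
        (algebraMap ↥(beta0Ring A K₀) ↥(modularFunctionFieldFullC ↥K₀ (M * q)) a)) hu
      simp only [map_mul, map_pow] at h2
      rw [tres5o_val_const_unit hπ ιC hq hqM false u.isUnit, mul_one] at h2
      exact h2
    rw [map_mul, map_inv₀, hd.val_false, map_pow, map_pow, h1, zpow_natCast, ← pow_mul,
      mul_comm e 2]
    exact mul_inv_cancel₀ (pow_ne_zero _ hv0)

end Ell

end Mgv

end Fermat.Agent.S59

end
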