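/-
S59, wall M4 (LOWER-P at `p = 3`), leaf OGG3, L1 + L7 glue (helper16): THE OGG DATUM OF `h6`.

`h6 = η(z)⁵ η(3z) / (η(2z) η(6z)⁵)` (series `s59lposer_h6S`, helper87's `S59/LowP/Ogg3Ser.lean`).

* `s59lpos_h6S_pow` : `h6 ^ 24 = h₃⁴ · v₂ · (B₃ v₂)⁵` with `h₃ = Δ(Q)/Δ(Q³) = uInvS 3`,
  `v₂ = Δ(Q)/Δ(Q²) = uInvS 2` — the hypothesis of `s59lpow_six`;
* `s59lpos_ogg` : an element `g ∈ F_{3M}(K₀)`, `2 ∣ M`, with `Q`-expansion `h6` is an Ogg datum with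
  exponent `2 e` (`3 ∼ π ^ e`): `v_∞(g) = 1`, `v_0(g) = v_0(π) ^ (2 e)`, cuspidal divisor;
* `s59lpos_pair` : the ROOT INTERFACE of `g` with companion `9 / g`;
* `s59lpos_ogg_base` : over `K₀ = ℚ̄^I` the exponent is `2`, and `¬ 3 ∣ 2`.
-/
import Fermat.Agent.S59.LowP.Ogg3Ser
import Fermat.Agent.S59.LowP.Ogg3Wun

set_option autoImplicit false
set_option linter.unusedSectionVars false
set_option linter.unusedVariables false
set_option linter.style.haveILetI false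
set_option linter.style.longLine false

noncomputable section

namespace Fermat.Agent.S59

open ModularCurve AlgebraicCurve IntermediateField Fermat.Agent.INJ Fermat.Agent.UNIP
  Fermat.Agent.STB Fermat.Agent.S36 Fermat.Agent.S33 Fermat.Agent.S28 Fermat.Agent.RIB.MP
  Fermat.Agent.RT.K6 Fermat.Agent.AL Fermat.Agent.ES Fermat.Agent.ES.G2 Fermat.Agent.S24
  Fermat.Agent.R38

section Series

variable (R : Type*) [CommRing R]

/-- **`h6 ^ 24 = h₃⁴ · v₂ · (B₃ v₂)⁵`** -/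
theorem s59lpos_h6S_pow :
    s59lposer_h6S R ^ 24 =
      uInvS R 3 ^ 4 * uInvS R 2 ^ 1 * qExpand R 3 (uInvS R 2) ^ 5 := by
  have h1 : qExpand R 3 (deltaS R) * qExpand R 3 (deltaInvS R) = 1 := by
    rw [← map_mul, deltaS_mul_deltaInvS, map_one]
  have h2 : qExpand R 3 (qExpand R 2 (deltaInvS R)) = qExpand R 6 (deltaInvS R) := by
    rw [qExpand_qExpand]
  rw [s59lposer_h6S_pow, uInvS_eq_mul_qExpand, uInvS_eq_mul_qExpand, map_mul, h2]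
  have e : (deltaS R * qExpand R 3 (deltaInvS R)) ^ 4 *
      (deltaS R * qExpand R 2 (deltaInvS R)) ^ 1 *
      (qExpand R 3 (deltaS R) * qExpand R 6 (deltaInvS R)) ^ 5 =
      deltaS R ^ 5 * qExpand R 3 (deltaS R) * qExpand R 2 (deltaInvS R) *
        qExpand R 6 (deltaInvS R) ^ 5 *
        (qExpand R 3 (deltaS R) * qExpand R 3 (deltaInvS R)) ^ 4 := by ring
  rw [e, h1, one_pow, mul_one]

end Series

section Mgv

variable {A : ValuationSubring Fermat.Agent.ES.G2.Qb} {K₀ : IntermediateField ℚ Fermat.Agent.ES.G2.Qb}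
  [IsDiscreteValuationRing ↥(beta0Ring A K₀)] {π : ↥(beta0Ring A K₀)} (hπ : Irreducible π)
  (ιC : ↥K₀ →+* ℂ) {M : ℕ} [NeZero M] [NeZero (M * 3)]
  (hqM : ¬ 3 ∣ M)

/-- **THE OGG DATUM OF `h6`**: an element of `F_{3M}(K₀)`, `2 ∣ M`, with `Q`-expansion `h6` has
`v_∞ = 1`, `v_0 = v_0(π) ^ (2 e)` (`3 ∼ π ^ e`) and a cuspidal divisor. -/
theorem s59lpos_ogg (hA : A.LiesOverPrime 3) {e : ℕ}
    (hqπ : Associated ((3 : ℕ) : ↥(beta0Ring A K₀)) (π ^ e)) (hM : 2 ∣ M)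
    {g : ↥(modularFunctionFieldFullC ↥K₀ (M * 3))}
    (hg : (g : LaurentSeries ↥K₀) = s59lposer_h6S ↥K₀) :
    S59lpOgg hπ ιC Nat.prime_three hqM g ((2 * e : ℕ) : ℤ) :=
  s59lpow_six hπ ιC Nat.prime_three hqM hA hqπ Nat.prime_two hM (by norm_num)
    (by rw [hg]; exact s59lpos_h6S_pow ↥K₀)

/-- **THE ROOT INTERFACE OF `h6`** with companion `9 / h6`. -/
theorem s59lpos_pair (hA : A.LiesOverPrime 3) {e : ℕ}
    (hqπ : Associated ((3 : ℕ) : ↥(beta0Ring A K₀)) (π ^ e)) (hM : 2 ∣ M)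
    {g : ↥(modularFunctionFieldFullC ↥K₀ (M * 3))}
    (hg : (g : LaurentSeries ↥K₀) = s59lposer_h6S ↥K₀) :
    g ∈ zchClosure (A₀ := ↥(beta0Ring A K₀))
      ({bgJ ↥K₀ (M * 3)} : Set ↥(modularFunctionFieldFullC ↥K₀ (M * 3))) ∧
    algebraMap ↥(beta0Ring A K₀) ↥(modularFunctionFieldFullC ↥K₀ (M * 3))
      (((3 : ℕ) : ↥(beta0Ring A K₀)) ^ 2) * g⁻¹ ∈ zchClosure (A₀ := ↥(beta0Ring A K₀))
      ({bgJ ↥K₀ (M * 3)} : Set ↥(modularFunctionFieldFullC ↥K₀ (M * 3))) ∧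
    algebraMap ↥(beta0Ring A K₀) ↥(modularFunctionFieldFullC ↥K₀ (M * 3))
      (((3 : ℕ) : ↥(beta0Ring A K₀)) ^ 2) * g⁻¹ * g =
      algebraMap ↥(beta0Ring A K₀) ↥(modularFunctionFieldFullC ↥K₀ (M * 3))
        (((3 : ℕ) : ↥(beta0Ring A K₀)) ^ 2) ∧
    (mgvV hπ ιC Nat.prime_three hqM true).valuation g = 1 ∧
    (mgvV hπ ιC Nat.prime_three hqM false).valuation
      (algebraMap ↥(beta0Ring A K₀) ↥(modularFunctionFieldFullC ↥K₀ (M * 3))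
        (((3 : ℕ) : ↥(beta0Ring A K₀)) ^ 2) * g⁻¹) = 1 :=
  s59lpow_six_pair hπ ιC Nat.prime_three hqM hA hqπ Nat.prime_two hM (by norm_num)
    (by rw [hg]; exact s59lpos_h6S_pow ↥K₀)

/-- `¬ 3 ∣ 2`: the exponent of `h6` over `ℚ̄^I` is prime to `p = 3` -/
theorem s59lpos_not_dvd : ¬ ((3 : ℕ) : ℤ) ∣ ((2 : ℕ) : ℤ) := by
  norm_num

end Mgv

section Base

variable {A : ValuationSubring Fermat.Agent.ES.G2.Qb}
  [IsDiscreteValuationRing ↥(beta0Ring A (beta0Field A))]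
  {π : ↥(beta0Ring A (beta0Field A))} (hπ : Irreducible π)
  (ιC : ↥(beta0Field A) →+* ℂ) {M : ℕ} [NeZero M] [NeZero (M * 3)]
  (hqM : ¬ 3 ∣ M)

/-- **THE OGG DATUM OF `h6` over `ℚ̄^I`**: exponent `2`. -/
theorem s59lpos_ogg_base (hA : A.LiesOverPrime 3) (hM : 2 ∣ M)
    {g : ↥(modularFunctionFieldFullC ↥(beta0Field A) (M * 3))}
    (hg : (g : LaurentSeries ↥(beta0Field A)) = s59lposer_h6S ↥(beta0Field A)) :
    S59lpOgg hπ ιC Nat.prime_three hqM g ((2 : ℕ) : ℤ) := by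
  have h := s59lpos_ogg hπ ιC hqM hA (tres5o_assoc_q hπ Nat.prime_three hA) hM hg
  simpa using h

end Base

end Fermat.Agent.S59

end
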