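/-
S59, wall M4 (LOWER-P) at `p = 3`, leaf OGG3 / L5 MEM (helper44; split of helper10).

The level-6 unit `h6 = η(z)⁵ η(3z) / (η(2z) η(6z)⁵)` is a modular function for `Γ₀(6)`, hence its
`q`-expansion lies in the formal function field `F_6`, over `ℂ` and (descent) over every field
`K` of characteristic `0`, and then in `F_{3M}(K)` for every even `M`.

The analytic function and its `q`-expansion are HYPOTHESES here (leaves L1–L4):
`a : ℍ → ℂ` holomorphic, `Γ₀(6)`-invariant, `a ^ 24 = D := Δ(z)⁵ Δ(3z) / (Δ(2z) Δ(6z)⁵)`,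
and a series `x` over `K` with `coeffMap ι x = laurentOf a`.

* `s59lpomem_isModFun_D`      : `IsModFun 6 D`;
* `s59lpomem_isModFun_of_pow` : `IsModFun 6 a`;
* `s59lpomem_laurentOf_mem`   : `laurentOf a ∈ F_6(ℂ)`;
* `s59lpomem_mem_six`         : `x ∈ F_6(K)`;
* `s59lpomem_mem`             : `x ∈ F_{3 M}(K)` for `2 ∣ M` (and `s59lpomem_mem'` for `F_{M 3}`);
* `s59lpomem_mem_of_isModFun` : the general form (any level `N`, any modular function `a`).
-/
import Fermat.Agent.ES.RootModFun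
import Fermat.Agent.ES.RC.UnitField
import Fermat.Agent.ES.RC.FracField
import Fermat.Agent.ES.DescentInj
import Fermat.Agent.ES.G2.HeckeDeg
import Fermat.Agent.S28.ScaleForm
import Fermat.Agent.S28.Transfer

set_option autoImplicit false
set_option linter.unusedSectionVars false
set_option linter.style.haveILetI false

noncomputable section

namespace Fermat.Agent.S59

open UpperHalfPlane ModularCurve CongruenceSubgroup
open Fermat.Agent.S23 Fermat.Agent.S24 Fermat.Agent.S28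
open scoped MatrixGroups Manifold

local notation "Δ" => ModularForm.discriminant

/-- `D = Δ(z)⁵ Δ(3z) / (Δ(2z) Δ(6z)⁵)`, the 24-th power of the level-6 unit. -/
def s59lpomem_D (z : ℍ) : ℂ :=
  Δ z ^ 5 * Δ (scaleN 3 z) / (Δ (scaleN 2 z) * Δ (scaleN 6 z) ^ 5)

theorem s59lpomem_D_ne_zero (z : ℍ) : s59lpomem_D z ≠ 0 := by
  have h1 : Δ z ≠ 0 := ModularForm.discriminant_ne_zero z
  have h2 : Δ (scaleN 2 z) ≠ 0 := ModularForm.discriminant_ne_zero _
  have h3 : Δ (scaleN 3 z) ≠ 0 := ModularForm.discriminant_ne_zero _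
  have h6 : Δ (scaleN 6 z) ≠ 0 := ModularForm.discriminant_ne_zero _
  unfold s59lpomem_D
  exact div_ne_zero (mul_ne_zero (pow_ne_zero _ h1) h3) (mul_ne_zero h2 (pow_ne_zero _ h6))

/-- `D` is a modular function for `Γ₀(6)`. -/
theorem s59lpomem_isModFun_D : IsModFun 6 s59lpomem_D := by
  have h3 : IsModFun 6 (fun z => Δ (scaleN 3 z) / Δ z) :=
    Fermat.Agent.ES.RC.rc_isModFun_of_dvd (by norm_num) (isModFun_unit 3)
  have h2 : IsModFun 6 (fun z => Δ z / Δ (scaleN 2 z)) :=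
    Fermat.Agent.ES.RC.rc_isModFun_of_dvd (by norm_num) (isModFun_unit_inv 2)
  have h6 : IsModFun 6 (fun z => Δ z / Δ (scaleN 6 z)) := isModFun_unit_inv 6
  have h := (h3.mul h2).mul (h6.pow 5)
  convert h using 1
  funext z
  have e1 : Δ z ≠ 0 := ModularForm.discriminant_ne_zero z
  have e2 : Δ (scaleN 2 z) ≠ 0 := ModularForm.discriminant_ne_zero _
  have e6 : Δ (scaleN 6 z) ≠ 0 := ModularForm.discriminant_ne_zero _
  simp only [s59lpomem_D, Pi.mul_apply, Pi.pow_apply]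
  field_simp

/-- **The level-6 unit is a modular function**: a holomorphic, `Γ₀(6)`-invariant 24-th root
of `D`. -/
theorem s59lpomem_isModFun_of_pow {a : ℍ → ℂ} (ha : MDiff a)
    (hinv : ∀ γ ∈ Gamma0 6, ∀ τ : ℍ, a (γ • τ) = a τ)
    (hpow : ∀ τ : ℍ, a τ ^ 24 = s59lpomem_D τ) : IsModFun 6 a := by
  refine Fermat.Agent.ES.isModFun_of_pow (p := 24) (by norm_num) ha hinv ?_
  have e : (fun z => a z ^ 24) = s59lpomem_D := funext hpow
  rw [e]
  exact s59lpomem_isModFun_D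

/-- its `q`-expansion lies in `F_6(ℂ)` -/
theorem s59lpomem_laurentOf_mem {a : ℍ → ℂ} (ha : MDiff a)
    (hinv : ∀ γ ∈ Gamma0 6, ∀ τ : ℍ, a (γ • τ) = a τ)
    (hpow : ∀ τ : ℍ, a τ ^ 24 = s59lpomem_D τ) :
    laurentOf a ∈ modularFunctionFieldFullC ℂ 6 :=
  Fermat.Agent.ES.RC.rc_laurentOf_mem_full 6 (s59lpomem_isModFun_of_pow ha hinv hpow)

section Descent

variable (K : Type*) [Field K] [CharZero K] (ι : K →+* ℂ)

include ι in
/-- **General form**: a series over `K` whose image over `ℂ` is the `q`-expansion of a modular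
function for `Γ₀(N)` lies in `F_N(K)`. -/
theorem s59lpomem_mem_of_isModFun (N : ℕ) [NeZero N] {a : ℍ → ℂ} (ha : IsModFun N a)
    {x : LaurentSeries K} (hx : coeffMap ι x = laurentOf a) :
    x ∈ modularFunctionFieldFullC K N := by
  letI : Algebra K ℂ := ι.toAlgebra
  have h1 : coeffMap (algebraMap K ℂ) x ∈ laurentBaseChange ℂ (modularFunctionFieldFull N) := by
    rw [Fermat.Agent.ES.G2.hdeg_laurentBaseChange_full]
    have e : coeffMap (algebraMap K ℂ) x = laurentOf a := hx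
    rw [e]
    exact Fermat.Agent.ES.RC.rc_laurentOf_mem_full N ha
  have h3 := Fermat.Agent.ES.DescentInj.mem_laurentBaseChange_of_coeffMap_mem _ h1
  rwa [Fermat.Agent.ES.G2.hdeg_laurentBaseChange_full] at h3

include ι in
/-- the unit lies in `F_6(K)` -/
theorem s59lpomem_mem_six {a : ℍ → ℂ} (ha : MDiff a)
    (hinv : ∀ γ ∈ Gamma0 6, ∀ τ : ℍ, a (γ • τ) = a τ)
    (hpow : ∀ τ : ℍ, a τ ^ 24 = s59lpomem_D τ)
    {x : LaurentSeries K} (hx : coeffMap ι x = laurentOf a) :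
    x ∈ modularFunctionFieldFullC K 6 :=
  s59lpomem_mem_of_isModFun K ι 6 (s59lpomem_isModFun_of_pow ha hinv hpow) hx

include ι in
/-- **L5 MEM**: the unit lies in `F_N(K)` for every level `N` divisible by `6`. -/
theorem s59lpomem_mem_of_dvd (N : ℕ) [NeZero N] (hN : 6 ∣ N) {a : ℍ → ℂ} (ha : MDiff a)
    (hinv : ∀ γ ∈ Gamma0 6, ∀ τ : ℍ, a (γ • τ) = a τ)
    (hpow : ∀ τ : ℍ, a τ ^ 24 = s59lpomem_D τ)
    {x : LaurentSeries K} (hx : coeffMap ι x = laurentOf a) :
    x ∈ modularFunctionFieldFullC K N :=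
  full_degeneracyC_le K hN (s59lpomem_mem_six K ι ha hinv hpow hx)

include ι in
/-- **L5 MEM**, level `M * 3` with `2 ∣ M`. -/
theorem s59lpomem_mem (M : ℕ) [NeZero (M * 3)] (hM : 2 ∣ M) {a : ℍ → ℂ} (ha : MDiff a)
    (hinv : ∀ γ ∈ Gamma0 6, ∀ τ : ℍ, a (γ • τ) = a τ)
    (hpow : ∀ τ : ℍ, a τ ^ 24 = s59lpomem_D τ)
    {x : LaurentSeries K} (hx : coeffMap ι x = laurentOf a) :
    x ∈ modularFunctionFieldFullC K (M * 3) := by
  refine s59lpomem_mem_of_dvd K ι (M * 3) ?_ ha hinv hpow hx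
  obtain ⟨k, rfl⟩ := hM
  exact ⟨k, by ring⟩

end Descent

end Fermat.Agent.S59
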