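/-
S59, wall M4 (LOWER-P) at `p = 3`, leaf OGG3 (a): THE MEMBERSHIP of the level-6 unit (helper87).

Assembly of the leaves L1 SER (`Ogg3Ser.lean`), L2 AN (`Ogg3An.lean`), L3 CHAR + L4 GEN
(`Ogg3Char.lean`, `Ogg3Gen.lean`, helper47 / helper52) and L5 MEM (`Ogg3Mem.lean`, helper44):
the formal series `h6S K = q⁻¹ ∏ (1 - qⁿ)⁵ (1 - q³ⁿ) (1 - q²ⁿ)⁻¹ (1 - q⁶ⁿ)⁻⁵` of the eta quotient
`h6 = η(z)⁵ η(3z) / (η(2z) η(6z)⁵)` lies in the formal function field `F_N(K)` for every field `K`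
of characteristic `0` that embeds in `ℂ` and every level `N` divisible by `6`.

* `s59lpounit_h6_eq_char` : the two analytic definitions agree (`s59lpoan_h6 = s59lpochar_h6`);
* `s59lpounit_hinv`, `s59lpounit_hpow`, `s59lpounit_isModFun : IsModFun 6 h6`;
* `s59lpounit_h6S_mem_complex : h6S ℂ ∈ F_6(ℂ)`;
* `s59lpounit_h6S_mem_six`, `s59lpounit_h6S_mem_of_dvd`, `s59lpounit_h6S_mem`,
  `s59lpounit_h6S_mem'` : `h6S K ∈ F_6(K)`, `F_N(K)` (`6 ∣ N`), `F_{M·3}(K)`, `F_{3·M}(K)`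
  (`2 ∣ M`);
* `s59lpounit_h6InvS_mem_of_dvd`, `s59lpounit_h6InvS_mem` : the same for `h6⁻¹`;
* `s59lpounit_h6 K ι M hM : F_{M·3}(K)` : the unit as an element of the function field, with
  `s59lpounit_h6_coe`, `s59lpounit_h6_ne_zero`, `s59lpounit_h6_pow`.
-/
import Fermat.Agent.S59.LowP.Ogg3An
import Fermat.Agent.S59.LowP.Ogg3Char
import Fermat.Agent.S59.LowP.Ogg3Mem

set_option autoImplicit false
set_option linter.unusedSectionVars false
set_option linter.unusedVariables false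
set_option linter.style.haveILetI false

noncomputable section

namespace Fermat.Agent.S59

open UpperHalfPlane ModularCurve CongruenceSubgroup
open Fermat.Agent.S23 Fermat.Agent.S24 Fermat.Agent.S28
open scoped MatrixGroups Manifold

local notation "Δ" => ModularForm.discriminant

/-! ### The analytic side -/

/-- the two definitions of the eta quotient agree -/
theorem s59lpounit_h6_eq_char : s59lpoan_h6 = s59lpochar_h6 :=
  funext fun z => by rw [s59lpoan_h6_eq, s59lpochar_h6_apply]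

/-- `h6` is invariant under `Γ₀(6)` (L3 + L4) -/
theorem s59lpounit_hinv :
    ∀ γ ∈ Gamma0 6, ∀ τ : ℍ, s59lpoan_h6 (γ • τ) = s59lpoan_h6 τ :=
  s59lpochar_hinv_of_eq _ s59lpoan_h6_eq

/-- `h6 ^ 24 = D` -/
theorem s59lpounit_hpow (τ : ℍ) : s59lpoan_h6 τ ^ 24 = s59lpomem_D τ :=
  s59lpoan_h6_pow τ

/-- **`h6` is a modular function for `Γ₀(6)`** -/
theorem s59lpounit_isModFun : IsModFun 6 s59lpoan_h6 :=
  s59lpomem_isModFun_of_pow s59lpoan_mdiff_h6 s59lpounit_hinv s59lpounit_hpow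

/-- `h6S ℂ ∈ F_6(ℂ)` -/
theorem s59lpounit_h6S_mem_complex : s59lposer_h6S ℂ ∈ modularFunctionFieldFullC ℂ 6 := by
  rw [← s59lpoan_laurentOf_h6]
  exact s59lpomem_laurentOf_mem s59lpoan_mdiff_h6 s59lpounit_hinv s59lpounit_hpow

/-! ### Over a field of characteristic `0` -/

section Descent

variable (K : Type*) [Field K] [CharZero K] (ι : K →+* ℂ)

include ι in
/-- `h6S K ∈ F_6(K)` -/
theorem s59lpounit_h6S_mem_six : s59lposer_h6S K ∈ modularFunctionFieldFullC K 6 :=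
  s59lpomem_mem_six K ι s59lpoan_mdiff_h6 s59lpounit_hinv s59lpounit_hpow
    (s59lpoan_coeffMap_h6S ι)

include ι in
/-- **`h6S K ∈ F_N(K)` for every level `N` divisible by `6`** -/
theorem s59lpounit_h6S_mem_of_dvd (N : ℕ) [NeZero N] (hN : 6 ∣ N) :
    s59lposer_h6S K ∈ modularFunctionFieldFullC K N :=
  s59lpomem_mem_of_dvd K ι N hN s59lpoan_mdiff_h6 s59lpounit_hinv s59lpounit_hpow
    (s59lpoan_coeffMap_h6S ι)

include ι in
/-- **`h6S K ∈ F_{M·3}(K)` for even `M`** -/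
theorem s59lpounit_h6S_mem (M : ℕ) [NeZero (M * 3)] (hM : 2 ∣ M) :
    s59lposer_h6S K ∈ modularFunctionFieldFullC K (M * 3) :=
  s59lpomem_mem K ι M hM s59lpoan_mdiff_h6 s59lpounit_hinv s59lpounit_hpow
    (s59lpoan_coeffMap_h6S ι)

include ι in
/-- `h6⁻¹ ∈ F_N(K)` for every level `N` divisible by `6` -/
theorem s59lpounit_h6InvS_mem_of_dvd (N : ℕ) [NeZero N] (hN : 6 ∣ N) :
    s59lposer_h6InvS K ∈ modularFunctionFieldFullC K N := by
  rw [s59lposer_h6InvS_eq_inv]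
  exact inv_mem (s59lpounit_h6S_mem_of_dvd K ι N hN)

include ι in
/-- `h6⁻¹ ∈ F_{M·3}(K)` for even `M` -/
theorem s59lpounit_h6InvS_mem (M : ℕ) [NeZero (M * 3)] (hM : 2 ∣ M) :
    s59lposer_h6InvS K ∈ modularFunctionFieldFullC K (M * 3) := by
  rw [s59lposer_h6InvS_eq_inv]
  exact inv_mem (s59lpounit_h6S_mem K ι M hM)

/-- **the level-6 unit as an element of `F_{M·3}(K)`**, `M` even -/
def s59lpounit_h6 (M : ℕ) [NeZero (M * 3)] (hM : 2 ∣ M) : modularFunctionFieldFullC K (M * 3) :=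
  ⟨s59lposer_h6S K, s59lpounit_h6S_mem K ι M hM⟩

theorem s59lpounit_h6_coe (M : ℕ) [NeZero (M * 3)] (hM : 2 ∣ M) :
    ((s59lpounit_h6 K ι M hM : modularFunctionFieldFullC K (M * 3)) : LaurentSeries K) =
      s59lposer_h6S K := rfl

theorem s59lpounit_h6_ne_zero (M : ℕ) [NeZero (M * 3)] (hM : 2 ∣ M) :
    s59lpounit_h6 K ι M hM ≠ 0 := by
  intro h
  have h2 := congrArg (fun x : modularFunctionFieldFullC K (M * 3) => (x : LaurentSeries K)) h
  exact s59lposer_h6S_ne_zero K h2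

end Descent

end Fermat.Agent.S59

end
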