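/-
S59, wall M4 (LOWER-P at `p = 3`), leaf OGG3 → COVER3 (helper16): THE OGG INPUT AT `p = 3`.

The level-6 unit `h6 = η(z)⁵ η(3z) / (η(2z) η(6z)⁵)` (series `s59lposer_h6S`, helper87) is an Ogg
input for helper89's COVER3 (`S59lpcvOggW`, `S59/LowP/Cover3W.lean`) at `p = 3`, `M` even, with
node exponent `e = 2` (`¬ 3 ∣ 2`).  Hence the leaf target `s59lptr_MonoCoverWAt M 3` of helper30's
`S59/LowP/Triv3b.lean` holds for every even `M` prime to `3`.

The ingredients, as separate lemmas (for the FIX case, helper52's `MonoFix3W.lean`):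

* `s59lpoasm_g A M`        : the unit as an element of `F_{4M·3}(ℚ̄^I)` (any `M`);
* `s59lpoasm_g_coe`        : its `Q`-expansion is `s59lposer_h6S`;
* `s59lpoasm_datum`        : helper16's abstract Ogg datum `S59lpOgg … g 2` (`OggAbs.lean`);
* `s59lpoasm_val`          : `v_∞(g) = 1`;
* `s59lpoasm_node`         : helper89's local shape `S59lpcvOggNode … g 2`;
* `s59lpoasm_hgx`          : the integral model: `nfEmb g = kronIncl A (h6S A)`;
* `s59lpoasm_kronRed`      : `kronRed A (h6S A) = h6S k`;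
* `s59lpoasm_hb_mem`       : `h6S k ∈ F̄_N` for every even `N` prime to `3`;
* `s59lpoasm_red`          : `ρ(g) = h6S k`;
* `s59lpoasm_hecke`        : the weak Hecke clause for `h6S k`;
* `s59lpoasm_oggW`         : **`S59lpcvOggW M 3`** for even `M`;
* `s59lpoasm_monoCoverWAt` : **`s59lptr_MonoCoverWAt M 3`** for even `M` prime to `3`.
-/
import Fermat.Agent.S59.LowP.Cover3W
import Fermat.Agent.S59.LowP.Ogg3Unit
import Fermat.Agent.S59.LowP.Ogg3Red
import Fermat.Agent.S59.LowP.Ogg3HeckeSer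
import Fermat.Agent.S59.LowP.Ogg3Six

set_option autoImplicit false
set_option linter.unusedSectionVars false
set_option linter.unusedVariables false
set_option linter.style.haveILetI false
set_option linter.style.longLine false
set_option synthInstance.maxHeartbeats 400000
set_option maxHeartbeats 1600000

noncomputable section

namespace Fermat.Agent.S59

open ModularCurve AlgebraicCurve IntermediateField Polynomial Fermat.Agent.INJ Fermat.Agent.UNIP
  Fermat.Agent.STB Fermat.Agent.S36 Fermat.Agent.S33 Fermat.Agent.RIB.MP Fermat.Agent.RT.K6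
  Fermat.Agent.AL Fermat.Agent.ES Fermat.Agent.ES.G2 Fermat.Agent.ES.M
  Fermat.Agent.DEU Fermat.Agent.S24 Fermat.Agent.S28 Fermat.Agent.S15 Fermat.Agent.W1
  Fermat.Agent.RIB ExtCitation Fermat.Agent.R38

section Elem

/-- `2 ∣ 4 M` -/
theorem s59lpoasm_two_dvd (M : ℕ) : 2 ∣ M * 4 := ⟨M * 2, by ring⟩

/-- **the unit `h6` as an element of `F_{4M·3}(ℚ̄^I)`** -/
def s59lpoasm_g (A : ValuationSubring R38.Qb) (M : ℕ) [NeZero (M * 4 * 3)] :
    ↥(modularFunctionFieldFullC ↥(beta0Field A) (M * 4 * 3)) :=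
  s59lpounit_h6 ↥(beta0Field A) (mgdIota (beta0Field A)) (M * 4) (s59lpoasm_two_dvd M)

theorem s59lpoasm_g_coe (A : ValuationSubring R38.Qb) (M : ℕ) [NeZero (M * 4 * 3)] :
    ((s59lpoasm_g A M : ↥(modularFunctionFieldFullC ↥(beta0Field A) (M * 4 * 3))) :
      LaurentSeries ↥(beta0Field A)) = s59lposer_h6S ↥(beta0Field A) := rfl

end Elem

section Asm

variable {M : ℕ} [NeZero M] [NeZero 3] [NeZero (M * 3)] [NeZero (M * 4)] [NeZero (M * 4 * 3)]
  {A : ValuationSubring R38.Qb}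

/-- **the Ogg datum of `g`** (exponent `2`) -/
theorem s59lpoasm_datum (hpM4 : ¬ 3 ∣ M * 4) (hA : A.LiesOverPrime 3)
    [IsDiscreteValuationRing ↥(beta0Ring A (beta0Field A))] :
    S59lpOgg (beta0Ring_irreducible_q (A := A) Nat.prime_three hA) (mgdIota (beta0Field A))
      Nat.prime_three hpM4 (s59lpoasm_g A M) ((2 : ℕ) : ℤ) :=
  s59lpos_ogg_base (beta0Ring_irreducible_q (A := A) Nat.prime_three hA) (mgdIota (beta0Field A))
    hpM4 hA (s59lpoasm_two_dvd M) (s59lpoasm_g_coe A M)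

/-- **`v_∞(g) = 1`** -/
theorem s59lpoasm_val (hpM4 : ¬ 3 ∣ M * 4) (hA : A.LiesOverPrime 3)
    [IsDiscreteValuationRing ↥(beta0Ring A (beta0Field A))] :
    (mgvV (beta0Ring_irreducible_q (A := A) Nat.prime_three hA) (mgdIota (beta0Field A))
      Nat.prime_three hpM4 true).valuation (s59lpoasm_g A M) = 1 :=
  (s59lpoasm_datum hpM4 hA).val_true

/-- **the local shape of `g`** (helper89's `S59lpcvOggNode`, exponent `2`) -/
theorem s59lpoasm_node (hpM4 : ¬ 3 ∣ M * 4) (hA : A.LiesOverPrime 3)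
    [IsDiscreteValuationRing ↥(beta0Ring A (beta0Field A))] :
    S59lpcvOggNode (beta0Ring_irreducible_q (A := A) Nat.prime_three hA) (mgdIota (beta0Field A))
      Nat.prime_three hpM4 (s59lpoasm_g A M) 2 :=
  s59lpcv_oggNode_of_ogg (beta0Ring_irreducible_q (A := A) Nat.prime_three hA)
    (mgdIota (beta0Field A)) Nat.prime_three hpM4 hA
    ⟨fun _ => Dvd.intro_left M rfl, fun h2 => absurd h2 (by norm_num)⟩
    (s59lpoasm_datum hpM4 hA)

/-- **the integral model of `g`** -/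
theorem s59lpoasm_hgx :
    ((nfEmb (beta0Field A) (M * 4 * 3) (s59lpoasm_g A M) : modularFunctionFieldBar (M * 4 * 3)) :
      LaurentSeries R38.Qb) = kronIncl A (s59lposer_h6S ↥A) := by
  rw [nfEmb_coe, s59lpoasm_g_coe, s59lposer_coeffMap_h6S]
  exact (s59lposer_coeffMap_h6S A.subtype).symm

/-- **the reduction of the model** -/
theorem s59lpoasm_kronRed : kronRed A (s59lposer_h6S ↥A) = s59lposer_h6S (kA A) :=
  s59lposer_coeffMap_h6S (IsLocalRing.residue ↥A)

/-- the model lies in `F_{N·3}(ℚ̄)` for even `N` -/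
theorem s59lpoasm_model_mem {N : ℕ} [NeZero (N * 3)] (hN : 2 ∣ N) :
    kronIncl A (s59lposer_h6S ↥A) ∈ modularFunctionFieldBar (N * 3) := by
  have h : kronIncl A (s59lposer_h6S ↥A) = s59lposer_h6S R38.Qb :=
    s59lposer_coeffMap_h6S A.subtype
  rw [h, nf_bar_eq_fullC]
  exact s59lpounit_h6S_mem R38.Qb cheapIota N hN

/-- **`h̄6 ∈ F̄_N`** for every even level `N` prime to `3` -/
theorem s59lpoasm_hb_mem {N : ℕ} [NeZero N] [NeZero (N * 3)] (hN : 2 ∣ N) (h3N : ¬ 3 ∣ N)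
    (hA : A.LiesOverPrime 3) :
    s59lposer_h6S (kA A) ∈ modularFunctionFieldFullC (kA A) N := by
  rw [← s59lpoasm_kronRed]
  exact s59lpored_mem_of Nat.prime_three h3N hA (s59lpoasm_model_mem hN)

/-- **`ρ(g) = h̄6`** -/
theorem s59lpoasm_red (hpM4 : ¬ 3 ∣ M * 4) (hA : A.LiesOverPrime 3)
    [IsDiscreteValuationRing ↥(beta0Ring A (beta0Field A))]
    (hV : s59lpoasm_g A M ∈ mgvV (beta0Ring_irreducible_q (A := A) Nat.prime_three hA)
      (mgdIota (beta0Field A)) Nat.prime_three hpM4 true)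
    (hhb' : s59lposer_h6S (kA A) ∈ modularFunctionFieldFullC (kA A) (M * 4)) :
    ribmpRedF Nat.prime_three hpM4 hA (beta0Ring_irreducible_q (A := A) Nat.prime_three hA)
      (mgdIota (beta0Field A)) (stmtRedF (M * 4) A 3 Nat.prime_three hpM4 hA)
      ⟨s59lpoasm_g A M, hV⟩ = ⟨s59lposer_h6S (kA A), hhb'⟩ := by
  refine Subtype.ext ?_
  rw [s59lpored_coe Nat.prime_three hpM4 hA (beta0Ring_irreducible_q (A := A) Nat.prime_three hA)
    (mgdIota (beta0Field A)) (stmtRedF (M * 4) A 3 Nat.prime_three hpM4 hA) s59lpoasm_hgx hV]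
  exact s59lpoasm_kronRed

/-- **the weak Hecke clause for `h̄6`** -/
theorem s59lpoasm_hecke (A : ValuationSubring R38.Qb) {N : ℕ} (hN : 2 ∣ N) :
    ∀ (ℓ : ℕ) [NeZero ℓ], ℓ.Prime → ¬ ℓ ∣ N → ℓ ≠ 3 → ∀ ζ : (kA A)ˣ, IsPrimitiveRoot ζ ℓ →
      ∃ c : kA A, c ≠ 0 ∧
        kronHecke ℓ ζ (s59lposer_h6S (kA A)) =
          HahnSeries.C c * s59lposer_h6S (kA A) ^ (ℓ + 1) :=
  s59lpobr_h6S_clause (kA A) hN

/-- **THE OGG INPUT OF COVER3 AT `p = 3`**, `M` even. -/
theorem s59lpoasm_oggW (hM : 2 ∣ M) (hpM4 : ¬ 3 ∣ M * 4) :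
    S59lpcvOggW M 3 Nat.prime_three hpM4 := by
  intro A hA _
  have hpM : ¬ 3 ∣ M := fun h => hpM4 (Dvd.dvd.mul_right h 4)
  have h4 : 2 ∣ M * 4 := s59lpoasm_two_dvd M
  have hhb' : s59lposer_h6S (kA A) ∈ modularFunctionFieldFullC (kA A) (M * 4) :=
    s59lpoasm_hb_mem h4 hpM4 hA
  refine ⟨s59lpoasm_g A M, 2, s59lposer_h6S (kA A), s59lpoasm_val hpM4 hA, hhb', ?_, ?_, ?_, ?_,
    ?_⟩
  · exact s59lpos_not_dvd
  · exact s59lpoasm_node hpM4 hA
  · exact s59lpoasm_hb_mem hM hpM hA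
  · exact s59lpoasm_red hpM4 hA _ hhb'
  · exact s59lpoasm_hecke A hM

/-- **COVER3 AT `p = 3`**: the leaf target `s59lptr_MonoCoverWAt M 3`, `M` even prime to `3`. -/
theorem s59lpoasm_monoCoverWAt [Fact (Nat.Prime 3)] (hM : 2 ∣ M) (hpM : ¬ 3 ∣ M) :
    s59lptr_MonoCoverWAt M 3 :=
  s59lpcv_monoCoverWAt Nat.prime_three hpM
    (s59lpcv_not_dvd_mul_four Nat.prime_three (by norm_num) hpM) (by norm_num) (Or.inr hM)
    (s59lpoasm_oggW hM _)

end Asm

end Fermat.Agent.S59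

end
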