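/-
S59, wall M4 (LOWER-P at `p = 3`), leaf OGG3 → MONOFIX3 (helper16): THE OGG INTERFACE OF THE FIX
CASE AT `p = 3`.

The level-6 unit `h6 = η(z)⁵ η(3z) / (η(2z) η(6z)⁵)` (element `s59lpoasm_g`, `Ogg3W.lean`) is an
instance of helper52's OGG interface `S59lpmfOgg M 3 A` (`S59/LowP/MonoFix3.lean`) for every even
`M`, with exponent `e = 2` (`¬ 3 ∣ 2`).  Hence `S59lpmfStmt` (`StmtMonoFix` for the odd primes,
`M` even if `p = 3`) holds unconditionally, and so does the leaf target `s59lptr_MonoFixWAt M 3`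
of helper30's `S59/LowP/Triv3b.lean`.

* `s59lpofx_datum`      : the Ogg datum of `g` for ANY uniformiser `π` (exponent `2`);
* `s59lpofx_red`        : `ρ(g) = h̄6` for any uniformiser and any reduction package;
* `s59lpofx_ogg`        : **`S59lpmfOgg M 3 A`**, `2 ∣ M`;
* `s59lpofx_stmt`       : **`S59lpmfStmt`**;
* `s59lpofx_monoFixWAt` : **`s59lptr_MonoFixWAt M 3`**, `M` even prime to `3`.
-/
import Fermat.Agent.S59.LowP.Ogg3W
import Fermat.Agent.S59.LowP.MonoFix3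

set_option autoImplicit false
set_option linter.unusedSectionVars false
set_option linter.unusedVariables false
set_option linter.style.haveILetI false
set_option linter.style.longLine false
set_option synthInstance.maxHeartbeats 400000
set_option maxHeartbeats 1600000

noncomputable section

namespace Fermat.Agent.S59

open ModularCurve AlgebraicCurve IntermediateField Polynomial Fermat.Agent.INJ Fermat.Agent.UNIP
  Fermat.Agent.STB Fermat.Agent.S36 Fermat.Agent.S33 Fermat.Agent.RIB.MP Fermat.Agent.RT.K6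
  Fermat.Agent.AL Fermat.Agent.ES Fermat.Agent.ES.G2 Fermat.Agent.ES.M
  Fermat.Agent.DEU Fermat.Agent.S24 Fermat.Agent.S28 Fermat.Agent.S15 Fermat.Agent.W1
  Fermat.Agent.RIB ExtCitation Fermat.Agent.R38

section Fix

variable {M : ℕ} [NeZero M] [NeZero 3] [NeZero (M * 4)] [NeZero (M * 4 * 3)]
  {A : ValuationSubring R38.Qb}

/-- **the Ogg datum of `g`** for any uniformiser (exponent `2`) -/
theorem s59lpofx_datum (hp : Nat.Prime 3) (hpM4 : ¬ 3 ∣ M * 4) (hA : A.LiesOverPrime 3)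
    [IsDiscreteValuationRing ↥(beta0Ring A (beta0Field A))]
    {π : ↥(beta0Ring A (beta0Field A))} (hπ : Irreducible π)
    (ιC : ↥(beta0Field A) →+* ℂ) :
    S59lpOgg hπ ιC hp hpM4 (s59lpoasm_g A M) ((2 : ℕ) : ℤ) :=
  s59lpos_ogg_base hπ ιC hpM4 hA (s59lpoasm_two_dvd M) (s59lpoasm_g_coe A M)

/-- **`ρ(g) = h̄6`** for any uniformiser and any reduction package -/
theorem s59lpofx_red (hp : Nat.Prime 3) (hpM4 : ¬ 3 ∣ M * 4) (hA : A.LiesOverPrime 3)
    [IsDiscreteValuationRing ↥(beta0Ring A (beta0Field A))]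
    {π : ↥(beta0Ring A (beta0Field A))} (hπ : Irreducible π)
    (ιC : ↥(beta0Field A) →+* ℂ) (hRedF : StmtRedF (M * 4) A)
    (hV : s59lpoasm_g A M ∈ mgvV hπ ιC hp hpM4 true)
    (hhb' : s59lposer_h6S (kA A) ∈ modularFunctionFieldFullC (kA A) (M * 4)) :
    ribmpRedF hp hpM4 hA hπ ιC hRedF ⟨s59lpoasm_g A M, hV⟩ = ⟨s59lposer_h6S (kA A), hhb'⟩ := by
  refine Subtype.ext ?_
  rw [s59lpored_coe hp hpM4 hA hπ ιC hRedF s59lpoasm_hgx hV]
  exact s59lpoasm_kronRed

/-- **THE OGG INTERFACE OF THE FIX CASE AT `p = 3`**, `M` even. -/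
theorem s59lpofx_ogg (hM : 2 ∣ M) (A : ValuationSubring R38.Qb) : S59lpmfOgg M 3 A := by
  intro hp hpM4 hA _ hπ hRedF'
  haveI : NeZero (M * 3) := ⟨Nat.mul_ne_zero (NeZero.ne M) (by norm_num)⟩
  have hpM : ¬ 3 ∣ M := fun h => hpM4 (Dvd.dvd.mul_right h 4)
  have hd := s59lpofx_datum (M := M) hp hpM4 hA hπ (mgdIota (beta0Field A))
  have hhb : s59lposer_h6S (kA A) ∈ modularFunctionFieldFullC (kA A) M :=
    s59lpoasm_hb_mem hM hpM hA
  have hhb' : s59lposer_h6S (kA A) ∈ modularFunctionFieldFullC (kA A) (M * 4) :=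
    s59lpoasm_hb_mem (s59lpoasm_two_dvd M) hpM4 hA
  exact ⟨s59lpoasm_g A M, ((2 : ℕ) : ℤ), s59lposer_h6S (kA A), hd.val_true, hhb, hhb',
    hd.ne_zero, s59lpos_not_dvd, hd.hor, hd.val_false,
    s59lpofx_red hp hpM4 hA hπ (mgdIota (beta0Field A)) hRedF' _ hhb',
    s59lposer_h6S_ne_zero (kA A), s59lpoasm_hecke A hM⟩

end Fix

/-- **MONOFIX3, unconditional**: `StmtMonoFix` for the odd primes (`M` even if `p = 3`). -/
theorem s59lpofx_stmt : S59lpmfStmt :=
  s59lpmf_stmt_of fun M _ _ _ hM _ A _ => s59lpofx_ogg hM A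

/-- **the leaf target `s59lptr_MonoFixWAt M 3`**, `M` even prime to `3`. -/
theorem s59lpofx_monoFixWAt {M : ℕ} [NeZero M] [NeZero 3] [NeZero (M * 3)] (hM : 2 ∣ M)
    (hpM : ¬ 3 ∣ M) : s59lptr_MonoFixWAt M 3 :=
  fun A hA x hx hα hβ hfix =>
    s59lpofx_stmt M 3 Nat.prime_three hpM (by norm_num) (Or.inr hM) A hA x hx hα hβ hfix

end Fermat.Agent.S59

end
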