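import Fermat.Agent.R38.TresEisOgg

/-!
# S59, wall M4 (LOWER-P) at `p = 3`, leaf OGG3 / L9b HECKE (helper10): the multiplicative Hecke
operator on the level-6 eta quotient

`k` any field, `η̂ = ∏ (1 − qⁿ) = R38.tres4oEta k`, `η̂_d = η̂(q^d) = qExpand k d η̂`.

* `s59lpohH6 k = q⁻¹ η̂⁵ η̂_3 / (η̂_2 η̂_6⁵)` : the `q`-expansion of
  `h6 = η(z)⁵ η(3z) / (η(2z) η(6z)⁵)` over `k`;
  `s59lpohG6 k = η̂_3⁵ η̂ / (η̂_6 η̂_2⁵)` : the `q`-expansion of its Atkin–Lehner partner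
  `g6 = η(3z)⁵ η(z) / (η(6z) η(2z)⁵)`;
* `s59lpoh_H6_ne_zero`, `s59lpoh_G6_ne_zero`;
* `s59lpoh_H6_pow : H6 ^ 24 = Δ⁵ Δ_3 / (Δ_2 Δ_6⁵)`, `s59lpoh_G6_pow`;
* `s59lpoh_H6_eq_of_rel` : `H6` is THE solution `h` of `h · q η̂_2 η̂_6⁵ = η̂⁵ η̂_3` (bridge to any
  other definition of the series);
* `s59lpoh_kronHecke_H6 : T_ℓ H6 = C ε⁻¹ · H6 ^ (ℓ + 1)` for every prime `ℓ ∤ 6`
  (`ε = ∏_{b<ℓ} ζ^b`);
* `s59lpoh_hhecke` : **the weak Hecke clause** of `R38.s59lptr_ConclW` (`S59/LowP/Triv3b.lean`)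
  for `h := H6` at `p = 3`, `2 ∣ M`:
  `∀ ℓ prime, ¬ ℓ ∣ M → ℓ ≠ 3 → ∀ ζ primitive, ∃ c ≠ 0, kronHecke ℓ ζ H6 = C c * H6 ^ (ℓ + 1)`.
  (At `ℓ = 2` the clause is false: `T_2 η̂_2 = η̂_4 η̂²`.)
-/

set_option autoImplicit false
set_option linter.style.haveILetI false
set_option linter.unusedSectionVars false
set_option linter.unusedVariables false

noncomputable section

namespace Fermat.Agent.S59

open ModularCurve HahnSeries Fermat.Agent.ES Fermat.Agent.S28 Fermat.Agent.R38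

section Ser

variable (k : Type*) [Field k]

/-- the `q`-expansion of the level-6 eta quotient `h6 = η⁵ η(3z) / (η(2z) η(6z)⁵)` over `k` -/
def s59lpohH6 : LaurentSeries k :=
  (HahnSeries.single (1 : ℤ) (1 : k))⁻¹ * tres4oEta k ^ 5 * qExpand k 3 (tres4oEta k) *
    (qExpand k 2 (tres4oEta k))⁻¹ * (qExpand k 6 (tres4oEta k) ^ 5)⁻¹

/-- the `q`-expansion of `g6 = η(3z)⁵ η(z) / (η(6z) η(2z)⁵)` over `k` -/
def s59lpohG6 : LaurentSeries k :=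
  qExpand k 3 (tres4oEta k) ^ 5 * tres4oEta k *
    (qExpand k 6 (tres4oEta k))⁻¹ * (qExpand k 2 (tres4oEta k) ^ 5)⁻¹

theorem s59lpoh_q_ne_zero : (HahnSeries.single (1 : ℤ) (1 : k) : LaurentSeries k) ≠ 0 :=
  HahnSeries.single_ne_zero one_ne_zero

theorem s59lpoh_eta_ne_zero : tres4oEta k ≠ 0 := by
  intro h
  have h1 := tres4o_deltaS_eq (k := k)
  rw [h, zero_pow (by norm_num), mul_zero] at h1
  exact deltaS_ne_zero k h1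

theorem s59lpoh_qExpand_eta_ne_zero (d : ℕ) [NeZero d] : qExpand k d (tres4oEta k) ≠ 0 :=
  (map_ne_zero (qExpand k d)).2 (s59lpoh_eta_ne_zero k)

theorem s59lpoh_H6_ne_zero : s59lpohH6 k ≠ 0 := by
  unfold s59lpohH6
  exact mul_ne_zero (mul_ne_zero (mul_ne_zero (mul_ne_zero (inv_ne_zero (s59lpoh_q_ne_zero k))
    (pow_ne_zero _ (s59lpoh_eta_ne_zero k))) (s59lpoh_qExpand_eta_ne_zero k 3))
    (inv_ne_zero (s59lpoh_qExpand_eta_ne_zero k 2)))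
    (inv_ne_zero (pow_ne_zero _ (s59lpoh_qExpand_eta_ne_zero k 6)))

theorem s59lpoh_G6_ne_zero : s59lpohG6 k ≠ 0 := by
  unfold s59lpohG6
  exact mul_ne_zero (mul_ne_zero (mul_ne_zero (pow_ne_zero _ (s59lpoh_qExpand_eta_ne_zero k 3))
    (s59lpoh_eta_ne_zero k)) (inv_ne_zero (s59lpoh_qExpand_eta_ne_zero k 6)))
    (inv_ne_zero (pow_ne_zero _ (s59lpoh_qExpand_eta_ne_zero k 2)))

/-- the defining relation of `H6` -/
theorem s59lpoh_H6_rel :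
    s59lpohH6 k * (HahnSeries.single (1 : ℤ) (1 : k) * qExpand k 2 (tres4oEta k) *
      qExpand k 6 (tres4oEta k) ^ 5) = tres4oEta k ^ 5 * qExpand k 3 (tres4oEta k) := by
  have h1 := s59lpoh_q_ne_zero k
  have h2 := s59lpoh_qExpand_eta_ne_zero k 2
  have h6 := s59lpoh_qExpand_eta_ne_zero k 6
  unfold s59lpohH6
  field_simp

variable {k} in
/-- `H6` is the only solution of its defining relation -/
theorem s59lpoh_H6_eq_of_rel {h : LaurentSeries k}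
    (hrel : h * (HahnSeries.single (1 : ℤ) (1 : k) * qExpand k 2 (tres4oEta k) *
      qExpand k 6 (tres4oEta k) ^ 5) = tres4oEta k ^ 5 * qExpand k 3 (tres4oEta k)) :
    h = s59lpohH6 k := by
  have h0 : (HahnSeries.single (1 : ℤ) (1 : k) * qExpand k 2 (tres4oEta k) *
      qExpand k 6 (tres4oEta k) ^ 5 : LaurentSeries k) ≠ 0 :=
    mul_ne_zero (mul_ne_zero (s59lpoh_q_ne_zero k) (s59lpoh_qExpand_eta_ne_zero k 2))
      (pow_ne_zero _ (s59lpoh_qExpand_eta_ne_zero k 6))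
  exact mul_right_cancel₀ h0 (hrel.trans (s59lpoh_H6_rel k).symm)

/-- `Δ(q^d) = q^d η̂_d²⁴` -/
theorem s59lpoh_qExpand_deltaS (d : ℕ) [NeZero d] :
    qExpand k d (deltaS k) =
      qExpand k d (HahnSeries.single (1 : ℤ) (1 : k)) * qExpand k d (tres4oEta k) ^ 24 := by
  rw [tres4o_deltaS_eq, map_mul, map_pow]

theorem s59lpoh_qExpand_q (d : ℕ) [NeZero d] :
    qExpand k d (HahnSeries.single (1 : ℤ) (1 : k)) = HahnSeries.single (1 : ℤ) (1 : k) ^ d := by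
  rw [qExpand_single, HahnSeries.single_pow, one_pow, nsmul_eq_mul, mul_one]

/-- **`H6 ^ 24 = Δ⁵ Δ_3 / (Δ_2 Δ_6⁵)`** -/
theorem s59lpoh_H6_pow :
    s59lpohH6 k ^ 24 = deltaS k ^ 5 * qExpand k 3 (deltaS k) *
      (qExpand k 2 (deltaS k))⁻¹ * (qExpand k 6 (deltaS k) ^ 5)⁻¹ := by
  have h1 := s59lpoh_q_ne_zero k
  have h2 := s59lpoh_qExpand_eta_ne_zero k 2
  have h6 := s59lpoh_qExpand_eta_ne_zero k 6
  rw [s59lpoh_qExpand_deltaS k 3, s59lpoh_qExpand_deltaS k 2, s59lpoh_qExpand_deltaS k 6,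
    s59lpoh_qExpand_q, s59lpoh_qExpand_q, s59lpoh_qExpand_q, tres4o_deltaS_eq]
  unfold s59lpohH6
  field_simp

/-- **`G6 ^ 24 = Δ_3⁵ Δ / (Δ_6 Δ_2⁵)`** -/
theorem s59lpoh_G6_pow :
    s59lpohG6 k ^ 24 = qExpand k 3 (deltaS k) ^ 5 * deltaS k *
      (qExpand k 6 (deltaS k))⁻¹ * (qExpand k 2 (deltaS k) ^ 5)⁻¹ := by
  have h1 := s59lpoh_q_ne_zero k
  have h2 := s59lpoh_qExpand_eta_ne_zero k 2
  have h6 := s59lpoh_qExpand_eta_ne_zero k 6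
  rw [s59lpoh_qExpand_deltaS k 3, s59lpoh_qExpand_deltaS k 2, s59lpoh_qExpand_deltaS k 6,
    s59lpoh_qExpand_q, s59lpoh_qExpand_q, s59lpoh_qExpand_q, tres4o_deltaS_eq]
  unfold s59lpohG6
  field_simp

end Ser

section Hecke

variable {k : Type*} [Field k] (ℓ : ℕ) [NeZero ℓ] (ζ : kˣ)

/-- `T_ℓ η̂_d = η̂_d ^ (ℓ + 1)` for `d` prime to `ℓ` -/
theorem s59lpoh_kronHecke_qExpand_eta (d : ℕ) [NeZero d] (hℓ : ℓ.Prime)
    (hcop : Nat.Coprime d ℓ) (hζ : IsPrimitiveRoot ζ ℓ) :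
    kronHecke ℓ ζ (qExpand k d (tres4oEta k)) = qExpand k d (tres4oEta k) ^ (ℓ + 1) := by
  rw [tres4o_kronHecke_qExpand ℓ ζ d hcop hζ.pow_eq_one, tres4o_kronHecke_eta ℓ ζ hℓ hζ, map_pow]

/-- **the Hecke operator on the level-6 eta quotient**: `T_ℓ H6 = C ε⁻¹ · H6 ^ (ℓ + 1)`,
`ℓ ∤ 6` prime -/
theorem s59lpoh_kronHecke_H6 (hℓ : ℓ.Prime) (h2 : ℓ ≠ 2) (h3 : ℓ ≠ 3)
    (hζ : IsPrimitiveRoot ζ ℓ) :
    kronHecke ℓ ζ (s59lpohH6 k) =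
      HahnSeries.C (((tres4oEps ℓ ζ)⁻¹ : kˣ) : k) * s59lpohH6 k ^ (ℓ + 1) := by
  have hc2 : Nat.Coprime 2 ℓ :=
    (Nat.coprime_primes Nat.prime_two hℓ).2 (fun h => h2 h.symm)
  have hc3 : Nat.Coprime 3 ℓ :=
    (Nat.coprime_primes Nat.prime_three hℓ).2 (fun h => h3 h.symm)
  have hc6 : Nat.Coprime 6 ℓ := by
    have : (6 : ℕ) = 2 * 3 := by norm_num
    rw [this]
    exact Nat.Coprime.mul_left hc2 hc3
  have hq := s59lpoh_q_ne_zero k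
  have he := s59lpoh_eta_ne_zero k
  have he2 := s59lpoh_qExpand_eta_ne_zero k 2
  have he3 := s59lpoh_qExpand_eta_ne_zero k 3
  have he6 := s59lpoh_qExpand_eta_ne_zero k 6
  have hε : (HahnSeries.C (((tres4oEps ℓ ζ)⁻¹ : kˣ) : k) : LaurentSeries k) =
      (HahnSeries.C ((tres4oEps ℓ ζ : kˣ) : k))⁻¹ := by
    rw [Units.val_inv_eq_inv_val, map_inv₀]
  have hε0 := tres4o_eps_ne_zero (k := k) ℓ ζ
  unfold s59lpohH6
  rw [kronHecke_mul ζ hζ, kronHecke_mul ζ hζ, kronHecke_mul ζ hζ, kronHecke_mul ζ hζ,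
    tres4o_kronHecke_inv ℓ ζ hζ hq, tres4o_kronHecke_q,
    tres4o_kronHecke_pow ℓ ζ hζ, tres4o_kronHecke_eta ℓ ζ hℓ hζ,
    s59lpoh_kronHecke_qExpand_eta ℓ ζ 3 hℓ hc3 hζ,
    tres4o_kronHecke_inv ℓ ζ hζ he2, s59lpoh_kronHecke_qExpand_eta ℓ ζ 2 hℓ hc2 hζ,
    tres4o_kronHecke_inv ℓ ζ hζ (pow_ne_zero 5 he6), tres4o_kronHecke_pow ℓ ζ hζ,
    s59lpoh_kronHecke_qExpand_eta ℓ ζ 6 hℓ hc6 hζ, hε]
  ring

/-- **the weak Hecke clause** of `R38.s59lptr_ConclW` for `h := H6` (`p = 3`, `2 ∣ M`) -/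
theorem s59lpoh_hhecke (k : Type*) [Field k] {M : ℕ} (h2M : 2 ∣ M) :
    ∀ (ℓ : ℕ) [NeZero ℓ], ℓ.Prime → ¬ ℓ ∣ M → ℓ ≠ 3 → ∀ ζ : kˣ, IsPrimitiveRoot ζ ℓ →
      ∃ c : k, c ≠ 0 ∧ kronHecke ℓ ζ (s59lpohH6 k) = HahnSeries.C c * s59lpohH6 k ^ (ℓ + 1) := by
  intro ℓ _ hℓ hℓM hℓ3 ζ hζ
  have hℓ2 : ℓ ≠ 2 := fun h => hℓM (h ▸ h2M)
  exact ⟨(((tres4oEps ℓ ζ)⁻¹ : kˣ) : k), Units.ne_zero _,
    s59lpoh_kronHecke_H6 ℓ ζ hℓ hℓ2 hℓ3 hζ⟩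

end Hecke

end Fermat.Agent.S59

end
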