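/-
S59, wall M4 (LOWER-P), leaf OGG3, bridge L1 ↔ L9b (helper92): the weak Hecke clause for
helper87's formal unit `s59lposer_h6S` (`S59/LowP/Ogg3Ser.lean`), from helper10's
`s59lpoh_hhecke` (`S59/LowP/Ogg3Hecke.lean`).

* `s59lpobr_phiS_eq`     : `s59lposer_phiS k = tres4oEta k`;
* `s59lpobr_h6S_eq`      : `s59lposer_h6S k = s59lpohH6 k`  (the two product formulas agree);
* `s59lpobr_g6S_eq`      : `s59lposer_g6S k = s59lpohG6 k`;
* `s59lpobr_h6S_clause`  : **the weak Hecke clause** (shape of `s59lptr_ConclW`, `Cover3Frame`):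
    `∀ ℓ prime, ¬ ℓ ∣ M → ℓ ≠ 3 → ∀ ζ primitive, ∃ c ≠ 0,
       kronHecke ℓ ζ (s59lposer_h6S k) = C c · s59lposer_h6S k ^ (ℓ + 1)`   (`2 ∣ M`).
-/
import Fermat.Agent.S59.LowP.Ogg3Hecke
import Fermat.Agent.S59.LowP.Ogg3Ser

set_option autoImplicit false
set_option linter.style.haveILetI false
set_option linter.unusedSectionVars false
set_option linter.unusedVariables false
set_option linter.style.longLine false

noncomputable section

namespace Fermat.Agent.S59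

open ModularCurve HahnSeries Fermat.Agent.ES Fermat.Agent.S28 Fermat.Agent.R38

section bridge

variable (k : Type*) [Field k]

theorem s59lpobr_phiS_eq : s59lposer_phiS k = tres4oEta k := by
  rw [s59lposer_phiS_eq, tres4oEta]

theorem s59lpobr_single_neg_one :
    (HahnSeries.single (-1 : ℤ) (1 : k) : LaurentSeries k) =
      (HahnSeries.single (1 : ℤ) (1 : k))⁻¹ := by
  refine eq_inv_of_mul_eq_one_left ?_
  rw [HahnSeries.single_mul_single, mul_one]
  norm_num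

theorem s59lpobr_h6S_eq : s59lposer_h6S k = s59lpohH6 k := by
  rw [s59lposer_h6S_eq, s59lpohH6, s59lposer_phiInvS_eq_inv, s59lpobr_phiS_eq,
    s59lpobr_single_neg_one, map_inv₀, map_inv₀, inv_pow]

theorem s59lpobr_g6S_eq : s59lposer_g6S k = s59lpohG6 k := by
  rw [s59lposer_g6S_eq, s59lpohG6, s59lposer_phiInvS_eq_inv, s59lpobr_phiS_eq,
    map_inv₀, map_inv₀, inv_pow]

/-- **The weak Hecke clause for `h̄6 = s59lposer_h6S k`** at `p = 3`, `2 ∣ M`. -/
theorem s59lpobr_h6S_clause {M : ℕ} (hM : 2 ∣ M) :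
    ∀ (ℓ : ℕ) [NeZero ℓ], ℓ.Prime → ¬ ℓ ∣ M → ℓ ≠ 3 → ∀ ζ : kˣ, IsPrimitiveRoot ζ ℓ →
      ∃ c : k, c ≠ 0 ∧
        kronHecke ℓ ζ (s59lposer_h6S k) = HahnSeries.C c * s59lposer_h6S k ^ (ℓ + 1) := by
  rw [s59lpobr_h6S_eq]
  exact s59lpoh_hhecke k hM

end bridge

end Fermat.Agent.S59

end
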