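import Fermat.Agent.R38.TresOggConc

/-!
# S59, wall M4 (LOWER-P), leaf OGG3 / L8 NODE (helper10): the node formulas for an ABSTRACT
Ogg pair

Frame of `R38/TresOgg.lean`: `A` a valuation subring of `ℚ̄` over `q`, `K₀ ⊆ ℚ̄` with
`A′ = beta0Ring A K₀` a discrete valuation ring, uniformizer `π`,
`F = F_{Mq}(K₀) = modularFunctionFieldFullC ↥K₀ (M * q)`, `q ∤ M`, `V_c = mgvV hπ ιC hq hqM c`
(`true ↦ V_∞`, `false ↦ V_0`), chart `j = bgJ ↥K₀ (M * q)`.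

`s59lpo_IsPair hπ ιC hq hqM m U h` — THE ROOT INTERFACE of a modular unit `h` with companion `U`:
  `U h = c ∈ A′`, `c ∼ π ^ m`;  `U, h` integral over `A′[j]`;  `v_∞(h) = 1`;  `v_0(U) = 1`.
(`m` = the difference `ord_{V_0} h − ord_{V_∞} h` of the vertical valuations of `h`.)

Instances: the Ogg unit `h = S36.s36tuV` (`U = S36.s36tuU`, `m = 12 e` if `q ∼ π ^ e`):
`s59lpo_isPair_ogg`; at `q = 3` the level-6 eta quotient `h6 = η⁵ η(3z) / (η(2z) η(6z)⁵)` with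
`U = 9 / h6`, `m = 2 e` (leaves L1–L7 of NOTES/S59-M4-OGG3.md).

Everything that `R38/TresOgg.lean`, `R38/TresOggConc.lean` prove about `s36tuV` is proved here
for an abstract pair (same proofs):
* `s59lpo_val_true`, `s59lpo_val_false`, `s59lpo_ne_zero`, `s59lpo_U_ne_zero`;
* `s59lpo_ord_eq_zero` : `ord_P h = 0` at every place `P` of `F / K₀` with `0 ≤ ord_P j`;
* `s59lpo_hhor`;
* `s59lpo_cross_fac_of`, `s59lpo_cross_fac_of'` : **the node formula** `h = ε · Y ^ m`;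
* `s59lpo_smooth_unit_of`, `s59lpo_smooth_fac_of`;
* the concrete forms `s59lpo_cross_fac`, `s59lpo_cross_fac'`, `s59lpo_smooth_unit`,
  `s59lpo_smooth_fac` (`K₀ ⊇ ℚ̄^I`, regular charts).
-/

set_option autoImplicit false
set_option linter.unusedSectionVars false
set_option linter.unusedVariables false
set_option linter.style.haveILetI false
set_option linter.style.longLine false

noncomputable section

namespace Fermat.Agent.S59

open ModularCurve AlgebraicCurve IntermediateField Fermat.Agent.INJ Fermat.Agent.UNIP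
  Fermat.Agent.STB Fermat.Agent.S36 Fermat.Agent.S33 Fermat.Agent.S28 Fermat.Agent.RIB.MP
  Fermat.Agent.RT.K6 Fermat.Agent.AL Fermat.Agent.ES Fermat.Agent.ES.G2 Fermat.Agent.S24
  Fermat.Agent.R38

section Mgv

variable {A : ValuationSubring Qb} {K₀ : IntermediateField ℚ Qb}
  [IsDiscreteValuationRing ↥(beta0Ring A K₀)] {π : ↥(beta0Ring A K₀)} (hπ : Irreducible π)
  (ιC : ↥K₀ →+* ℂ) {q M : ℕ} [NeZero q] [NeZero M] [NeZero (M * q)]
  (hq : q.Prime) (hqM : ¬ q ∣ M)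

/-- **the root interface of a modular unit `h` with companion `U`** at the level `M q`:
`U h = c ∼ π ^ m`, `U, h` integral over `A′[j]`, `v_∞(h) = 1`, `v_0(U) = 1`. -/
def s59lpo_IsPair (m : ℕ) (U h : ↥(modularFunctionFieldFullC ↥K₀ (M * q))) : Prop :=
  (∃ c : ↥(beta0Ring A K₀), Associated c (π ^ m) ∧
    U * h = algebraMap ↥(beta0Ring A K₀) ↥(modularFunctionFieldFullC ↥K₀ (M * q)) c) ∧
  U ∈ zchClosure (A₀ := ↥(beta0Ring A K₀))
    ({bgJ ↥K₀ (M * q)} : Set ↥(modularFunctionFieldFullC ↥K₀ (M * q))) ∧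
  h ∈ zchClosure (A₀ := ↥(beta0Ring A K₀))
    ({bgJ ↥K₀ (M * q)} : Set ↥(modularFunctionFieldFullC ↥K₀ (M * q))) ∧
  (mgvV hπ ιC hq hqM true).valuation h = 1 ∧
  (mgvV hπ ιC hq hqM false).valuation U = 1

variable {hπ ιC hq hqM}
variable {m : ℕ} {U h : ↥(modularFunctionFieldFullC ↥K₀ (M * q))}

/-- `v_∞(h) = 1` -/
theorem s59lpo_val_true (H : s59lpo_IsPair hπ ιC hq hqM m U h) :
    (mgvV hπ ιC hq hqM true).valuation h = 1 := H.2.2.2.1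

/-- `v_0(U) = 1` -/
theorem s59lpo_val_U_false (H : s59lpo_IsPair hπ ιC hq hqM m U h) :
    (mgvV hπ ιC hq hqM false).valuation U = 1 := H.2.2.2.2

theorem s59lpo_U_mem_chart (H : s59lpo_IsPair hπ ιC hq hqM m U h) :
    U ∈ zchClosure (A₀ := ↥(beta0Ring A K₀))
      ({bgJ ↥K₀ (M * q)} : Set ↥(modularFunctionFieldFullC ↥K₀ (M * q))) := H.2.1

theorem s59lpo_mem_chart (H : s59lpo_IsPair hπ ιC hq hqM m U h) :
    h ∈ zchClosure (A₀ := ↥(beta0Ring A K₀))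
      ({bgJ ↥K₀ (M * q)} : Set ↥(modularFunctionFieldFullC ↥K₀ (M * q))) := H.2.2.1

/-- the constant `π` is not zero in `F` -/
theorem s59lpo_pi_ne_zero (hπ : Irreducible π) :
    algebraMap ↥(beta0Ring A K₀) ↥(modularFunctionFieldFullC ↥K₀ (M * q)) π ≠ 0 :=
  ei_algebraMap_ne_zero (E := ↥K₀) hπ

/-- the constant `U h` is not zero -/
theorem s59lpo_mul_ne_zero (H : s59lpo_IsPair hπ ιC hq hqM m U h) : U * h ≠ 0 := by
  obtain ⟨c, ⟨u, hu⟩, hc⟩ := H.1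
  have hπ0 := s59lpo_pi_ne_zero (A := A) (K₀ := K₀) (M := M) (q := q) hπ
  have e1 : algebraMap ↥(beta0Ring A K₀) ↥(modularFunctionFieldFullC ↥K₀ (M * q)) c *
      algebraMap ↥(beta0Ring A K₀) ↥(modularFunctionFieldFullC ↥K₀ (M * q))
        (u : ↥(beta0Ring A K₀)) =
      algebraMap ↥(beta0Ring A K₀) ↥(modularFunctionFieldFullC ↥K₀ (M * q)) π ^ m := by
    rw [← map_mul, hu, map_pow]
  intro h0
  rw [hc] at h0
  rw [h0, zero_mul] at e1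
  exact pow_ne_zero m hπ0 e1.symm

theorem s59lpo_ne_zero (H : s59lpo_IsPair hπ ιC hq hqM m U h) : h ≠ 0 :=
  right_ne_zero_of_mul (s59lpo_mul_ne_zero H)

theorem s59lpo_U_ne_zero (H : s59lpo_IsPair hπ ιC hq hqM m U h) : U ≠ 0 :=
  left_ne_zero_of_mul (s59lpo_mul_ne_zero H)

/-- `v_0(h) = v_0(π) ^ m` -/
theorem s59lpo_val_false (H : s59lpo_IsPair hπ ιC hq hqM m U h) :
    (mgvV hπ ιC hq hqM false).valuation h =
      (mgvV hπ ιC hq hqM false).valuation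
        (algebraMap ↥(beta0Ring A K₀) ↥(modularFunctionFieldFullC ↥K₀ (M * q)) π) ^ m := by
  obtain ⟨c, ⟨u, hu⟩, hc⟩ := H.1
  have h2 := congrArg (mgvV hπ ιC hq hqM false).valuation hc
  rw [map_mul, s59lpo_val_U_false H, one_mul] at h2
  have h1 := congrArg (fun a => (mgvV hπ ιC hq hqM false).valuation
    (algebraMap ↥(beta0Ring A K₀) ↥(modularFunctionFieldFullC ↥K₀ (M * q)) a)) hu
  simp only [map_mul, map_pow] at h1
  rw [tres5o_val_const_unit hπ ιC hq hqM false u.isUnit, mul_one] at h1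
  rw [h2, h1]

/-- a place of `F / K₀` at which `j` is regular contains `A′[j]` -/
theorem s59lpo_adjoin_le_place
    (P : Place ↥K₀ ↥(modularFunctionFieldFullC ↥K₀ (M * q)))
    (hj : bgJ ↥K₀ (M * q) ∈ P.toValuationSubring) :
    ∀ x ∈ Algebra.adjoin ↥(beta0Ring A K₀)
      ({bgJ ↥K₀ (M * q)} : Set ↥(modularFunctionFieldFullC ↥K₀ (M * q))),
      x ∈ P.toValuationSubring := by
  intro x hx
  induction hx using Algebra.adjoin_induction with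
  | mem x hx =>
    rw [Set.mem_singleton_iff] at hx
    rw [hx]
    exact hj
  | algebraMap a =>
    rw [IsScalarTower.algebraMap_apply ↥(beta0Ring A K₀) ↥K₀
      ↥(modularFunctionFieldFullC ↥K₀ (M * q))]
    exact P.algebraMap_mem' _
  | add x y _ _ hx hy => exact add_mem hx hy
  | mul x y _ _ hx hy => exact mul_mem hx hy

/-- elements of the chart `B_j` are regular at the places at which `j` is regular -/
theorem s59lpo_chart_mem_place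
    (P : Place ↥K₀ ↥(modularFunctionFieldFullC ↥K₀ (M * q)))
    (hj : bgJ ↥K₀ (M * q) ∈ P.toValuationSubring)
    {x : ↥(modularFunctionFieldFullC ↥K₀ (M * q))}
    (hx : x ∈ zchClosure (A₀ := ↥(beta0Ring A K₀))
      ({bgJ ↥K₀ (M * q)} : Set ↥(modularFunctionFieldFullC ↥K₀ (M * q)))) :
    x ∈ P.toValuationSubring :=
  crossing_mem_of_isIntegral P.toValuationSubring _
    (s59lpo_adjoin_le_place (A := A) P hj) hx

/-- **`ord_P h = 0`** at every place `P` of `F / K₀` at which `U` and `h` are regular. -/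
theorem s59lpo_ord_eq_zero_of_mem (H : s59lpo_IsPair hπ ιC hq hqM m U h)
    (P : Place ↥K₀ ↥(modularFunctionFieldFullC ↥K₀ (M * q)))
    (hU : U ∈ P.toValuationSubring) (hV : h ∈ P.toValuationSubring) :
    P.ord h = 0 := by
  have hU0 := s59lpo_U_ne_zero H
  have hV0 := s59lpo_ne_zero H
  have hc0 := s59lpo_mul_ne_zero H
  obtain ⟨c, -, hc⟩ := H.1
  have h1 : 0 ≤ P.ord U := (PlaceAux.ord_nonneg_iff P hU0).mpr hU
  have h2 : 0 ≤ P.ord h := (PlaceAux.ord_nonneg_iff P hV0).mpr hV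
  have h3 : P.ord U + P.ord h = 0 := by
    rw [← P.ord_mul hU0 hV0, hc, IsScalarTower.algebraMap_apply ↥(beta0Ring A K₀) ↥K₀
      ↥(modularFunctionFieldFullC ↥K₀ (M * q)), PlaceAux.ord_algebraMap]
  omega

/-- **`ord_P h = 0`** at every place `P` of `F / K₀` with `0 ≤ ord_P j` (the divisor of the
unit is cuspidal). -/
theorem s59lpo_ord_eq_zero (H : s59lpo_IsPair hπ ιC hq hqM m U h)
    (P : Place ↥K₀ ↥(modularFunctionFieldFullC ↥K₀ (M * q)))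
    (hj : 0 ≤ P.ord (bgJ ↥K₀ (M * q))) :
    P.ord h = 0 := by
  have hj' : bgJ ↥K₀ (M * q) ∈ P.toValuationSubring := PlaceAux.mem_of_ord_nonneg P hj
  exact s59lpo_ord_eq_zero_of_mem H P
    (s59lpo_chart_mem_place (A := A) P hj' (s59lpo_U_mem_chart H))
    (s59lpo_chart_mem_place (A := A) P hj' (s59lpo_mem_chart H))

/-- the same for `U` -/
theorem s59lpo_ord_U_eq_zero (H : s59lpo_IsPair hπ ιC hq hqM m U h)
    (P : Place ↥K₀ ↥(modularFunctionFieldFullC ↥K₀ (M * q)))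
    (hj : 0 ≤ P.ord (bgJ ↥K₀ (M * q))) :
    P.ord U = 0 := by
  have h1 := s59lpo_ord_eq_zero H P hj
  obtain ⟨c, -, hc⟩ := H.1
  have h2 := congrArg P.ord hc
  rw [P.ord_mul (s59lpo_U_ne_zero H) (s59lpo_ne_zero H), h1,
    IsScalarTower.algebraMap_apply ↥(beta0Ring A K₀) ↥K₀
      ↥(modularFunctionFieldFullC ↥K₀ (M * q)), PlaceAux.ord_algebraMap, add_zero] at h2
  exact h2

/-- **`hhor` for the unit**, `m = 0`, at every closed point of the chart `j`. -/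
theorem s59lpo_hhor (H : s59lpo_IsPair hπ ιC hq hqM m U h)
    (𝔫 : AtPt (F := ↥(modularFunctionFieldFullC ↥K₀ (M * q))) π (bgJ ↥K₀ (M * q)))
    (P : Place ↥K₀ ↥(modularFunctionFieldFullC ↥K₀ (M * q)))
    (hP : ∀ x ∈ atLoc 𝔫, x ∈ P.toValuationSubring) :
    ((0 : ℕ) : ℤ) ∣ P.ord h := by
  rw [s59lpo_ord_eq_zero_of_mem H P
    (hP _ (tres5o_chart_mem_atLoc 𝔫 (s59lpo_U_mem_chart H)))
    (hP _ (tres5o_chart_mem_atLoc 𝔫 (s59lpo_mem_chart H)))]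
  exact dvd_zero _

/-! ### the node formula -/

/-- **The node formula for the unit** at a thin crossing point of the chart `j`
(`X ∈ 𝔪(V_∞)`, `Y ∈ 𝔪(V_0)`): `h = ε · Y ^ m`, from (LF) with exponent `0`. -/
theorem s59lpo_cross_fac_of (H : s59lpo_IsPair hπ ιC hq hqM m U h)
    [FiniteDimensional (↥K₀)⟮bgJ ↥K₀ (M * q)⟯ ↥(modularFunctionFieldFullC ↥K₀ (M * q))]
    [IsNoetherianRing ↥(zchClosure (A₀ := ↥(beta0Ring A K₀))
      ({bgJ ↥K₀ (M * q)} : Set ↥(modularFunctionFieldFullC ↥K₀ (M * q))))]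
    (hSS1 : ∀ b : ↥(modularFunctionFieldFullC ↥K₀ (M * q)),
      IsIntegral ↥(Algebra.adjoin ↥(beta0Ring A K₀)
        ({bgJ ↥K₀ (M * q)} : Set ↥(modularFunctionFieldFullC ↥K₀ (M * q)))) b →
      (∀ c, b ∈ (mgvV hπ ιC hq hqM c).nonunits) →
      ∃ b' : ↥(modularFunctionFieldFullC ↥K₀ (M * q)),
        IsIntegral ↥(Algebra.adjoin ↥(beta0Ring A K₀)
          ({bgJ ↥K₀ (M * q)} : Set ↥(modularFunctionFieldFullC ↥K₀ (M * q)))) b' ∧
        b = algebraMap ↥(beta0Ring A K₀) ↥(modularFunctionFieldFullC ↥K₀ (M * q)) π * b')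
    (hU : ∀ c (x : ↥(modularFunctionFieldFullC ↥K₀ (M * q))),
      x ∈ (mgvV hπ ιC hq hqM c).nonunits → ∃ z ∈ mgvV hπ ιC hq hqM c,
        x = algebraMap ↥(beta0Ring A K₀) ↥(modularFunctionFieldFullC ↥K₀ (M * q)) π * z)
    (𝔫 : AtPt (F := ↥(modularFunctionFieldFullC ↥K₀ (M * q))) π (bgJ ↥K₀ (M * q)))
    {X Y : ↥(zchClosure (A₀ := ↥(beta0Ring A K₀))
      ({bgJ ↥K₀ (M * q)} : Set ↥(modularFunctionFieldFullC ↥K₀ (M * q))))}
    (hX : Rtk6lfCrossAt (mgvV hπ ιC hq hqM true) (mgvV hπ ιC hq hqM false) 𝔫 X Y) :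
    ∃ ε : ↥(atLoc 𝔫), IsUnit ε ∧
      h = (ε : ↥(modularFunctionFieldFullC ↥K₀ (M * q))) *
          (Y : ↥(modularFunctionFieldFullC ↥K₀ (M * q))) ^ m := by
  obtain ⟨γ, ε, a, b, hε, hy, -, -, -, hv₁, hv₂⟩ :=
    rtk6lfc_cross_fac (E := ↥K₀) hπ (mgvV hπ ιC hq hqM) true false (fun c => mgv_hκ c)
      (mgv_hBV₁ hπ ιC hq hqM) (mgv_hπV hπ ιC hq hqM) hSS1 hU 𝔫 hX 0
      (s59lpo_ne_zero H) (s59lpo_hhor H 𝔫)
  have hπ0 : algebraMap ↥(beta0Ring A K₀) ↥(modularFunctionFieldFullC ↥K₀ (M * q)) π ≠ 0 :=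
    ei_algebraMap_ne_zero (E := ↥K₀) hπ
  have ha : a = 0 := by
    rw [s59lpo_val_true H] at hv₁
    exact rtk6lfp_zpow_eq_one _ (mgv_hπV hπ ιC hq hqM true) hπ0 hv₁.symm
  have hb : b = ((m : ℕ) : ℤ) := by
    rw [s59lpo_val_false H, ← zpow_natCast] at hv₂
    exact (tres5o_zpow_inj _ (mgv_hπV hπ ιC hq hqM false) hπ0 hv₂).symm
  refine ⟨ε, hε, ?_⟩
  rw [hy, ha, hb, zpow_zero, mul_one, pow_zero, mul_one, zpow_natCast]

/-- **The node formula for the unit**, other orientation (`X ∈ 𝔪(V_0)`, `Y ∈ 𝔪(V_∞)`):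
`h = ε · X ^ m`. -/
theorem s59lpo_cross_fac_of' (H : s59lpo_IsPair hπ ιC hq hqM m U h)
    [FiniteDimensional (↥K₀)⟮bgJ ↥K₀ (M * q)⟯ ↥(modularFunctionFieldFullC ↥K₀ (M * q))]
    [IsNoetherianRing ↥(zchClosure (A₀ := ↥(beta0Ring A K₀))
      ({bgJ ↥K₀ (M * q)} : Set ↥(modularFunctionFieldFullC ↥K₀ (M * q))))]
    (hSS1 : ∀ b : ↥(modularFunctionFieldFullC ↥K₀ (M * q)),
      IsIntegral ↥(Algebra.adjoin ↥(beta0Ring A K₀)
        ({bgJ ↥K₀ (M * q)} : Set ↥(modularFunctionFieldFullC ↥K₀ (M * q)))) b →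
      (∀ c, b ∈ (mgvV hπ ιC hq hqM c).nonunits) →
      ∃ b' : ↥(modularFunctionFieldFullC ↥K₀ (M * q)),
        IsIntegral ↥(Algebra.adjoin ↥(beta0Ring A K₀)
          ({bgJ ↥K₀ (M * q)} : Set ↥(modularFunctionFieldFullC ↥K₀ (M * q)))) b' ∧
        b = algebraMap ↥(beta0Ring A K₀) ↥(modularFunctionFieldFullC ↥K₀ (M * q)) π * b')
    (hU : ∀ c (x : ↥(modularFunctionFieldFullC ↥K₀ (M * q))),
      x ∈ (mgvV hπ ιC hq hqM c).nonunits → ∃ z ∈ mgvV hπ ιC hq hqM c,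
        x = algebraMap ↥(beta0Ring A K₀) ↥(modularFunctionFieldFullC ↥K₀ (M * q)) π * z)
    (𝔫 : AtPt (F := ↥(modularFunctionFieldFullC ↥K₀ (M * q))) π (bgJ ↥K₀ (M * q)))
    {X Y : ↥(zchClosure (A₀ := ↥(beta0Ring A K₀))
      ({bgJ ↥K₀ (M * q)} : Set ↥(modularFunctionFieldFullC ↥K₀ (M * q))))}
    (hX : Rtk6lfCrossAt (mgvV hπ ιC hq hqM false) (mgvV hπ ιC hq hqM true) 𝔫 X Y) :
    ∃ ε : ↥(atLoc 𝔫), IsUnit ε ∧
      h = (ε : ↥(modularFunctionFieldFullC ↥K₀ (M * q))) *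
          (X : ↥(modularFunctionFieldFullC ↥K₀ (M * q))) ^ m := by
  obtain ⟨h₁, h₂, hX', hY', ⟨w, hw, hXY⟩, hgen⟩ := hX
  have hgen' : NodesLocGen 𝔫.1 {algebraMap ↥(beta0Ring A K₀) ↥(zchClosure (A₀ := ↥(beta0Ring A K₀))
      ({bgJ ↥K₀ (M * q)} : Set ↥(modularFunctionFieldFullC ↥K₀ (M * q)))) π, Y, X} := by
    have e1 : ({algebraMap ↥(beta0Ring A K₀) ↥(zchClosure (A₀ := ↥(beta0Ring A K₀))
        ({bgJ ↥K₀ (M * q)} : Set ↥(modularFunctionFieldFullC ↥K₀ (M * q)))) π, Y, X} :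
        Set ↥(zchClosure (A₀ := ↥(beta0Ring A K₀))
        ({bgJ ↥K₀ (M * q)} : Set ↥(modularFunctionFieldFullC ↥K₀ (M * q))))) =
        {algebraMap ↥(beta0Ring A K₀) ↥(zchClosure (A₀ := ↥(beta0Ring A K₀))
        ({bgJ ↥K₀ (M * q)} : Set ↥(modularFunctionFieldFullC ↥K₀ (M * q)))) π, X, Y} := by
      ext z
      simp only [Set.mem_insert_iff, Set.mem_singleton_iff]
      tauto
    rw [e1]
    exact hgen
  exact s59lpo_cross_fac_of H hSS1 hU 𝔫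
    ⟨h₂, h₁, hY', hX', ⟨w, hw, hXY.trans (mul_comm X Y)⟩, hgen'⟩

/-- **The unit is a unit of `(B_j)_𝔫`** at a smooth point of the chart `j` through which
only the component `V_∞` passes. -/
theorem s59lpo_smooth_unit_of (H : s59lpo_IsPair hπ ιC hq hqM m U h)
    [FiniteDimensional (↥K₀)⟮bgJ ↥K₀ (M * q)⟯ ↥(modularFunctionFieldFullC ↥K₀ (M * q))]
    [IsNoetherianRing ↥(zchClosure (A₀ := ↥(beta0Ring A K₀))
      ({bgJ ↥K₀ (M * q)} : Set ↥(modularFunctionFieldFullC ↥K₀ (M * q))))]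
    (hSS1 : ∀ b : ↥(modularFunctionFieldFullC ↥K₀ (M * q)),
      IsIntegral ↥(Algebra.adjoin ↥(beta0Ring A K₀)
        ({bgJ ↥K₀ (M * q)} : Set ↥(modularFunctionFieldFullC ↥K₀ (M * q)))) b →
      (∀ c, b ∈ (mgvV hπ ιC hq hqM c).nonunits) →
      ∃ b' : ↥(modularFunctionFieldFullC ↥K₀ (M * q)),
        IsIntegral ↥(Algebra.adjoin ↥(beta0Ring A K₀)
          ({bgJ ↥K₀ (M * q)} : Set ↥(modularFunctionFieldFullC ↥K₀ (M * q)))) b' ∧
        b = algebraMap ↥(beta0Ring A K₀) ↥(modularFunctionFieldFullC ↥K₀ (M * q)) π * b')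
    (hU : ∀ c (x : ↥(modularFunctionFieldFullC ↥K₀ (M * q))),
      x ∈ (mgvV hπ ιC hq hqM c).nonunits → ∃ z ∈ mgvV hπ ιC hq hqM c,
        x = algebraMap ↥(beta0Ring A K₀) ↥(modularFunctionFieldFullC ↥K₀ (M * q)) π * z)
    (𝔫 : AtPt (F := ↥(modularFunctionFieldFullC ↥K₀ (M * q))) π (bgJ ↥K₀ (M * q)))
    (hthr : atThrough 𝔫 (mgvV hπ ιC hq hqM true))
    (hone : ∀ c', atThrough 𝔫 (mgvV hπ ιC hq hqM c') → c' = true)
    {s : ↥(zchClosure (A₀ := ↥(beta0Ring A K₀))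
      ({bgJ ↥K₀ (M * q)} : Set ↥(modularFunctionFieldFullC ↥K₀ (M * q))))} (hs : s ∈ 𝔫.1)
    (hgen : NodesLocGen 𝔫.1 {algebraMap ↥(beta0Ring A K₀) ↥(zchClosure (A₀ := ↥(beta0Ring A K₀))
      ({bgJ ↥K₀ (M * q)} : Set ↥(modularFunctionFieldFullC ↥K₀ (M * q)))) π, s}) :
    ∃ ε : ↥(atLoc 𝔫), IsUnit ε ∧
      h = (ε : ↥(modularFunctionFieldFullC ↥K₀ (M * q))) := by
  obtain ⟨γ, ε, a, hε, hy, -, -, hv⟩ :=
    rtk6lfc_smooth_fac (E := ↥K₀) hπ (mgvV hπ ιC hq hqM)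
      (mgv_hBV₁ hπ ιC hq hqM) (mgv_hπV hπ ιC hq hqM) hSS1 hU 𝔫 true hthr
      hone hs hgen 0 (s59lpo_ne_zero H) (s59lpo_hhor H 𝔫)
  have hπ0 : algebraMap ↥(beta0Ring A K₀) ↥(modularFunctionFieldFullC ↥K₀ (M * q)) π ≠ 0 :=
    ei_algebraMap_ne_zero (E := ↥K₀) hπ
  have ha : a = 0 := by
    rw [s59lpo_val_true H] at hv
    exact rtk6lfp_zpow_eq_one _ (mgv_hπV hπ ιC hq hqM true) hπ0 hv.symm
  exact ⟨ε, hε, by rw [hy, ha, zpow_zero, mul_one, pow_zero, mul_one]⟩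

/-- **The unit at a smooth point of the chart `j`** through which only the component `V_0`
passes: `h = ε · π ^ m`. -/
theorem s59lpo_smooth_fac_of (H : s59lpo_IsPair hπ ιC hq hqM m U h)
    [FiniteDimensional (↥K₀)⟮bgJ ↥K₀ (M * q)⟯ ↥(modularFunctionFieldFullC ↥K₀ (M * q))]
    [IsNoetherianRing ↥(zchClosure (A₀ := ↥(beta0Ring A K₀))
      ({bgJ ↥K₀ (M * q)} : Set ↥(modularFunctionFieldFullC ↥K₀ (M * q))))]
    (hSS1 : ∀ b : ↥(modularFunctionFieldFullC ↥K₀ (M * q)),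
      IsIntegral ↥(Algebra.adjoin ↥(beta0Ring A K₀)
        ({bgJ ↥K₀ (M * q)} : Set ↥(modularFunctionFieldFullC ↥K₀ (M * q)))) b →
      (∀ c, b ∈ (mgvV hπ ιC hq hqM c).nonunits) →
      ∃ b' : ↥(modularFunctionFieldFullC ↥K₀ (M * q)),
        IsIntegral ↥(Algebra.adjoin ↥(beta0Ring A K₀)
          ({bgJ ↥K₀ (M * q)} : Set ↥(modularFunctionFieldFullC ↥K₀ (M * q)))) b' ∧
        b = algebraMap ↥(beta0Ring A K₀) ↥(modularFunctionFieldFullC ↥K₀ (M * q)) π * b')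
    (hU : ∀ c (x : ↥(modularFunctionFieldFullC ↥K₀ (M * q))),
      x ∈ (mgvV hπ ιC hq hqM c).nonunits → ∃ z ∈ mgvV hπ ιC hq hqM c,
        x = algebraMap ↥(beta0Ring A K₀) ↥(modularFunctionFieldFullC ↥K₀ (M * q)) π * z)
    (𝔫 : AtPt (F := ↥(modularFunctionFieldFullC ↥K₀ (M * q))) π (bgJ ↥K₀ (M * q)))
    (hthr : atThrough 𝔫 (mgvV hπ ιC hq hqM false))
    (hone : ∀ c', atThrough 𝔫 (mgvV hπ ιC hq hqM c') → c' = false)
    {s : ↥(zchClosure (A₀ := ↥(beta0Ring A K₀))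
      ({bgJ ↥K₀ (M * q)} : Set ↥(modularFunctionFieldFullC ↥K₀ (M * q))))} (hs : s ∈ 𝔫.1)
    (hgen : NodesLocGen 𝔫.1 {algebraMap ↥(beta0Ring A K₀) ↥(zchClosure (A₀ := ↥(beta0Ring A K₀))
      ({bgJ ↥K₀ (M * q)} : Set ↥(modularFunctionFieldFullC ↥K₀ (M * q)))) π, s}) :
    ∃ ε : ↥(atLoc 𝔫), IsUnit ε ∧
      h = (ε : ↥(modularFunctionFieldFullC ↥K₀ (M * q))) *
          algebraMap ↥(beta0Ring A K₀) ↥(modularFunctionFieldFullC ↥K₀ (M * q)) π ^ m := by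
  obtain ⟨γ, ε, a, hε, hy, -, -, hv⟩ :=
    rtk6lfc_smooth_fac (E := ↥K₀) hπ (mgvV hπ ιC hq hqM)
      (mgv_hBV₁ hπ ιC hq hqM) (mgv_hπV hπ ιC hq hqM) hSS1 hU 𝔫 false hthr
      hone hs hgen 0 (s59lpo_ne_zero H) (s59lpo_hhor H 𝔫)
  have hπ0 : algebraMap ↥(beta0Ring A K₀) ↥(modularFunctionFieldFullC ↥K₀ (M * q)) π ≠ 0 :=
    ei_algebraMap_ne_zero (E := ↥K₀) hπ
  have ha : a = ((m : ℕ) : ℤ) := by
    rw [s59lpo_val_false H, ← zpow_natCast] at hv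
    exact (tres5o_zpow_inj _ (mgv_hπV hπ ιC hq hqM false) hπ0 hv).symm
  exact ⟨ε, hε, by rw [hy, ha, pow_zero, mul_one, zpow_natCast]⟩

/-! ### concrete forms (`K₀ ⊇ ℚ̄^I`, regular charts) -/

/-- **The node formula**, concrete form. -/
theorem s59lpo_cross_fac (H : s59lpo_IsPair hπ ιC hq hqM m U h)
    (hA : A.LiesOverPrime q) (hE : beta0Field A ≤ K₀)
    (h2 : q = 2 → 3 ∣ M) (h3 : q = 3 → 2 ∣ M)
    [IsNoetherianRing ↥(zchClosure (A₀ := ↥(beta0Ring A K₀))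
      ({bgJ ↥K₀ (M * q)} : Set ↥(modularFunctionFieldFullC ↥K₀ (M * q))))]
    (𝔫 : AtPt (F := ↥(modularFunctionFieldFullC ↥K₀ (M * q))) π (bgJ ↥K₀ (M * q)))
    {X Y : ↥(zchClosure (A₀ := ↥(beta0Ring A K₀))
      ({bgJ ↥K₀ (M * q)} : Set ↥(modularFunctionFieldFullC ↥K₀ (M * q))))}
    (hX : Rtk6lfCrossAt (mgvV hπ ιC hq hqM true) (mgvV hπ ιC hq hqM false) 𝔫 X Y) :
    ∃ ε : ↥(atLoc 𝔫), IsUnit ε ∧
      h = (ε : ↥(modularFunctionFieldFullC ↥K₀ (M * q))) *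
          (Y : ↥(modularFunctionFieldFullC ↥K₀ (M * q))) ^ m := by
  haveI := ribmp_fc_fin (K₀ := K₀) (M * q)
  exact s59lpo_cross_fac_of H (ribmp_fc_hSS1 hπ ιC hq hqM hA hE h2 h3)
    (ribmp_fc_hU hπ ιC hq hqM) 𝔫 hX

/-- **The node formula**, concrete form, other orientation. -/
theorem s59lpo_cross_fac' (H : s59lpo_IsPair hπ ιC hq hqM m U h)
    (hA : A.LiesOverPrime q) (hE : beta0Field A ≤ K₀)
    (h2 : q = 2 → 3 ∣ M) (h3 : q = 3 → 2 ∣ M)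
    [IsNoetherianRing ↥(zchClosure (A₀ := ↥(beta0Ring A K₀))
      ({bgJ ↥K₀ (M * q)} : Set ↥(modularFunctionFieldFullC ↥K₀ (M * q))))]
    (𝔫 : AtPt (F := ↥(modularFunctionFieldFullC ↥K₀ (M * q))) π (bgJ ↥K₀ (M * q)))
    {X Y : ↥(zchClosure (A₀ := ↥(beta0Ring A K₀))
      ({bgJ ↥K₀ (M * q)} : Set ↥(modularFunctionFieldFullC ↥K₀ (M * q))))}
    (hX : Rtk6lfCrossAt (mgvV hπ ιC hq hqM false) (mgvV hπ ιC hq hqM true) 𝔫 X Y) :
    ∃ ε : ↥(atLoc 𝔫), IsUnit ε ∧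
      h = (ε : ↥(modularFunctionFieldFullC ↥K₀ (M * q))) *
          (X : ↥(modularFunctionFieldFullC ↥K₀ (M * q))) ^ m := by
  haveI := ribmp_fc_fin (K₀ := K₀) (M * q)
  exact s59lpo_cross_fac_of' H (ribmp_fc_hSS1 hπ ιC hq hqM hA hE h2 h3)
    (ribmp_fc_hU hπ ιC hq hqM) 𝔫 hX

/-- **The unit is a unit** at a smooth point on the component `V_∞`, concrete form. -/
theorem s59lpo_smooth_unit (H : s59lpo_IsPair hπ ιC hq hqM m U h)
    (hA : A.LiesOverPrime q) (hE : beta0Field A ≤ K₀)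
    (h2 : q = 2 → 3 ∣ M) (h3 : q = 3 → 2 ∣ M)
    [IsNoetherianRing ↥(zchClosure (A₀ := ↥(beta0Ring A K₀))
      ({bgJ ↥K₀ (M * q)} : Set ↥(modularFunctionFieldFullC ↥K₀ (M * q))))]
    (𝔫 : AtPt (F := ↥(modularFunctionFieldFullC ↥K₀ (M * q))) π (bgJ ↥K₀ (M * q)))
    (hthr : atThrough 𝔫 (mgvV hπ ιC hq hqM true))
    (hone : ∀ c', atThrough 𝔫 (mgvV hπ ιC hq hqM c') → c' = true)
    {s : ↥(zchClosure (A₀ := ↥(beta0Ring A K₀))
      ({bgJ ↥K₀ (M * q)} : Set ↥(modularFunctionFieldFullC ↥K₀ (M * q))))} (hs : s ∈ 𝔫.1)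
    (hgen : NodesLocGen 𝔫.1 {algebraMap ↥(beta0Ring A K₀) ↥(zchClosure (A₀ := ↥(beta0Ring A K₀))
      ({bgJ ↥K₀ (M * q)} : Set ↥(modularFunctionFieldFullC ↥K₀ (M * q)))) π, s}) :
    ∃ ε : ↥(atLoc 𝔫), IsUnit ε ∧
      h = (ε : ↥(modularFunctionFieldFullC ↥K₀ (M * q))) := by
  haveI := ribmp_fc_fin (K₀ := K₀) (M * q)
  exact s59lpo_smooth_unit_of H (ribmp_fc_hSS1 hπ ιC hq hqM hA hE h2 h3)
    (ribmp_fc_hU hπ ιC hq hqM) 𝔫 hthr hone hs hgen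

/-- **The unit at a smooth point on the component `V_0`**, concrete form. -/
theorem s59lpo_smooth_fac (H : s59lpo_IsPair hπ ιC hq hqM m U h)
    (hA : A.LiesOverPrime q) (hE : beta0Field A ≤ K₀)
    (h2 : q = 2 → 3 ∣ M) (h3 : q = 3 → 2 ∣ M)
    [IsNoetherianRing ↥(zchClosure (A₀ := ↥(beta0Ring A K₀))
      ({bgJ ↥K₀ (M * q)} : Set ↥(modularFunctionFieldFullC ↥K₀ (M * q))))]
    (𝔫 : AtPt (F := ↥(modularFunctionFieldFullC ↥K₀ (M * q))) π (bgJ ↥K₀ (M * q)))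
    (hthr : atThrough 𝔫 (mgvV hπ ιC hq hqM false))
    (hone : ∀ c', atThrough 𝔫 (mgvV hπ ιC hq hqM c') → c' = false)
    {s : ↥(zchClosure (A₀ := ↥(beta0Ring A K₀))
      ({bgJ ↥K₀ (M * q)} : Set ↥(modularFunctionFieldFullC ↥K₀ (M * q))))} (hs : s ∈ 𝔫.1)
    (hgen : NodesLocGen 𝔫.1 {algebraMap ↥(beta0Ring A K₀) ↥(zchClosure (A₀ := ↥(beta0Ring A K₀))
      ({bgJ ↥K₀ (M * q)} : Set ↥(modularFunctionFieldFullC ↥K₀ (M * q)))) π, s}) :
    ∃ ε : ↥(atLoc 𝔫), IsUnit ε ∧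
      h = (ε : ↥(modularFunctionFieldFullC ↥K₀ (M * q))) *
          algebraMap ↥(beta0Ring A K₀) ↥(modularFunctionFieldFullC ↥K₀ (M * q)) π ^ m := by
  haveI := ribmp_fc_fin (K₀ := K₀) (M * q)
  exact s59lpo_smooth_fac_of H (ribmp_fc_hSS1 hπ ιC hq hqM hA hE h2 h3)
    (ribmp_fc_hU hπ ιC hq hqM) 𝔫 hthr hone hs hgen

/-! ### the instance `h = s36tuV` (the Ogg unit) -/

/-- the Ogg unit `Δ(Q)/Δ(Q^q)` with its companion is a pair of exponent `12 e`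
(`q ∼ π ^ e`). -/
theorem s59lpo_isPair_ogg (hπ : Irreducible π) (ιC : ↥K₀ →+* ℂ) (hq : q.Prime)
    (hqM : ¬ q ∣ M) (hA : A.LiesOverPrime q) {e : ℕ}
    (hqπ : Associated ((q : ℕ) : ↥(beta0Ring A K₀)) (π ^ e)) :
    s59lpo_IsPair hπ ιC hq hqM (12 * e) (s36tuU ↥K₀ ιC (q := q) (M := M))
      (s36tuV ↥K₀ ιC (q := q) (M := M)) := by
  refine ⟨⟨((q : ℕ) : ↥(beta0Ring A K₀)) ^ 12, ?_, ?_⟩,
    tres5o_U_mem_chart (A := A) ιC hq, tres5o_V_mem_chart (A := A) ιC hq,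
    tres5o_val_true hπ ιC hq hqM hA, wun_mgv_U_valuation_false hπ ιC hq hqM hA⟩
  · have h1 := hqπ.pow_pow (n := 12)
    rwa [← pow_mul, mul_comm e 12] at h1
  · rw [map_pow]
    exact wun_mgv_U_mul_V (A := A) (K₀ := K₀) (M := M) (q := q) ιC

end Mgv

end Fermat.Agent.S59

end
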