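/-
S59, wall M4 (LOWER-P), leaf PEU-BRIDGE, part 1 (helper30): **TRES-∞**.

`P ⊂ ℚ̄` a valuation subring over the odd prime `p`, `I` its inertia group, `K = ℚ̄^I`,
`H = s59psPeu P p` the peu ramifié subgroup of ALL levels (`S59/PStep/Plan.lean`):
`ℚ̄^H = K(μ_{p^∞}, U^{1/p^∞})`, `U` = the units of `P ∩ K`.

**`s59lppi_tres`** : there are `t ∈ H` and `π` with `π ^ p = p`, `t π ≠ π`
(`p^{1/p} ∉ K(μ_{p^∞}, U^{1/p^∞})`: the extension `K(p^{1/p})` is très ramifiée at every level).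

Proof.  Suppose `H` fixes `π`.
(1) compactness (`R38.tres5d_isClosed_inertia`): finitely many `y₁, …, y_r` with `y_i^{pⁿ} ∈ U`
    (`n ≥ 1` common) such that every `τ ∈ I` fixing the `y_i` fixes `π`       (`s59lppi_finite`);
(2) finite Kummer theory at level `pⁿ`, by induction on `r` (characters into the cyclic group
    `μ_{pⁿ}`): `π = y · b`, `y^{pⁿ} ∈ U`, `b` fixed by `I_n = Gal(ℚ̄/K(μ_{pⁿ}))` (`s59lppi_induct`);
(3) descent (`H¹(Gal(K(μ_{pⁿ})/K), μ_{pⁿ}) = 0` through `g₁`, `s59psk_exists_g1`):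
    `b = ξ b'`, `ξ ∈ μ_{pⁿ}`, `b' ∈ K`                                        (`s59lppi_descent`);
(4) valuation (`s59stv_val`): `b' = w p^{-e}`, `w` a unit; `p^{p^{n-1} + e pⁿ}` is a unit of `P`, so
    `p^{n-1} (1 + e p) = 0`: impossible.
-/
import Fermat.Agent.R38.TresKum
import Fermat.Agent.S59.PStep.Kum
import Fermat.Agent.S59.Strict.Val

set_option autoImplicit false
set_option linter.unusedSectionVars false
set_option linter.unusedVariables false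
set_option linter.style.longLine false
set_option linter.style.haveILetI false
set_option maxHeartbeats 1600000

noncomputable section

namespace Fermat.Agent.S59

open Fermat.Agent.R38

/-- `ℚ̄` -/
local notation "Qbar" => AlgebraicClosure ℚ

/-! ### The sets `Y_n` -/

/-- `Y_n`: the elements `y` of `ℚ̄` with `y^{pⁿ}` a unit of `P` fixed by the inertia group. -/
def s59lppiY (P : ValuationSubring Qbar) (p n : ℕ) : Set Qbar :=
  {y | y ^ p ^ n ∈ P ∧ (y ^ p ^ n)⁻¹ ∈ P ∧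
    ∀ τ ∈ P.inertiaSubgroupIn ℚ, τ (y ^ p ^ n) = y ^ p ^ n}

variable {P : ValuationSubring Qbar} {p : ℕ}

theorem s59lppi_mem_peu_iff (P : ValuationSubring Qbar) (p : ℕ) (σ : S59G) :
    σ ∈ s59psPeu P p ↔ σ ∈ P.inertiaSubgroupIn ℚ ∧ ∀ n, ∀ y ∈ s59lppiY P p n, σ y = y :=
  ⟨fun h => ⟨h.1, fun n y hy => h.2 n y hy.1 hy.2.1 hy.2.2⟩,
    fun h => ⟨h.1, fun n y h1 h2 h3 => h.2 n y ⟨h1, h2, h3⟩⟩⟩

theorem s59lppi_Y_mono {m n : ℕ} (hmn : m ≤ n) {y : Qbar} (hy : y ∈ s59lppiY P p m) :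
    y ∈ s59lppiY P p n := by
  obtain ⟨k, rfl⟩ := Nat.exists_eq_add_of_le hmn
  have e : y ^ p ^ (m + k) = (y ^ p ^ m) ^ p ^ k := by rw [pow_add, pow_mul]
  refine ⟨?_, ?_, fun τ hτ => ?_⟩
  · rw [e]; exact pow_mem hy.1 _
  · rw [e, ← inv_pow]; exact pow_mem hy.2.1 _
  · rw [e, map_pow, hy.2.2 τ hτ]

theorem s59lppi_one_mem_Y (n : ℕ) : (1 : Qbar) ∈ s59lppiY P p n := by
  refine ⟨?_, ?_, fun τ _ => ?_⟩
  · rw [one_pow]; exact one_mem _
  · rw [one_pow, inv_one]; exact one_mem _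
  · rw [one_pow, map_one]

theorem s59lppi_mul_pow_mem_Y {n : ℕ} {y y₀ : Qbar} (hy : y ∈ s59lppiY P p n)
    (hy₀ : y₀ ∈ s59lppiY P p n) (e : ℕ) : y * y₀ ^ e ∈ s59lppiY P p n := by
  have h1 : (y * y₀ ^ e) ^ p ^ n = y ^ p ^ n * (y₀ ^ p ^ n) ^ e := by ring
  refine ⟨?_, ?_, fun τ hτ => ?_⟩
  · rw [h1]
    exact mul_mem hy.1 (pow_mem hy₀.1 e)
  · have h2 : (y ^ p ^ n * (y₀ ^ p ^ n) ^ e)⁻¹ = (y ^ p ^ n)⁻¹ * ((y₀ ^ p ^ n)⁻¹) ^ e := by
      rw [mul_inv, inv_pow]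
    rw [h1, h2]
    exact mul_mem hy.2.1 (pow_mem hy₀.2.1 e)
  · rw [h1, map_mul, hy.2.2 τ hτ, map_pow, hy₀.2.2 τ hτ]

/-! ### Step 1: compactness -/

/-- **Compactness**: an element fixed by the peu ramifié subgroup (all levels) is fixed by every
element of the inertia group fixing finitely many suitable `y ∈ Y_n` (`n ≠ 0` common). -/
theorem s59lppi_finite (P : ValuationSubring Qbar) (p : ℕ) (α : Qbar)
    (hα : ∀ σ ∈ s59psPeu P p, σ α = α) :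
    ∃ n : ℕ, n ≠ 0 ∧ ∃ ys : List Qbar, (∀ y ∈ ys, y ∈ s59lppiY P p n) ∧
      ∀ τ ∈ P.inertiaSubgroupIn ℚ, (∀ y ∈ ys, τ y = y) → τ α = α := by
  classical
  haveI := tres5d_isGalois
  let C : Set S59G := ((P.inertiaSubgroupIn ℚ : Subgroup S59G) : Set S59G) ∩
    {τ : S59G | τ α ∈ {z : Qbar | z ≠ α}}
  have hC : IsCompact C :=
    (IsClosed.inter (tres5d_isClosed_inertia P) (tres5d_isClosed_mem α _)).isCompact
  let T : Type := {y : Qbar // ∃ n, y ∈ s59lppiY P p n}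
  let U : T → Set S59G := fun y => {τ : S59G | τ (y.1 : Qbar) ∈ {z : Qbar | z ≠ (y.1 : Qbar)}}
  have hU : ∀ y, IsOpen (U y) := fun y => tres5d_isOpen_mem _ _
  have hcov : C ⊆ ⋃ y, U y := by
    intro τ hτ
    by_contra hn
    simp only [Set.mem_iUnion, not_exists] at hn
    refine hτ.2 (hα τ ((s59lppi_mem_peu_iff P p τ).2 ⟨hτ.1, fun n y hy => ?_⟩))
    by_contra hne
    exact hn ⟨y, n, hy⟩ hne
  obtain ⟨t, ht⟩ := hC.elim_finite_subcover U hU hcov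
  let lev : T → ℕ := fun y => Classical.choose y.2
  have hlev : ∀ y : T, y.1 ∈ s59lppiY P p (lev y) := fun y => Classical.choose_spec y.2
  refine ⟨t.sup lev + 1, Nat.succ_ne_zero _, t.toList.map Subtype.val, ?_, ?_⟩
  · intro y hy
    obtain ⟨z, hz, rfl⟩ := List.mem_map.1 hy
    have hz' : z ∈ t := Finset.mem_toList.1 hz
    exact s59lppi_Y_mono (Nat.le_succ_of_le (Finset.le_sup (f := lev) hz')) (hlev z)
  · intro τ hτ hfix
    by_contra hne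
    have hmem : τ ∈ C := ⟨hτ, hne⟩
    have := ht hmem
    simp only [Set.mem_iUnion] at this
    obtain ⟨z, hz, hτz⟩ := this
    exact hτz (hfix z (List.mem_map.2 ⟨z, Finset.mem_toList.2 hz, rfl⟩))

/-! ### Step 2: finite Kummer theory at level `pⁿ` -/

/-- the Kummer symbol `τ x / x` is a `N`-th root of unity -/
theorem s59lppi_symbol_pow (N : ℕ) (τ : S59G) {x : Qbar} (hx0 : x ≠ 0)
    (hx : τ (x ^ N) = x ^ N) : (τ x / x) ^ N = 1 := by
  rw [div_pow, ← map_pow, hx, div_self (pow_ne_zero _ hx0)]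

/-- if `g x = c x` and `g c = c` then `g^j x = c^j x` -/
theorem s59lppi_pow_apply (g : S59G) {c x : Qbar} (hc : g c = c) (hx : g x = c * x) (j : ℕ) :
    (g ^ j) x = c ^ j * x := by
  induction j with
  | zero => simp
  | succ j ih =>
    rw [pow_succ', AlgEquiv.mul_apply, ih, map_mul, map_pow, hc, hx]
    ring

/-- **Finite Kummer theory at level `pⁿ`**, by induction on the number of generators. -/
theorem s59lppi_induct (P : ValuationSubring Qbar) (p n : ℕ) [Fact p.Prime] :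
    ∀ ys : List Qbar, (∀ y ∈ ys, y ∈ s59lppiY P p n) →
    ∀ α : Qbar, α ≠ 0 → (∀ τ ∈ s59psIn P p n, τ (α ^ p ^ n) = α ^ p ^ n) →
      (∀ τ ∈ s59psIn P p n, (∀ y ∈ ys, τ y = y) → τ α = α) →
      ∃ y b : Qbar, α = y * b ∧ y ≠ 0 ∧ y ∈ s59lppiY P p n ∧ ∀ τ ∈ s59psIn P p n, τ b = b := by
  have hpp : p.Prime := Fact.out
  have hpn0 : p ^ n ≠ 0 := pow_ne_zero _ hpp.ne_zero
  intro ys
  induction ys with
  | nil =>
    intro _ α hα0 hαp hfix
    exact ⟨1, α, (one_mul α).symm, one_ne_zero, s59lppi_one_mem_Y n,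
      fun τ hτ => hfix τ hτ (by simp)⟩
  | cons y₀ ys ih =>
    intro hys α hα0 hαp hfix
    have hys' : ∀ y ∈ ys, y ∈ s59lppiY P p n := fun y hy => hys y (List.mem_cons_of_mem _ hy)
    have hy₀ : y₀ ∈ s59lppiY P p n := hys y₀ List.mem_cons_self
    by_cases hy0 : y₀ = 0
    · -- `y₀ = 0` is fixed by everybody
      refine ih hys' α hα0 hαp (fun τ hτ h => hfix τ hτ (fun y hy => ?_))
      rcases List.mem_cons.1 hy with h' | hy
      · rw [h', hy0, map_zero]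
      · exact h y hy
    -- the subgroup `N` and the orders of the symbols
    let Nset : Set S59G := {g | g ∈ s59psIn P p n ∧ ∀ y ∈ ys, g y = y}
    have hsym : ∀ g ∈ Nset, (g y₀ / y₀) ^ p ^ n = 1 := fun g hg =>
      s59lppi_symbol_pow (p ^ n) g hy0 (hy₀.2.2 g hg.1.1)
    let S : Set ℕ := {k | ∃ g ∈ Nset, orderOf (g y₀ / y₀) = k}
    have hSne : S.Nonempty := by
      refine ⟨1, 1, ⟨one_mem _, fun _ _ => rfl⟩, ?_⟩
      rw [AlgEquiv.one_apply, div_self hy0, orderOf_one]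
    have hSbdd : BddAbove S := by
      refine ⟨p ^ n, ?_⟩
      rintro k ⟨g, hg, rfl⟩
      exact Nat.le_of_dvd (Nat.pos_of_ne_zero hpn0) (orderOf_dvd_of_pow_eq_one (hsym g hg))
    obtain ⟨g, hg, hgm⟩ := Nat.sSup_mem hSne hSbdd
    have hmax : ∀ τ ∈ Nset, orderOf (τ y₀ / y₀) ≤ orderOf (g y₀ / y₀) := by
      intro τ hτ
      rw [hgm]
      exact le_csSup hSbdd ⟨τ, hτ, rfl⟩
    obtain ⟨ξ, hξ⟩ : ∃ ξ : Qbar, ξ = g y₀ / y₀ := ⟨_, rfl⟩
    rw [← hξ] at hmax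
    have hξn : ξ ^ p ^ n = 1 := by rw [hξ]; exact hsym g hg
    obtain ⟨j, hj, hjm⟩ := (Nat.dvd_prime_pow hpp).1 (orderOf_dvd_of_pow_eq_one hξn)
    have hm0 : orderOf ξ ≠ 0 := by rw [hjm]; exact pow_ne_zero _ hpp.ne_zero
    haveI : NeZero (orderOf ξ) := ⟨hm0⟩
    have hprim : IsPrimitiveRoot ξ (orderOf ξ) := IsPrimitiveRoot.orderOf ξ
    have hξ0 : ξ ≠ 0 := by
      rintro rfl
      rw [zero_pow hpn0] at hξn
      exact zero_ne_one hξn
    have hgξ : g ξ = ξ := hg.1.2 ξ hξn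
    have hgy : g y₀ = ξ * y₀ := by
      rw [hξ]
      field_simp
    -- every symbol is a power of `ξ`
    have hpowξ : ∀ τ ∈ Nset, ∃ k : ℕ, τ y₀ = ξ ^ k * y₀ := by
      intro τ hτ
      obtain ⟨i, hi, him⟩ := (Nat.dvd_prime_pow hpp).1 (orderOf_dvd_of_pow_eq_one (hsym τ hτ))
      have hle := hmax τ hτ
      rw [him, hjm] at hle
      have hij : i ≤ j := (Nat.pow_le_pow_iff_right hpp.one_lt).1 hle
      have h1 : (τ y₀ / y₀) ^ orderOf ξ = 1 := by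
        rw [hjm]
        obtain ⟨d, rfl⟩ := Nat.exists_eq_add_of_le hij
        rw [pow_add, pow_mul, ← him, pow_orderOf_eq_one, one_pow]
      obtain ⟨k, -, hk⟩ := hprim.eq_pow_of_pow_eq_one h1
      refine ⟨k, ?_⟩
      rw [hk]
      field_simp
    -- the symbol of `α` at `g`
    have hcα : (g α / α) ^ p ^ n = 1 := s59lppi_symbol_pow (p ^ n) g hα0 (hαp g hg.1)
    have hgc : g (g α / α) = g α / α := hg.1.2 _ hcα
    have hgα' : g α = (g α / α) * α := by field_simp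
    have hNpow : ∀ k : ℕ, g ^ k ∈ Nset := by
      intro k
      refine ⟨pow_mem hg.1 k, fun y hy => ?_⟩
      have := s59lppi_pow_apply g (map_one g)
        (show g y = 1 * y by rw [one_mul]; exact hg.2 y hy) k
      simpa using this
    have hcαm : (g α / α) ^ orderOf ξ = 1 := by
      have h1 : (g ^ orderOf ξ) y₀ = y₀ := by
        rw [s59lppi_pow_apply g hgξ hgy, pow_orderOf_eq_one, one_mul]
      have h2 : (g ^ orderOf ξ) α = α := by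
        refine hfix _ (hNpow _).1 (fun y hy => ?_)
        rcases List.mem_cons.1 hy with h' | hy
        · rw [h']; exact h1
        · exact (hNpow _).2 y hy
      have h3 := s59lppi_pow_apply g hgc hgα' (orderOf ξ)
      rw [h2] at h3
      have h4 : (g α / α) ^ orderOf ξ * α = 1 * α := by rw [one_mul]; exact h3.symm
      exact mul_right_cancel₀ hα0 h4
    obtain ⟨e, -, he⟩ := hprim.eq_pow_of_pow_eq_one hcαm
    have hgα : g α = ξ ^ e * α := by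
      rw [he]
      field_simp
    have hgξe : g (ξ ^ e) = ξ ^ e := by rw [map_pow, hgξ]
    -- the new element
    have hα'0 : α * (y₀ ^ e)⁻¹ ≠ 0 := mul_ne_zero hα0 (inv_ne_zero (pow_ne_zero _ hy0))
    have hα'p : ∀ τ ∈ s59psIn P p n,
        τ ((α * (y₀ ^ e)⁻¹) ^ p ^ n) = (α * (y₀ ^ e)⁻¹) ^ p ^ n := by
      intro τ hτ
      have h1 := hαp τ hτ
      have h2 := hy₀.2.2 τ hτ.1
      have h3 : (α * (y₀ ^ e)⁻¹) ^ p ^ n = α ^ p ^ n * ((y₀ ^ p ^ n) ^ e)⁻¹ := by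
        rw [mul_pow, inv_pow, ← pow_mul, ← pow_mul, mul_comm e (p ^ n)]
      rw [h3, map_mul, map_inv₀, h1, map_pow, h2]
    have key : ∀ τ ∈ s59psIn P p n, (∀ y ∈ ys, τ y = y) →
        τ (α * (y₀ ^ e)⁻¹) = α * (y₀ ^ e)⁻¹ := by
      intro τ hτ hτys
      obtain ⟨k, hτy⟩ := hpowξ τ ⟨hτ, hτys⟩
      have hgk : (g ^ k) y₀ = ξ ^ k * y₀ := s59lppi_pow_apply g hgξ hgy k
      have hgkα : (g ^ k) α = (ξ ^ e) ^ k * α := s59lppi_pow_apply g hgξe hgα k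
      have hσ : (g ^ k)⁻¹ * τ ∈ s59psIn P p n := mul_mem (inv_mem (pow_mem hg.1 k)) hτ
      have hσys : ∀ y ∈ y₀ :: ys, ((g ^ k)⁻¹ * τ) y = y := by
        intro y hy
        rcases List.mem_cons.1 hy with h | hy
        · rw [h, AlgEquiv.mul_apply, hτy, ← hgk, ← AlgEquiv.mul_apply, inv_mul_cancel,
            AlgEquiv.one_apply]
        · rw [AlgEquiv.mul_apply, hτys y hy]
          have h1 : (g ^ k) y = y := (hNpow k).2 y hy
          calc (g ^ k)⁻¹ y = (g ^ k)⁻¹ ((g ^ k) y) := by rw [h1]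
            _ = y := by rw [← AlgEquiv.mul_apply, inv_mul_cancel, AlgEquiv.one_apply]
      have h1 := hfix _ hσ hσys
      have hτα : τ α = (ξ ^ e) ^ k * α := by
        rw [← hgkα]
        have := congrArg (g ^ k) h1
        rw [← AlgEquiv.mul_apply, ← mul_assoc, mul_inv_cancel, one_mul] at this
        exact this
      rw [map_mul, map_inv₀, map_pow, hτα, hτy]
      field_simp
      ring
    obtain ⟨y, b, h1, h2, h3, h4⟩ := ih hys' (α * (y₀ ^ e)⁻¹) hα'0 hα'p key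
    refine ⟨y * y₀ ^ e, b, ?_, mul_ne_zero h2 (pow_ne_zero _ hy0),
      s59lppi_mul_pow_mem_Y h3 hy₀ e, h4⟩
    have h5 : α = (α * (y₀ ^ e)⁻¹) * y₀ ^ e := by
      field_simp
    rw [h5, h1]
    ring

/-! ### Step 3: descent from `K(μ_{pⁿ})` to `K` -/

/-- `x ^ N = 1`, `a ≡ b [MOD N]` ⇒ `x ^ a = x ^ b` -/
theorem s59lppi_pow_congr {x : Qbar} {N a b : ℕ} (hx : x ^ N = 1) (h : a ≡ b [MOD N]) :
    x ^ a = x ^ b := by
  have h' : a % N = b % N := h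
  rw [← Nat.mod_add_div a N, ← Nat.mod_add_div b N, pow_add, pow_add, pow_mul, pow_mul, hx,
    one_pow, one_pow, h']

/-- **Descent** (`H¹(Gal(K(μ_{pⁿ})/K), μ_{pⁿ}) = 0`): an element `b ≠ 0` of `K(μ_{pⁿ})` with
`b^{pⁿ} ∈ K` is a `pⁿ`-th root of unity times an element of `K`. -/
theorem s59lppi_descent (p : ℕ) [Fact p.Prime] (hp2 : p ≠ 2) (P : ValuationSubring Qbar)
    (hP : P.LiesOverPrime p) (n : ℕ) (hn : n ≠ 0) (b : Qbar) (hb0 : b ≠ 0)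
    (hbn : ∀ τ ∈ s59psIn P p n, τ b = b)
    (hbK : ∀ τ ∈ P.inertiaSubgroupIn ℚ, τ (b ^ p ^ n) = b ^ p ^ n) :
    ∃ ξ : Qbar, ξ ^ p ^ n = 1 ∧ ∀ τ ∈ P.inertiaSubgroupIn ℚ, τ (b * ξ⁻¹) = b * ξ⁻¹ := by
  have hpp : p.Prime := Fact.out
  have hpn0 : p ^ n ≠ 0 := pow_ne_zero _ hpp.ne_zero
  obtain ⟨g₁, hg₁, a₁, c₁, hact, hac⟩ := s59psk_exists_g1 p hp2 P hP n hn
  obtain ⟨c, hc⟩ : ∃ c : Qbar, c = g₁ b / b := ⟨_, rfl⟩
  have hcn : c ^ p ^ n = 1 := by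
    rw [hc]; exact s59lppi_symbol_pow (p ^ n) g₁ hb0 (hbK g₁ hg₁)
  have hg₁b : g₁ b = c * b := by rw [hc]; field_simp
  obtain ⟨ξ, hξ⟩ : ∃ ξ : Qbar, ξ = c ^ c₁ := ⟨_, rfl⟩
  have hξn : ξ ^ p ^ n = 1 := by rw [hξ, ← pow_mul, mul_comm, pow_mul, hcn, one_pow]
  have hξ0 : ξ ≠ 0 := by
    rintro h0
    rw [h0, zero_pow hpn0] at hξn
    exact zero_ne_one hξn
  have hg₁ξ : g₁ ξ = c * ξ := by
    rw [hact ξ hξn, hξ, ← pow_mul,
      s59lppi_pow_congr hcn (show c₁ * a₁ ≡ c₁ + 1 [MOD p ^ n] by rw [mul_comm]; exact hac),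
      pow_succ, mul_comm]
  obtain ⟨b', hb'⟩ : ∃ b' : Qbar, b' = b * ξ⁻¹ := ⟨_, rfl⟩
  have hb'0 : b' ≠ 0 := by rw [hb']; exact mul_ne_zero hb0 (inv_ne_zero hξ0)
  have hc0 : c ≠ 0 := by
    rintro h0
    rw [h0, zero_pow hpn0] at hcn
    exact zero_ne_one hcn
  have hg₁b' : g₁ b' = b' := by
    rw [hb', map_mul, map_inv₀, hg₁ξ, hg₁b]
    field_simp
  have hb'n : ∀ τ ∈ s59psIn P p n, τ b' = b' := by
    intro τ hτ
    rw [hb', map_mul, map_inv₀, hbn τ hτ, hτ.2 ξ hξn]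
  have hb'pow : b' ^ p ^ n = b ^ p ^ n := by
    rw [hb', mul_pow, inv_pow, hξn, inv_one, mul_one]
  have hb'K : ∀ τ ∈ P.inertiaSubgroupIn ℚ, τ (b' ^ p ^ n) = b' ^ p ^ n := by
    intro τ hτ
    rw [hb'pow]; exact hbK τ hτ
  refine ⟨ξ, hξn, fun σ hσ => ?_⟩
  rw [← hb']
  obtain ⟨η, hη⟩ : ∃ η : Qbar, η = σ b' / b' := ⟨_, rfl⟩
  have hηn : η ^ p ^ n = 1 := by
    rw [hη]; exact s59lppi_symbol_pow (p ^ n) σ hb'0 (hb'K σ hσ)
  have hη0 : η ≠ 0 := by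
    rintro h0
    rw [h0, zero_pow hpn0] at hηn
    exact zero_ne_one hηn
  have hσb' : σ b' = η * b' := by rw [hη]; field_simp
  obtain ⟨aσ, haσ⟩ := s59psk_exists_exp (p ^ n) hpn0 σ
  have hτ : (g₁ * σ)⁻¹ * (σ * g₁) ∈ s59psIn P p n := by
    refine ⟨mul_mem (inv_mem (mul_mem hg₁ hσ)) (mul_mem hσ hg₁), fun ζ hζ => ?_⟩
    have hζa : (ζ ^ a₁) ^ p ^ n = 1 := by rw [← pow_mul, mul_comm, pow_mul, hζ, one_pow]
    have hζs : (ζ ^ aσ) ^ p ^ n = 1 := by rw [← pow_mul, mul_comm, pow_mul, hζ, one_pow]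
    have h1 : (σ * g₁) ζ = (g₁ * σ) ζ := by
      rw [AlgEquiv.mul_apply, AlgEquiv.mul_apply, hact ζ hζ, haσ ζ hζ, haσ _ hζa, hact _ hζs,
        ← pow_mul, ← pow_mul, mul_comm]
    rw [AlgEquiv.mul_apply, h1, ← AlgEquiv.mul_apply, inv_mul_cancel, AlgEquiv.one_apply]
  have h2 := hb'n _ hτ
  have h3 : (σ * g₁) b' = (g₁ * σ) b' := by
    have := congrArg (g₁ * σ) h2
    rwa [← AlgEquiv.mul_apply, ← mul_assoc, mul_inv_cancel, one_mul] at this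
  rw [AlgEquiv.mul_apply, AlgEquiv.mul_apply, hg₁b', hσb', map_mul, hg₁b', hact η hηn] at h3
  have h4 : η = η ^ a₁ := mul_right_cancel₀ hb'0 h3
  have h5 : η ^ c₁ = η ^ (c₁ + 1) := by
    calc η ^ c₁ = (η ^ a₁) ^ c₁ := by rw [← h4]
      _ = η ^ (a₁ * c₁) := by rw [← pow_mul]
      _ = η ^ (c₁ + 1) := s59lppi_pow_congr hηn hac
  have h6 : η = 1 := by
    rw [pow_succ] at h5
    have h7 : η ^ c₁ * 1 = η ^ c₁ * η := by rw [mul_one]; exact h5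
    exact (mul_left_cancel₀ (pow_ne_zero _ hη0) h7).symm
  rw [hσb', h6, one_mul]

/-! ### Step 4: the valuation -/

/-- a unit of `P` has valuation `1` -/
theorem s59lppi_val_unit (P : ValuationSubring Qbar) {x : Qbar} (hx0 : x ≠ 0) (h1 : x ∈ P)
    (h2 : x⁻¹ ∈ P) : P.valuation x = 1 := by
  have e1 : P.valuation x ≤ 1 := (P.valuation_le_one_iff x).2 h1
  have e2 : P.valuation x⁻¹ ≤ 1 := (P.valuation_le_one_iff _).2 h2
  rw [map_inv₀] at e2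
  have hv0 : P.valuation x ≠ 0 := (Valuation.ne_zero_iff _).2 hx0
  have e3 : 1 ≤ P.valuation x := by
    have := (inv_le_one₀ (zero_lt_iff.2 hv0)).1 e2
    exact this
  exact le_antisymm e1 e3

/-- **TRES-∞**: some element of the peu ramifié subgroup (all levels) moves `π = p^{1/p}`. -/
theorem s59lppi_tres (p : ℕ) [Fact p.Prime] (hp2 : p ≠ 2) (P : ValuationSubring Qbar)
    (hP : P.LiesOverPrime p) (π : Qbar) (hπ : π ^ p = (p : Qbar)) :
    ∃ t ∈ s59psPeu P p, t π ≠ π := by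
  by_contra hcon0
  have hcon : ∀ t ∈ s59psPeu P p, t π = π := fun t ht => by
    by_contra h
    exact hcon0 ⟨t, ht, h⟩
  have hpp : p.Prime := Fact.out
  have hp0 : (p : Qbar) ≠ 0 := Nat.cast_ne_zero.2 hpp.ne_zero
  have hπ0 : π ≠ 0 := by
    rintro rfl
    rw [zero_pow hpp.ne_zero] at hπ
    exact hp0 hπ.symm
  obtain ⟨n, hn, ys, hys, hfix⟩ := s59lppi_finite P p π hcon
  obtain ⟨m, rfl⟩ := Nat.exists_eq_succ_of_ne_zero hn
  have hπn : π ^ p ^ (m + 1) = (p : Qbar) ^ p ^ m := by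
    rw [pow_succ', pow_mul, hπ]
  have hπK : ∀ τ ∈ s59psIn P p (m + 1), τ (π ^ p ^ (m + 1)) = π ^ p ^ (m + 1) := by
    intro τ _
    rw [hπn, map_pow, map_natCast]
  obtain ⟨y, b, hyb, hy0, hyY, hbfix⟩ :=
    s59lppi_induct P p (m + 1) ys hys π hπ0 hπK (fun τ hτ h => hfix τ hτ.1 h)
  have hb0 : b ≠ 0 := by
    rintro rfl
    rw [mul_zero] at hyb
    exact hπ0 hyb
  have hprod : y ^ p ^ (m + 1) * b ^ p ^ (m + 1) = (p : Qbar) ^ p ^ m := by
    rw [← mul_pow, ← hyb, hπn]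
  have hu0 : y ^ p ^ (m + 1) ≠ 0 := pow_ne_zero _ hy0
  have hbpow : b ^ p ^ (m + 1) = (p : Qbar) ^ p ^ m * (y ^ p ^ (m + 1))⁻¹ := by
    rw [← hprod]
    field_simp
  have hbK : ∀ τ ∈ P.inertiaSubgroupIn ℚ, τ (b ^ p ^ (m + 1)) = b ^ p ^ (m + 1) := by
    intro τ hτ
    rw [hbpow, map_mul, map_inv₀, map_pow, map_natCast, hyY.2.2 τ hτ]
  obtain ⟨ξ, hξn, hb'⟩ :=
    s59lppi_descent p hp2 P hP (m + 1) (Nat.succ_ne_zero m) b hb0 hbfix hbK
  have hpn0 : p ^ (m + 1) ≠ 0 := pow_ne_zero _ hpp.ne_zero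
  have hξ0 : ξ ≠ 0 := by
    rintro h0
    rw [h0, zero_pow hpn0] at hξn
    exact zero_ne_one hξn
  have hb'0 : b * ξ⁻¹ ≠ 0 := mul_ne_zero hb0 (inv_ne_zero hξ0)
  obtain ⟨e, hw, hwinv⟩ := s59stv_val hpp hP hb'0 hb'
  have hw0 : b * ξ⁻¹ * (p : Qbar) ^ e ≠ 0 := mul_ne_zero hb'0 (zpow_ne_zero _ hp0)
  have hvw : P.valuation (b * ξ⁻¹ * (p : Qbar) ^ e) = 1 := s59lppi_val_unit P hw0 hw hwinv
  have hvu : P.valuation (y ^ p ^ (m + 1)) = 1 := s59lppi_val_unit P hu0 hyY.1 hyY.2.1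
  have hvp : P.valuation (p : Qbar) < 1 := (P.mem_nonunits_iff).1 hP
  have hvp0 : P.valuation (p : Qbar) ≠ 0 := (Valuation.ne_zero_iff _).2 hp0
  -- the identity
  have hid : (b * ξ⁻¹ * (p : Qbar) ^ e) ^ p ^ (m + 1) * y ^ p ^ (m + 1) =
      (p : Qbar) ^ p ^ m * ((p : Qbar) ^ e) ^ p ^ (m + 1) := by
    rw [mul_pow, mul_pow, inv_pow, hξn, inv_one, mul_one, ← hprod]
    ring
  have hval := congrArg P.valuation hid
  rw [map_mul, map_pow, hvw, one_pow, one_mul, hvu, map_mul, map_pow, map_pow, map_zpow₀] at hval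
  have key : P.valuation (p : Qbar) ^ (((p ^ m : ℕ) : ℤ) + e * ((p ^ (m + 1) : ℕ) : ℤ)) = 1 := by
    rw [zpow_add₀ hvp0, zpow_natCast, zpow_mul, zpow_natCast]
    exact hval.symm
  have hk := (zpow_eq_one_iff_right₀ zero_le hvp.ne).1 key
  -- arithmetic
  have h1 : ((p ^ m : ℕ) : ℤ) * (1 + e * (p : ℤ)) = 0 := by
    rw [← hk]
    push_cast
    ring
  have hpm0 : ((p ^ m : ℕ) : ℤ) ≠ 0 := by
    exact_mod_cast pow_ne_zero m hpp.ne_zero
  have h2 : 1 + e * (p : ℤ) = 0 := (mul_eq_zero.1 h1).resolve_left hpm0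
  have h3 : (p : ℤ) ∣ 1 := ⟨-e, by linarith⟩
  have h4 : (p : ℤ) = 1 := Int.eq_one_of_dvd_one (by positivity) h3
  have h5 : p = 1 := by exact_mod_cast h4
  exact hpp.ne_one h5

end Fermat.Agent.S59

end
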