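/-
S59, wall M4 (LOWER-P): THE FINAL WIRING (helper30, co-deputy with helper10).

Everything of row 38 that holds for all odd `p` (or for `p ≥ 5`) is PLUGGED IN here as a theorem
(`R38.stmtLift`, `stmtRep`, `stmtEDet`, `stmtEPeu`, `StmtToricP`, `StmtTresT0`, `StmtTresP5`,
`StmtPkgCore5`), so that the wall is a function of the OPEN leaves only:

* `S59lpwLeaves3`  — the five leaves of (TRIV-3) at `p = 3`, even level `M`, `3 ∤ M`, as ONE Prop:
    EIS3     `s59lptr_EisNormKAt M 3`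
    MONOFIX3 `s59lptr_MonoFixWAt M 3`      (weak Hecke clause, `Triv3b.lean`)
    COVER3   `s59lptr_MonoCoverWAt M 3`    (weak Hecke clause)
    HOL3     `R38.StmtHolSpan M A 3` for every `A` over `3`, and `s59lptr_HolTrivAt M 3`;
* `s59lpc_StmtEpmGen` (EPM-W: `E[p]` peu ramifié for a general `W`; S39 form only).

Theorems:
* `s59lpw_toricP`, `s59lpw_tresT0`, `s59lpw_tresP5`  : the inputs of row 38, unconditional;
* `s59lpw_trivThree_of`  : `S59lpwLeaves3 → s59lpc_StmtTrivThree`;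
* `s59lpw_tresThree_of`  : `S59lpwLeaves3 → s59lpc_StmtTresThree`;
* `s59lpw_good_of`       : `S59lpwLeaves3 → s59lpc_StmtLowPGood`   (frozen S40 shape, p ∈ {3,5});
* `s59lpw_peu_of`        : `S59lpwLeaves3 → s59lpc_StmtEpmGen → s59lpc_StmtLowPPeu`
                                                                   (frozen S39 shape, p ∈ {3,5});
* `s59lpw_good_five`, `s59lpw_peu_five_of` : the `p = 5` halves (NO leaf of (TRIV-3) needed);
* `s59lpw_wall_of`       : `S59lpwLeaves3 → s59lpc_StmtEpmGen → S59lppWall` (the form of `Plan.lean`).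
-/
import Fermat.Agent.S59.LowP.Good5
import Fermat.Agent.S59.LowP.Triv3b
import Fermat.Agent.S59.LowP.CoreThree

set_option autoImplicit false
set_option linter.unusedSectionVars false
set_option linter.unusedVariables false
set_option linter.style.haveILetI false
set_option linter.style.longLine false
set_option synthInstance.maxHeartbeats 400000
set_option maxHeartbeats 1600000

noncomputable section

namespace Fermat.Agent.S59

open ModularCurve AlgebraicCurve Fermat.Agent.ES Fermat.Agent.ES.G2 Fermat.Agent.STB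
  Fermat.Agent.RIB.MP Fermat.Agent.S24 ExtCitation Fermat.Agent.R38

/-! ### The inputs of row 38 that hold for every odd `p` -/

/-- (TORIC), unconditional. -/
theorem s59lpw_toricP : StmtToricP :=
  stmtToricP_of (Fermat.Agent.S33.stmtWildT_of_kummer Fermat.Agent.S33.stmtWildKummer)

/-- (TRES-T0), unconditional. -/
theorem s59lpw_tresT0 : StmtTresT0 :=
  stmtTresT0_of Fermat.Agent.S33.stmtWildKummer

/-- (TRES) for `p ≥ 5`, unconditional. -/
theorem s59lpw_tresP5 : StmtTresP5 :=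
  stmtTresP5_of_triv s59lpg_tresTriv s59lpw_tresT0

/-! ### The five leaves of (TRIV-3) -/

/-- **The five open leaves of (TRIV-3)**, at `p = 3` and every even level `M` prime to `3`. -/
def S59lpwLeaves3 : Prop :=
  ∀ (M : ℕ) [NeZero M], 2 ∣ M → ¬ 3 ∣ M →
    haveI : Fact (Nat.Prime 3) := ⟨Nat.prime_three⟩
    s59lptr_EisNormKAt M 3 ∧ s59lptr_MonoFixWAt M 3 ∧ s59lptr_MonoCoverWAt M 3 ∧
      (∀ A : ValuationSubring Kb, A.LiesOverPrime 3 → StmtHolSpan M A 3) ∧
      s59lptr_HolTrivAt M 3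

/-- the leaves, one by one ⇒ `S59lpwLeaves3` -/
theorem s59lpw_leaves3_of
    (hEis : ∀ (M : ℕ) [NeZero M], 2 ∣ M → ¬ 3 ∣ M → s59lptr_EisNormKAt M 3)
    (hFix : ∀ (M : ℕ) [NeZero M], 2 ∣ M → ¬ 3 ∣ M → s59lptr_MonoFixWAt M 3)
    (hCov : ∀ (M : ℕ) [NeZero M], 2 ∣ M → ¬ 3 ∣ M →
      haveI : Fact (Nat.Prime 3) := ⟨Nat.prime_three⟩
      s59lptr_MonoCoverWAt M 3)
    (hSpan : ∀ (M : ℕ) [NeZero M], 2 ∣ M → ¬ 3 ∣ M →
      ∀ A : ValuationSubring Kb, A.LiesOverPrime 3 → StmtHolSpan M A 3)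
    (hD : ∀ (M : ℕ) [NeZero M], 2 ∣ M → ¬ 3 ∣ M → s59lptr_HolTrivAt M 3) :
    S59lpwLeaves3 :=
  fun M _ h2 h3 => ⟨hEis M h2 h3, hFix M h2 h3, hCov M h2 h3, hSpan M h2 h3, hD M h2 h3⟩

/-- **(TRIV-3) from the five leaves.** -/
theorem s59lpw_trivThree_of (h : S59lpwLeaves3) : s59lpc_StmtTrivThree :=
  s59lptr_trivThreeW_of s59lpw_tresT0
    (fun M _ h2 h3 => (h M h2 h3).1)
    (fun M _ h2 h3 => (h M h2 h3).2.1)
    (fun M _ h2 h3 => (h M h2 h3).2.2.1)
    (fun M _ h2 h3 => (h M h2 h3).2.2.2.1)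
    (fun M _ h2 h3 => (h M h2 h3).2.2.2.2)

/-- **(TRES-3) from the five leaves.** -/
theorem s59lpw_tresThree_of (h : S59lpwLeaves3) : s59lpc_StmtTresThree :=
  s59lpc_tresThree_of s59lpw_tresT0 (s59lpw_trivThree_of h)

/-! ### The wall -/

/-- **WALL M4, good reduction (frozen S40 shape, `p ∈ {3, 5}`, even level at `p = 3`)**
from the five leaves of (TRIV-3). -/
theorem s59lpw_good_of (h : S59lpwLeaves3) : s59lpc_StmtLowPGood :=
  s59lpc_good_of stmtLift stmtRep stmtEDet stmtEPeu s59lpw_toricP s59lpw_tresP5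
    (s59lpw_tresThree_of h)

/-- **WALL M4, peu ramifié (frozen S39 shape, `p ∈ {3, 5}`, even level at `p = 3`)**
from the five leaves of (TRIV-3) and (EPM-GEN). -/
theorem s59lpw_peu_of (h : S59lpwLeaves3) (hEpm : s59lpc_StmtEpmGen) : s59lpc_StmtLowPPeu :=
  s59lpc_peu_of stmtLift stmtRep stmtEDet hEpm s59lpw_toricP s59lpw_tresP5
    (s59lpw_tresThree_of h)

/-- the `p = 5` half of the wall, good reduction: UNCONDITIONAL (= `s59lpg_s40_five`). -/
theorem s59lpw_good_five (W : WeierstrassCurve ℤ) (hΔ : W.Δ ≠ 0)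
    (hgood : W.IsGoodPrimeFor 5) (hirr : W.ModRepIsIrreducible 5)
    {M : ℕ} (hM : 0 < M) (hpM : 5 ∣ M) (hp2M : ¬ 5 ^ 2 ∣ M)
    (hmod : W.IsResiduallyModularOfLevel 5 M) :
    W.IsResiduallyModularOfLevel 5 (M / 5) :=
  s59lpg_s40_five W hΔ hgood hirr hM hpM hp2M hmod

/-- the `p = 5` half of the wall, peu ramifié: from (EPM-W) at `p = 5` ONLY. -/
theorem s59lpw_peu_five_of
    (hEpm5 : haveI : Fact (Nat.Prime 5) := ⟨by norm_num⟩; S59lppEpmW 5) :
    S59lppWallAt 5 (fun _ => True) := by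
  haveI : Fact (Nat.Prime 5) := ⟨by norm_num⟩
  exact s59lpp_wallAt_of 5 _ stmtEPeu hEpm5
    (s59lpp_core_five stmtLift stmtRep stmtEDet s59lpg_pkgCore5)

/-- the `p = 3` half of the wall (even level), from the five leaves and (EPM-W) at `p = 3`. -/
theorem s59lpw_peu_three_of (h : S59lpwLeaves3)
    (hEpm3 : haveI : Fact (Nat.Prime 3) := ⟨Nat.prime_three⟩; S59lppEpmW 3) :
    S59lppWallAt 3 (fun M => 2 ∣ M) := by
  haveI : Fact (Nat.Prime 3) := ⟨Nat.prime_three⟩
  exact s59lpp_wallAt_of 3 _ stmtEPeu hEpm3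
    (s59lpc_coreThree stmtLift stmtRep stmtEDet s59lpw_toricP s59lpw_tresT0
      (s59lpw_trivThree_of h))

/-- **THE WALL M4** (the form of `Plan.lean`) from the five leaves and (EPM-W) at `p = 3, 5`. -/
theorem s59lpw_wall_of (h : S59lpwLeaves3)
    (hEpm5 : haveI : Fact (Nat.Prime 5) := ⟨by norm_num⟩; S59lppEpmW 5)
    (hEpm3 : haveI : Fact (Nat.Prime 3) := ⟨Nat.prime_three⟩; S59lppEpmW 3) :
    S59lppWall :=
  ⟨s59lpw_peu_five_of hEpm5, s59lpw_peu_three_of h hEpm3⟩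

end Fermat.Agent.S59

end
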