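/-
S59, wall M4 (LOWER-P): THE FINAL WIRING, part b (helper30): THE WALL FROM THE OGG UNIT ALONE.

Closed leaves plugged in:
* EIS3       `S59.s59lpeis_normK_three`      (helper87, `Eis3.lean`);
* HOL3-SPAN  `R38.s59lph3h_spanThree`        (helper30, `Hol3ResH.lean`);
* HOL3-D     `R38.s59lph3d_holTrivThree`     (helper30, `Hol3D.lean`);
* EPM-W      `S59.s59epw_main`               (helper68, `EpwMain.lean`)  ⇒ `s59lpc_StmtEpmGen`;
* MONOFIX3   `S59.s59lpmf_stmt_of`           (helper52, `MonoFix3.lean`): from the OGG interface;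
* COVER3     `S59.s59lpcv_monoCoverWAt`      (helper89, `Cover3W.lean`):  from the OGG input.

OPEN = the two OGG interfaces at `p = 3`, even level (the unit `h6` of `NOTES/S59-M4-OGG3.md`):
* `S59lpwOggFix3` : `S59lpmfOgg M 3 A`  for `2 ∣ M`, `3 ∤ M`, `A` over `3`;
* `S59lpwOggCov3` : `S59lpcvOggW M 3 …` for `2 ∣ M`, `3 ∤ M`.

Theorems:
* `s59lpw_epmGen`          : `s59lpc_StmtEpmGen`  (UNCONDITIONAL);
* `s59lpw_epmW`            : `S59lppEpmW p` for every odd prime `p` (UNCONDITIONAL);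
* `s59lpw_peu_five`        : `S59lppWallAt 5 ⊤` — the frozen S39 shape at `p = 5`, UNCONDITIONAL;
* `s59lpw_leaves3_of_ogg`  : `S59lpwOggFix3 → S59lpwOggCov3 → S59lpwLeaves3`;
* `s59lpw_good_of_ogg`     : `… → s59lpc_StmtLowPGood`;
* `s59lpw_peu_of_ogg`      : `… → s59lpc_StmtLowPPeu`;
* `s59lpw_wall_of_ogg`     : `… → S59lppWall`.
-/
import Fermat.Agent.S59.LowP.Wall3
import Fermat.Agent.S59.LowP.Eis3
import Fermat.Agent.S59.LowP.Hol3D
import Fermat.Agent.S59.LowP.Hol3ResH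
import Fermat.Agent.S59.LowP.MonoFix3
import Fermat.Agent.S59.LowP.Cover3W
import Fermat.Agent.S59.LowP.EpwMain

set_option autoImplicit false
set_option linter.unusedSectionVars false
set_option linter.unusedVariables false
set_option linter.style.haveILetI false
set_option linter.style.longLine false
set_option synthInstance.maxHeartbeats 400000
set_option maxHeartbeats 1600000

noncomputable section

namespace Fermat.Agent.S59

open ModularCurve AlgebraicCurve Fermat.Agent.ES Fermat.Agent.ES.G2 Fermat.Agent.STB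
  Fermat.Agent.RIB.MP Fermat.Agent.S24 ExtCitation Fermat.Agent.R38

/-! ### EPM-W -/

/-- **(EPM-GEN)**, unconditional (helper68's `s59epw_main`). -/
theorem s59lpw_epmGen : s59lpc_StmtEpmGen :=
  fun W hΔ p _ hp2 hsemi hpeu _ A hA hω => s59epw_main W hΔ p hp2 hsemi hpeu A hA hω

/-- **(EPM-W)** at every odd prime `p`, unconditional. -/
theorem s59lpw_epmW (p : ℕ) [Fact p.Prime] (hp2 : p ≠ 2) : S59lppEpmW p :=
  fun W hΔ hbad hc₄ _ hpeu A hA hω =>
    s59epw_main W hΔ p hp2 (fun _ => hc₄) hpeu A hA hω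

/-- **the `p = 5` half of the wall (frozen S39 shape at `p = 5`, every level): UNCONDITIONAL.** -/
theorem s59lpw_peu_five : S59lppWallAt 5 (fun _ => True) :=
  haveI : Fact (Nat.Prime 5) := ⟨by norm_num⟩
  s59lpw_peu_five_of (s59lpw_epmW 5 (by norm_num))

/-! ### The two OGG interfaces at `p = 3` -/

/-- **OGG3, FIX form**: the OGG interface of MONOFIX3 at `p = 3`, even level. -/
def S59lpwOggFix3 : Prop :=
  ∀ (M : ℕ) [NeZero M] [NeZero (M * 4)] [NeZero (M * 4 * 3)], 2 ∣ M → ¬ 3 ∣ M →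
    ∀ A : ValuationSubring Fermat.Agent.R38.Qb, A.LiesOverPrime 3 → S59lpmfOgg M 3 A

/-- **OGG3, COVER form**: the OGG input of COVER3 at `p = 3`, even level. -/
def S59lpwOggCov3 : Prop :=
  ∀ (M : ℕ) [NeZero M] [NeZero (M * 3)] [NeZero (M * 4)] [NeZero (M * 4 * 3)], 2 ∣ M →
    ∀ h3 : ¬ 3 ∣ M,
      S59lpcvOggW M 3 Nat.prime_three
        (s59lpcv_not_dvd_mul_four Nat.prime_three (by norm_num) h3)

/-- MONOFIX3 (weak form of `Triv3b.lean`) from the OGG interface. -/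
theorem s59lpw_monoFixW_of (hogg : S59lpwOggFix3) (M : ℕ) [NeZero M] (h2 : 2 ∣ M)
    (h3 : ¬ 3 ∣ M) : s59lptr_MonoFixWAt M 3 := by
  intro A hA x hx hα hβ hfix
  haveI : NeZero (M * 3) := ⟨Nat.mul_ne_zero (NeZero.ne M) (by norm_num)⟩
  obtain ⟨u, r, h, hr, hh, a, b, hxu, hred, hh0, ha, hnc, hc, hHecke⟩ :=
    s59lpmf_stmt_of hogg M 3 Nat.prime_three h3 (by norm_num) (Or.inr h2) A hA x hx hα hβ hfix
  exact ⟨u, r, h, hr, hh, a, b, hxu, hred, hh0, ha, hnc, hc, hHecke⟩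

/-- COVER3 (weak form of `Triv3b.lean`) from the OGG input. -/
theorem s59lpw_monoCoverW_of (hogg : S59lpwOggCov3) (M : ℕ) [NeZero M] (h2 : 2 ∣ M)
    (h3 : ¬ 3 ∣ M) :
    haveI : Fact (Nat.Prime 3) := ⟨Nat.prime_three⟩
    s59lptr_MonoCoverWAt M 3 := by
  haveI : Fact (Nat.Prime 3) := ⟨Nat.prime_three⟩
  haveI : NeZero (M * 3) := ⟨Nat.mul_ne_zero (NeZero.ne M) (by norm_num)⟩
  haveI : NeZero (M * 4) := ⟨Nat.mul_ne_zero (NeZero.ne M) (by norm_num)⟩
  haveI : NeZero (M * 4 * 3) := ⟨Nat.mul_ne_zero (NeZero.ne (M * 4)) (by norm_num)⟩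
  exact s59lpcv_monoCoverWAt Nat.prime_three h3
    (s59lpcv_not_dvd_mul_four Nat.prime_three (by norm_num) h3) (by norm_num) (Or.inr h2)
    (hogg M h2 h3)

/-- **the five leaves of (TRIV-3) from the two OGG interfaces.** -/
theorem s59lpw_leaves3_of_ogg (hF : S59lpwOggFix3) (hC : S59lpwOggCov3) : S59lpwLeaves3 :=
  s59lpw_leaves3_of
    (fun M _ _ h3 => s59lpeis_normK_three M h3)
    (fun M _ h2 h3 => s59lpw_monoFixW_of hF M h2 h3)
    (fun M _ h2 h3 => s59lpw_monoCoverW_of hC M h2 h3)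
    (fun M _ h2 h3 => s59lph3h_spanThree M h2 h3)
    (fun M _ h2 h3 => s59lph3d_holTrivThree M h2 h3)

/-- **WALL M4, good reduction** (frozen S40 shape, `p ∈ {3, 5}`, even level at `p = 3`) from the
two OGG interfaces. -/
theorem s59lpw_good_of_ogg (hF : S59lpwOggFix3) (hC : S59lpwOggCov3) : s59lpc_StmtLowPGood :=
  s59lpw_good_of (s59lpw_leaves3_of_ogg hF hC)

/-- **WALL M4, peu ramifié** (frozen S39 shape, `p ∈ {3, 5}`, even level at `p = 3`) from the
two OGG interfaces. -/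
theorem s59lpw_peu_of_ogg (hF : S59lpwOggFix3) (hC : S59lpwOggCov3) : s59lpc_StmtLowPPeu :=
  s59lpw_peu_of (s59lpw_leaves3_of_ogg hF hC) s59lpw_epmGen

/-- **THE WALL M4** (the form of `Plan.lean`) from the two OGG interfaces. -/
theorem s59lpw_wall_of_ogg (hF : S59lpwOggFix3) (hC : S59lpwOggCov3) : S59lppWall :=
  haveI : Fact (Nat.Prime 3) := ⟨Nat.prime_three⟩
  haveI : Fact (Nat.Prime 5) := ⟨by norm_num⟩
  s59lpw_wall_of (s59lpw_leaves3_of_ogg hF hC) (s59lpw_epmW 5 (by norm_num))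
    (s59lpw_epmW 3 (by norm_num))

end Fermat.Agent.S59

end
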