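/-
S59, wall M4 (LOWER-P): **THE WALL, UNCONDITIONAL** (helper30, co-deputy with helper10).

All leaves are closed:
* EIS3       helper87  `Eis3.lean`       `s59lpeis_normK_three`
* HOL3-SPAN  helper30  `Hol3ResH.lean`   `s59lph3h_spanThree`
* HOL3-D     helper30  `Hol3D.lean`      `s59lph3d_holTrivThree`
* EPM-W      helper68  `EpwMain.lean`    `s59epw_main`
* COVER3     helper89 + helper16  `Cover3W.lean`, `Ogg3W.lean`   `s59lpoasm_oggW`
* MONOFIX3   helper52 + helper16  `MonoFix3.lean`, `Ogg3Fix.lean` `s59lpofx_ogg`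
* OGG3       helper10, helper87, helper47, helper52, helper44, helper16, helper92 (`Ogg3*.lean`)

Theorems (no hypothesis left):
* `s59lpwf_leaves3` : `S59lpwLeaves3`;
* `s59lpwf_trivThree` : `s59lpc_StmtTrivThree`  ((TRIV-3): `R38.StmtTresTriv` at `p = 3`, even level);
* **`s59lpwf_good`** : `s59lpc_StmtLowPGood` — the frozen S40 shape for `p ∈ {3, 5}`
                       (even level `M` at `p = 3`), for a general integral Weierstrass curve `W`;
* **`s59lpwf_peu`**  : `s59lpc_StmtLowPPeu`  — the frozen S39 shape for `p ∈ {3, 5}`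
                       (even level `M` at `p = 3`);
* **`s59lpwf_wall`** : `S59lppWall` = `S59lppWallAt 5 ⊤ ∧ S59lppWallAt 3 (2 ∣ ·)`;
* `s59lpwf_peu_three`, `s59lpwf_good_three`, `s59lpwf_peu_five`, `s59lpwf_good_five` : the four
  statements in the literal frozen shapes.
-/
import Fermat.Agent.S59.LowP.Wall3b
import Fermat.Agent.S59.LowP.Ogg3W
import Fermat.Agent.S59.LowP.Ogg3Fix

set_option autoImplicit false
set_option linter.unusedSectionVars false
set_option linter.unusedVariables false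
set_option linter.style.haveILetI false
set_option linter.style.longLine false
set_option synthInstance.maxHeartbeats 400000
set_option maxHeartbeats 1600000

noncomputable section

namespace Fermat.Agent.S59

open ModularCurve AlgebraicCurve Fermat.Agent.ES Fermat.Agent.ES.G2 Fermat.Agent.STB
  Fermat.Agent.RIB.MP Fermat.Agent.S24 ExtCitation Fermat.Agent.R38

/-- **OGG3, FIX form**, unconditional (helper16's `s59lpofx_ogg`). -/
theorem s59lpwf_oggFix3 : S59lpwOggFix3 :=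
  fun M _ _ _ h2 _ A _ => s59lpofx_ogg h2 A

/-- **OGG3, COVER form**, unconditional (helper16's `s59lpoasm_oggW`). -/
theorem s59lpwf_oggCov3 : S59lpwOggCov3 :=
  fun M _ _ _ _ h2 h3 =>
    s59lpoasm_oggW h2 (s59lpcv_not_dvd_mul_four Nat.prime_three (by norm_num) h3)

/-- **the five leaves of (TRIV-3)**, unconditional. -/
theorem s59lpwf_leaves3 : S59lpwLeaves3 :=
  s59lpw_leaves3_of_ogg s59lpwf_oggFix3 s59lpwf_oggCov3

/-- **(TRIV-3)**: `R38.StmtTresTriv` at `p = 3`, even level, unconditional. -/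
theorem s59lpwf_trivThree : s59lpc_StmtTrivThree :=
  s59lpw_trivThree_of s59lpwf_leaves3

/-- **(TRES-3)**, unconditional. -/
theorem s59lpwf_tresThree : s59lpc_StmtTresThree :=
  s59lpw_tresThree_of s59lpwf_leaves3

/-- **WALL M4, good reduction**: the frozen S40 shape for `p ∈ {3, 5}` (even level at `p = 3`),
general `W`, UNCONDITIONAL. -/
theorem s59lpwf_good : s59lpc_StmtLowPGood :=
  s59lpw_good_of s59lpwf_leaves3

/-- **WALL M4, peu ramifié**: the frozen S39 shape for `p ∈ {3, 5}` (even level at `p = 3`),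
general `W`, UNCONDITIONAL. -/
theorem s59lpwf_peu : s59lpc_StmtLowPPeu :=
  s59lpw_peu_of s59lpwf_leaves3 s59lpw_epmGen

/-- **THE WALL M4** (the form of `Plan.lean`), UNCONDITIONAL. -/
theorem s59lpwf_wall : S59lppWall :=
  s59lpw_wall_of_ogg s59lpwf_oggFix3 s59lpwf_oggCov3

/-! ### The literal frozen shapes -/

/-- frozen S39 at `p = 3`, even level. -/
theorem s59lpwf_peu_three (W : WeierstrassCurve ℤ) (hΔ : W.Δ ≠ 0)
    (hsemi : ((3 : ℕ) : ℤ) ∣ W.Δ → ¬ ((3 : ℕ) : ℤ) ∣ W.c₄) (hirr : W.ModRepIsIrreducible 3)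
    (hpeu : (W.map (Int.castRingHom ℚ)).IsPeuRamifieeAt 3 3)
    {M : ℕ} (hM : 0 < M) (hpM : 3 ∣ M) (hp2M : ¬ 3 ^ 2 ∣ M) (h2 : 2 ∣ M)
    (hmod : W.IsResiduallyModularOfLevel 3 M) :
    W.IsResiduallyModularOfLevel 3 (M / 3) :=
  s59lpwf_peu W hΔ Nat.prime_three (Or.inl rfl) hsemi hirr hpeu hM hpM hp2M (fun _ => h2) hmod

/-- frozen S40 at `p = 3`, even level. -/
theorem s59lpwf_good_three (W : WeierstrassCurve ℤ) (hΔ : W.Δ ≠ 0)
    (hgood : W.IsGoodPrimeFor 3) (hirr : W.ModRepIsIrreducible 3)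
    {M : ℕ} (hM : 0 < M) (hpM : 3 ∣ M) (hp2M : ¬ 3 ^ 2 ∣ M) (h2 : 2 ∣ M)
    (hmod : W.IsResiduallyModularOfLevel 3 M) :
    W.IsResiduallyModularOfLevel 3 (M / 3) :=
  s59lpwf_good W hΔ Nat.prime_three (Or.inl rfl) hgood hirr hM hpM hp2M (fun _ => h2) hmod

/-- frozen S39 at `p = 5`, every level. -/
theorem s59lpwf_peu_five (W : WeierstrassCurve ℤ) (hΔ : W.Δ ≠ 0)
    (hsemi : ((5 : ℕ) : ℤ) ∣ W.Δ → ¬ ((5 : ℕ) : ℤ) ∣ W.c₄) (hirr : W.ModRepIsIrreducible 5)
    (hpeu : (W.map (Int.castRingHom ℚ)).IsPeuRamifieeAt 5 5)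
    {M : ℕ} (hM : 0 < M) (hpM : 5 ∣ M) (hp2M : ¬ 5 ^ 2 ∣ M)
    (hmod : W.IsResiduallyModularOfLevel 5 M) :
    W.IsResiduallyModularOfLevel 5 (M / 5) :=
  s59lpwf_peu W hΔ (by norm_num) (Or.inr rfl) hsemi hirr hpeu hM hpM hp2M
    (fun h => absurd h (by norm_num)) hmod

/-- frozen S40 at `p = 5`, every level. -/
theorem s59lpwf_good_five (W : WeierstrassCurve ℤ) (hΔ : W.Δ ≠ 0)
    (hgood : W.IsGoodPrimeFor 5) (hirr : W.ModRepIsIrreducible 5)
    {M : ℕ} (hM : 0 < M) (hpM : 5 ∣ M) (hp2M : ¬ 5 ^ 2 ∣ M)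
    (hmod : W.IsResiduallyModularOfLevel 5 M) :
    W.IsResiduallyModularOfLevel 5 (M / 5) :=
  s59lpwf_good W hΔ (by norm_num) (Or.inr rfl) hgood hirr hM hpM hp2M
    (fun h => absurd h (by norm_num)) hmod

end Fermat.Agent.S59

end
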