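/-
S59, wall M4 (LOWER-P), leaf PEU-BRIDGE, part 2 (helper30): **THE BRIDGE**.

Case (c) of S59 (`S59/PStep/Plan.lean`, NOTES/S59-M5.md) is:  `W` multiplicative at `p` and
`s59psPeuTriv (ofResidualGaloisRep ρ̄_W) p` (the peu ramifié subgroups of ALL levels act trivially
on `ρ̄_W`).  The wall M4 (`s59lpc_lower`) wants `R38.EPeuAt W p` (the peu ramifié subgroups of
LEVEL 1 act trivially on `E[p]`).  The bridge:

* `s59lppb_epeu_of`  : all-levels triviality on `E[p]` ⇒ `EPeuAt W p`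
     (TRES-∞ `s59lppi_tres` + KUM-1 `s59psk_kum` on `h σ = σ x − x`);
* `s59lppb_dict`     : `ρ̄_W σ = 1 ⇒ σ = 1` on `E[p]` (residual dictionary);
* **`s59lppb_epeu_res`**, **`s59lppb_epeu_bar`** : `s59psPeuTriv ρ̄ ⇒ EPeuAt W p` for
     `ρ̄ = (tateRepInt W hΔ p).residual`, resp. `ρ̄ = s59feBar W hΔ p φ hφ`;
* **`s59lppb_lower_res`**, **`s59lppb_lower_bar`** : LOWER-P under the case (c) hypothesis
     (`p ∈ {3, 5}`, even level at `p = 3`): `ρ̄_W` modular of level `M`, `p ∥ M` ⇒ of level `M / p`.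
-/
import Fermat.Agent.S59.LowP.PeuInf
import Fermat.Agent.S59.LowP.WallFinal
import Fermat.Agent.S59.FinE
import Fermat.Agent.EC.TateRes
import Fermat.Agent.RT.Prod.HypWire

set_option autoImplicit false
set_option linter.unusedSectionVars false
set_option linter.unusedVariables false
set_option linter.style.longLine false
set_option linter.style.haveILetI false
set_option synthInstance.maxHeartbeats 400000
set_option maxHeartbeats 1600000

noncomputable section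

namespace Fermat.Agent.S59

open Fermat.Agent.R38 Fermat.Agent.EC IsLocalRing ExtCitation Fermat.Agent.RT.Prod
open scoped TensorProduct

/-- `ℚ̄` -/
local notation "Qbar" => AlgebraicClosure ℚ

/-! ### Galois theory -/

section Gal

variable {P : ValuationSubring Qbar} {p : ℕ}

/-- the peu ramifié subgroup of all levels is contained in the one of level `1` -/
theorem s59lppb_peu_le (P : ValuationSubring Qbar) (p : ℕ) : s59psPeu P p ≤ peuSubgroup P p := by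
  rintro σ ⟨hσ, hσ'⟩
  refine ⟨hσ, fun y h1 h2 h3 => hσ' 1 y ?_ ?_ ?_⟩
  · rwa [pow_one]
  · rwa [pow_one]
  · intro τ hτ
    rw [pow_one]
    exact h3 τ hτ

/-- An element of the level-`1` peu ramifié subgroup which fixes `π = p^{1/p}` fixes every `p`-th
root of every element of `K = ℚ̄^I` (`Kˣ = U · p^ℤ`). -/
theorem s59lppb_fix_root [Fact p.Prime] (hP : P.LiesOverPrime p) {σ : S59G}
    (hσ : σ ∈ peuSubgroup P p) {π : Qbar} (hπ : π ^ p = (p : Qbar)) (hσπ : σ π = π) (y : Qbar)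
    (hy : ∀ τ ∈ P.inertiaSubgroupIn ℚ, τ (y ^ p ^ 1) = y ^ p ^ 1) : σ y = y := by
  have hpp : p.Prime := Fact.out
  by_cases hy0 : y = 0
  · rw [hy0, map_zero]
  have hp0 : (p : Qbar) ≠ 0 := Nat.cast_ne_zero.2 hpp.ne_zero
  have hπ0 : π ≠ 0 := by
    rintro rfl
    rw [zero_pow hpp.ne_zero] at hπ
    exact hp0 hπ.symm
  have hδ0 : y ^ p ≠ 0 := pow_ne_zero _ hy0
  have hδK : ∀ τ ∈ P.inertiaSubgroupIn ℚ, τ (y ^ p) = y ^ p := by
    intro τ hτ
    have := hy τ hτ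
    rwa [pow_one] at this
  obtain ⟨e, h1, h2⟩ := s59stv_val hpp hP hδ0 hδK
  have hz : (y * π ^ e) ^ p = y ^ p * (p : Qbar) ^ e := by
    rw [mul_pow, ← zpow_natCast (π ^ e) p, ← zpow_mul, mul_comm e (p : ℤ), zpow_mul,
      zpow_natCast, hπ]
  have hσz : σ (y * π ^ e) = y * π ^ e := by
    refine hσ.2 (y * π ^ e) ?_ ?_ ?_
    · rw [hz]; exact h1
    · rw [hz]; exact h2
    · intro τ hτ
      rw [hz, map_mul, hδK τ hτ, map_zpow₀, map_natCast]
  have hσπe : σ (π ^ e) = π ^ e := by rw [map_zpow₀, hσπ]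
  rw [map_mul, hσπe] at hσz
  exact mul_right_cancel₀ (zpow_ne_zero e hπ0) hσz

/-- the cyclotomic exponent describes the action on `p`-th roots of unity -/
theorem s59lppb_cycloExp_spec (p : ℕ) [Fact p.Prime] (σ : S59G) {ζ : Qbar}
    (hζ : ζ ^ p = 1) : σ ζ = ζ ^ (ExtCitation.cycloExp p σ) := by
  have : NeZero p := ⟨(Fact.out : p.Prime).ne_zero⟩
  have hζu : IsUnit ζ := IsUnit.of_pow_eq_one hζ (NeZero.ne p)
  obtain ⟨t, rfl⟩ := hζu
  have ht : t ∈ rootsOfUnity p (AlgebraicClosure ℚ) := by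
    rw [mem_rootsOfUnity]
    exact Units.ext (by simpa using hζ)
  have := modularCyclotomicCharacter.spec (AlgebraicClosure ℚ)
    (ExtCitation.card_rootsOfUnity_eq_self p)
    (σ : AlgebraicClosure ℚ ≃+* AlgebraicClosure ℚ) ht
  simpa [ExtCitation.cycloExp] using this

/-- `g ζ = ζ ^ a` on `μ_p` ⇒ `cycloExp p g ≡ a mod p` -/
theorem s59lppb_cycloExp_modEq (p : ℕ) [Fact p.Prime] (g : S59G) (a : ℕ)
    (hga : ∀ ζ : Qbar, ζ ^ p ^ 1 = 1 → g ζ = ζ ^ a) : ExtCitation.cycloExp p g ≡ a [MOD p] := by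
  have hpp : p.Prime := Fact.out
  haveI : NeZero p := ⟨hpp.ne_zero⟩
  haveI : NeZero ((p : ℕ) : ℚ) := ⟨Nat.cast_ne_zero.2 hpp.ne_zero⟩
  obtain ⟨ζ, hζ⟩ := HasEnoughRootsOfUnity.exists_primitiveRoot Qbar p
  have h1 := s59lppb_cycloExp_spec p g hζ.pow_eq_one
  rw [hga ζ (by rw [pow_one]; exact hζ.pow_eq_one)] at h1
  have hfin : IsOfFinOrder ζ :=
    isOfFinOrder_iff_pow_eq_one.mpr ⟨p, hpp.pos, hζ.pow_eq_one⟩
  have := hfin.pow_eq_pow_iff_modEq.mp h1
  rw [← hζ.eq_orderOf] at this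
  exact this.symm

end Gal

/-! ### `E[p]` -/

section E

variable (W : WeierstrassCurve ℤ) (hΔ : W.Δ ≠ 0) (p : ℕ) [hp : Fact p.Prime]

/-- `E[p]` is killed by `p` -/
theorem s59lppb_p_nsmul (b : ETors W p) : p • b = 0 := by
  apply Subtype.ext
  have := b.2
  rw [Submodule.mem_torsionBy_iff] at this
  rw [Submodule.coe_smul_of_tower, Submodule.coe_zero, ← natCast_zsmul]
  exact this

/-- multiples modulo `p` -/
theorem s59lppb_nsmul_congr (b : ETors W p) {m n : ℕ} (h : m ≡ n [MOD p]) : m • b = n • b := by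
  have key : ∀ k : ℕ, k • b = (k % p) • b := by
    intro k
    conv_lhs => rw [← Nat.mod_add_div k p]
    rw [add_smul, mul_smul, s59lppb_p_nsmul W p, add_zero]
  have h' : m % p = n % p := h
  rw [key m, key n, h']

include hΔ in
/-- **The hypotheses of KUM-1** for `h σ = σ x − x` (`x ∈ E[p]`), under the antecedent of
`EPeuAt` (inertia acts on the inertia span through the cyclotomic character). -/
theorem s59lppb_kumHyp (P : ValuationSubring Qbar)
    (hant : ∀ σ ∈ P.inertiaSubgroupIn ℚ, ∀ τ ∈ P.inertiaSubgroupIn ℚ, ∀ x : ETors W p,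
      τ • (σ • x - x) = cycloExp p τ • (σ • x - x)) (x : ETors W p) :
    S59psKumHyp P p 1 (fun σ : S59G => σ • x - x) := by
  have hpp : p.Prime := hp.out
  have hone : ∀ σ ∈ s59psIn P p 1, cycloExp p σ = 1 := fun σ hσ =>
    ((tres5d_mem_I1_iff_cycloExp (A := P) (p := p) σ).1
      ⟨hσ.1, fun ζ hζ => hσ.2 ζ (by rwa [pow_one])⟩).2
  refine ⟨fun b => ?_, fun σ hσ τ hτ => ?_, ?_, fun g hg a hga σ hσ => ?_⟩
  · rw [pow_one]
    exact s59lppb_p_nsmul W p b
  · have h1 := hant τ hτ.1 σ hσ.1 x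
    rw [hone σ hσ, one_smul, smul_sub] at h1
    show (σ * τ) • x - x = (σ • x - x) + (τ • x - x)
    rw [mul_smul]
    have h2 : σ • τ • x = τ • x - x + σ • x := by
      rw [← h1]; abel
    rw [h2]
    abel
  · obtain ⟨L, hL, hfix⟩ := tate_finite_level (W.map (Int.castRingHom ℚ))
      (tate_map_Δ_ne_zero W hΔ) (m := p) hpp.ne_zero
    refine ⟨L, hL, fun σ _ hσL => ?_⟩
    have h1 := hfix σ (fun z hz => (IntermediateField.mem_fixingSubgroup_iff L σ).1 hσL z hz)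
      x.1 (by
        have := congrArg Subtype.val (s59lppb_p_nsmul W p x)
        simp)
    show σ • x - x = 0
    rw [sub_eq_zero]
    exact Subtype.ext h1
  · show (g * σ * g⁻¹) • x - x = a • (σ • x - x)
    have h1 := hant σ hσ.1 g hg (g⁻¹ • x)
    have h2 := hant g⁻¹ (inv_mem hg) σ hσ.1 x
    rw [hone σ hσ, one_smul, smul_sub] at h2
    have h3 : σ • g⁻¹ • x - g⁻¹ • x = σ • x - x := by
      have : σ • g⁻¹ • x = g⁻¹ • x - x + σ • x := by rw [← h2]; abel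
      rw [this]; abel
    rw [h3] at h1
    rw [smul_sub] at h1
    have h4 : g • σ • x - g • x = g • (σ • x - x) := by rw [smul_sub]
    rw [mul_smul, mul_smul]
    have h5 : g • σ • g⁻¹ • x - x = g • (σ • g⁻¹ • x - g⁻¹ • x) := by
      rw [smul_sub, smul_inv_smul]
    rw [h5, h3, ← h4, h1]
    exact s59lppb_nsmul_congr W p _ (s59lppb_cycloExp_modEq p g a hga)

include hΔ in
/-- **All-levels triviality on `E[p]` ⇒ `EPeuAt W p`** (TRES-∞ + KUM-1). -/
theorem s59lppb_epeu_of (hp2 : p ≠ 2)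
    (htriv : ∀ P : ValuationSubring Qbar, P.LiesOverPrime p → ∀ t ∈ s59psPeu P p,
      ∀ x : ETors W p, t • x = x) : EPeuAt W p := by
  intro A hA hant σ hσ x
  have hpp : p.Prime := hp.out
  haveI : NeZero p := ⟨hpp.ne_zero⟩
  have hp0 : (p : Qbar) ≠ 0 := Nat.cast_ne_zero.2 hpp.ne_zero
  obtain ⟨π, hπ⟩ : ∃ π : Qbar, π ^ p = (p : Qbar) :=
    IsAlgClosed.exists_pow_nat_eq _ hpp.pos
  have hπ0 : π ≠ 0 := by
    rintro rfl
    rw [zero_pow hpp.ne_zero] at hπ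
    exact hp0 hπ.symm
  obtain ⟨t, ht, htπ⟩ := s59lppi_tres p hp2 A hA π hπ
  obtain ⟨ζ, hζ⟩ : ∃ ζ : Qbar, ζ = t π / π := ⟨_, rfl⟩
  have hζp : ζ ^ p = 1 := by
    rw [hζ]
    exact s59lppi_symbol_pow p t hπ0 (by rw [hπ, map_natCast])
  have hζ1 : ζ ≠ 1 := by
    intro h
    rw [hζ] at h
    exact htπ ((div_eq_one_iff_eq hπ0).1 h)
  have hprim : IsPrimitiveRoot ζ p := by
    have := IsPrimitiveRoot.orderOf ζ
    rwa [orderOf_eq_prime hζp hζ1] at this
  have htζ : t ζ = ζ := (s59psPeu_le_In A p 1 ht).2 ζ (by rwa [pow_one])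
  have htπ' : t π = ζ * π := by rw [hζ]; field_simp
  have hσp : (σ π / π) ^ p = 1 :=
    s59lppi_symbol_pow p σ hπ0 (by rw [hπ, map_natCast])
  obtain ⟨m, -, hm⟩ := hprim.eq_pow_of_pow_eq_one hσp
  have hσπ : σ π = ζ ^ m * π := by rw [hm]; field_simp
  have htm : (t ^ m) π = ζ ^ m * π := s59lppi_pow_apply t htζ htπ' m
  have hσ' : (t ^ m)⁻¹ * σ ∈ peuSubgroup A p :=
    mul_mem (inv_mem (pow_mem (s59lppb_peu_le A p ht) m)) hσ
  have hσ'π : ((t ^ m)⁻¹ * σ) π = π := by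
    rw [AlgEquiv.mul_apply, hσπ, ← htm, ← AlgEquiv.mul_apply, inv_mul_cancel,
      AlgEquiv.one_apply]
  have hσ'In : (t ^ m)⁻¹ * σ ∈ s59psIn A p 1 := by
    have h := tres5d_peu_le_I1 hσ'
    exact ⟨h.1, fun ξ hξ => h.2 ξ (by rwa [pow_one] at hξ)⟩
  have hkum := s59psk_kum p hp2 A hA 1 (ETors W p) (fun τ : S59G => τ • x - x)
    (s59lppb_kumHyp W hΔ p A hant x) _ hσ'In
    (fun y hy => s59lppb_fix_root hA hσ' hπ hσ'π y hy)
  have h1 : ((t ^ m)⁻¹ * σ) • x = x := sub_eq_zero.1 hkum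
  have h2 : ∀ k : ℕ, (t ^ k) • x = x := by
    intro k
    induction k with
    | zero => rw [pow_zero, one_smul]
    | succ k ih => rw [pow_succ, mul_smul, htriv A hA t ht x, ih]
  have h3 : σ = t ^ m * ((t ^ m)⁻¹ * σ) := by rw [mul_inv_cancel_left]
  rw [h3, mul_smul, h1, h2 m]

/-! ### The residual dictionary -/

/-- the converse of `tateRes_tmul_eq_zero` for `V = (ℤ_p)²` -/
theorem s59lppb_mem_of_tmul_eq_zero (v : Fin 2 → ℤ_[p])
    (h : (1 : ResidueField ℤ_[p]) ⊗ₜ[ℤ_[p]] v = 0) :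
    v ∈ (maximalIdeal ℤ_[p]) • (⊤ : Submodule ℤ_[p] (Fin 2 → ℤ_[p])) := by
  have h1 := congrArg
    (TensorProduct.piScalarRight ℤ_[p] (ResidueField ℤ_[p]) (ResidueField ℤ_[p]) (Fin 2)) h
  rw [TensorProduct.piScalarRight_apply, TensorProduct.piScalarRightHom_tmul, map_zero] at h1
  have h2 : ∀ j : Fin 2, v j ∈ maximalIdeal ℤ_[p] := by
    intro j
    have := congrFun h1 j
    rw [Pi.zero_apply, Algebra.smul_def, mul_one, ResidueField.algebraMap_eq] at this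
    exact (residue_eq_zero_iff _).1 this
  have h3 : v = ∑ j, v j • (Pi.basisFun ℤ_[p] (Fin 2)) j := by
    have := (Pi.basisFun ℤ_[p] (Fin 2)).sum_repr v
    simp only [Pi.basisFun_repr] at this
    exact this.symm
  rw [h3]
  exact Submodule.sum_mem _ fun j _ => Submodule.smul_mem_smul (h2 j) Submodule.mem_top

/-- **Residual dictionary**: `ρ̄_W σ = 1` ⇒ `σ` acts trivially on `E[p]`. -/
theorem s59lppb_dict (σ : S59G) (h : (tateRepInt W hΔ p).residual.ρ σ = 1) (x : ETors W p) :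
    σ • x = x := by
  have hΔ' := tate_map_Δ_ne_zero W hΔ
  obtain ⟨v, rfl⟩ := tateResLev_surjective (W.map (Int.castRingHom ℚ)) hΔ' p x
  rw [← tateResLev_rho]
  have h0 : (tateRho (W.map (Int.castRingHom ℚ)) hΔ' p σ).baseChange
      (ResidueField ℤ_[p]) = 1 := h
  have h1 : (1 : ResidueField ℤ_[p]) ⊗ₜ[ℤ_[p]]
      (tateRho (W.map (Int.castRingHom ℚ)) hΔ' p σ v - v) = 0 := by
    rw [TensorProduct.tmul_sub, ← LinearMap.baseChange_tmul, h0, Module.End.one_apply, sub_self]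
  have h2 := (tateResLev_eq_zero_iff (W.map (Int.castRingHom ℚ)) hΔ' p _).2
    (s59lppb_mem_of_tmul_eq_zero p _ h1)
  rw [map_sub, sub_eq_zero] at h2
  exact h2

/-- **PEU-BRIDGE** for `ρ̄ = (tateRepInt W hΔ p).residual`. -/
theorem s59lppb_epeu_res (hp2 : p ≠ 2)
    (h : s59psPeuTriv (GaloisRepAdic.ofResidualGaloisRep (tateRepInt W hΔ p).residual) p) :
    EPeuAt W p :=
  s59lppb_epeu_of W hΔ p hp2 fun P hP t ht x =>
    s59lppb_dict W hΔ p t (h t ⟨P, hP, ht⟩) x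

variable {𝒪 : Type} [CommRing 𝒪] [IsDomain 𝒪] [IsDiscreteValuationRing 𝒪]
  [IsAdicComplete (maximalIdeal 𝒪) 𝒪] [Finite (ResidueField 𝒪)]
  (φ : ℤ_[p] →+* 𝒪) (hφ : IsLocalHom φ)

/-- **PEU-BRIDGE** for `ρ̄ = s59feBar W hΔ p φ hφ` (the case (c) hypothesis of S59). -/
theorem s59lppb_epeu_bar (hp2 : p ≠ 2)
    (h : s59psPeuTriv (GaloisRepAdic.ofResidualGaloisRep (s59feBar W hΔ p φ hφ)) p) :
    EPeuAt W p :=
  s59lppb_epeu_res W hΔ p hp2 fun t ht => (rtphw_one_iff _ _ t).1 (h t ht)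

/-! ### LOWER-P in case (c) -/

include hΔ in
/-- **LOWER-P from `EPeuAt`** (`p ∈ {3, 5}`, even level at `p = 3`), all leaves discharged. -/
theorem s59lppb_lower_of_epeu (hp35 : p = 3 ∨ p = 5) (hirr : W.ModRepIsIrreducible p)
    (hpeu : EPeuAt W p) {M : ℕ} (hM : 0 < M) (hpM : p ∣ M) (hp2M : ¬ p ^ 2 ∣ M)
    (heven : p = 3 → 2 ∣ M) (hmod : W.IsResiduallyModularOfLevel p M) :
    W.IsResiduallyModularOfLevel p (M / p) :=
  s59lpc_lower stmtLift stmtRep stmtEDet s59lpw_toricP s59lpw_tresP5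
    (s59lpw_tresThree_of s59lpwf_leaves3) W hΔ hp.out hp35 hirr hpeu hM hpM hp2M heven hmod

/-- **LOWER-P in case (c)**, `ρ̄ = (tateRepInt W hΔ p).residual`. -/
theorem s59lppb_lower_res (hp35 : p = 3 ∨ p = 5) (hirr : W.ModRepIsIrreducible p)
    (h : s59psPeuTriv (GaloisRepAdic.ofResidualGaloisRep (tateRepInt W hΔ p).residual) p)
    {M : ℕ} (hM : 0 < M) (hpM : p ∣ M) (hp2M : ¬ p ^ 2 ∣ M)
    (heven : p = 3 → 2 ∣ M) (hmod : W.IsResiduallyModularOfLevel p M) :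
    W.IsResiduallyModularOfLevel p (M / p) :=
  s59lppb_lower_of_epeu W hΔ p hp35 hirr
    (s59lppb_epeu_res W hΔ p (by rcases hp35 with rfl | rfl <;> norm_num) h)
    hM hpM hp2M heven hmod

/-- **LOWER-P in case (c)**, `ρ̄ = s59feBar W hΔ p φ hφ`. -/
theorem s59lppb_lower_bar (hp35 : p = 3 ∨ p = 5) (hirr : W.ModRepIsIrreducible p)
    (h : s59psPeuTriv (GaloisRepAdic.ofResidualGaloisRep (s59feBar W hΔ p φ hφ)) p)
    {M : ℕ} (hM : 0 < M) (hpM : p ∣ M) (hp2M : ¬ p ^ 2 ∣ M)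
    (heven : p = 3 → 2 ∣ M) (hmod : W.IsResiduallyModularOfLevel p M) :
    W.IsResiduallyModularOfLevel p (M / p) :=
  s59lppb_lower_of_epeu W hΔ p hp35 hirr
    (s59lppb_epeu_bar W hΔ p φ hφ (by rcases hp35 with rfl | rfl <;> norm_num) h)
    hM hpM hp2M heven hmod

end E

end Fermat.Agent.S59

end
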