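/-
S59, wall M4 (LOWER-P) → R3 (TOP), part 3 (helper30): **MINLEV in case (c)**.

Case (c) of S59: `W` multiplicative at `p`, `s59psPeuTriv (ofResidualGaloisRep ρ̄_W) p`
(NOTES/S59-M5.md).  The base level is the FLAT level `N₀ = ∏ (Smin ∖ p)` (`s59topmN0`), as in
case (a):

* `s59lppt_minlev_res` : `ρ̄ = (tateRepInt W hΔ p).residual` peu ⇒ `ρ̄_W` modular of level `N₀`;
* **`s59lppt_minlev_bar`** : the same for `ρ̄ = s59feBar W hΔ p φ hφ` (the case hypothesis of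
  `S59/PStep`).
Inputs left: M1 = `s59lsq_StmtWall` (LOWER-SQ) and M2 ∪ M3 = `s59topm_StmtLowQ` (LOWER-Q).
M4 and RAISE are discharged (`s59lppb_lower_res`, `LowQ.s59lq_stmtRaise`).
(No hypothesis on the reduction type of `W` at `p` is needed: good reduction is included.)
-/
import Fermat.Agent.S59.LowP.PeuInfBridge
import Fermat.Agent.S59.TopMinLevW
import Fermat.Agent.S59.LowQ.Glue

set_option autoImplicit false
set_option linter.unusedSectionVars false
set_option linter.unusedVariables false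
set_option linter.style.haveILetI false
set_option linter.style.longLine false
set_option synthInstance.maxHeartbeats 400000
set_option maxHeartbeats 1600000

noncomputable section

namespace Fermat.Agent.S59

open IsLocalRing Fermat.Agent.TW Fermat.Agent.EC

/-- **MINLEV in case (c)**, `ρ̄ = (tateRepInt W hΔ p).residual`. -/
theorem s59lppt_minlev_res (hM1 : s59lsq_StmtWall) (hQ : s59topm_StmtLowQ)
    (p : ℕ) [Fact p.Prime] (hp : p = 3 ∨ p = 5) (W : WeierstrassCurve ℤ) (hΔ : W.Δ ≠ 0)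
    (hW : W.IsSemistableModel) (hirr : W.ModRepIsIrreducible p)
    (hc : s59psPeuTriv (GaloisRepAdic.ofResidualGaloisRep (tateRepInt W hΔ p).residual) p)
    (M₀ : ℕ) (hM₀ : 0 < M₀) (hres : W.IsResiduallyModularOfLevel p M₀) (hp2 : ¬ p ^ 2 ∣ M₀)
    (h3 : ∀ q : ℕ, q.Prime → q ≠ p → ¬ q ^ 3 ∣ M₀) :
    W.IsResiduallyModularOfLevel p (s59topmN0 W hΔ p) := by
  classical
  have hpp : p.Prime := Fact.out
  have hp2' : p ≠ 2 := by rcases hp with rfl | rfl <;> decide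
  refine s59topm_lower_even (fun M => W.IsResiduallyModularOfLevel p M) p hpp hp2'
    ((s59feSmin W hΔ p).erase p) (fun q hq => s59topm_prime_of_mem W hΔ p hq) ?_ ?_ ?_ ?_
    M₀ hM₀ hp2 h3 hres
  · intro q M' hq hqp hM' hqM' h
    exact hM1 p hp W hΔ hW hirr q M' hq hqp hM' hqM' trivial h
  · intro M hM h2 hpM hp2M h
    exact s59lppb_lower_res W hΔ p hp hirr hc hM hpM hp2M (fun _ => h2) h
  · intro M q hsq hpM hq hqp hqM hqR h
    refine hQ p hp W hΔ hW hirr M q hsq hpM hq hqp hqM ?_ h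
    by_contra hram
    exact hqR (Finset.mem_erase.2 ⟨hqp, (s59fe_hmin_res W hΔ p hq hqp).2 hram⟩)
  · intro M C hC hMC h
    exact LowQ.s59lq_stmtRaise W p M C hC hMC h

/-- **MINLEV in case (c)**, `ρ̄ = s59feBar W hΔ p φ hφ`. -/
theorem s59lppt_minlev_bar (hM1 : s59lsq_StmtWall) (hQ : s59topm_StmtLowQ)
    (p : ℕ) [Fact p.Prime] (hp : p = 3 ∨ p = 5) (W : WeierstrassCurve ℤ) (hΔ : W.Δ ≠ 0)
    (hW : W.IsSemistableModel) (hirr : W.ModRepIsIrreducible p)
    {𝒪 : Type} [CommRing 𝒪] [IsDomain 𝒪] [IsDiscreteValuationRing 𝒪]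
    [IsAdicComplete (maximalIdeal 𝒪) 𝒪] [Finite (ResidueField 𝒪)]
    (φ : ℤ_[p] →+* 𝒪) (hφ : IsLocalHom φ)
    (hc : s59psPeuTriv (GaloisRepAdic.ofResidualGaloisRep (s59feBar W hΔ p φ hφ)) p)
    (M₀ : ℕ) (hM₀ : 0 < M₀) (hres : W.IsResiduallyModularOfLevel p M₀) (hp2 : ¬ p ^ 2 ∣ M₀)
    (h3 : ∀ q : ℕ, q.Prime → q ≠ p → ¬ q ^ 3 ∣ M₀) :
    W.IsResiduallyModularOfLevel p (s59topmN0 W hΔ p) :=
  s59lppt_minlev_res hM1 hQ p hp W hΔ hW hirr
    (fun t ht => (Fermat.Agent.RT.Prod.rtphw_one_iff _ _ t).1 (hc t ht))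
    M₀ hM₀ hres hp2 h3

end Fermat.Agent.S59

end
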