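/-
S59, wall M4 (LOWER-P) → R3 (TOP): the wall in the exact shape consumed by MINLEV
(`S59/TopMinLevW.lean`, captain helper69).  helper30.

* `s59lpwt_lowPGood : s59topm_StmtLowPGood`  — UNCONDITIONAL (from `s59lpwf_good`, `WallFinal.lean`).
* `s59lpwt_minlev_good` : MINLEV-A with the M4 and RAISE inputs discharged:
  `s59lsq_StmtWall → s59topm_StmtLowQ → …  →  W.IsResiduallyModularOfLevel p (s59topmN0 W hΔ p)`.
-/
import Fermat.Agent.S59.TopMinLevW
import Fermat.Agent.S59.LowP.WallFinal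
import Fermat.Agent.S59.LowQ.Glue

set_option autoImplicit false
set_option linter.unusedSectionVars false
set_option linter.unusedVariables false
set_option linter.style.haveILetI false
set_option linter.style.longLine false
set_option synthInstance.maxHeartbeats 400000
set_option maxHeartbeats 1600000

noncomputable section

namespace Fermat.Agent.S59

/-- **M4 in the shape of MINLEV** (`s59topm_StmtLowPGood`), UNCONDITIONAL. -/
theorem s59lpwt_lowPGood : s59topm_StmtLowPGood :=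
  fun p _ hp W hΔ _ hirr hgood M hM h2 hpM hp2M h =>
    s59lpwf_good W hΔ Fact.out hp hgood hirr hM hpM hp2M (fun _ => h2) h

/-- **MINLEV-A with M4 and RAISE discharged**: only M1 (LOWER-SQ) and M2 ∪ M3 (LOWER-Q) remain. -/
theorem s59lpwt_minlev_good (hM1 : s59lsq_StmtWall) (hQ : s59topm_StmtLowQ)
    (p : ℕ) [Fact p.Prime] (hp : p = 3 ∨ p = 5) (W : WeierstrassCurve ℤ) (hΔ : W.Δ ≠ 0)
    (hW : W.IsSemistableModel) (hirr : W.ModRepIsIrreducible p) (hgood : W.IsGoodPrimeFor p)
    (M₀ : ℕ) (hM₀ : 0 < M₀) (hres : W.IsResiduallyModularOfLevel p M₀) (hp2 : ¬ p ^ 2 ∣ M₀)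
    (h3 : ∀ q : ℕ, q.Prime → q ≠ p → ¬ q ^ 3 ∣ M₀) :
    W.IsResiduallyModularOfLevel p (s59topmN0 W hΔ p) :=
  s59topm_minlev_good hM1 hQ s59lpwt_lowPGood LowQ.s59lq_stmtRaise p hp W hΔ hW hirr hgood
    M₀ hM₀ hres hp2 h3

end Fermat.Agent.S59

end
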