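/-
S59, wall M4 (LOWER-P) → R3 (TOP), part 2: MINLEV for `W` PEU RAMIFIÉ at `p` (helper30).

`IsPeuRamifieeAt p p` is `p ∣ v_p(Δ)`; it holds when `W` is good at `p` (case (a)) and it is the
hypothesis of case (c) (`W` multiplicative at `p`, `ρ̄` flat at `p`).  So ONE statement gives the
base level of cases (a) and (c):

* `s59lpwt_StmtLowPPeu` / `s59lpwt_lowPPeu` : LOWER-P at even levels for `W` peu ramifié at `p`
  (the frozen S39 shape at even levels), UNCONDITIONAL;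
* `s59lpwt_minlev_peu_of` : the twin of `s59topm_minlev_good` (same proof) with the hypothesis
  `(W.map (Int.castRingHom ℚ)).IsPeuRamifieeAt p p` in place of `W.IsGoodPrimeFor p`;
* **`s59lpwt_minlev_peu`** : MINLEV-A/C with M4 and RAISE discharged — only M1 (LOWER-SQ) and
  M2 ∪ M3 (LOWER-Q) remain;
* `s59lpwt_peu_of_good` : good at `p` ⇒ peu ramifié at `p`.
-/
import Fermat.Agent.S59.LowP.WallTop

set_option autoImplicit false
set_option linter.unusedSectionVars false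
set_option linter.unusedVariables false
set_option linter.style.haveILetI false
set_option linter.style.longLine false
set_option synthInstance.maxHeartbeats 400000
set_option maxHeartbeats 1600000

noncomputable section

namespace Fermat.Agent.S59

open IsLocalRing Fermat.Agent.TW Fermat.Agent.EC

/-- **LOWER-P for `W` peu ramifié at `p`, at EVEN levels** (= the frozen S39 shape at even
levels). -/
def s59lpwt_StmtLowPPeu : Prop :=
  ∀ (p : ℕ) [Fact p.Prime], (p = 3 ∨ p = 5) → ∀ (W : WeierstrassCurve ℤ), W.Δ ≠ 0 →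
    W.IsSemistableModel → W.ModRepIsIrreducible p →
    (W.map (Int.castRingHom ℚ)).IsPeuRamifieeAt p p →
    ∀ M : ℕ, 0 < M → 2 ∣ M → p ∣ M → ¬ p ^ 2 ∣ M →
      W.IsResiduallyModularOfLevel p M → W.IsResiduallyModularOfLevel p (M / p)

/-- **M4, peu ramifié, in the shape of MINLEV**, UNCONDITIONAL. -/
theorem s59lpwt_lowPPeu : s59lpwt_StmtLowPPeu :=
  fun p _ hp W hΔ hW hirr hpeu M hM h2 hpM hp2M h =>
    s59lpwf_peu W hΔ Fact.out hp (hW p Fact.out) hirr hpeu hM hpM hp2M (fun _ => h2) h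

/-- good at `p` ⇒ peu ramifié at `p` (`v_p(Δ) = 0`). -/
theorem s59lpwt_peu_of_good (W : WeierstrassCurve ℤ) (p : ℕ) [Fact p.Prime]
    (hgood : W.IsGoodPrimeFor p) : (W.map (Int.castRingHom ℚ)).IsPeuRamifieeAt p p := by
  unfold WeierstrassCurve.IsPeuRamifieeAt
  have h1 : (W.map (Int.castRingHom ℚ)).Δ = ((W.Δ : ℤ) : ℚ) := by
    rw [WeierstrassCurve.map_Δ]; rfl
  rw [h1, padicValRat.of_int]
  have h2 : padicValInt p W.Δ = 0 := padicValInt.eq_zero_of_not_dvd hgood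
  rw [h2]
  simp

/-- **MINLEV for `W` peu ramifié at `p`** (cases (a) and (c)): the twin of
`s59topm_minlev_good`. -/
theorem s59lpwt_minlev_peu_of (hM1 : s59lsq_StmtWall) (hQ : s59topm_StmtLowQ)
    (hP : s59lpwt_StmtLowPPeu) (hraise : LowQ.s59lq_StmtRaise)
    (p : ℕ) [Fact p.Prime] (hp : p = 3 ∨ p = 5) (W : WeierstrassCurve ℤ) (hΔ : W.Δ ≠ 0)
    (hW : W.IsSemistableModel) (hirr : W.ModRepIsIrreducible p)
    (hpeu : (W.map (Int.castRingHom ℚ)).IsPeuRamifieeAt p p)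
    (M₀ : ℕ) (hM₀ : 0 < M₀) (hres : W.IsResiduallyModularOfLevel p M₀) (hp2 : ¬ p ^ 2 ∣ M₀)
    (h3 : ∀ q : ℕ, q.Prime → q ≠ p → ¬ q ^ 3 ∣ M₀) :
    W.IsResiduallyModularOfLevel p (s59topmN0 W hΔ p) := by
  classical
  have hpp : p.Prime := Fact.out
  have hp2' : p ≠ 2 := by rcases hp with rfl | rfl <;> decide
  refine s59topm_lower_even (fun M => W.IsResiduallyModularOfLevel p M) p hpp hp2'
    ((s59feSmin W hΔ p).erase p) (fun q hq => s59topm_prime_of_mem W hΔ p hq) ?_ ?_ ?_ ?_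
    M₀ hM₀ hp2 h3 hres
  · intro q M' hq hqp hM' hqM' h
    exact hM1 p hp W hΔ hW hirr q M' hq hqp hM' hqM' trivial h
  · intro M hM h2 hpM hp2M h
    exact hP p hp W hΔ hW hirr hpeu M hM h2 hpM hp2M h
  · intro M q hsq hpM hq hqp hqM hqR h
    refine hQ p hp W hΔ hW hirr M q hsq hpM hq hqp hqM ?_ h
    by_contra hram
    exact hqR (Finset.mem_erase.2 ⟨hqp, (s59fe_hmin_res W hΔ p hq hqp).2 hram⟩)
  · intro M C hC hMC h
    exact hraise W p M C hC hMC h

/-- **MINLEV-A/C with M4 and RAISE discharged**: only M1 (LOWER-SQ) and M2 ∪ M3 (LOWER-Q)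
remain. -/
theorem s59lpwt_minlev_peu (hM1 : s59lsq_StmtWall) (hQ : s59topm_StmtLowQ)
    (p : ℕ) [Fact p.Prime] (hp : p = 3 ∨ p = 5) (W : WeierstrassCurve ℤ) (hΔ : W.Δ ≠ 0)
    (hW : W.IsSemistableModel) (hirr : W.ModRepIsIrreducible p)
    (hpeu : (W.map (Int.castRingHom ℚ)).IsPeuRamifieeAt p p)
    (M₀ : ℕ) (hM₀ : 0 < M₀) (hres : W.IsResiduallyModularOfLevel p M₀) (hp2 : ¬ p ^ 2 ∣ M₀)
    (h3 : ∀ q : ℕ, q.Prime → q ≠ p → ¬ q ^ 3 ∣ M₀) :
    W.IsResiduallyModularOfLevel p (s59topmN0 W hΔ p) :=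
  s59lpwt_minlev_peu_of hM1 hQ s59lpwt_lowPPeu LowQ.s59lq_stmtRaise p hp W hΔ hW hirr hpeu
    M₀ hM₀ hres hp2 h3

end Fermat.Agent.S59

end
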